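import Fermat.Agent.S13.Branch
import Fermat.Agent.S05.RankOne

set_option autoImplicit false

/-!
# S13 / BR: the branch lemma for the inertia group of a place of an algebraic extension of `ℚ`
-/

namespace Fermat.Agent.S13.Branch

open WeierstrassCurve WeierstrassCurve.Affine WeierstrassCurve.Affine.Point
open Fermat.Agent.S05

section ValInv

variable {K : Type*} [Field K] [Algebra ℚ K] [Algebra.IsAlgebraic ℚ K]

/-- the valuation of a place over a prime `q` of an algebraic extension of `ℚ` is invariant under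
every ring endomorphism stabilising the place. -/
theorem valuation_apply_eq (A : ValuationSubring K) {q : ℕ} (hq : q.Prime)
    (hA : A.LiesOverPrime q) (σ : K →+* K) (hσ : ∀ z, σ z ∈ A ↔ z ∈ A) (x : K) :
    A.valuation (σ x) = A.valuation x := by
  by_cases hx : x = 0
  · rw [hx, _root_.map_zero]
  obtain ⟨n, hn, k, hk⟩ := RankOne.exists_pow_eq A hq hA x hx
  have h1 : A.valuation (x ^ n) = A.valuation ((q : K) ^ k) := by
    rw [Valuation.map_pow, map_zpow₀, hk]
  have h2 := (RankOne.val_apply_eq_iff A σ hσ (x ^ n) ((q : K) ^ k)).2 h1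
  rw [map_pow, map_zpow₀, map_natCast, Valuation.map_pow, map_zpow₀, ← hk] at h2
  exact (pow_left_inj₀ zero_le zero_le hn.ne').1 h2

theorem valuation_apply_eq_of_mem_decomposition (A : ValuationSubring K) {q : ℕ} (hq : q.Prime)
    (hA : A.LiesOverPrime q) {σ : K ≃ₐ[ℚ] K} (hσ : σ ∈ A.decompositionSubgroup ℚ) (x : K) :
    A.valuation (σ x) = A.valuation x :=
  valuation_apply_eq A hq hA (σ : K →+* K)
    (fun _ => ⟨mem_of_apply_mem_of_mem_decompositionSubgroup hσ,
      apply_mem_of_mem_decompositionSubgroup hσ⟩) x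

theorem valuation_apply_eq_of_mem_inertia (A : ValuationSubring K) {q : ℕ} (hq : q.Prime)
    (hA : A.LiesOverPrime q) {σ : K ≃ₐ[ℚ] K} (hσ : σ ∈ A.inertiaSubgroupIn ℚ) (x : K) :
    A.valuation (σ x) = A.valuation x :=
  valuation_apply_eq_of_mem_decomposition A hq hA
    (mem_decompositionSubgroup_of_mem_inertiaSubgroupIn hσ) x

end ValInv

section Galois

variable {R : Type*} {K : Type*} [CommRing R] [Field K] [DecidableEq K]
  [Algebra R ℚ] [Algebra R K] [Algebra ℚ K] [IsScalarTower R ℚ K] [Algebra.IsAlgebraic ℚ K]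

/-- **Branch lemma for the inertia group.** `W'` a Weierstrass curve over `R` (e.g. `ℚ`) whose
base change to `K` has `a₃ = a₆ = 0`, `a₁, a₂` integral, `b₂` a unit at `A`. For `σ` in the
inertia group of `A` and a point `P = (x, y)` with `x ≠ 0`, `x ∈ 𝔪`, `a₄ / x ∈ 𝔪`, the point
`σ • P - P` is `0` or has an `x`-coordinate which is not in `𝔪`. -/
theorem branch_step_inertia (A : ValuationSubring K) {q : ℕ} (hq : q.Prime)
    (hA : A.LiesOverPrime q) (W' : Affine R)
    (h3 : (W'.baseChange K).a₃ = 0) (h6 : (W'.baseChange K).a₆ = 0)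
    (ha1 : (W'.baseChange K).a₁ ∈ A) (ha2 : (W'.baseChange K).a₂ ∈ A)
    (hb2 : (W'.baseChange K).b₂ ∈ A) (hb2' : (W'.baseChange K).b₂ ∉ A.nonunits)
    {σ : K ≃ₐ[ℚ] K} (hσ : σ ∈ A.inertiaSubgroupIn ℚ) {x y : K}
    (h : (W'⁄K).Nonsingular x y) (hx0 : x ≠ 0) (hx : x ∈ A.nonunits)
    (hbx : (W'.baseChange K).a₄ / x ∈ A.nonunits) :
    σ • (Point.some x y h : (W'⁄K).Point) - Point.some x y h = 0 ∨
      ∃ (x₃ y₃ : K) (h₃ : (W'⁄K).Nonsingular x₃ y₃),
        σ • (Point.some x y h : (W'⁄K).Point) - Point.some x y h = Point.some x₃ y₃ h₃ ∧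
          x₃ ∉ A.nonunits := by
  have hs : ∀ z, A.valuation z ≤ 1 → A.valuation ((σ : K →+* K) z - z) < 1 := by
    intro z hz
    rw [ValuationSubring.valuation_le_one_iff] at hz
    exact (ValuationSubring.mem_nonunits_iff A).1
      (apply_sub_mem_nonunits_of_mem_inertiaSubgroupIn hσ hz)
  have hsv : ∀ z, A.valuation ((σ : K →+* K) z) = A.valuation z :=
    fun z => valuation_apply_eq_of_mem_inertia A hq hA hσ z
  have hxpos : 0 < A.valuation x := by rw [Valuation.pos_iff]; exact hx0
  have hbx' : A.valuation (W'.baseChange K).a₄ < A.valuation x := by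
    have := (ValuationSubring.mem_nonunits_iff A).1 hbx
    rw [map_div₀] at this
    exact (div_lt_one₀ hxpos).1 this
  have hb2v : A.valuation (W'.baseChange K).b₂ = 1 := by
    apply le_antisymm ((ValuationSubring.valuation_le_one_iff A _).2 hb2)
    by_contra hlt
    push Not at hlt
    exact hb2' ((ValuationSubring.mem_nonunits_iff A).2 hlt)
  have h' : (W'⁄K).Nonsingular (σ x) (σ y) :=
    (W'.baseChange_nonsingular σ.toAlgHom.injective x y).mpr h
  have hsmul : σ • (Point.some x y h : (W'⁄K).Point) = Point.some (σ x) (σ y) h' := rfl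
  rw [hsmul]
  have key := branch_step A.valuation (W := (W'.baseChange K).toAffine) h3 h6
    ((ValuationSubring.valuation_le_one_iff A _).2 ha1)
    ((ValuationSubring.valuation_le_one_iff A _).2 ha2) hb2v (σ : K →+* K) hs hsv h
    h' hx0 ((ValuationSubring.mem_nonunits_iff A).1 hx) hbx'
  rcases key with h0 | ⟨x₃, y₃, h₃, he, hv⟩
  · exact Or.inl h0
  · refine Or.inr ⟨x₃, y₃, h₃, he, fun hmem => ?_⟩
    exact absurd ((ValuationSubring.mem_nonunits_iff A).1 hmem) (not_lt.2 hv)

end Galois

end Fermat.Agent.S13.Branch
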