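import Fermat.Agent.S05.Components

/-!
# Component values on a nodal Weierstrass model with general `a₁`

Generalisation of `Fermat.Agent.S05.Components` to the model
`y² + a₁xy = x³ + a₂x² + a₄x` (`a₃ = a₆ = 0`) with `b₂ = a₁² + 4a₂` a unit, `v(a₄) = n > 0`
and `v(2) ≥ 0` (so residue characteristic `2` is allowed).  The `x`-only formulas only involve
`b₂`, `b₄ = 2a₄`, `b₆ = 0`, `b₈ = -a₄²`.
-/

set_option autoImplicit false
set_option linter.unusedSectionVars false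
set_option linter.unusedVariables false

namespace Fermat.Agent.S13.ComponentsGen

open WeierstrassCurve WeierstrassCurve.Affine
open Fermat.Agent.S05

/-! ### Field-level valuation casework -/

section Casework

variable {F : Type*} [Field F] (ν : QVal F) {c b : F}

/-- **Pair law, small affine case** (field level, general `a₁`): `c = b₂`, `b = a₄`. -/
theorem small_affineG [DecidableEq F] (hc : c ≠ 0) (hvc : ν.v c = 0) (hb : b ≠ 0)
    (h2 : (2 : F) ≠ 0) (hv2 : 0 ≤ ν.v 2)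
    {x₁ x₂ xp xm : F} (h₁ : x₁ ≠ 0) (h₂ : x₂ ≠ 0) (hne : x₁ ≠ x₂)
    (hrs : ν.v x₁ ≤ ν.v x₂) (hs : ν.v x₂ ≤ ν.v b / 2) (hn : 0 < ν.v b)
    (hsum : (xp + xm) * (x₁ - x₂) ^ 2 =
      2 * ((x₁ * x₂ + b) * (x₁ + x₂)) + c * (x₁ * x₂))
    (hprod : xp * xm * (x₁ - x₂) ^ 2 = (x₁ * x₂ - b) ^ 2) :
    (cv ν (ν.v b) xp = max 0 (ν.v x₁) + max 0 (ν.v x₂) ∧
      cv ν (ν.v b) xm = max 0 (ν.v x₂) - max 0 (ν.v x₁)) ∨
    (cv ν (ν.v b) xm = max 0 (ν.v x₁) + max 0 (ν.v x₂) ∧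
      cv ν (ν.v b) xp = max 0 (ν.v x₂) - max 0 (ν.v x₁)) := by
  have hd : x₁ - x₂ ≠ 0 := sub_ne_zero.mpr hne
  have hd2 : (x₁ - x₂) ^ 2 ≠ 0 := pow_ne_zero 2 hd
  have hvd2 : ν.v ((x₁ - x₂) ^ 2) = 2 * ν.v (x₁ - x₂) := ν.map_sq hd
  have hδ : ν.v x₁ ≤ ν.v (x₁ - x₂) := by
    have := ν.map_sub h₁ h₂ hd
    rwa [min_eq_left hrs] at this
  have hX : x₁ * x₂ ≠ 0 := mul_ne_zero h₁ h₂
  have hvX : ν.v (x₁ * x₂) = ν.v x₁ + ν.v x₂ := ν.map_mul h₁ h₂
  have hU : c * (x₁ * x₂) ≠ 0 := mul_ne_zero hc hX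
  have hvU : ν.v (c * (x₁ * x₂)) = ν.v x₁ + ν.v x₂ := by
    rw [ν.map_mul hc hX, hvc, hvX]; ring
  have h2ge : ν.GE 0 (2 : F) := QVal.GE.of_le hv2
  have hS : ν.GE (ν.v x₁) (x₁ + x₂) :=
    (QVal.GE.of_le le_rfl).add (QVal.GE.of_le hrs)
  have sum_exact : ∀ {t : ℚ}, 2 * ((x₁ * x₂ + b) * (x₁ + x₂)) + c * (x₁ * x₂) ≠ 0 →
      ν.v (2 * ((x₁ * x₂ + b) * (x₁ + x₂)) + c * (x₁ * x₂)) = t →
      xp + xm ≠ 0 ∧ ν.v (xp + xm) = t - 2 * ν.v (x₁ - x₂) := by
    intro t hN hvN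
    obtain ⟨h0, hv⟩ := ν.v_eq_of_mul_eq hd2 hN hsum
    refine ⟨h0, ?_⟩
    rw [hv, hvN, hvd2]
  have sum_ge : ∀ {t : ℚ}, ν.GE t (2 * ((x₁ * x₂ + b) * (x₁ + x₂)) + c * (x₁ * x₂)) →
      ν.GE (t - 2 * ν.v (x₁ - x₂)) (xp + xm) := by
    intro t hN
    have := ν.GE_of_mul_eq hd2 hN hsum
    rwa [hvd2] at this
  rcases lt_or_ge (ν.v x₁ + ν.v x₂) (ν.v b) with hlt | hge
  · -- case A : `r + s < n`
    obtain ⟨hXb, hvXb⟩ := ν.map_add_of_lt hX hb (by rw [hvX]; exact hlt)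
    obtain ⟨hXb', hvXb'⟩ := ν.map_sub_of_lt hX hb (by rw [hvX]; exact hlt)
    rw [hvX] at hvXb hvXb'
    have hR : (x₁ * x₂ - b) ^ 2 ≠ 0 := pow_ne_zero 2 hXb'
    obtain ⟨hπ, hvπ⟩ := ν.v_eq_of_mul_eq hd2 hR hprod
    rw [ν.map_sq hXb', hvXb', hvd2] at hvπ
    have hp : xp ≠ 0 := left_ne_zero_of_mul hπ
    have hm : xm ≠ 0 := right_ne_zero_of_mul hπ
    have hT : ν.GE (2 * ν.v x₁ + ν.v x₂) (2 * ((x₁ * x₂ + b) * (x₁ + x₂))) := by
      have := h2ge.mul ((QVal.GE.of_le (le_of_eq hvXb.symm)).mul hS)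
      exact this.mono (by linarith)
    rcases lt_or_eq_of_le hrs with hrs' | hrs'
    · -- A1 : `r < s`
      have hδ' : ν.v (x₁ - x₂) = ν.v x₁ := (ν.map_sub_of_lt h₁ h₂ hrs').2
      rw [hδ'] at hvπ
      rcases lt_or_ge 0 (ν.v x₁) with hr0 | hr0
      · -- `r > 0`
        obtain ⟨hN, hvN⟩ := ν.map_add_of_GT' (c := ν.v x₁ + ν.v x₂) hU (le_of_eq hvU)
          (hT.gt_of_lt (by linarith))
        obtain ⟨hσ, hvσ⟩ := sum_exact hN hvN
        rw [hvU, hδ'] at hvσ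
        rw [max_eq_right hr0.le, max_eq_right (hr0.le.trans hrs)]
        rcases ν.quad_ne hp hm hσ hvσ hvπ (by linarith) with ⟨e1, e2⟩ | ⟨e1, e2⟩
        · right
          refine ⟨?_, ?_⟩
          · rw [cv_of_mem ν hm (by linarith) (by linarith), e2]; ring
          · rw [cv_of_mem ν hp (by linarith) (by linarith), e1]; ring
        · left
          refine ⟨?_, ?_⟩
          · rw [cv_of_mem ν hp (by linarith) (by linarith), e1]; ring
          · rw [cv_of_mem ν hm (by linarith) (by linarith), e2]; ring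
      · -- `r ≤ 0`
        have hN : ν.GE (2 * ν.v x₁ + ν.v x₂)
            (2 * ((x₁ * x₂ + b) * (x₁ + x₂)) + c * (x₁ * x₂)) :=
          hT.add (QVal.GE.of_le (by rw [hvU]; linarith))
        have hσ := sum_ge hN
        rw [hδ'] at hσ
        obtain ⟨e1, e2⟩ := ν.quad_eq (c := ν.v x₂) hp hm (by rw [hvπ]; ring)
          (hσ.mono (by linarith))
        rw [max_eq_left hr0]
        left
        have key : ∀ {x : F}, x ≠ 0 → ν.v x = ν.v x₂ → cv ν (ν.v b) x = max 0 (ν.v x₂) := by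
          intro x hx hvx
          rw [cv_of_ne ν _ hx, hvx, min_eq_left (by linarith)]
        rw [key hp e1, key hm e2]
        constructor <;> ring
    · -- A2 : `r = s`
      rcases lt_or_ge 0 (ν.v x₁) with hr0 | hr0
      · -- `r > 0`
        obtain ⟨hN, hvN⟩ := ν.map_add_of_GT' (c := ν.v x₁ + ν.v x₂) hU (le_of_eq hvU)
          (hT.gt_of_lt (by linarith))
        obtain ⟨hσ, hvσ⟩ := sum_exact hN hvN
        rw [hvU] at hvσ
        rw [max_eq_right hr0.le, max_eq_right (hr0.le.trans hrs)]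
        rcases ν.quad_ne hp hm hσ hvσ hvπ (by linarith) with ⟨e1, e2⟩ | ⟨e1, e2⟩
        · right
          refine ⟨?_, ?_⟩
          · rw [cv_of_mem ν hm (by linarith) (by linarith), e2]; ring
          · rw [cv_of_nonpos ν hn.le hp (by linarith)]; linarith
        · left
          refine ⟨?_, ?_⟩
          · rw [cv_of_mem ν hp (by linarith) (by linarith), e1]; ring
          · rw [cv_of_nonpos ν hn.le hm (by linarith)]; linarith
      · -- `r ≤ 0`
        have hN : ν.GE (2 * ν.v x₁ + ν.v x₂)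
            (2 * ((x₁ * x₂ + b) * (x₁ + x₂)) + c * (x₁ * x₂)) :=
          hT.add (QVal.GE.of_le (by rw [hvU]; linarith))
        have hσ := sum_ge hN
        obtain ⟨e1, e2⟩ := ν.quad_nonpos hp hm (by rw [hvπ]; linarith)
          (hσ.mono (by rw [hvπ]; linarith))
        rw [max_eq_left hr0, max_eq_left (by linarith : ν.v x₂ ≤ 0)]
        left
        rw [cv_of_nonpos ν hn.le hp e1, cv_of_nonpos ν hn.le hm e2]
        constructor <;> ring
  · -- case B : `r = s = n / 2`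
    have hr : ν.v x₁ = ν.v b / 2 := by linarith
    have hs' : ν.v x₂ = ν.v b / 2 := by linarith
    have hr0 : 0 < ν.v x₁ := by linarith
    have hXn : ν.v (x₁ * x₂) = ν.v b := by rw [hvX]; linarith
    have hXb : ν.GE (ν.v b) (x₁ * x₂ + b) :=
      (QVal.GE.of_le (le_of_eq hXn.symm)).add (QVal.GE.of_le le_rfl)
    have hT : ν.GE (ν.v b + ν.v x₁) (2 * ((x₁ * x₂ + b) * (x₁ + x₂))) := by
      have := h2ge.mul (hXb.mul hS)
      exact this.mono (by linarith)
    obtain ⟨hN, hvN⟩ := ν.map_add_of_GT' (c := ν.v b) hU (by rw [hvU]; linarith)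
      (hT.gt_of_lt (by linarith))
    obtain ⟨hσ, hvσ⟩ := sum_exact hN hvN
    rw [hvU] at hvσ
    rw [max_eq_right hr0.le, max_eq_right (hr0.le.trans hrs)]
    have hσ0 : ν.v (xp + xm) ≤ 0 := by rw [hvσ]; linarith
    by_cases hXb' : x₁ * x₂ - b = 0
    · -- one root is `0`
      rw [hXb', zero_pow two_ne_zero] at hprod
      have hπ : xp * xm = 0 := by
        rcases mul_eq_zero.mp hprod with h | h
        · exact h
        · exact absurd h hd2
      rcases mul_eq_zero.mp hπ with h0 | h0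
      · left
        rw [h0, zero_add] at hσ hσ0
        rw [h0, cv_zero, cv_of_nonpos ν hn.le hσ hσ0]
        constructor <;> linarith
      · right
        rw [h0, add_zero] at hσ hσ0
        rw [h0, cv_zero, cv_of_nonpos ν hn.le hσ hσ0]
        constructor <;> linarith
    · have hR : (x₁ * x₂ - b) ^ 2 ≠ 0 := pow_ne_zero 2 hXb'
      obtain ⟨hπ, hvπ⟩ := ν.v_eq_of_mul_eq hd2 hR hprod
      rw [ν.map_sq hXb', hvd2] at hvπ
      have hp : xp ≠ 0 := left_ne_zero_of_mul hπ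
      have hm : xm ≠ 0 := right_ne_zero_of_mul hπ
      have hε : ν.v b ≤ ν.v (x₁ * x₂ - b) :=
        ((QVal.GE.of_le (le_of_eq hXn.symm)).sub (QVal.GE.of_le le_rfl)).le hXb'
      rcases ν.quad_ne hp hm hσ hvσ hvπ (by linarith) with ⟨e1, e2⟩ | ⟨e1, e2⟩
      · right
        refine ⟨?_, ?_⟩
        · rw [cv_of_ge ν hn.le (QVal.GE.of_le (by rw [e2]; linarith))]; linarith
        · rw [cv_of_nonpos ν hn.le hp (by rw [e1]; linarith)]; linarith
      · left
        refine ⟨?_, ?_⟩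
        · rw [cv_of_ge ν hn.le (QVal.GE.of_le (by rw [e1]; linarith))]; linarith
        · rw [cv_of_nonpos ν hn.le hm (by rw [e2]; linarith)]; linarith

/-- `4` is nonzero and integral when `2` is. -/
theorem four_facts (h2 : (2 : F) ≠ 0) (hv2 : 0 ≤ ν.v 2) :
    (4 : F) ≠ 0 ∧ 0 ≤ ν.v (4 : F) := by
  have h : (4 : F) = 2 * 2 := by norm_num
  refine ⟨by rw [h]; exact mul_ne_zero h2 h2, ?_⟩
  rw [h, ν.map_mul h2 h2]; linarith

/-- A nonzero root of `4x² + c x + 4b` of valuation `≤ n/2` has valuation `≤ 0`. -/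
theorem small_two_torsionG (hc : c ≠ 0) (hvc : ν.v c = 0) (hb : b ≠ 0)
    (h2 : (2 : F) ≠ 0) (hv2 : 0 ≤ ν.v 2)
    {x : F} (hx : x ≠ 0) (hr : ν.v x ≤ ν.v b / 2) (hn : 0 < ν.v b)
    (hg : 4 * x ^ 2 + c * x + 4 * b = 0) : ν.v x ≤ 0 := by
  obtain ⟨h4, hv4⟩ := four_facts ν h2 hv2
  by_contra hpos
  push Not at hpos
  have h4x : (4 : F) * x ≠ 0 := mul_ne_zero h4 hx
  have hv4x : 0 < ν.v (4 * x) := by rw [ν.map_mul h4 hx]; linarith
  obtain ⟨hne, hv⟩ := ν.map_add_of_lt hc h4x (by rw [hvc]; exact hv4x)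
  have hmul : x * (c + 4 * x) = -(4 * b) := by linear_combination hg
  have h4b : (4 : F) * b ≠ 0 := mul_ne_zero h4 hb
  have := congrArg ν.v hmul
  rw [ν.map_mul hx hne, hv, hvc, ν.map_neg h4b, ν.map_mul h4 hb] at this
  linarith

/-- **Duplication, small case** (field level, general `a₁`). -/
theorem small_doubleG [DecidableEq F] (hc : c ≠ 0) (hvc : ν.v c = 0) (hb : b ≠ 0)
    (h2 : (2 : F) ≠ 0) (hv2 : 0 ≤ ν.v 2) {x x2 : F} (hx : x ≠ 0)
    (hr : ν.v x ≤ ν.v b / 2) (hn : 0 < ν.v b)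
    (hg : 4 * x ^ 2 + c * x + 4 * b ≠ 0)
    (hdup : x2 * (x * (4 * x ^ 2 + c * x + 4 * b)) = (x ^ 2 - b) ^ 2) :
    cv ν (ν.v b) x2 = 2 * max 0 (ν.v x) := by
  obtain ⟨h4, hv4⟩ := four_facts ν h2 hv2
  have h4ge : ν.GE 0 (4 : F) := QVal.GE.of_le hv4
  have hx2 : x ^ 2 ≠ 0 := pow_ne_zero 2 hx
  have hvx2 : ν.v (x ^ 2) = 2 * ν.v x := ν.map_sq hx
  have hcx : c * x ≠ 0 := mul_ne_zero hc hx
  have hvcx : ν.v (c * x) = ν.v x := by rw [ν.map_mul hc hx, hvc]; ring
  have hxg : x * (4 * x ^ 2 + c * x + 4 * b) ≠ 0 := mul_ne_zero hx hg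
  have hvxg : ν.v (x * (4 * x ^ 2 + c * x + 4 * b)) =
      ν.v x + ν.v (4 * x ^ 2 + c * x + 4 * b) := ν.map_mul hx hg
  have h4x2 : ν.GE (2 * ν.v x) (4 * x ^ 2) := by
    have := h4ge.mul (QVal.GE.of_le (le_of_eq hvx2.symm))
    exact this.mono (by linarith)
  have h4b : ν.GE (ν.v b) (4 * b) := by
    have := h4ge.mul (QVal.GE.of_le (le_refl (ν.v b)))
    exact this.mono (by linarith)
  rcases lt_trichotomy (ν.v x) 0 with hneg | hzero | hpos
  · -- `r < 0`
    have hgge : ν.GE (2 * ν.v x) (4 * x ^ 2 + c * x + 4 * b) :=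
      (h4x2.add (QVal.GE.of_le (by rw [hvcx]; linarith))).add (h4b.mono (by linarith))
    have hvg := hgge.le hg
    obtain ⟨h3, hv3⟩ := ν.map_sub_of_lt hx2 hb (by rw [hvx2]; linarith)
    have hR : (x ^ 2 - b) ^ 2 ≠ 0 := pow_ne_zero 2 h3
    obtain ⟨h0, hv0⟩ := ν.v_eq_of_mul_eq hxg hR hdup
    rw [ν.map_sq h3, hv3, hvx2, hvxg] at hv0
    rw [max_eq_left hneg.le, cv_of_nonpos ν hn.le h0 (by rw [hv0]; linarith)]; ring
  · -- `r = 0`
    obtain ⟨h3, hv3⟩ := ν.map_sub_of_lt hx2 hb (by rw [hvx2]; linarith)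
    have hR : (x ^ 2 - b) ^ 2 ≠ 0 := pow_ne_zero 2 h3
    obtain ⟨h0, hv0⟩ := ν.v_eq_of_mul_eq hxg hR hdup
    rw [ν.map_sq h3, hv3, hvx2, hvxg] at hv0
    have hgge : ν.GE 0 (4 * x ^ 2 + c * x + 4 * b) :=
      ((h4x2.mono (by linarith)).add (QVal.GE.of_le (by rw [hvcx]; linarith))).add
        (h4b.mono hn.le)
    have := hgge.le hg
    rw [max_eq_left hzero.le, cv_of_nonpos ν hn.le h0 (by rw [hv0]; linarith)]; ring
  · -- `0 < r`
    have hgt : ν.GT (ν.v x) (4 * x ^ 2 + 4 * b) :=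
      (h4x2.gt_of_lt (by linarith)).add (h4b.gt_of_lt (by linarith))
    obtain ⟨_, hvg⟩ := ν.map_add_of_GT (c := ν.v x) hcx (le_of_eq hvcx) hgt
    have hgeq : c * x + (4 * x ^ 2 + 4 * b) = 4 * x ^ 2 + c * x + 4 * b := by ring
    rw [hgeq, hvcx] at hvg
    rw [hvg] at hvxg
    rw [max_eq_right hpos.le]
    rcases lt_or_eq_of_le hr with hlt | heq
    · obtain ⟨h3, hv3⟩ := ν.map_sub_of_lt hx2 hb (by rw [hvx2]; linarith)
      have hR : (x ^ 2 - b) ^ 2 ≠ 0 := pow_ne_zero 2 h3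
      obtain ⟨h0, hv0⟩ := ν.v_eq_of_mul_eq hxg hR hdup
      rw [ν.map_sq h3, hv3, hvx2, hvxg] at hv0
      rw [cv_of_mem ν h0 (by rw [hv0]; linarith) (by rw [hv0]; linarith), hv0]; ring
    · have h3 : ν.GE (ν.v b) (x ^ 2 - b) :=
        (QVal.GE.of_le (by rw [hvx2]; linarith)).sub (QVal.GE.of_le le_rfl)
      have hR : ν.GE (2 * ν.v b) ((x ^ 2 - b) ^ 2) := by
        have := h3.pow 2
        simpa using this
      have := ν.GE_of_mul_eq hxg hR hdup
      rw [hvxg] at this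
      rw [cv_of_ge ν hn.le (this.mono (by linarith))]; linarith

end Casework

/-! ### The node model with general `a₁` -/

section Points

variable {F : Type*} [Field F] [DecidableEq F]

/-- Hypotheses for the node model `y² + a₁xy = x³ + a₂x² + a₄x` (`b₂` a unit, `a₄` of positive
valuation, `2` integral and nonzero). -/
structure NodeDataG (ν : QVal F) (W : Affine F) : Prop where
  a₃ : W.a₃ = 0
  a₆ : W.a₆ = 0
  two_ne : (2 : F) ≠ 0
  v_two : 0 ≤ ν.v 2
  b₂_ne : W.b₂ ≠ 0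
  v_b₂ : ν.v W.b₂ = 0
  b_ne : W.a₄ ≠ 0
  v_b : 0 < ν.v W.a₄

/-- the data of `S05.Components` is a special case -/
theorem NodeDataG.of_nodeData {ν : QVal F} {W : Affine F} (D : NodeData ν W) :
    NodeDataG ν W where
  a₃ := D.a₃
  a₆ := D.a₆
  two_ne := D.two_ne
  v_two := le_of_eq D.v_two.symm
  b₂_ne := by
    rw [D.b₂_eq]
    have h4 : (4 : F) = 2 * 2 := by norm_num
    rw [h4]
    exact mul_ne_zero (mul_ne_zero D.two_ne D.two_ne) D.a_ne
  v_b₂ := by
    rw [D.b₂_eq]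
    have h4 : (4 : F) = 2 * 2 := by norm_num
    rw [h4, ν.map_mul (mul_ne_zero D.two_ne D.two_ne) D.a_ne, ν.map_mul D.two_ne D.two_ne,
      D.v_two, D.v_a]
    ring
  b_ne := D.b_ne
  v_b := D.v_b

namespace NodeDataG

variable {ν : QVal F} {W : Affine F} (D : NodeDataG ν W)
include D

theorem b₄_eq : W.b₄ = 2 * W.a₄ := by simp [WeierstrassCurve.b₄, D.a₃]
theorem b₆_eq : W.b₆ = 0 := by simp [WeierstrassCurve.b₆, D.a₃, D.a₆]
theorem b₈_eq : W.b₈ = -W.a₄ ^ 2 := by simp [WeierstrassCurve.b₈, D.a₃, D.a₆]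

theorem equation_iff {x y : F} :
    W.Equation x y ↔ y ^ 2 + W.a₁ * x * y = x ^ 3 + W.a₂ * x ^ 2 + W.a₄ * x := by
  rw [Affine.equation_iff, D.a₃, D.a₆]
  constructor <;> intro h <;> linear_combination h

theorem negY_eq (x y : F) : W.negY x y = -y - W.a₁ * x := by
  simp [Affine.negY, D.a₃]

/-- specialised `x`-only addition/subtraction formulas on the node model -/
theorem exists_add_sub {x₁ y₁ x₂ y₂ : F} (h₁ : W.Nonsingular x₁ y₁) (h₂ : W.Nonsingular x₂ y₂)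
    (hx : x₁ ≠ x₂) :
    ∃ (xp yp xm ym : F) (hp : W.Nonsingular xp yp) (hm : W.Nonsingular xm ym),
      Point.some x₁ y₁ h₁ + Point.some x₂ y₂ h₂ = Point.some xp yp hp ∧
      Point.some x₁ y₁ h₁ - Point.some x₂ y₂ h₂ = Point.some xm ym hm ∧
      (xp + xm) * (x₁ - x₂) ^ 2 =
        2 * ((x₁ * x₂ + W.a₄) * (x₁ + x₂)) + W.b₂ * (x₁ * x₂) ∧
      xp * xm * (x₁ - x₂) ^ 2 = (x₁ * x₂ - W.a₄) ^ 2 := by
  obtain ⟨xp, yp, xm, ym, hp, hm, e1, e2, e3, e4⟩ := Fermat.Agent.S05.exists_add_sub h₁ h₂ hx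
  refine ⟨xp, yp, xm, ym, hp, hm, e1, e2, ?_, ?_⟩
  · rw [e3, D.b₄_eq, D.b₆_eq]; ring
  · rw [e4, D.b₄_eq, D.b₆_eq, D.b₈_eq]; ring

theorem compVal_nonneg (P : W.Point) : 0 ≤ compVal ν W P := by
  rcases P with _ | ⟨x, y, h⟩
  · exact le_rfl
  · exact cv_nonneg ν D.v_b.le x

theorem compVal_le (P : W.Point) : compVal ν W P ≤ ν.v W.a₄ := by
  rcases P with _ | ⟨x, y, h⟩
  · exact D.v_b.le
  · exact cv_le ν D.v_b.le x

theorem nonsingular_origin : W.Nonsingular 0 0 := by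
  rw [Affine.nonsingular_zero]
  exact ⟨D.a₆, Or.inr D.b_ne⟩

/-- the `2`-torsion point `(0,0)` at the node -/
def T0 : W.Point := Point.some 0 0 D.nonsingular_origin

theorem neg_T0 : -D.T0 = D.T0 := by
  unfold T0
  rw [Point.neg_some]
  obtain ⟨h', e⟩ := some_eq_some_of_eq ((nonsingular_neg ..).mpr D.nonsingular_origin) rfl
    (show W.negY 0 0 = 0 by rw [D.negY_eq]; ring)
  exact e

theorem T0_add_T0 : D.T0 + D.T0 = 0 := by
  unfold T0
  exact Point.add_self_of_Y_eq (by rw [D.negY_eq]; ring)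

theorem compVal_T0 : compVal ν W D.T0 = ν.v W.a₄ := cv_zero ν _

/-- translation by the `2`-torsion point `(0,0)`: `(x, y) ↦ (a₄/x, -a₄ (y + a₁ x)/x²)` -/
theorem add_T0_eq {x y : F} (h : W.Nonsingular x y) (hx : x ≠ 0) :
    ∃ h' : W.Nonsingular (W.a₄ / x) (-(W.a₄ * (y + W.a₁ * x) / x ^ 2)),
      Point.some x y h + D.T0 =
        Point.some (W.a₄ / x) (-(W.a₄ * (y + W.a₁ * x) / x ^ 2)) h' := by
  unfold T0
  rw [Point.add_of_X_ne hx]
  have heq := D.equation_iff.mp h.1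
  have hX : W.addX x 0 (W.slope x 0 y 0) = W.a₄ / x := by
    rw [slope_of_X_ne hx, addX]
    simp only [sub_zero]
    field_simp
    linear_combination heq
  have hY : W.addY x 0 y (W.slope x 0 y 0) = -(W.a₄ * (y + W.a₁ * x) / x ^ 2) := by
    rw [addY, negAddY, hX, negY, D.a₃, slope_of_X_ne hx]
    simp only [sub_zero]
    field_simp
    ring
  exact some_eq_some_of_eq _ hX hY

theorem compVal_add_T0 (P : W.Point) :
    compVal ν W (P + D.T0) = ν.v W.a₄ - compVal ν W P := by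
  rcases P with _ | ⟨x, y, h⟩
  · change compVal ν W (0 + D.T0) = _ - compVal ν W 0
    rw [zero_add, D.compVal_T0, compVal_zero, sub_zero]
  · by_cases hx : x = 0
    · subst hx
      have hy : y = 0 := by
        have := D.equation_iff.mp h.1
        have h0 : y ^ 2 = 0 := by linear_combination this
        exact pow_eq_zero_iff two_ne_zero |>.mp h0
      subst hy
      have : Point.some 0 0 h + D.T0 = 0 := D.T0_add_T0
      rw [this, compVal_zero, compVal_some, cv_zero, sub_self]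
    · obtain ⟨h', e⟩ := D.add_T0_eq h hx
      have hbx : W.a₄ / x ≠ 0 := div_ne_zero D.b_ne hx
      rw [e, compVal_some, compVal_some, cv_of_ne ν _ hbx, cv_of_ne ν _ hx,
        ν.map_div D.b_ne hx]
      exact clip_sub D.v_b.le

theorem compVal_double_small (P : W.Point) (hP : compVal ν W P ≤ ν.v W.a₄ / 2) :
    compVal ν W (P + P) = 2 * compVal ν W P := by
  rcases P with _ | ⟨x, y, h⟩
  · change compVal ν W (0 + 0) = 2 * compVal ν W 0
    rw [zero_add, compVal_zero, mul_zero]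
  · rw [compVal_some] at hP ⊢
    obtain ⟨hx, hv, hcv⟩ := cv_le_half ν D.v_b hP
    have heta := eta_sq h.1
    rw [D.b₄_eq, D.b₆_eq] at heta
    have hfac : (y - W.negY x y) ^ 2 = x * (4 * x ^ 2 + W.b₂ * x + 4 * W.a₄) := by
      rw [heta]; ring
    by_cases hy : y = W.negY x y
    · rw [Point.add_self_of_Y_eq hy, compVal_zero, hcv]
      have hg : 4 * x ^ 2 + W.b₂ * x + 4 * W.a₄ = 0 := by
        have h0 : x * (4 * x ^ 2 + W.b₂ * x + 4 * W.a₄) = 0 := by
          rw [← hfac, sub_eq_zero.mpr hy]; ring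
        rcases mul_eq_zero.mp h0 with h | h
        · exact absurd h hx
        · exact h
      have := small_two_torsionG ν D.b₂_ne D.v_b₂ D.b_ne D.two_ne D.v_two hx hv D.v_b hg
      rw [max_eq_left this, mul_zero]
    · obtain ⟨x2, y2, h2, e, hdup⟩ := exists_double h hy
      rw [e, compVal_some, hcv]
      have hg : 4 * x ^ 2 + W.b₂ * x + 4 * W.a₄ ≠ 0 := by
        intro hg
        rw [hg, mul_zero] at hfac
        exact hy (sub_eq_zero.mp (pow_eq_zero_iff two_ne_zero |>.mp hfac))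
      rw [D.b₄_eq, D.b₆_eq, D.b₈_eq] at hdup
      refine small_doubleG ν D.b₂_ne D.v_b₂ D.b_ne D.two_ne D.v_two hx hv D.v_b hg ?_
      linear_combination hdup

/-- pair law, both points affine with distinct `x`, both small, `v x₁ ≤ v x₂` -/
theorem pairLaw_small_aux {x₁ y₁ x₂ y₂ : F} (h₁ : W.Nonsingular x₁ y₁)
    (h₂ : W.Nonsingular x₂ y₂) (hx : x₁ ≠ x₂)
    (hP : compVal ν W (Point.some x₁ y₁ h₁) ≤ ν.v W.a₄ / 2)
    (hQ : compVal ν W (Point.some x₂ y₂ h₂) ≤ ν.v W.a₄ / 2)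
    (hrs : ν.v x₁ ≤ ν.v x₂) :
    PairLaw (ν.v W.a₄) (compVal ν W (Point.some x₁ y₁ h₁)) (compVal ν W (Point.some x₂ y₂ h₂))
      (compVal ν W (Point.some x₁ y₁ h₁ + Point.some x₂ y₂ h₂))
      (compVal ν W (Point.some x₁ y₁ h₁ - Point.some x₂ y₂ h₂)) := by
  rw [compVal_some] at hP hQ
  obtain ⟨hx₁, hv₁, hcv₁⟩ := cv_le_half ν D.v_b hP
  obtain ⟨hx₂, hv₂, hcv₂⟩ := cv_le_half ν D.v_b hQ
  obtain ⟨xp, yp, xm, ym, hp, hm, e1, e2, e3, e4⟩ := D.exists_add_sub h₁ h₂ hx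
  rw [e1, e2]
  simp only [compVal_some]
  rw [hcv₁, hcv₂]
  have := small_affineG ν D.b₂_ne D.v_b₂ D.b_ne D.two_ne D.v_two hx₁ hx₂ hx hrs hv₂ D.v_b e3 e4
  refine PairLaw.of_small (le_max_left _ _) (max_le_max le_rfl hrs) ?_ this
  rw [← hcv₁, ← hcv₂]; linarith

theorem pairLaw_small (P Q : W.Point) (hP : compVal ν W P ≤ ν.v W.a₄ / 2)
    (hQ : compVal ν W Q ≤ ν.v W.a₄ / 2) :
    PairLaw (ν.v W.a₄) (compVal ν W P) (compVal ν W Q) (compVal ν W (P + Q))
      (compVal ν W (P - Q)) := by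
  rcases P with _ | ⟨x₁, y₁, h₁⟩
  · change PairLaw _ (compVal ν W 0) _ (compVal ν W (0 + Q)) (compVal ν W (0 - Q))
    rw [zero_add, zero_sub, compVal_neg, compVal_zero]
    exact PairLaw.zero_left (D.compVal_nonneg Q) (D.compVal_le Q)
  rcases Q with _ | ⟨x₂, y₂, h₂⟩
  · change PairLaw _ _ (compVal ν W 0) (compVal ν W (_ + 0)) (compVal ν W (_ - 0))
    rw [add_zero, sub_zero, compVal_zero]
    exact PairLaw.zero_right (D.compVal_nonneg _) (D.compVal_le _)
  by_cases hx : x₁ = x₂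
  · subst hx
    have hdbl := D.compVal_double_small _ hP
    have hle : 2 * compVal ν W (Point.some x₁ y₁ h₁) ≤ ν.v W.a₄ := by linarith
    have hnn := D.compVal_nonneg (Point.some x₁ y₁ h₁)
    have hsame : compVal ν W (Point.some x₁ y₂ h₂) = compVal ν W (Point.some x₁ y₁ h₁) := rfl
    rw [hsame]
    by_cases hy : y₁ = W.negY x₁ y₂
    · subst hy
      have hneg : -Point.some x₁ y₂ h₂ = Point.some x₁ (W.negY x₁ y₂) h₁ := rfl
      rw [Point.add_of_Y_eq rfl rfl, sub_eq_add_neg, hneg, hdbl, compVal_zero]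
      right
      rw [sub_self, abs_zero, abs_of_nonneg (by linarith)]
      constructor <;> ring
    · have hy' : y₁ = y₂ := Y_eq_of_Y_ne h₁.1 h₂.1 rfl hy
      subst hy'
      rw [sub_self, hdbl, compVal_zero]
      left
      rw [sub_self, abs_zero, abs_of_nonneg (by linarith)]
      constructor <;> ring
  · rcases le_total (ν.v x₁) (ν.v x₂) with hrs | hrs
    · exact D.pairLaw_small_aux h₁ h₂ hx hP hQ hrs
    · have := D.pairLaw_small_aux h₂ h₁ (Ne.symm hx) hQ hP hrs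
      rw [add_comm, ← neg_sub, compVal_neg] at this
      exact this.symm

/-- **The pair law** for the component values on the node model (general `a₁`). -/
theorem pairLaw (P Q : W.Point) :
    PairLaw (ν.v W.a₄) (compVal ν W P) (compVal ν W Q) (compVal ν W (P + Q))
      (compVal ν W (P - Q)) := by
  have step1 : ∀ P Q : W.Point, compVal ν W Q ≤ ν.v W.a₄ / 2 →
      PairLaw (ν.v W.a₄) (compVal ν W P) (compVal ν W Q) (compVal ν W (P + Q))
        (compVal ν W (P - Q)) := by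
    intro P Q hQ
    by_cases hP : compVal ν W P ≤ ν.v W.a₄ / 2
    · exact D.pairLaw_small P Q hP hQ
    · push Not at hP
      have hP' : compVal ν W (P + D.T0) ≤ ν.v W.a₄ / 2 := by
        rw [D.compVal_add_T0]; linarith
      have := D.pairLaw_small (P + D.T0) Q hP' hQ
      rw [show P + D.T0 + Q = (P + Q) + D.T0 by abel,
        show P + D.T0 - Q = (P - Q) + D.T0 by abel,
        D.compVal_add_T0, D.compVal_add_T0, D.compVal_add_T0] at this
      exact PairLaw.of_translate_left this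
  by_cases hQ : compVal ν W Q ≤ ν.v W.a₄ / 2
  · exact step1 P Q hQ
  · push Not at hQ
    have hQ' : compVal ν W (Q + D.T0) ≤ ν.v W.a₄ / 2 := by
      rw [D.compVal_add_T0]; linarith
    have := step1 P (Q + D.T0) hQ'
    have e : P - (Q + D.T0) = (P - Q) + D.T0 := by
      rw [sub_add_eq_sub_sub, sub_eq_add_neg (P - Q), D.neg_T0]
    rw [show P + (Q + D.T0) = (P + Q) + D.T0 by abel, e,
      D.compVal_add_T0, D.compVal_add_T0, D.compVal_add_T0] at this
    exact PairLaw.of_translate_right this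

/-- **Cyclic induction**: the component value of `k • P` is `k` times that of `P`, modulo `2n`
and up to sign. -/
theorem compRel_nsmul (P : W.Point) (k : ℕ) :
    CompRel (ν.v W.a₄) (compVal ν W (k • P)) (k * compVal ν W P) ∧
    CompRel (ν.v W.a₄) (compVal ν W ((k + 1) • P)) ((k + 1 : ℕ) * compVal ν W P) := by
  induction k with
  | zero =>
    refine ⟨?_, ?_⟩
    · rw [zero_smul, compVal_zero, Nat.cast_zero, zero_mul]; exact CompRel.refl _ _
    · rw [zero_add, one_smul, Nat.cast_one, one_mul]; exact CompRel.refl _ _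
  | succ k ih =>
    obtain ⟨ih0, ih1⟩ := ih
    refine ⟨ih1, ?_⟩
    have hpl := D.pairLaw ((k + 1) • P) P
    have e1 : (k + 1) • P + P = (k + 1 + 1) • P := (succ_nsmul P (k + 1)).symm
    have e2 : (k + 1) • P - P = k • P := by rw [succ_nsmul, add_sub_cancel_right]
    rw [e1, e2] at hpl
    have h1 := hpl.compRel
    have h2 := ih1.shift (compVal ν W P)
    have eA : ((k + 1 : ℕ) : ℚ) * compVal ν W P + compVal ν W P =
        ((k + 1 + 1 : ℕ) : ℚ) * compVal ν W P := by push_cast; ring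
    have eB : ((k + 1 : ℕ) : ℚ) * compVal ν W P - compVal ν W P =
        (k : ℚ) * compVal ν W P := by push_cast; ring
    rw [eA, eB] at h2
    rcases h1 with ⟨a1, a2⟩ | ⟨a1, a2⟩ <;> rcases h2 with ⟨b1, b2⟩ | ⟨b1, b2⟩
    · exact a1.trans b1
    · exact (a1.trans b1).trans (ih0.symm.trans (a2.trans b2))
    · exact (a1.trans b2).trans (ih0.symm.trans (a2.trans b1))
    · exact a1.trans b2

/-- **Torsion points**: if `p • P = 0` then `p * μ(P) ∈ 2 n ℤ`. -/
theorem torsion_compVal (P : W.Point) (p : ℕ) (hp : p • P = 0) :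
    ∃ j : ℤ, (p : ℚ) * compVal ν W P = 2 * ν.v W.a₄ * j := by
  obtain ⟨j, h | h⟩ := (D.compRel_nsmul P p).1
  · rw [hp, compVal_zero] at h; exact ⟨-j, by push_cast; linarith⟩
  · rw [hp, compVal_zero] at h; exact ⟨j, by linarith⟩

/-- torsion corollary in terms of the valuation of the `x`-coordinate -/
theorem torsion_v_x {x y : F} (h : W.Nonsingular x y) (p : ℕ)
    (hp : p • Point.some x y h = 0) (hx : x ≠ 0) (h0 : 0 ≤ ν.v x) (h1 : ν.v x ≤ ν.v W.a₄) :
    ∃ j : ℤ, (p : ℚ) * ν.v x = 2 * ν.v W.a₄ * j := by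
  have := D.torsion_compVal _ p hp
  rwa [compVal_some, cv_of_mem ν hx h0 h1] at this

/-- an odd-order torsion point never lies on the component of `(0,0)` -/
theorem compVal_ne_of_odd (P : W.Point) (p : ℕ) (hodd : Odd p) (hp : p • P = 0) :
    compVal ν W P ≠ ν.v W.a₄ := by
  intro hP
  obtain ⟨j, hj⟩ := D.torsion_compVal P p hp
  rw [hP] at hj
  have hn : ν.v W.a₄ ≠ 0 := ne_of_gt D.v_b
  have h2 : (p : ℚ) = 2 * j := by
    have : ν.v W.a₄ * (p : ℚ) = ν.v W.a₄ * (2 * j) := by linarith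
    exact mul_left_cancel₀ hn this
  have h3 : (p : ℤ) = 2 * j := by exact_mod_cast h2
  obtain ⟨k, hk⟩ := hodd
  omega

/-- points on the same component (up to sign): sum or difference lies on the identity
component -/
theorem compVal_add_or_sub_eq_zero (P Q : W.Point) (h : compVal ν W P = compVal ν W Q) :
    compVal ν W (P + Q) = 0 ∨ compVal ν W (P - Q) = 0 := by
  rcases D.pairLaw P Q with ⟨_, h2⟩ | ⟨h1, _⟩
  · right; rw [h2, h, sub_self, abs_zero]
  · left; rw [h1, h, sub_self, abs_zero]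

/-- the identity component is closed under addition and subtraction -/
theorem compVal_add_sub_eq_zero (P Q : W.Point) (hP : compVal ν W P = 0)
    (hQ : compVal ν W Q = 0) : compVal ν W (P + Q) = 0 ∧ compVal ν W (P - Q) = 0 := by
  have hn := D.v_b
  rcases D.pairLaw P Q with ⟨h1, h2⟩ | ⟨h1, h2⟩
  · rw [hP, hQ] at h1 h2
    refine ⟨?_, ?_⟩
    · rw [h1, add_zero, sub_zero, abs_of_pos hn, sub_self]
    · rw [h2, sub_self, abs_zero]
  · rw [hP, hQ] at h1 h2
    refine ⟨?_, ?_⟩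
    · rw [h1, sub_self, abs_zero]
    · rw [h2, add_zero, sub_zero, abs_of_pos hn, sub_self]

/-- the identity component: `μ = 0` iff `x ≠ 0` and `v x ≤ 0` (for affine points) -/
theorem compVal_some_eq_zero_iff {x y : F} (h : W.Nonsingular x y) :
    compVal ν W (Point.some x y h) = 0 ↔ x ≠ 0 ∧ ν.v x ≤ 0 := by
  rw [compVal_some]
  constructor
  · intro h0
    have hx : x ≠ 0 := by
      rintro rfl
      rw [cv_zero] at h0
      exact absurd h0 (ne_of_gt D.v_b)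
    refine ⟨hx, ?_⟩
    rw [cv_of_ne ν _ hx] at h0
    by_contra hpos
    push Not at hpos
    have : 0 < min (ν.v x) (ν.v W.a₄) := lt_min hpos D.v_b
    have h2 := le_max_right 0 (min (ν.v x) (ν.v W.a₄))
    linarith
  · rintro ⟨hx, hv⟩
    exact cv_of_nonpos ν D.v_b.le hx hv

end NodeDataG

end Points

end Fermat.Agent.S13.ComponentsGen
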