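import Fermat.Agent.S05.NodeShape
import Fermat.Agent.S13.ComponentsGen
import Fermat.Agent.S13.BranchInertia

/-!
# S13, local analysis at `p`: the geometric input on the model `y² = x³ + αx² + π^p x`

`A` is a valuation subring of `Qbar` over the odd prime `p`, `σ` an element of its inertia group.
For every `p`-torsion point `T` of the model curve, `(σ - 1)² T` lies in the kernel of reduction
`E₁ = {0} ∪ {x ∉ A}`:

* good reduction: `(σ - 1) U ∈ E₁` for every point `U` (same reduction);
* multiplicative reduction: `(σ - 1) T ∈ E₀ = {0} ∪ {x ∉ 𝔪}` for `p`-torsion `T` (branch lemma and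
  component values), and `(σ - 1) U ∈ E₁` for `U ∈ E₀` (same reduction).
-/

set_option autoImplicit false

open WeierstrassCurve WeierstrassCurve.Affine WeierstrassCurve.Affine.Point

namespace Fermat.Agent.S13.AtPGeoModel

open Fermat.Agent.S05 Fermat.Agent.S05.Endgame Fermat.Agent.S05.EndgameFinal
  Fermat.Agent.S05.QVS Fermat.Agent.S13.ComponentsGen

/-- The identity component together with the kernel of reduction: the origin and the points whose
`x`-coordinate is not in the maximal ideal. -/
def InE0 {K : Type*} [Field K] {Γ : Type*} [LinearOrderedCommGroupWithZero Γ] (v : Valuation K Γ)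
    {W : Affine K} (T : W.Point) : Prop :=
  T = 0 ∨ ∃ x y, ∃ h : W.Nonsingular x y, T = Point.some x y h ∧ 1 ≤ v x

variable {α π : ℤ} {p : ℕ}

/-- **`(σ - 1)² E[p] ⊆ E₁`** on the model curve, for `σ` in the inertia group at `p`. -/
theorem sq_sub_one_mem_E1 (hp : p.Prime) (hp2 : p ≠ 2) (hπ0 : π ≠ 0)
    (hcase : (¬ (p : ℤ) ∣ π ∧ ¬ (p : ℤ) ∣ α ^ 2 - 4 * π ^ p) ∨ ((p : ℤ) ∣ π ∧ ¬ (p : ℤ) ∣ α))
    (A : ValuationSubring (AlgebraicClosure ℚ)) (hA : A.LiesOverPrime p)
    {σ : AlgebraicClosure ℚ ≃ₐ[ℚ] AlgebraicClosure ℚ} (hσ : σ ∈ A.inertiaSubgroupIn ℚ)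
    (T : (MW α π p).Point) (hT : p • T = 0) :
    InE1 A.valuation (σ • (σ • T - T) - (σ • T - T)) := by
  revert T
  -- notation
  set W : Affine (AlgebraicClosure ℚ) := MW α π p with hWdef
  have hW : IsABModel W := MW_isABModel α π p
  set v := A.valuation with hv
  have hq := hp
  -- integrality facts
  have hqdvd2 : ¬ p ∣ 2 := fun h => hp2 ((Nat.prime_dvd_prime_iff_eq hp Nat.prime_two).1 h)
  have h2 : v 2 = 1 := by
    have h2A : ((2 : ℕ) : AlgebraicClosure ℚ) ∈ A := natCast_mem A 2
    have h2i : ((2 : ℕ) : AlgebraicClosure ℚ)⁻¹ ∈ A := natCast_inv_mem_of_not_dvd hq hA hqdvd2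
    have := val_eq_one_of_mem_of_inv_mem A (by norm_num) h2A h2i
    simpa using this
  have ha : v W.a₂ ≤ 1 := by
    rw [hWdef, MW_a₂]
    exact (A.valuation_le_one_iff _).2 (intCast_mem A α)
  have hbA : W.a₄ ∈ A := by
    rw [hWdef, MW_a₄]
    exact pow_mem (intCast_mem A π) p
  have hb : v W.a₄ ≤ 1 := (A.valuation_le_one_iff _).2 hbA
  have hDdvd : ¬ (p : ℤ) ∣ α ^ 2 - 4 * π ^ p := by
    rcases hcase with hc | hc
    · exact hc.2
    · intro hdvd
      have h1 : (p : ℤ) ∣ 4 * π ^ p :=
        Dvd.dvd.mul_left (dvd_pow hc.1 hp.ne_zero) 4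
      have h2 : (p : ℤ) ∣ α ^ 2 := by
        have := dvd_add hdvd h1
        simpa using this
      exact hc.2 ((Nat.prime_iff_prime_int.1 hq).dvd_of_dvd_pow h2)
  have hD : v (W.a₂ ^ 2 - 4 * W.a₄) = 1 := by
    have hcast : W.a₂ ^ 2 - 4 * W.a₄ = ((α ^ 2 - 4 * π ^ p : ℤ) : AlgebraicClosure ℚ) := by
      rw [hWdef, MW_a₂, MW_a₄]
      push_cast
      ring
    rw [hcast]
    apply val_eq_one_of_mem_of_notMem_nonunits A (intCast_mem A _)
    rw [intCast_mem_nonunits_iff hq hA]
    exact hDdvd
  -- the inertia-like ring hom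
  set s : AlgebraicClosure ℚ →+* AlgebraicClosure ℚ :=
    (σ.toAlgHom : _ →ₐ[ℚ] _).toRingHom with hsdef
  have hs : ∀ z, v z ≤ 1 → v (s z - z) < 1 := by
    intro z hz
    have hzA : z ∈ A := (A.valuation_le_one_iff z).1 hz
    have := apply_sub_mem_nonunits_of_mem_inertiaSubgroupIn hσ hzA
    exact (ValuationSubring.mem_nonunits_iff A).1 this
  have hsv : ∀ z, v (s z) = v z := fun z =>
    Fermat.Agent.S13.Branch.valuation_apply_eq_of_mem_inertia A hq hA hσ z
  -- the induced map on points
  set τ : W.Point →+ W.Point :=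
    Point.map (W' := modelM ℚ (α : ℚ) ((π : ℚ) ^ p)) σ.toAlgHom with hτdef
  have hτ : ∀ x y (h : W.Nonsingular x y), ∃ h' : W.Nonsingular (s x) (s y),
      τ (Point.some x y h) = Point.some (s x) (s y) h' := fun x y h => ⟨_, rfl⟩
  have hτσ : ∀ U : W.Point, σ • U = τ U := fun U => rfl
  -- the kernel of reduction
  have hB : KR.IntegralB A W := by
    apply KR.integralB_of_a A W
    · rw [hW.a₁]; exact A.zero_mem
    · exact (A.valuation_le_one_iff _).1 ha
    · rw [hW.a₃]; exact A.zero_mem
    · exact hbA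
    · rw [hW.a₆]; exact A.zero_mem
  have hE1 : ∀ T : W.Point, InE1 v T ↔ KR.KerRed A W T := by
    intro T
    rw [KR.kerRed_iff]
    unfold InE1
    simp only [hv, one_lt_val_iff]
  have hE1sub : ∀ U U' : W.Point, InE1 v U → InE1 v U' → InE1 v (U - U') := by
    intro U U' hU hU'
    rw [hE1] at hU hU' ⊢
    exact KR.kerRed_sub hB hU hU'
  have hE1τ : ∀ U : W.Point, InE1 v U → InE1 v (τ U) := by
    intro U hU
    rcases hU with rfl | ⟨x, y, h, rfl, hx⟩
    · left; exact _root_.map_zero τ
    · obtain ⟨h', e⟩ := hτ x y h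
      right
      exact ⟨s x, s y, h', e, by rw [hsv]; exact hx⟩
  -- same reduction on the points with unit `x`-coordinate
  have hC : ∀ U : W.Point, InE0 v U → InE1 v (τ U - U) := by
    intro U hU
    rcases hU with rfl | ⟨x, y, h, rfl, hx⟩
    · left; rw [_root_.map_zero, sub_zero]
    · by_cases hx1 : 1 < v x
      · have hU1 : InE1 v (Point.some x y h) := Or.inr ⟨x, y, h, rfl, hx1⟩
        exact hE1sub _ _ (hE1τ _ hU1) hU1
      · have hxle : v x ≤ 1 := not_lt.1 hx1
        have hxeq : v x = 1 := le_antisymm hxle hx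
        obtain ⟨h', e⟩ := hτ x y h
        rw [e]
        exact hW.same_red s hs h2 ha hb h h' hxle
          (hW.nonsing_red h2 ha hb hD h.1 hxle (Or.inl hxeq))
  intro T hT
  rw [hτσ, hτσ]
  by_cases hb1 : v W.a₄ = 1
  · -- good reduction: same reduction for every point
    have hC' : ∀ U : W.Point, InE1 v (τ U - U) := by
      intro U
      rcases U with _ | ⟨x, y, h⟩
      · left
        change τ 0 - 0 = 0
        rw [_root_.map_zero, sub_zero]
      · by_cases hx1 : 1 < v x
        · have hU1 : InE1 v (Point.some x y h) := Or.inr ⟨x, y, h, rfl, hx1⟩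
          exact hE1sub _ _ (hE1τ _ hU1) hU1
        · have hxle : v x ≤ 1 := not_lt.1 hx1
          obtain ⟨h', e⟩ := hτ x y h
          rw [e]
          exact hW.same_red s hs h2 ha hb h h' hxle
            (hW.nonsing_red h2 ha hb hD h.1 hxle (Or.inr hb1))
    exact hC' _
  · -- multiplicative reduction
    have hblt : v W.a₄ < 1 := lt_of_le_of_ne hb hb1
    apply hC
    -- we are in the node case
    have hqπ : (p : ℤ) ∣ π := by
      have h1 : ((π ^ p : ℤ) : AlgebraicClosure ℚ) ∈ A.nonunits := by
        rw [ValuationSubring.mem_nonunits_iff]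
        have : W.a₄ = ((π ^ p : ℤ) : AlgebraicClosure ℚ) := by
          rw [hWdef, MW_a₄]; push_cast; rfl
        rw [← this]; exact hblt
      rw [intCast_mem_nonunits_iff hq hA] at h1
      exact (Nat.prime_iff_prime_int.1 hq).dvd_of_dvd_pow h1
    have hqα : ¬ (p : ℤ) ∣ α := by
      rcases hcase with hc | hc
      · exact absurd hqπ hc.1
      · exact hc.2
    -- the component data
    have R := rankOneData_of_liesOver hq A hA
    have hα0 : α ≠ 0 := by
      rintro rfl
      exact hqα (dvd_zero _)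
    have h2dvd : ¬ (p : ℤ) ∣ (2 : ℤ) := by
      intro hd
      have : p ∣ 2 := by exact_mod_cast hd
      exact hqdvd2 this
    have hπL : (π : AlgebraicClosure ℚ) ≠ 0 := by exact_mod_cast hπ0
    have hπp0 : (π : AlgebraicClosure ℚ) ^ p ≠ 0 := pow_ne_zero p hπL
    have hmpos : 0 < padicValInt p π := RankOneData.padicValInt_pos_of_dvd hq hπ0 hqπ
    have hpposQ : (0 : ℚ) < (p : ℚ) := by exact_mod_cast hp.pos
    have D0 : NodeData R.qval (MW α π p) :=
      { a₁ := MW_a₁ α π p
        a₃ := MW_a₃ α π p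
        a₆ := MW_a₆ α π p
        two_ne := two_ne_zero
        v_two := by
          have := R.val_intCast_of_not_dvd hq h2dvd
          simpa using this
        a_ne := by
          rw [MW_a₂]
          exact_mod_cast hα0
        v_a := by
          rw [MW_a₂]
          exact R.val_intCast_of_not_dvd hq hqα
        b_ne := by
          rw [MW_a₄]
          exact hπp0
        v_b := by
          rw [MW_a₄, R.val_intCast_pow hq hπ0 p]
          have : (0 : ℚ) < (padicValInt p π : ℚ) := by exact_mod_cast hmpos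
          positivity }
    have D : NodeDataG R.qval W := NodeDataG.of_nodeData D0
    -- `InE0` in terms of the component value
    have hE0 : ∀ U : W.Point, InE0 v U ↔ compVal R.qval W U = 0 := by
      intro U
      rcases U with _ | ⟨x, y, h⟩
      · exact ⟨fun _ => rfl, fun _ => Or.inl rfl⟩
      · rw [D.compVal_some_eq_zero_iff, ← R.notMem_nonunits_iff,
          ValuationSubring.mem_nonunits_iff, not_lt]
        constructor
        · rintro (h0 | ⟨x', y', h', e, hx'⟩)
          · exact absurd h0 (Point.some_ne_zero h)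
          · have := e
            simp only [Point.some.injEq] at this
            rw [this.1]; exact hx'
        · intro hx
          exact Or.inr ⟨x, y, h, rfl, hx⟩
    have hE0sub : ∀ U U' : W.Point, InE0 v U → InE0 v U' → InE0 v (U - U') := by
      intro U U' hU hU'
      rw [hE0] at hU hU' ⊢
      exact (D.compVal_add_sub_eq_zero U U' hU hU').2
    have hE0τ : ∀ U : W.Point, InE0 v U → InE0 v (τ U) := by
      intro U hU
      rcases hU with rfl | ⟨x, y, h, rfl, hx⟩
      · left; exact _root_.map_zero τ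
      · obtain ⟨h', e⟩ := hτ x y h
        right
        exact ⟨s x, s y, h', e, by rw [hsv]; exact hx⟩
    -- the branch step
    have hpodd : Odd p := hp.odd_of_ne_two hp2
    have hb0 : W.a₄ ≠ 0 := D0.b_ne
    have h₀ : W.Nonsingular 0 0 := by
      rw [WeierstrassCurve.Affine.nonsingular_zero]
      exact ⟨hW.a₆, Or.inr hb0⟩
    have hb2 : v W.b₂ = 1 := by
      have hb2eq : W.b₂ = 4 * W.a₂ := D0.b₂_eq
      have ha1 : v W.a₂ = 1 := by
        apply val_eq_one_of_sq v
        have : W.a₂ ^ 2 = (W.a₂ ^ 2 - 4 * W.a₄) + 4 * W.a₄ := by ring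
        rw [this, v.map_add_eq_of_lt_left, hD]
        rw [hD]
        exact val_mul_lt_one' v (val_four_le v h2.le) hblt
      have h4 : v (4 : AlgebraicClosure ℚ) = 1 := by
        have : (4 : AlgebraicClosure ℚ) = 2 * 2 := by norm_num
        rw [this, v.map_mul, h2, one_mul]
      rw [hb2eq, v.map_mul, h4, ha1, one_mul]
    have key : ∀ U : W.Point, p • U = 0 → InE0 v (τ U - U) := by
      intro U hU
      rcases U with _ | ⟨x, y, h⟩
      · left
        change τ 0 - 0 = 0
        rw [_root_.map_zero, sub_zero]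
      by_cases hx1 : 1 ≤ v x
      · have hU0 : InE0 v (Point.some x y h) := Or.inr ⟨x, y, h, rfl, hx1⟩
        exact hE0sub _ _ (hE0τ _ hU0) hU0
      have hxlt : v x < 1 := not_le.1 hx1
      have e := hW.equation_iff.1 h.1
      have hx0 : x ≠ 0 := by
        rintro rfl
        have hy0 : y = 0 := by
          have : y ^ 2 = 0 := by rw [e]; ring
          exact pow_eq_zero_iff (by norm_num) |>.1 this
        subst hy0
        have := hW.odd_nsmul_zero_zero h₀ hpodd
        rw [hU] at this
        exact Point.some_ne_zero h₀ this.symm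
      have hbx : v W.a₄ < v x := by
        by_contra hcon
        have hle : v x ≤ v W.a₄ := not_lt.1 hcon
        have hle' : R.qval.v W.a₄ ≤ R.qval.v x := (R.val_le_val_iff hb0 hx0).2 hle
        have hcv : compVal R.qval W (Point.some x y h) = R.qval.v W.a₄ := by
          rw [compVal_some]
          exact cv_of_ge R.qval D.v_b.le (Or.inr hle')
        exact D.compVal_ne_of_odd _ p hpodd hU hcv
      obtain ⟨h', eτ⟩ := hτ x y h
      rw [eτ]
      rcases Fermat.Agent.S13.Branch.branch_step v hW.a₃ hW.a₆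
        (by rw [hW.a₁, v.map_zero]; exact zero_le_one)
        ha hb2 s hs hsv h h' hx0 hxlt hbx with h0 | ⟨x₃, y₃, h₃, e₃, hx₃⟩
      · exact Or.inl h0
      · exact Or.inr ⟨x₃, y₃, h₃, e₃, hx₃⟩
    exact key T hT

end Fermat.Agent.S13.AtPGeoModel
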