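import Fermat.Agent.S13.Counting
import Fermat.Agent.S05.QValRat
import Fermat.Agent.S51_helper12.GaloisLine

/-!
# S13, local analysis at `p`: exclusion of the case `V ⊆ E₁`

If every nonzero `p`-torsion point of an elliptic curve `E / ℚ` (with `preΨ_p(0) ∈ ℤ`) has
non-integral `x`-coordinate at a valuation subring `A` of `Qbar` over `p`, and `#E[p] = p²`, then
there is no Galois-stable set of torsion points which is nonzero and has at most `p` elements.
-/

set_option autoImplicit false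

open WeierstrassCurve WeierstrassCurve.Affine WeierstrassCurve.Affine.Point Polynomial

namespace Fermat.Agent.S13.AtPSSModel

open Fermat.Agent.S05 Fermat.Agent.S05.QVS Fermat.Agent.S51_helper12 Fermat.Agent.S13.Counting

section QValProd

variable {F : Type*} [Field F] (ν : QVal F)

theorem qval_prod {ι : Type*} (s : Finset ι) (f : ι → F) (hf : ∀ i ∈ s, f i ≠ 0) :
    ν.v (∏ i ∈ s, f i) = ∑ i ∈ s, ν.v (f i) := by
  classical
  induction s using Finset.induction_on with
  | empty => simp [ν.map_one]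
  | insert a s ha ih =>
    rw [Finset.prod_insert ha, Finset.sum_insert ha,
      ν.map_mul (hf a (Finset.mem_insert_self a s))
        (Finset.prod_ne_zero_iff.2 fun i hi => hf i (Finset.mem_insert_of_mem hi)),
      ih fun i hi => hf i (Finset.mem_insert_of_mem hi)]

end QValProd

/-- the valuation of a nonzero rational number is an integer. -/
theorem qval_ratCast_int {A : ValuationSubring Qbar} {q : ℕ} (R : RankOneData A (q : Qbar))
    (hq : q.Prime) {r : ℚ} (hr : r ≠ 0) :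
    ∃ n : ℤ, R.qval.v (algebraMap ℚ Qbar r) = n := by
  have hnum : r.num ≠ 0 := Rat.num_ne_zero.2 hr
  have hden : r.den ≠ 0 := r.den_ne_zero
  have hnumL : ((r.num : ℤ) : Qbar) ≠ 0 := by exact_mod_cast hnum
  have hdenL : ((r.den : ℕ) : Qbar) ≠ 0 := by exact_mod_cast hden
  have hcast : algebraMap ℚ Qbar r = ((r.num : ℤ) : Qbar) / ((r.den : ℕ) : Qbar) := by
    conv_lhs => rw [← Rat.num_div_den r]
    rw [map_div₀, map_intCast, map_natCast]
  refine ⟨padicValInt q r.num - (padicValNat q r.den : ℤ), ?_⟩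
  rw [hcast, R.qval.map_div hnumL hdenL, R.val_intCast hq hnum, R.val_natCast hq hden,
    Int.cast_sub, Int.cast_natCast]
  rfl

variable (E : WeierstrassCurve ℚ) {p : ℕ}

/-- **Exclusion of the case `E[p] ⊆ E₁`.** -/
theorem no_stable_line (hp : p.Prime) (hodd : Odd p)
    (hΔ : (E⁄Qbar).Δ ≠ 0)
    (hDP : ∀ (x y : Qbar) (h : (E⁄Qbar).Nonsingular x y),
      p • (Point.some x y h) = 0 ↔ ((E⁄Qbar).preΨ' p).eval x = 0)
    (hcard : Nat.card (Tors (E⁄Qbar) p) = p ^ 2)
    (hc0 : ∃ c0 : ℤ, ((E⁄Qbar).preΨ' p).eval 0 = (c0 : Qbar))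
    (A : ValuationSubring Qbar) (hA : A.LiesOverPrime p)
    (hall : ∀ (x y : Qbar) (h : (E⁄Qbar).Nonsingular x y), p • (Point.some x y h) = 0 → x ∉ A)
    (NS : Set (E⁄Qbar).Point) (hNS_tors : ∀ T ∈ NS, p • T = 0)
    (hNS_stable : ∀ σ : GalQ, ∀ T ∈ NS, σ • T ∈ NS)
    (hNS_ne : ∃ T ∈ NS, T ≠ 0) (hNS_fin : NS.Finite) (hNS_card : NS.ncard ≤ p) : False := by
  classical
  have R : RankOneData A ((p : ℕ) : Qbar) := rankOneData_of_liesOver A hp hA
  have hpK : ((p : ℕ) : Qbar) ≠ 0 := Nat.cast_ne_zero.2 hp.ne_zero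
  set XS : Finset Qbar := xSet (E⁄Qbar) p with hXS
  -- every root is the `x`-coordinate of a torsion point, hence non-integral
  have hXS_neg : ∀ x ∈ XS, x ≠ 0 ∧ R.qval.v x < 0 := by
    intro x hx
    obtain ⟨y, h, hT⟩ := (mem_xSet_iff_exists (E⁄Qbar) hodd hpK hDP hΔ x).1 hx
    exact R.notMem_iff.1 (hall x y h hT)
  -- the `x`-coordinates of the nonzero points of `NS`
  set XN : Finset Qbar := XS.filter (fun x => ∃ (y : Qbar) (h : (E⁄Qbar).Nonsingular x y),
    Point.some x y h ∈ NS) with hXN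
  have hXN_sub : XN ⊆ XS := Finset.filter_subset _ _
  have hmemXN : ∀ x, x ∈ XN ↔ ∃ (y : Qbar) (h : (E⁄Qbar).Nonsingular x y), Point.some x y h ∈ NS := by
    intro x
    rw [hXN, Finset.mem_filter]
    constructor
    · exact fun h => h.2
    · rintro ⟨y, h, hT⟩
      exact ⟨(mem_xSet_iff (E⁄Qbar) hodd hpK x).2 ((hDP x y h).1 (hNS_tors _ hT)), y, h, hT⟩
  -- `XN` is nonempty
  have hXN_ne : XN.Nonempty := by
    obtain ⟨T, hT, hT0⟩ := hNS_ne
    rcases T with _ | ⟨x, y, h⟩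
    · exact absurd rfl hT0
    · exact ⟨x, (hmemXN x).2 ⟨y, h, hT⟩⟩
  -- `XN` is stable under Galois
  have hXN_stable : ∀ σ : GalQ, ∀ x ∈ XN, σ x ∈ XN := by
    intro σ x hx
    obtain ⟨y, h, hT⟩ := (hmemXN x).1 hx
    obtain ⟨h', e⟩ := smul_some E σ h
    refine (hmemXN _).2 ⟨σ y, h', ?_⟩
    rw [← e]
    exact hNS_stable σ _ hT
  -- the product over `XN` is rational
  set d : Qbar := ∏ x ∈ XN, x with hd
  have hd_fixed : ∀ σ : GalQ, σ d = d := by
    intro σ
    rw [hd, map_prod]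
    refine Finset.prod_bij (fun x _ => σ x) (fun x hx => hXN_stable σ x hx)
      (fun x _ x' _ hxx => σ.injective hxx) (fun x hx => ?_) (fun x _ => rfl)
    refine ⟨σ.symm x, hXN_stable σ.symm x hx, ?_⟩
    exact σ.apply_symm_apply x
  obtain ⟨r, hr⟩ := mem_range_of_fixed d hd_fixed
  have hd0 : d ≠ 0 := Finset.prod_ne_zero_iff.2 fun x hx => (hXS_neg x (hXN_sub hx)).1
  have hr0 : r ≠ 0 := by
    rintro rfl
    rw [_root_.map_zero] at hr
    exact hd0 hr.symm
  -- valuation of `d`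
  have hvd_sum : R.qval.v d = ∑ x ∈ XN, R.qval.v x :=
    qval_prod R.qval XN (fun x => x) fun x hx => (hXS_neg x (hXN_sub hx)).1
  have hvd_neg : R.qval.v d < 0 := by
    rw [hvd_sum]
    exact Finset.sum_neg (fun x hx => (hXS_neg x (hXN_sub hx)).2) hXN_ne
  obtain ⟨n, hn⟩ := qval_ratCast_int R hp hr0
  rw [hr] at hn
  have hvd_le : R.qval.v d ≤ -1 := by
    rw [hn] at hvd_neg ⊢
    have : n < 0 := by exact_mod_cast hvd_neg
    have : n ≤ -1 := by omega
    exact_mod_cast this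
  -- `XN` is a proper subset of `XS`
  have hXS_card : XS.card = (p ^ 2 - 1) / 2 := card_xSet_eq (E⁄Qbar) hodd hpK hDP hcard
  have hXN_card : XN.card ≤ p := by
    have hinj : ∀ x : XN, ∃ T : NS, ∃ (y : Qbar) (h : (E⁄Qbar).Nonsingular x.1 y),
        (T : (E⁄Qbar).Point) = Point.some x.1 y h := by
      intro x
      obtain ⟨y, h, hT⟩ := (hmemXN x.1).1 x.2
      exact ⟨⟨_, hT⟩, y, h, rfl⟩
    choose f hf using hinj
    have hfinj : Function.Injective f := by
      intro x x' hxx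
      obtain ⟨y, h, e⟩ := hf x
      obtain ⟨y', h', e'⟩ := hf x'
      rw [hxx, e'] at e
      have := e
      simp only [Point.some.injEq] at this
      exact Subtype.ext this.1.symm
    have : Finite NS := hNS_fin.to_subtype
    have h1 := Nat.card_le_card_of_injective f hfinj
    rw [Nat.card_eq_fintype_card, Fintype.card_coe, _root_.Nat.card_coe_set_eq] at h1
    exact h1.trans hNS_card
  have hp3 : 3 ≤ p := by
    have := hp.two_le
    rcases hodd with ⟨k, rfl⟩
    omega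
  have hlt : XN.card < XS.card := by
    rw [hXS_card]
    have h2 := two_mul_half_add_one hodd (p := p)
    have h3 : 3 * p ≤ p ^ 2 := by rw [pow_two]; exact Nat.mul_le_mul_right p hp3
    omega
  have hdiff_ne : (XS \ XN).Nonempty := by
    rw [← Finset.card_pos, Finset.card_sdiff_of_subset hXN_sub]
    omega
  -- the total valuation
  have hprod_split : ∏ x ∈ XS, x = d * ∏ x ∈ XS \ XN, x := by
    rw [hd, mul_comm, Finset.prod_sdiff hXN_sub]
  have hrest0 : ∏ x ∈ XS \ XN, x ≠ 0 :=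
    Finset.prod_ne_zero_iff.2 fun x hx => (hXS_neg x (Finset.mem_sdiff.1 hx).1).1
  have hvrest : R.qval.v (∏ x ∈ XS \ XN, x) < 0 := by
    rw [qval_prod R.qval (XS \ XN) (fun x => x)
      fun x hx => (hXS_neg x (Finset.mem_sdiff.1 hx).1).1]
    exact Finset.sum_neg (fun x hx => (hXS_neg x (Finset.mem_sdiff.1 hx).1).2) hdiff_ne
  obtain ⟨c0, hc0⟩ := hc0
  have hev := eval_zero_preΨ' (E⁄Qbar) hodd hpK hDP hcard
  rw [hc0, ← hXS, hprod_split] at hev
  have hsign0 : ((-1 : Qbar)) ^ ((p ^ 2 - 1) / 2) ≠ 0 := pow_ne_zero _ (by norm_num)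
  have hvsign : R.qval.v (((-1 : Qbar)) ^ ((p ^ 2 - 1) / 2)) = 0 := by
    rw [R.qval.map_pow (by norm_num), R.qval.map_neg_one, mul_zero]
  have hrhs0 : (p : Qbar) * (-1) ^ ((p ^ 2 - 1) / 2) * (d * ∏ x ∈ XS \ XN, x) ≠ 0 :=
    mul_ne_zero (mul_ne_zero hpK hsign0) (mul_ne_zero hd0 hrest0)
  have hc00 : c0 ≠ 0 := by
    rintro rfl
    rw [Int.cast_zero] at hev
    exact hrhs0 hev.symm
  have hvc0 : 0 ≤ R.qval.v (c0 : Qbar) := by
    rw [R.val_intCast hp hc00]
    exact_mod_cast Nat.zero_le _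
  rw [hev, R.qval.map_mul (mul_ne_zero hpK hsign0) (mul_ne_zero hd0 hrest0),
    R.qval.map_mul hpK hsign0, R.qval.map_mul hd0 hrest0, hvsign, R.qval_c] at hvc0
  linarith

end Fermat.Agent.S13.AtPSSModel
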