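import Fermat.Agent.S13.AtPAbs
import Fermat.Agent.S13.AtPSSModel
import Fermat.Agent.S13.AtPGeoModel
import Fermat.Agent.Common_helper32.FrobeniusExists

/-!
# S13, local analysis at `p` (module LP)

For a valuation subring `A` of `Qbar` over `p` and a Galois-stable line `N` in the `p`-torsion of
the Frey curve, either the inertia group of `A` fixes `N` pointwise, or it acts trivially on the
quotient by `N`.

The only input which is not proved here is the key property of the division polynomial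
(`HDP`): a nonsingular point `(x, y)` is killed by `p` iff `preΨ'_p(x) = 0`.
-/

set_option autoImplicit false

open WeierstrassCurve WeierstrassCurve.Affine WeierstrassCurve.Affine.Point Polynomial

namespace Fermat.Agent.S13.AtP

open Fermat.Agent.S05 Fermat.Agent.S05.Endgame Fermat.Agent.S05.EndgameFinal
  Fermat.Agent.S13.Counting

/-- The key property of the `p`-th division polynomial for the curve `W`. -/
def HDP {K : Type*} [Field K] [DecidableEq K] (W : Affine K) (p : ℕ) : Prop :=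
  ∀ (x y : K) (h : W.Nonsingular x y),
    p • (Point.some x y h) = 0 ↔ (W.preΨ' p).eval x = 0

section Model

variable (α π : ℤ) (p : ℕ)

/-- the model curve has integral division polynomials. -/
theorem MW_eval_zero_preΨ' :
    ∃ c0 : ℤ, ((MW α π p).preΨ' p).eval 0 = (c0 : AlgebraicClosure ℚ) := by
  have e : MW α π p = (modelM ℤ α (π ^ p)).map (algebraMap ℤ (AlgebraicClosure ℚ)) := by
    unfold MW
    rw [modelM_map]
    change (modelM ℚ (α : ℚ) ((π : ℚ) ^ p)).map (algebraMap ℚ (AlgebraicClosure ℚ)) = _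
    rw [modelM_map]
    simp
  refine ⟨((modelM ℤ α (π ^ p)).preΨ' p).eval 0, ?_⟩
  rw [e, WeierstrassCurve.map_preΨ', Polynomial.eval_zero_map]
  simp

theorem MW_Δ_ne_zero (hπ0 : π ≠ 0) (hD : α ^ 2 - 4 * π ^ p ≠ 0) : (MW α π p).Δ ≠ 0 := by
  have e : MW α π p = modelM (AlgebraicClosure ℚ) (α : AlgebraicClosure ℚ)
      ((π : AlgebraicClosure ℚ) ^ p) := by
    unfold MW
    change (modelM ℚ (α : ℚ) ((π : ℚ) ^ p)).map (algebraMap ℚ (AlgebraicClosure ℚ)) = _
    rw [modelM_map]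
    simp
  rw [e, modelM_Δ]
  have h1 : ((π : AlgebraicClosure ℚ) ^ p) ≠ 0 := pow_ne_zero p (by exact_mod_cast hπ0)
  have h2 : ((α : AlgebraicClosure ℚ)) ^ 2 - 4 * (π : AlgebraicClosure ℚ) ^ p ≠ 0 := by
    have : ((α ^ 2 - 4 * π ^ p : ℤ) : AlgebraicClosure ℚ) ≠ 0 := by exact_mod_cast hD
    push_cast at this
    exact this
  exact mul_ne_zero (mul_ne_zero (by norm_num) (pow_ne_zero 2 h1)) h2

end Model


section Abstract

/-- a proper nonzero subgroup of a group of order `p ^ 2` has order `p`. -/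
theorem card_eq_of_ne_bot_of_ne_top {V : Type*} [AddCommGroup V] {p : ℕ} (hp : p.Prime)
    (hcardV : Nat.card V = p ^ 2) (N : AddSubgroup V) (hbot : N ≠ ⊥) (htop : N ≠ ⊤) :
    Nat.card N = p := by
  have : Finite V := Nat.finite_of_card_ne_zero (by rw [hcardV]; exact pow_ne_zero 2 hp.ne_zero)
  have hdvd : Nat.card N ∣ p ^ 2 := hcardV ▸ AddSubgroup.card_addSubgroup_dvd_card N
  obtain ⟨k, hk2, hk⟩ := (Nat.dvd_prime_pow hp).1 hdvd
  interval_cases k
  · exfalso
    apply hbot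
    rw [pow_zero] at hk
    exact AddSubgroup.card_eq_one.1 hk
  · rw [hk, pow_one]
  · exfalso
    apply htop
    rw [← AddSubgroup.card_eq_iff_eq_top, hk, hcardV]

end Abstract

section Core

variable {α π : ℤ} {p : ℕ}

theorem MW_integralB (α π : ℤ) (p : ℕ) (A : ValuationSubring (AlgebraicClosure ℚ)) :
    KR.IntegralB A (MW α π p) := by
  apply KR.integralB_of_a A (MW α π p)
  · rw [MW_a₁]; exact A.zero_mem
  · rw [MW_a₂]; exact intCast_mem A α
  · rw [MW_a₃]; exact A.zero_mem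
  · rw [MW_a₄]; exact pow_mem (intCast_mem A π) p
  · rw [MW_a₆]; exact A.zero_mem

theorem inE1_iff_kerRed (A : ValuationSubring (AlgebraicClosure ℚ)) (T : (MW α π p).Point) :
    InE1 A.valuation T ↔ KR.KerRed A (MW α π p) T := by
  rw [KR.kerRed_iff]
  unfold InE1
  simp only [one_lt_val_iff]

/-- the `p`-torsion module (prelude shape) of a curve over `ℚ`. -/
abbrev TorsQ (E : WeierstrassCurve ℚ) (p : ℕ) : Type :=
  Submodule.torsionBy ℤ (E⁄(AlgebraicClosure ℚ)).Point p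

theorem nsmul_eq_zero_of_mem {E : WeierstrassCurve ℚ} (x : TorsQ E p) :
    p • (x : (E⁄(AlgebraicClosure ℚ)).Point) = 0 := by
  have := (Submodule.mem_torsionBy_iff _ _).1 x.2
  rwa [natCast_zsmul] at this

theorem mem_torsQ_of_nsmul_eq_zero {E : WeierstrassCurve ℚ}
    {T : (E⁄(AlgebraicClosure ℚ)).Point} (hT : p • T = 0) :
    T ∈ Submodule.torsionBy ℤ (E⁄(AlgebraicClosure ℚ)).Point p := by
  rw [Submodule.mem_torsionBy_iff, natCast_zsmul]
  exact hT


/-- **LP on a curve `E = C • M(α, π^p)`.** -/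
theorem atP_model (hp : p.Prime) (hp2 : p ≠ 2) (hπ0 : π ≠ 0)
    (hcase : (¬ (p : ℤ) ∣ π ∧ ¬ (p : ℤ) ∣ α ^ 2 - 4 * π ^ p) ∨ ((p : ℤ) ∣ π ∧ ¬ (p : ℤ) ∣ α))
    (hDP : HDP (MW α π p) p)
    (E : WeierstrassCurve ℚ) (C : VariableChange ℚ)
    (hE : E = C • modelM ℚ (α : ℚ) ((π : ℚ) ^ p))
    (A : ValuationSubring (AlgebraicClosure ℚ)) (hA : A.LiesOverPrime p)
    (hcard : Nat.card (TorsQ E p) = p ^ 2)
    (N : Submodule (ZMod p) (TorsQ E p))
    (hstable : IsGaloisStable ℚ N) (hbot : N ≠ ⊥) (htop : N ≠ ⊤) :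
    (∀ σ ∈ A.inertiaSubgroupIn ℚ, ∀ x ∈ N, σ • x = x) ∨
      (∀ σ ∈ A.inertiaSubgroupIn ℚ, ∀ x : TorsQ E p, σ • x - x ∈ N) := by
  subst hE
  have hodd : Odd p := hp.odd_of_ne_two hp2
  have hfin : Finite (TorsQ (C • modelM ℚ (α : ℚ) ((π : ℚ) ^ p)) p) :=
    Nat.finite_of_card_ne_zero (by rw [hcard]; exact pow_ne_zero 2 hp.ne_zero)
  -- the transport to the model
  let e := vcBaseChangeEquiv (K := AlgebraicClosure ℚ) (modelM ℚ (α : ℚ) ((π : ℚ) ^ p)) C
  let φ : TorsQ (C • modelM ℚ (α : ℚ) ((π : ℚ) ^ p)) p →+ (MW α π p).Point :=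
    e.toAddMonoidHom.comp (Submodule.subtype _).toAddMonoidHom
  have hφ : ∀ x, φ x = e x.1 := fun x => rfl
  have hφ_inj : Function.Injective φ := by
    intro x x' h
    rw [hφ, hφ] at h
    exact Subtype.ext (e.injective h)
  have hφ_smul : ∀ (σ : AlgebraicClosure ℚ ≃ₐ[ℚ] AlgebraicClosure ℚ) x, φ (σ • x) = σ • φ x :=
    fun σ x => vcBaseChangeEquiv_smul (modelM ℚ (α : ℚ) ((π : ℚ) ^ p)) C σ x.1
  have hφ_tors : ∀ x, p • φ x = 0 := by
    intro x
    rw [hφ, ← map_nsmul, nsmul_eq_zero_of_mem x, _root_.map_zero]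
  -- the kernel of reduction
  have hB := MW_integralB α π p A
  let E1sub : AddSubgroup (MW α π p).Point := KR.kerRedSubgroup hB
  have hE1mem : ∀ T : (MW α π p).Point, T ∈ E1sub ↔ InE1 A.valuation T := fun T =>
    (inE1_iff_kerRed A T).symm
  let V₁ : AddSubgroup (TorsQ (C • modelM ℚ (α : ℚ) ((π : ℚ) ^ p)) p) := E1sub.comap φ
  have hV₁mem : ∀ x, x ∈ V₁ ↔ InE1 A.valuation (φ x) := fun x => hE1mem (φ x)
  -- the set of inertia elements
  let S : Set (TorsQ (C • modelM ℚ (α : ℚ) ((π : ℚ) ^ p)) p →+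
      TorsQ (C • modelM ℚ (α : ℚ) ((π : ℚ) ^ p)) p) :=
    {f | ∃ σ ∈ A.inertiaSubgroupIn ℚ, f = DistribSMul.toAddMonoidHom _ σ}
  have hcardN : Nat.card N.toAddSubgroup = p := by
    apply card_eq_of_ne_bot_of_ne_top hp hcard
    · intro h
      apply hbot
      rw [← Submodule.toAddSubgroup_inj, h]
      rfl
    · intro h
      apply htop
      rw [← Submodule.toAddSubgroup_inj, h]
      rfl
  have hSN : ∀ f ∈ S, ∀ x ∈ N.toAddSubgroup, f x ∈ N.toAddSubgroup := by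
    rintro f ⟨σ, hσ, rfl⟩ x hx
    exact hstable σ x hx
  have hSV₁ : ∀ f ∈ S, ∀ x ∈ V₁, f x ∈ V₁ := by
    rintro f ⟨σ, hσ, rfl⟩ x hx
    rw [hV₁mem] at hx ⊢
    change InE1 A.valuation (φ (σ • x))
    rw [hφ_smul]
    rcases hx with h0 | ⟨x₁, y₁, h₁, e₁, hx₁⟩
    · left
      rw [h0]
      rfl
    · right
      rw [e₁]
      refine ⟨σ x₁, σ y₁, _, rfl, ?_⟩
      rw [one_lt_val_iff] at hx₁ ⊢
      rwa [apply_mem_iff_of_mem_inertiaSubgroupIn hσ]
  have hS : ∀ f ∈ S, ∀ x, f (f x - x) - (f x - x) ∈ V₁ := by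
    rintro f ⟨σ, hσ, rfl⟩ x
    rw [hV₁mem]
    change InE1 A.valuation (φ (σ • (σ • x - x) - (σ • x - x)))
    rw [map_sub, hφ_smul, map_sub, hφ_smul]
    exact Fermat.Agent.S13.AtPGeoModel.sq_sub_one_mem_E1 hp hp2 hπ0 hcase A hA hσ (φ x) (hφ_tors x)
  -- exclusion of `V₁ = ⊤`
  have hV₁ : V₁ ≠ ⊤ := by
    intro htopV
    have hD : α ^ 2 - 4 * π ^ p ≠ 0 := by
      rcases hcase with hc | hc
      · intro h0
        exact hc.2 (h0 ▸ dvd_zero _)
      · intro h0
        have h1 : (p : ℤ) ∣ 4 * π ^ p := Dvd.dvd.mul_left (dvd_pow hc.1 hp.ne_zero) 4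
        have h2 : (p : ℤ) ∣ α ^ 2 := by
          have : α ^ 2 = 4 * π ^ p := by linarith
          rw [this]; exact h1
        exact hc.2 ((Nat.prime_iff_prime_int.1 hp).dvd_of_dvd_pow h2)
    -- cardinality of the torsion of the model
    have hcardT : Nat.card (Tors (MW α π p) p) = p ^ 2 := by
      rw [← hcard]
      symm
      refine Nat.card_congr
        { toFun := fun x => ⟨φ x, hφ_tors x⟩
          invFun := fun T => ⟨e.symm T.1, mem_torsQ_of_nsmul_eq_zero (by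
            rw [← map_nsmul, T.2, _root_.map_zero])⟩
          left_inv := fun x => Subtype.ext (e.symm_apply_apply x.1)
          right_inv := fun T => Subtype.ext (e.apply_symm_apply T.1) }
    have hall : ∀ (x y : AlgebraicClosure ℚ) (h : (MW α π p).Nonsingular x y),
        p • (Point.some x y h) = 0 → x ∉ A := by
      intro x y h hT
      have hz : e.symm (Point.some x y h) ∈
          Submodule.torsionBy ℤ ((C • modelM ℚ (α : ℚ) ((π : ℚ) ^ p))⁄(AlgebraicClosure ℚ)).Point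
            p :=
        mem_torsQ_of_nsmul_eq_zero (by rw [← map_nsmul, hT, _root_.map_zero])
      have hmem : (⟨_, hz⟩ : TorsQ (C • modelM ℚ (α : ℚ) ((π : ℚ) ^ p)) p) ∈ V₁ := by
        rw [htopV]; trivial
      rw [hV₁mem, hφ] at hmem
      change InE1 A.valuation (e (e.symm (Point.some x y h))) at hmem
      rw [e.apply_symm_apply] at hmem
      rcases hmem with h0 | ⟨x₁, y₁, h₁, e₁, hx₁⟩
      · exact absurd h0 (Point.some_ne_zero h)
      · have := e₁
        simp only [Point.some.injEq] at this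
        rw [this.1]
        exact (one_lt_val_iff A).1 hx₁
    -- the image of `N`
    let NS : Set (MW α π p).Point := φ '' (N : Set (TorsQ _ p))
    refine Fermat.Agent.S13.AtPSSModel.no_stable_line (modelM ℚ (α : ℚ) ((π : ℚ) ^ p)) hp hodd
      (MW_Δ_ne_zero α π p hπ0 hD) hDP hcardT (MW_eval_zero_preΨ' α π p) A hA hall NS ?_ ?_ ?_ ?_ ?_
    · rintro T ⟨x, -, rfl⟩
      exact hφ_tors x
    · rintro σ T ⟨x, hx, rfl⟩
      exact ⟨σ • x, hstable σ x hx, hφ_smul σ x⟩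
    · obtain ⟨x, hx, hx0⟩ := Submodule.exists_mem_ne_zero_of_ne_bot hbot
      refine ⟨φ x, ⟨x, hx, rfl⟩, fun h => hx0 (hφ_inj ?_)⟩
      rw [h, _root_.map_zero]
    · exact (Set.toFinite _).image φ
    · have h1 : NS.ncard ≤
          (N : Set (TorsQ (C • modelM ℚ (α : ℚ) ((π : ℚ) ^ p)) p)).ncard :=
        Set.ncard_image_le (Set.toFinite _)
      have h2 : (N : Set (TorsQ (C • modelM ℚ (α : ℚ) ((π : ℚ) ^ p)) p)).ncard = p :=
        (_root_.Nat.card_coe_set_eq _).symm.trans hcardN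
      omega
  rcases AtPAbs.trichotomy hp hcard N.toAddSubgroup V₁ hcardN hV₁ S hSN hSV₁ hS with h | h
  · left
    intro σ hσ x hx
    exact h _ ⟨σ, hσ, rfl⟩ x hx
  · right
    intro σ hσ x
    exact h _ ⟨σ, hσ, rfl⟩ x


theorem disc_ne_zero_of_case (hp : p.Prime)
    (hcase : (¬ (p : ℤ) ∣ π ∧ ¬ (p : ℤ) ∣ α ^ 2 - 4 * π ^ p) ∨ ((p : ℤ) ∣ π ∧ ¬ (p : ℤ) ∣ α)) :
    α ^ 2 - 4 * π ^ p ≠ 0 := by
  rcases hcase with hc | hc
  · intro h0
    exact hc.2 (h0 ▸ dvd_zero _)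
  · intro h0
    have h1 : (p : ℤ) ∣ 4 * π ^ p := Dvd.dvd.mul_left (dvd_pow hc.1 hp.ne_zero) 4
    have h2 : (p : ℤ) ∣ α ^ 2 := by
      have : α ^ 2 = 4 * π ^ p := by linarith
      rw [this]; exact h1
    exact hc.2 ((Nat.prime_iff_prime_int.1 hp).dvd_of_dvd_pow h2)

end Core

section Frey

/-- **LP for the Frey curve**, for every valuation subring over `p`, given the key property of
the `p`-th division polynomial for elliptic curves over `Qbar`. -/
theorem frey_at_p_of_key (P : FreyPackage)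
    (hkey : ∀ W : Affine (AlgebraicClosure ℚ), W.Δ ≠ 0 → HDP W P.p)
    (hcard : Nat.card (TorsQ P.freyCurve P.p) = P.p ^ 2)
    (A : ValuationSubring (AlgebraicClosure ℚ)) (hA : A.LiesOverPrime P.p)
    (N : Submodule (ZMod P.p) (TorsQ P.freyCurve P.p))
    (hstable : IsGaloisStable ℚ N) (hbot : N ≠ ⊥) (htop : N ≠ ⊤) :
    (∀ σ ∈ A.inertiaSubgroupIn ℚ, ∀ x ∈ N, σ • x = x) ∨
      (∀ σ ∈ A.inertiaSubgroupIn ℚ, ∀ x : TorsQ P.freyCurve P.p, σ • x - x ∈ N) := by
  obtain ⟨α, π, r, hπ0, hC, hcase⟩ := frey_model_nz P P.pp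
  have hp2 : P.p ≠ 2 := by have := P.hp5; omega
  have hD := disc_ne_zero_of_case P.pp hcase
  exact atP_model P.pp hp2 hπ0 hcase (hkey _ (MW_Δ_ne_zero α π P.p hπ0 hD)) P.freyCurve
    (freyChange r) hC A hA hcard N hstable hbot htop

/-- **LP for the Frey curve**, skeleton shape. -/
theorem frey_at_p_exists_of_key (P : FreyPackage)
    (hkey : ∀ W : Affine (AlgebraicClosure ℚ), W.Δ ≠ 0 → HDP W P.p)
    (hcard : Nat.card (TorsQ P.freyCurve P.p) = P.p ^ 2) :
    ∃ A : ValuationSubring (AlgebraicClosure ℚ), A.LiesOverPrime P.p ∧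
      ∀ N : Submodule (ZMod P.p) (TorsQ P.freyCurve P.p), IsGaloisStable ℚ N → N ≠ ⊥ → N ≠ ⊤ →
        (∀ σ ∈ A.inertiaSubgroupIn ℚ, ∀ x ∈ N, σ • x = x) ∨
        (∀ σ ∈ A.inertiaSubgroupIn ℚ, ∀ x : TorsQ P.freyCurve P.p, σ • x - x ∈ N) := by
  obtain ⟨A, hA⟩ := Fermat.Agent.Common_helper32.exists_liesOverPrime P.p P.pp
  exact ⟨A, hA, fun N hstable hbot htop =>
    frey_at_p_of_key P hkey hcard A hA N hstable hbot htop⟩

end Frey

end Fermat.Agent.S13.AtP
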