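import Fermat.Agent.S13.AtTwoFrey
import Fermat.Agent.Common_helper32.FrobeniusExists

/-!
# S13, module L2b: the Frey curve has no Galois-fixed point of order `p`

A nonzero `p`-torsion point `T` fixed by the whole Galois group has rational coordinates; so do
`2T` and `3T`.  At a valuation subring over `2` such points lie on the identity component and
reduce to one of the two points `(1, 0)`, `(1, 1)`; two of the three distinct points `T, 2T, 3T`
therefore have the same reduction, which is impossible for torsion of odd order.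
-/

set_option autoImplicit false
set_option linter.unusedSectionVars false
set_option linter.unusedVariables false

open WeierstrassCurve WeierstrassCurve.Affine

namespace Fermat.Agent.S13.AtTwo

open Fermat.Agent.S05 Fermat.Agent.S51_helper12
open WeierstrassCurve.Affine.Point

section Pigeon

variable {K : Type*} [Field K] {A : ValuationSubring K}

theorem sub_mem_of_same_class {a b : K}
    (h : (a ∈ A.nonunits ∧ b ∈ A.nonunits) ∨ (a - 1 ∈ A.nonunits ∧ b - 1 ∈ A.nonunits)) :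
    a - b ∈ A.nonunits := by
  rcases h with ⟨ha, hb⟩ | ⟨ha, hb⟩
  · exact SameRed.nu_sub A ha hb
  · have : a - b = (a - 1) - (b - 1) := by ring
    rw [this]
    exact SameRed.nu_sub A ha hb

theorem pigeon_three {a b c : K} (ha : a ∈ A.nonunits ∨ a - 1 ∈ A.nonunits)
    (hb : b ∈ A.nonunits ∨ b - 1 ∈ A.nonunits) (hc : c ∈ A.nonunits ∨ c - 1 ∈ A.nonunits) :
    a - b ∈ A.nonunits ∨ a - c ∈ A.nonunits ∨ b - c ∈ A.nonunits := by
  rcases ha with ha | ha <;> rcases hb with hb | hb <;> rcases hc with hc | hc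
  · exact Or.inl (sub_mem_of_same_class (Or.inl ⟨ha, hb⟩))
  · exact Or.inl (sub_mem_of_same_class (Or.inl ⟨ha, hb⟩))
  · exact Or.inr (Or.inl (sub_mem_of_same_class (Or.inl ⟨ha, hc⟩)))
  · exact Or.inr (Or.inr (sub_mem_of_same_class (Or.inr ⟨hb, hc⟩)))
  · exact Or.inr (Or.inr (sub_mem_of_same_class (Or.inl ⟨hb, hc⟩)))
  · exact Or.inr (Or.inl (sub_mem_of_same_class (Or.inr ⟨ha, hc⟩)))
  · exact Or.inl (sub_mem_of_same_class (Or.inr ⟨ha, hb⟩))
  · exact Or.inl (sub_mem_of_same_class (Or.inr ⟨ha, hb⟩))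

end Pigeon

section Fixed

variable (P : FreyPackage) (A : ValuationSubring Qbar) (hA : A.LiesOverPrime 2)

/-- "good" points: affine points whose coordinates reduce to `(1, 0)` or `(1, 1)`. -/
def Good (T : ((P.freyCurve : Affine ℚ)⁄Qbar).Point) : Prop :=
  ∃ (x y : Qbar) (h : ((P.freyCurve : Affine ℚ)⁄Qbar).Nonsingular x y), T = Point.some x y h ∧
    x ∈ A ∧ x - 1 ∈ A.nonunits ∧ y ∈ A ∧ (y ∈ A.nonunits ∨ y - 1 ∈ A.nonunits)

theorem coprime_nsmul_eq_zero {G : Type*} [AddGroup G] {T : G} {n p : ℕ} (hnp : Nat.Coprime n p)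
    (hn : n • T = 0) (hp : p • T = 0) : T = 0 := by
  have h1 := addOrderOf_dvd_of_nsmul_eq_zero hn
  have h2 := addOrderOf_dvd_of_nsmul_eq_zero hp
  have h3 := Nat.dvd_gcd h1 h2
  rw [hnp] at h3
  exact AddMonoid.addOrderOf_eq_one_iff.mp (Nat.dvd_one.mp h3)

include hA

/-- A nonzero `p`-torsion point fixed by the whole Galois group is good. -/
theorem good_of_fixed (T : ((P.freyCurve : Affine ℚ)⁄Qbar).Point) (hT0 : T ≠ 0)
    (hT : P.p • T = 0) (hfix : ∀ σ : GalQ, σ • T = T) : Good P A T := by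
  have H := nodeModel_frey (K := Qbar) P A hA
  have hn := p_notMem_nonunits P A hA
  rcases T with _ | ⟨x, y, h⟩
  · exact absurd rfl hT0
  · have hxy : ∀ σ : GalQ, σ x = x ∧ σ y = y := by
      intro σ
      obtain ⟨h', e⟩ := smul_some P.freyCurve σ h
      have := (hfix σ)
      rw [e] at this
      simpa using this
    obtain ⟨qx, hqx⟩ := mem_range_of_fixed x (fun σ => (hxy σ).1)
    obtain ⟨qy, hqy⟩ := mem_range_of_fixed y (fun σ => (hxy σ).2)
    have hx : x ∈ A := KR.x_mem_of_nsmul_eq_zero H.integralB hn h hT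
    have hy : y ∈ A := KR.y_mem_of_x_mem H.integralCoeffs.a₁ H.integralCoeffs.a₂
      H.integralCoeffs.a₃ H.integralCoeffs.a₄ H.integralCoeffs.a₆ h.1 hx
    subst hqx
    subst hqy
    have hxu := rational_x_notMem_nonunits (c2Hyp_frey P A hA) qx _ h hT
    refine ⟨_, _, h, rfl, hx, ?_, hy, rat_mem_cases hA qy hy⟩
    rcases rat_mem_cases hA qx hx with h1 | h1
    · exact absurd h1 hxu
    · exact h1

/-- Two good `p`-torsion points with the same reduction are equal. -/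
theorem eq_of_good {T₁ T₂ : ((P.freyCurve : Affine ℚ)⁄Qbar).Point}
    (h₁ : P.p • T₁ = 0) (h₂ : P.p • T₂ = 0)
    {x₁ y₁ x₂ y₂ : Qbar} {hn₁ : ((P.freyCurve : Affine ℚ)⁄Qbar).Nonsingular x₁ y₁}
    {hn₂ : ((P.freyCurve : Affine ℚ)⁄Qbar).Nonsingular x₂ y₂}
    (e₁ : T₁ = Point.some x₁ y₁ hn₁) (e₂ : T₂ = Point.some x₂ y₂ hn₂)
    (hx₁ : x₁ ∈ A) (hx₁' : x₁ - 1 ∈ A.nonunits) (hx₂ : x₂ ∈ A) (hx₂' : x₂ - 1 ∈ A.nonunits)
    (hy : y₁ - y₂ ∈ A.nonunits) : T₁ = T₂ := by
  have H := nodeModel_frey (K := Qbar) P A hA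
  have hn := p_notMem_nonunits P A hA
  have hxu : x₁ ∉ A.nonunits := by
    intro hm
    have h1 : (1 : Qbar) ∈ A.nonunits := by
      have : (1 : Qbar) = x₁ - (x₁ - 1) := by ring
      rw [this]
      exact SameRed.nu_sub A hm hx₁'
    exact (ValuationSubring.mem_nonunits_iff A).1 h1 |>.ne (by simp)
  have hx : x₁ - x₂ ∈ A.nonunits := by
    have : x₁ - x₂ = (x₁ - 1) - (x₂ - 1) := by ring
    rw [this]
    exact SameRed.nu_sub A hx₁' hx₂'
  have hker := inKerRed_sub H.integralCoeffs hn₁ hn₂ hx₁ hx₂ hx hy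
    (H.nonsingularRed hn₁.1 hx₁ hxu)
  have htors : P.p • (T₁ - T₂) = 0 := by rw [nsmul_sub, h₁, h₂, sub_zero]
  rw [← e₁, ← e₂] at hker
  have := KR.eq_zero_of_nsmul_eq_zero_of_x_notMem H.integralB hn _ htors
    ((inKerRed_iff _).1 hker)
  exact sub_eq_zero.mp this

/-- **(L2b), on points.** A `p`-torsion point of the Frey curve fixed by the whole Galois group
is zero. -/
theorem frey_no_fixed_point_aux (T : ((P.freyCurve : Affine ℚ)⁄Qbar).Point)
    (hT : P.p • T = 0) (hfix : ∀ σ : GalQ, σ • T = T) : T = 0 := by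
  by_contra hT0
  have h5 := P.hp5
  have hc2 : Nat.Coprime 2 P.p := (Nat.coprime_primes Nat.prime_two P.pp).2 (by omega)
  have hc3 : Nat.Coprime 3 P.p := (Nat.coprime_primes Nat.prime_three P.pp).2 (by omega)
  have h2T0 : 2 • T ≠ 0 := fun h => hT0 (coprime_nsmul_eq_zero hc2 h hT)
  have h3T0 : 3 • T ≠ 0 := fun h => hT0 (coprime_nsmul_eq_zero hc3 h hT)
  have h2T : P.p • (2 • T) = 0 := by rw [smul_comm, hT, nsmul_zero]
  have h3T : P.p • (3 • T) = 0 := by rw [smul_comm, hT, nsmul_zero]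
  have hfix2 : ∀ σ : GalQ, σ • (2 • T) = 2 • T := fun σ => by
    rw [smul_nsmul_point, hfix σ]
  have hfix3 : ∀ σ : GalQ, σ • (3 • T) = 3 • T := fun σ => by
    rw [smul_nsmul_point, hfix σ]
  have h12 : T ≠ 2 • T := by
    intro h
    apply hT0
    have : 2 • T - T = T := by rw [two_nsmul, add_sub_cancel_right]
    rw [← this, ← h, sub_self]
  have h13 : T ≠ 3 • T := by
    intro h
    apply h2T0
    have : 3 • T - T = 2 • T := by
      rw [show (3 : ℕ) = 2 + 1 from rfl, add_nsmul, one_nsmul, add_sub_cancel_right]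
    rw [← this, ← h, sub_self]
  have h23 : 2 • T ≠ 3 • T := by
    intro h
    apply hT0
    have : 3 • T - 2 • T = T := by
      rw [show (3 : ℕ) = 2 + 1 from rfl, add_nsmul, one_nsmul, add_sub_cancel_left]
    rw [← this, ← h, sub_self]
  obtain ⟨x₁, y₁, n₁, e₁, hx₁, hx₁', hy₁, hc₁⟩ := good_of_fixed P A hA T hT0 hT hfix
  obtain ⟨x₂, y₂, n₂, e₂, hx₂, hx₂', hy₂, hc₂⟩ := good_of_fixed P A hA (2 • T) h2T0 h2T hfix2
  obtain ⟨x₃, y₃, n₃, e₃, hx₃, hx₃', hy₃, hc₃⟩ := good_of_fixed P A hA (3 • T) h3T0 h3T hfix3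
  rcases pigeon_three hc₁ hc₂ hc₃ with h | h | h
  · exact h12 (eq_of_good P A hA hT h2T e₁ e₂ hx₁ hx₁' hx₂ hx₂' h)
  · exact h13 (eq_of_good P A hA hT h3T e₁ e₃ hx₁ hx₁' hx₃ hx₃' h)
  · exact h23 (eq_of_good P A hA h2T h3T e₂ e₃ hx₂ hx₂' hx₃ hx₃' h)

end Fixed

/-- **(L2b).** No nonzero element of the `p`-torsion of the Frey curve is fixed by the whole
Galois group. -/
theorem frey_no_fixed_point (P : FreyPackage) (x : Tors P.freyCurve P.p)
    (hx : ∀ σ : GalQ, σ • x = x) : x = 0 := by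
  obtain ⟨A, hA⟩ := Fermat.Agent.Common_helper32.exists_liesOverPrime 2 Nat.prime_two
  apply Subtype.ext
  refine frey_no_fixed_point_aux P A hA x (nsmul_coe_tors P x) fun σ => ?_
  have := congrArg Subtype.val (hx σ)
  exact this

end Fermat.Agent.S13.AtTwo
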