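/-
# S13 (T13), module AS part 1: linear algebra of lines in a 2-dimensional `ZMod p`-module.

Pure Mathlib, no curve theory.  `V` is a `ZMod p`-module with at most `p²` elements and `N` a
proper nonzero submodule ("a line").
-/
import Mathlib

set_option autoImplicit false

namespace Fermat.Agent.S13.LineAlg

open Module

variable {p : ℕ} [Fact p.Prime] {V : Type*} [AddCommGroup V] [Module (ZMod p) V]

/-- At most `p²` elements: dimension at most two. -/
theorem finrank_le_two [Finite V] (h : Nat.card V ≤ p ^ 2) : finrank (ZMod p) V ≤ 2 := by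
  have h1 : Nat.card V = Nat.card (ZMod p) ^ finrank (ZMod p) V := Module.natCard_eq_pow_finrank
  rw [Nat.card_zmod] at h1
  rw [h1] at h
  exact (Nat.pow_le_pow_iff_right (Fact.out : p.Prime).one_lt).1 h

/-- A proper nonzero submodule of a module with at most `p²` elements has dimension one, and the
module has dimension two. -/
theorem finrank_of_proper [Finite V] (h : Nat.card V ≤ p ^ 2) (N : Submodule (ZMod p) V)
    (hbot : N ≠ ⊥) (htop : N ≠ ⊤) :
    finrank (ZMod p) N = 1 ∧ finrank (ZMod p) V = 2 := by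
  have h2 := finrank_le_two h
  have h3 : finrank (ZMod p) N < finrank (ZMod p) V := Submodule.finrank_lt htop
  have h4 : 1 ≤ finrank (ZMod p) N := Submodule.one_le_finrank_iff.2 hbot
  omega

theorem card_of_proper [Finite V] (h : Nat.card V ≤ p ^ 2) (N : Submodule (ZMod p) V)
    (hbot : N ≠ ⊥) (htop : N ≠ ⊤) : Nat.card N = p ∧ Nat.card V = p ^ 2 := by
  obtain ⟨h1, h2⟩ := finrank_of_proper h N hbot htop
  have e1 : Nat.card N = Nat.card (ZMod p) ^ finrank (ZMod p) N := Module.natCard_eq_pow_finrank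
  have e2 : Nat.card V = Nat.card (ZMod p) ^ finrank (ZMod p) V := Module.natCard_eq_pow_finrank
  rw [Nat.card_zmod] at e1 e2
  rw [e1, e2, h1, h2, pow_one]
  exact ⟨rfl, rfl⟩

/-- A line is generated by any of its nonzero elements. -/
theorem exists_smul_eq_of_mem [Finite V] (h : Nat.card V ≤ p ^ 2) (N : Submodule (ZMod p) V)
    (hbot : N ≠ ⊥) (htop : N ≠ ⊤) {e : V} (he : e ∈ N) (he0 : e ≠ 0) {x : V} (hx : x ∈ N) :
    ∃ c : ZMod p, x = c • e := by
  obtain ⟨h1, -⟩ := finrank_of_proper h N hbot htop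
  have he0' : (⟨e, he⟩ : N) ≠ 0 := fun hh => he0 (congrArg Subtype.val hh)
  obtain ⟨c, hc⟩ := (finrank_eq_one_iff_of_nonzero' (⟨e, he⟩ : N) he0').1 h1 ⟨x, hx⟩
  exact ⟨c, (congrArg Subtype.val hc).symm⟩

/-- A line has a nonzero element. -/
theorem exists_mem_ne_zero (N : Submodule (ZMod p) V) (hbot : N ≠ ⊥) : ∃ e ∈ N, e ≠ 0 := by
  by_contra hcon
  push Not at hcon
  exact hbot ((Submodule.eq_bot_iff N).2 hcon)

/-- A proper submodule misses some element. -/
theorem exists_notMem (N : Submodule (ZMod p) V) (htop : N ≠ ⊤) : ∃ x : V, x ∉ N := by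
  by_contra hcon
  push Not at hcon
  exact htop ((Submodule.eq_top_iff').2 hcon)

/-- Complement decomposition: if `x ∉ N` then every element of `V` is `n + a • x` with `n ∈ N`. -/
theorem exists_decomp [Finite V] (h : Nat.card V ≤ p ^ 2) (N : Submodule (ZMod p) V)
    (hbot : N ≠ ⊥) (htop : N ≠ ⊤) {x : V} (hx : x ∉ N) (v : V) :
    ∃ n ∈ N, ∃ a : ZMod p, v = n + a • x := by
  obtain ⟨h1, h2⟩ := finrank_of_proper h N hbot htop
  have hlt : N < N ⊔ Submodule.span (ZMod p) {x} := by
    refine lt_of_le_of_ne le_sup_left ?_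
    intro heq
    apply hx
    rw [heq]
    exact Submodule.mem_sup_right (Submodule.subset_span rfl)
  have h3 : finrank (ZMod p) N < finrank (ZMod p) ↥(N ⊔ Submodule.span (ZMod p) {x}) :=
    Submodule.finrank_lt_finrank_of_lt hlt
  have h4 : N ⊔ Submodule.span (ZMod p) {x} = ⊤ := by
    by_contra hne
    have h5 : finrank (ZMod p) ↥(N ⊔ Submodule.span (ZMod p) {x}) < finrank (ZMod p) V :=
      Submodule.finrank_lt hne
    omega
  have hv : v ∈ N ⊔ Submodule.span (ZMod p) {x} := by rw [h4]; trivial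
  obtain ⟨n, hn, y, hy, rfl⟩ := Submodule.mem_sup.1 hv
  obtain ⟨a, rfl⟩ := Submodule.mem_span_singleton.1 hy
  exact ⟨n, hn, a, rfl⟩

/-- Two distinct lines meet trivially. -/
theorem inf_eq_bot_of_ne [Finite V] (h : Nat.card V ≤ p ^ 2) (N N' : Submodule (ZMod p) V)
    (hbot : N ≠ ⊥) (htop : N ≠ ⊤) (hbot' : N' ≠ ⊥) (htop' : N' ≠ ⊤) (hne : N ≠ N') :
    N ⊓ N' = ⊥ := by
  by_contra hcon
  obtain ⟨e, he, he0⟩ := exists_mem_ne_zero (N ⊓ N') hcon
  apply hne
  apply le_antisymm
  · intro x hx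
    obtain ⟨c, rfl⟩ := exists_smul_eq_of_mem h N hbot htop he.1 he0 hx
    exact N'.smul_mem c he.2
  · intro x hx
    obtain ⟨c, rfl⟩ := exists_smul_eq_of_mem h N' hbot' htop' he.2 he0 hx
    exact N.smul_mem c he.1

/-- **Unipotent lemma.** An additive endomorphism `s` of `V` preserving the line `N` and with
`(s - 1)² = 0` fixes `N` pointwise and acts trivially on `V ⧸ N`. -/
theorem unipotent_trivial [Finite V] (h : Nat.card V ≤ p ^ 2) (N : Submodule (ZMod p) V)
    (hbot : N ≠ ⊥) (htop : N ≠ ⊤) (s : V →+ V) (hs : ∀ x ∈ N, s x ∈ N)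
    (hu : ∀ x, s (s x - x) = s x - x) :
    (∀ x ∈ N, s x = x) ∧ ∀ x, s x - x ∈ N := by
  have hlin : ∀ (c : ZMod p) (x : V), s (c • x) = c • s x := fun c x =>
    (AddMonoidHom.toZModLinearMap p s).map_smul c x
  have hfix : ∀ x ∈ N, s x = x := by
    obtain ⟨e, he, he0⟩ := exists_mem_ne_zero N hbot
    obtain ⟨c, hc⟩ := exists_smul_eq_of_mem h N hbot htop he he0 (hs e he)
    have h1 := hu e
    rw [hc] at h1
    have h2 : c • e - e = (c - 1) • e := by rw [sub_smul, one_smul]
    rw [h2, hlin, hc, smul_smul] at h1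
    have h3 : ((c - 1) * c - (c - 1)) • e = 0 := by rw [sub_smul, h1, sub_self]
    have h4 : (c - 1) * c - (c - 1) = 0 := by
      rcases smul_eq_zero.1 h3 with h | h
      · exact h
      · exact absurd h he0
    have h5 : (c - 1) * (c - 1) = 0 := by linear_combination h4
    have h6 : c = 1 := by
      rcases mul_self_eq_zero.1 h5 with h
      exact sub_eq_zero.1 h
    have hse : s e = e := by rw [hc, h6, one_smul]
    intro x hx
    obtain ⟨d, rfl⟩ := exists_smul_eq_of_mem h N hbot htop he he0 hx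
    rw [hlin, hse]
  refine ⟨hfix, ?_⟩
  intro x
  by_cases hxN : x ∈ N
  · rw [hfix x hxN, sub_self]; exact N.zero_mem
  obtain ⟨n, hn, d, hd⟩ := exists_decomp h N hbot htop hxN (s x - x)
  -- s (n + d x) = n + d x, and s n = n, so d (s x - x) = 0
  have h1 := hu x
  rw [hd, map_add, hfix n hn, hlin] at h1
  have h2 : d • (s x - x) = 0 := by
    have : d • s x = d • x := add_left_cancel h1
    rw [smul_sub, this, sub_self]
  rcases smul_eq_zero.1 h2 with h0 | h0
  · rw [hd, h0, zero_smul, add_zero]; exact hn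
  · rw [h0]; exact N.zero_mem

end Fermat.Agent.S13.LineAlg
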