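/-
# S13 (T13), module AS: assembly.

`V = E[p](ℚ̄)`, `G = Gal(ℚ̄/ℚ)`.  For a `G`-stable line `N ⊂ V` we introduce the two normal open
subgroups `fixer N` (acting trivially on `N`) and `cofixer N` (acting trivially on `V ⧸ N`), and
show that the local statements (S05 away from `2p`, unipotence at `2`, the trichotomy at `p`),
the global lemma GL and the absence of rational `p`-torsion give the cofixed line.
-/
import Mathlib
import Fermat.Prelude.Def_FLTPrelim_CofixedLine
import Fermat.Prelude.Def_FLTPrelim_Ramification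
import Fermat.Agent.S13.LineAlg

set_option autoImplicit false

namespace Fermat.Agent.S13.Assembly

open WeierstrassCurve WeierstrassCurve.Affine WeierstrassCurve.Affine.Point

/-! ### Abstract part: the two subgroups attached to a stable subgroup -/

section Abstract

variable {G V : Type*} [Group G] [AddCommGroup V] [DistribMulAction G V]

/-- Elements of `G` fixing `N` pointwise. -/
def fixer (N : AddSubgroup V) : Subgroup G where
  carrier := {σ | ∀ x ∈ N, σ • x = x}
  one_mem' := fun x _ => one_smul _ x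
  mul_mem' := by
    intro a b ha hb x hx
    rw [mul_smul, hb x hx, ha x hx]
  inv_mem' := by
    intro a ha x hx
    rw [inv_smul_eq_iff]
    exact (ha x hx).symm

/-- Elements of `G` acting trivially on `V ⧸ N`. -/
def cofixer (N : AddSubgroup V) : Subgroup G where
  carrier := {σ | ∀ x, σ • x - x ∈ N}
  one_mem' := fun x => by rw [one_smul, sub_self]; exact N.zero_mem
  mul_mem' := by
    intro a b ha hb x
    have h : (a * b) • x - x = (a • (b • x) - b • x) + (b • x - x) := by
      rw [mul_smul]; abel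
    rw [h]
    exact N.add_mem (ha _) (hb _)
  inv_mem' := by
    intro a ha x
    have h : a⁻¹ • x - x = -(a • (a⁻¹ • x) - a⁻¹ • x) := by
      rw [smul_inv_smul]; abel
    rw [h]
    exact N.neg_mem (ha _)

theorem mem_fixer {N : AddSubgroup V} {σ : G} : σ ∈ fixer (G := G) N ↔ ∀ x ∈ N, σ • x = x :=
  Iff.rfl

theorem mem_cofixer {N : AddSubgroup V} {σ : G} :
    σ ∈ cofixer (G := G) N ↔ ∀ x, σ • x - x ∈ N :=
  Iff.rfl

theorem fixer_normal (N : AddSubgroup V) (hN : ∀ σ : G, ∀ x ∈ N, σ • x ∈ N) :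
    (fixer (G := G) N).Normal := by
  constructor
  intro s hs g x hx
  rw [mul_smul, mul_smul, hs _ (hN g⁻¹ x hx), smul_inv_smul]

theorem cofixer_normal (N : AddSubgroup V) (hN : ∀ σ : G, ∀ x ∈ N, σ • x ∈ N) :
    (cofixer (G := G) N).Normal := by
  constructor
  intro s hs g x
  have h : (g * s * g⁻¹) • x - x = g • (s • (g⁻¹ • x) - g⁻¹ • x) := by
    rw [mul_smul, mul_smul, smul_sub, smul_inv_smul]
  rw [h]
  exact hN g _ (hs _)

/-- The kernel of the action is contained in both. -/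
theorem le_fixer_of_trivial (N : AddSubgroup V) {H : Subgroup G}
    (hH : ∀ σ ∈ H, ∀ x : V, σ • x = x) : H ≤ fixer N :=
  fun σ hσ x _ => hH σ hσ x

theorem le_cofixer_of_trivial (N : AddSubgroup V) {H : Subgroup G}
    (hH : ∀ σ ∈ H, ∀ x : V, σ • x = x) : H ≤ cofixer N :=
  fun σ hσ x => by rw [hH σ hσ x, sub_self]; exact N.zero_mem

end Abstract

/-! ### The Galois action on points of a Weierstrass curve over `ℚ̄` -/

/-- `ℚ̄`. -/
noncomputable abbrev Qb := AlgebraicClosure ℚ

/-- `Gal(ℚ̄/ℚ)`. -/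
noncomputable abbrev GQ := (AlgebraicClosure ℚ ≃ₐ[ℚ] AlgebraicClosure ℚ)

theorem isAlgebraic_Qb : Algebra.IsAlgebraic ℚ (AlgebraicClosure ℚ) := by
  have h := AlgebraicClosure.isAlgebraic ℚ
  have e : (DivisionRing.toRatAlgebra : Algebra ℚ (AlgebraicClosure ℚ)) =
      AlgebraicClosure.instAlgebra ℚ := rfl
  rw [← e] at h
  exact h

theorem isAlgClosure_Qb : IsAlgClosure ℚ (AlgebraicClosure ℚ) :=
  haveI := isAlgebraic_Qb
  ⟨inferInstance, inferInstance⟩

theorem isGalois_Qb : IsGalois ℚ (AlgebraicClosure ℚ) :=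
  haveI := isAlgClosure_Qb
  IsAlgClosure.isGalois ℚ (AlgebraicClosure ℚ)

section Points

variable (E : WeierstrassCurve ℚ)

/-- Every point of `E(ℚ̄)` is fixed by an open subgroup of `Gal(ℚ̄/ℚ)`. -/
theorem exists_open_subgroup_fixing (x : (E⁄Qb).Point) :
    ∃ U : Subgroup GQ, IsOpen (U : Set GQ) ∧ ∀ σ ∈ U, σ • x = x := by
  rcases x with _ | ⟨x₀, y₀, h⟩
  · exact ⟨⊤, isOpen_univ, fun σ _ => rfl⟩
  · have := isAlgebraic_Qb
    have hint : ∀ z ∈ ({x₀, y₀} : Set Qb), IsIntegral ℚ z := fun z _ =>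
      (Algebra.IsAlgebraic.isAlgebraic z).isIntegral
    have : FiniteDimensional ℚ (IntermediateField.adjoin ℚ ({x₀, y₀} : Set Qb)) :=
      IntermediateField.finiteDimensional_adjoin hint
    refine ⟨(IntermediateField.adjoin ℚ ({x₀, y₀} : Set Qb)).fixingSubgroup,
      IntermediateField.fixingSubgroup_isOpen _, ?_⟩
    intro σ hσ
    rw [IntermediateField.mem_fixingSubgroup_iff] at hσ
    have hx : σ x₀ = x₀ := hσ x₀ (IntermediateField.subset_adjoin _ _ (by simp))
    have hy : σ y₀ = y₀ := hσ y₀ (IntermediateField.subset_adjoin _ _ (by simp))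
    change Point.map σ.toAlgHom (Point.some x₀ y₀ h) = _
    rw [Point.map_some]
    congr 1

/-- The kernel of the action on a finite stable set of points is open. -/
theorem exists_open_subgroup_fixing_torsion (p : ℕ)
    [Finite (Submodule.torsionBy ℤ (E⁄Qb).Point p)] :
    ∃ U : Subgroup GQ, IsOpen (U : Set GQ) ∧
      ∀ σ ∈ U, ∀ x : Submodule.torsionBy ℤ (E⁄Qb).Point p, σ • x = x := by
  choose U hU hfix using fun x : Submodule.torsionBy ℤ (E⁄Qb).Point p =>
    exists_open_subgroup_fixing E (x : (E⁄Qb).Point)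
  refine ⟨⨅ x, U x, ?_, ?_⟩
  · rw [Subgroup.coe_iInf]
    exact isOpen_iInter_of_finite hU
  · intro σ hσ x
    apply Subtype.ext
    exact hfix x σ ((Subgroup.mem_iInf.1 hσ) x)

/-- A point fixed by all of `Gal(ℚ̄/ℚ)` is rational. -/
theorem exists_rat_point_of_fixed (x : (E⁄Qb).Point) (hx : ∀ σ : GQ, σ • x = x) :
    ∃ Q : (E⁄ℚ).Point, Point.map (W' := E) (Algebra.ofId ℚ Qb) Q = x := by
  rcases x with _ | ⟨x₀, y₀, h⟩
  · exact ⟨0, _root_.map_zero (Point.map (W' := E) (Algebra.ofId ℚ Qb))⟩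
  · have hx₀ : ∀ σ : GQ, σ x₀ = x₀ := by
      intro σ
      have := hx σ
      change Point.map σ.toAlgHom (Point.some x₀ y₀ h) = _ at this
      rw [Point.map_some] at this
      exact (Point.some.inj this).1
    have hy₀ : ∀ σ : GQ, σ y₀ = y₀ := by
      intro σ
      have := hx σ
      change Point.map σ.toAlgHom (Point.some x₀ y₀ h) = _ at this
      rw [Point.map_some] at this
      exact (Point.some.inj this).2
    have : IsGalois ℚ Qb := isGalois_Qb
    obtain ⟨a, ha⟩ := (InfiniteGalois.mem_range_algebraMap_iff_fixed x₀).2 hx₀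
    obtain ⟨b, hb⟩ := (InfiniteGalois.mem_range_algebraMap_iff_fixed y₀).2 hy₀
    have hns : (E⁄ℚ).toAffine.Nonsingular a b := by
      rw [← baseChange_nonsingular (W := E) (f := Algebra.ofId ℚ Qb)
        (Algebra.ofId ℚ Qb).toRingHom.injective]
      convert h using 1
      · exact ha
      · exact hb
    refine ⟨Point.some a b hns, ?_⟩
    rw [Point.map_some]
    congr 1

end Points

/-! ### The assembly theorem -/

section Final

variable (P : FreyPackage)

/-- The `p`-torsion module of the Frey curve. -/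
abbrev VV : Type := Submodule.torsionBy ℤ (P.freyCurve⁄Qb).Point P.p

/-- **AS: assembly.**  All module interfaces (DP5, L2, LP, GL, S05, existence of valuation
subrings over primes) are explicit hypotheses in the shapes of `Skeleton.lean`. -/
theorem assembly_of
    (hnontriv : Nontrivial (VV P)) (hfin : Finite (VV P))
    (hcard : Nat.card (VV P) ≤ P.p ^ 2)
    (h2 : ∀ A : ValuationSubring Qb, A.LiesOverPrime 2 → ∀ σ : GQ,
      σ ∈ A.inertiaSubgroupIn ℚ → ∀ x : VV P, σ • (σ • x - x) = σ • x - x)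
    (hfix : ∀ x : VV P, (∀ σ : GQ, σ • x = x) → x = 0)
    (hp : Nat.card (VV P) = P.p ^ 2 →
      ∃ A : ValuationSubring Qb, A.LiesOverPrime P.p ∧
        ∀ N : Submodule (ZMod P.p) (VV P), IsGaloisStable ℚ N → N ≠ ⊥ → N ≠ ⊤ →
          (∀ σ ∈ A.inertiaSubgroupIn ℚ, ∀ x ∈ N, σ • x = x) ∨
          (∀ σ ∈ A.inertiaSubgroupIn ℚ, ∀ x : VV P, σ • x - x ∈ N))
    (hglobal : ∀ H : Subgroup GQ, H.Normal → IsOpen (H : Set GQ) →
      (∀ l : ℕ, l.Prime → ∃ A : ValuationSubring Qb, A.LiesOverPrime l ∧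
        A.inertiaSubgroupIn ℚ ≤ H) → H = ⊤)
    (hS05 : ∀ q : ℕ, q.Prime → q ≠ 2 → q ≠ P.p → P.GaloisRepUnramifiedAt q)
    (hex : ∀ l : ℕ, l.Prime → ∃ A : ValuationSubring Qb, A.LiesOverPrime l)
    (hred : ¬ GaloisRepIsIrreducible (K := AlgebraicClosure ℚ) ℚ P.freyCurve P.p) :
    HasGaloisStableCofixedLine (K := AlgebraicClosure ℚ) ℚ P.freyCurve P.p := by
  have : Fact P.p.Prime := ⟨P.pp⟩
  -- a stable line
  obtain ⟨N, hstab, hbot, htop⟩ : ∃ N : Submodule (ZMod P.p) (VV P),
      IsGaloisStable ℚ N ∧ N ≠ ⊥ ∧ N ≠ ⊤ := by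
    by_contra hcon
    apply hred
    refine ⟨hnontriv, fun N hN => ?_⟩
    by_contra hN'
    rw [not_or] at hN'
    exact hcon ⟨N, hN, hN'.1, hN'.2⟩
  have hcardeq : Nat.card (VV P) = P.p ^ 2 := (LineAlg.card_of_proper hcard N hbot htop).2
  obtain ⟨Ap, hAp, hpN⟩ := hp hcardeq
  have hpN := hpN N hstab hbot htop
  -- the two subgroups
  have hstab' : ∀ σ : GQ, ∀ x ∈ N.toAddSubgroup, σ • x ∈ N.toAddSubgroup := fun σ x hx =>
    hstab σ x hx
  have hn1 : (fixer (G := GQ) N.toAddSubgroup).Normal := fixer_normal _ hstab'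
  have hn2 : (cofixer (G := GQ) N.toAddSubgroup).Normal := cofixer_normal _ hstab'
  obtain ⟨U, hUopen, hU⟩ := exists_open_subgroup_fixing_torsion P.freyCurve P.p
  have ho1 : IsOpen ((fixer (G := GQ) N.toAddSubgroup : Subgroup GQ) : Set GQ) :=
    Subgroup.isOpen_mono (le_fixer_of_trivial _ hU) hUopen
  have ho2 : IsOpen ((cofixer (G := GQ) N.toAddSubgroup : Subgroup GQ) : Set GQ) :=
    Subgroup.isOpen_mono (le_cofixer_of_trivial _ hU) hUopen
  -- local conditions away from p
  have hloc : ∀ l : ℕ, l.Prime → l ≠ P.p → ∃ A : ValuationSubring Qb, A.LiesOverPrime l ∧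
      A.inertiaSubgroupIn ℚ ≤ fixer (G := GQ) N.toAddSubgroup ∧
      A.inertiaSubgroupIn ℚ ≤ cofixer (G := GQ) N.toAddSubgroup := by
    intro l hl hlp
    obtain ⟨A, hA⟩ := hex l hl
    refine ⟨A, hA, ?_⟩
    by_cases hl2 : l = 2
    · subst hl2
      have key : ∀ σ ∈ A.inertiaSubgroupIn ℚ,
          (∀ x ∈ N, σ • x = x) ∧ ∀ x : VV P, σ • x - x ∈ N := by
        intro σ hσ
        exact LineAlg.unipotent_trivial hcard N hbot htop
          (DistribSMul.toAddMonoidHom (VV P) σ) (fun x hx => hstab σ x hx)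
          (fun x => h2 A hA σ hσ x)
      exact ⟨fun σ hσ => (key σ hσ).1, fun σ hσ => (key σ hσ).2⟩
    · have hunr := hS05 l hl hl2 hlp A hA
      exact ⟨le_fixer_of_trivial _ hunr, le_cofixer_of_trivial _ hunr⟩
  rcases hpN with hcase | hcase
  · -- inertia at p fixes N pointwise: then everything does, contradiction
    exfalso
    have htop1 : fixer (G := GQ) N.toAddSubgroup = ⊤ := by
      apply hglobal _ hn1 ho1
      intro l hl
      by_cases hlp : l = P.p
      · subst hlp
        exact ⟨Ap, hAp, fun σ hσ => hcase σ hσ⟩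
      · obtain ⟨A, hA, h1, -⟩ := hloc l hl hlp
        exact ⟨A, hA, h1⟩
    obtain ⟨e, he, he0⟩ := LineAlg.exists_mem_ne_zero N hbot
    apply he0
    apply hfix e
    intro σ
    have hσ : σ ∈ fixer (G := GQ) N.toAddSubgroup := by rw [htop1]; trivial
    exact hσ e he
  · have htop2 : cofixer (G := GQ) N.toAddSubgroup = ⊤ := by
      apply hglobal _ hn2 ho2
      intro l hl
      by_cases hlp : l = P.p
      · subst hlp
        exact ⟨Ap, hAp, fun σ hσ => hcase σ hσ⟩
      · obtain ⟨A, hA, -, h2'⟩ := hloc l hl hlp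
        exact ⟨A, hA, h2'⟩
    refine ⟨N, hstab, hbot, htop, fun σ x => ?_⟩
    have hσ : σ ∈ cofixer (G := GQ) N.toAddSubgroup := by rw [htop2]; trivial
    exact hσ x

end Final

end Fermat.Agent.S13.Assembly
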