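import Fermat.Agent.S13.AtTwo
import Fermat.Agent.S05.RankOne
import Fermat.Agent.S13.ComponentsGen
import Fermat.Agent.S13.BranchInertia

/-!
# S13, module L2 (continued): the Frey curve at the prime `2`

* `frey_unipotent_at_two`: the inertia group of a valuation subring of `ℚ̄` over `2` acts
  unipotently on the `p`-torsion of the Frey curve;
* `frey_no_fixed_point`: no nonzero `p`-torsion point of the Frey curve is fixed by the whole
  Galois group.
-/

set_option autoImplicit false
set_option linter.unusedSectionVars false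
set_option linter.unusedVariables false

open WeierstrassCurve WeierstrassCurve.Affine

namespace Fermat.Agent.S13.AtTwo

open Fermat.Agent.S05

section Arith2

/-- the arithmetic heart of (O1): `p·k = 2·n·j`, `0 < k < n`, `n + 4 = p·β` is impossible for an
odd prime `p`. -/
theorem no_small_component {p : ℕ} (hp : p.Prime) (hp2 : p ≠ 2) {k n j β : ℤ}
    (h : (p : ℤ) * k = 2 * n * j) (hk0 : 0 < k) (hkn : k < n) (hn : n + 4 = p * β) : False := by
  have hpZ : Prime (p : ℤ) := Nat.prime_iff_prime_int.mp hp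
  have hdvd : (p : ℤ) ∣ 2 * n * j := ⟨k, h.symm⟩
  have hnot : ¬ (p : ℤ) ∣ 2 * n := by
    intro h2n
    have h8 : (p : ℤ) ∣ 8 := by
      have : (8 : ℤ) = 2 * (p * β) - 2 * n := by rw [← hn]; ring
      rw [this]
      exact dvd_sub (Dvd.dvd.mul_left (dvd_mul_right _ _) _) h2n
    have h8' : p ∣ 8 := by exact_mod_cast h8
    have : p ∣ 2 ^ 3 := by norm_num; exact h8'
    have := (Nat.prime_dvd_prime_iff_eq hp Nat.prime_two).mp (hp.dvd_of_dvd_pow this)
    exact hp2 this
  rcases hpZ.dvd_or_dvd hdvd with h1 | ⟨j', rfl⟩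
  · exact hnot h1
  · have hp0 : (p : ℤ) ≠ 0 := by exact_mod_cast hp.ne_zero
    have hk : k = 2 * n * j' := by
      apply mul_left_cancel₀ hp0
      rw [h]; ring
    have hn0 : 0 < n := lt_trans hk0 hkn
    rcases le_or_gt j' 0 with hj | hj
    · have : 2 * n * j' ≤ 0 := mul_nonpos_of_nonneg_of_nonpos (by linarith) hj
      linarith
    · have : 2 * n * 1 ≤ 2 * n * j' := mul_le_mul_of_nonneg_left (by linarith) (by linarith)
      linarith

end Arith2

section Rational

variable {K : Type*} [Field K] [Algebra ℚ K] {A : ValuationSubring K}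

/-- A rational element of a valuation subring over `2` is congruent to `0` or `1`. -/
theorem rat_mem_cases (hA : A.LiesOverPrime 2) (q : ℚ) (hx : algebraMap ℚ K q ∈ A) :
    algebraMap ℚ K q ∈ A.nonunits ∨ algebraMap ℚ K q - 1 ∈ A.nonunits := by
  have hchar : CharZero K := algebraRat.charZero K
  have hden0 : (q.den : K) ≠ 0 := by exact_mod_cast q.den_nz
  have hq : algebraMap ℚ K q = (q.num : K) / (q.den : K) := by
    conv_lhs => rw [← Rat.num_div_den q]
    simp
  have hmul : algebraMap ℚ K q * (q.den : K) = (q.num : K) := by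
    rw [hq]; field_simp
  have hden : ¬ 2 ∣ q.den := by
    intro h2
    have hdm : (q.den : K) ∈ A.nonunits := (natCast_mem_nonunits_iff Nat.prime_two hA _).2 h2
    have hnm : (q.num : K) ∈ A.nonunits := by
      rw [← hmul]; exact KR.mem_mul_nu A hx hdm
    have h2n : ((2 : ℕ) : ℤ) ∣ q.num := (intCast_mem_nonunits_iff Nat.prime_two hA _).1 hnm
    have hcop := q.reduced
    have h2abs : 2 ∣ q.num.natAbs := by
      have := Int.natAbs_dvd_natAbs.mpr h2n
      simpa using this
    have := Nat.dvd_gcd h2abs h2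
    rw [hcop] at this
    norm_num at this
  have hdinv : ((q.den : K))⁻¹ ∈ A := natCast_inv_mem_of_not_dvd Nat.prime_two hA hden
  by_cases hnum : ((2 : ℕ) : ℤ) ∣ q.num
  · left
    rw [hq, div_eq_mul_inv]
    exact KR.nu_mul_mem A ((intCast_mem_nonunits_iff Nat.prime_two hA _).2 hnum) hdinv
  · right
    have e : algebraMap ℚ K q - 1 = ((q.num - q.den : ℤ) : K) * ((q.den : K))⁻¹ := by
      rw [hq]; push_cast; field_simp
    rw [e]
    refine KR.nu_mul_mem A ((intCast_mem_nonunits_iff Nat.prime_two hA _).2 ?_) hdinv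
    have h1 : ¬ (2 : ℤ) ∣ q.num := by simpa using hnum
    have h2 : ¬ (2 : ℤ) ∣ (q.den : ℤ) := by
      intro h; apply hden; exact_mod_cast h
    have : (2 : ℤ) ∣ q.num - (q.den : ℤ) := by omega
    exact_mod_cast this

variable [Algebra.IsAlgebraic ℚ K]

/-- The normalised `2`-adic valuation of a nonzero rational element is an integer. -/
theorem qval_rat_int (hA : A.LiesOverPrime 2) (q : ℚ) (hq0 : q ≠ 0) :
    ∃ k : ℤ, (RankOne.qvalOfSubring A Nat.prime_two hA).v (algebraMap ℚ K q) = k := by
  have hchar : CharZero K := algebraRat.charZero K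
  have hden0 : (q.den : K) ≠ 0 := by exact_mod_cast q.den_nz
  have hnum0 : (q.num : K) ≠ 0 := by exact_mod_cast (Rat.num_ne_zero.mpr hq0)
  have hq : algebraMap ℚ K q = (q.num : K) / (q.den : K) := by
    conv_lhs => rw [← Rat.num_div_den q]
    simp
  refine ⟨(padicValInt 2 q.num : ℤ) - (padicValNat 2 q.den : ℤ), ?_⟩
  rw [hq, (RankOne.qvalOfSubring A Nat.prime_two hA).map_div hnum0 hden0,
    RankOne.qvalOfSubring_intCast A Nat.prime_two hA (Rat.num_ne_zero.mpr hq0),
    RankOne.qvalOfSubring_natCast A Nat.prime_two hA q.den_nz]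
  simp only [Int.cast_sub, Int.cast_natCast]

end Rational

end Fermat.Agent.S13.AtTwo

namespace Fermat.Agent.S13.AtTwo

open Fermat.Agent.S05 Fermat.Agent.S51_helper12
open WeierstrassCurve.Affine.Point

section NoFixed

/-- The input from the component theory (module C2), in the language of the normalised
`ℚ`-valued valuation attached to `A`. -/
def C2Hyp (P : FreyPackage) (A : ValuationSubring Qbar) (hA : A.LiesOverPrime 2) : Prop :=
  ∀ (x y : Qbar) (h : ((P.freyCurve : Affine ℚ)⁄Qbar).Nonsingular x y),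
    P.p • (Point.some x y h : ((P.freyCurve : Affine ℚ)⁄Qbar).Point) = 0 → x ∈ A.nonunits →
    x ≠ 0 ∧
    (RankOne.qvalOfSubring A Nat.prime_two hA).v x <
      (RankOne.qvalOfSubring A Nat.prime_two hA).v ((P.freyCurve).baseChange Qbar).a₄ ∧
    ∃ j : ℤ, (P.p : ℚ) * (RankOne.qvalOfSubring A Nat.prime_two hA).v x =
      2 * (RankOne.qvalOfSubring A Nat.prime_two hA).v ((P.freyCurve).baseChange Qbar).a₄ * j

theorem p_notMem_nonunits (P : FreyPackage) (A : ValuationSubring Qbar)
    (hA : A.LiesOverPrime 2) : ((P.p : ℕ) : Qbar) ∉ A.nonunits := by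
  rw [natCast_mem_nonunits_iff Nat.prime_two hA]
  intro h
  have := (Nat.prime_dvd_prime_iff_eq Nat.prime_two P.pp).mp h
  have h5 := P.hp5
  omega

variable {P : FreyPackage} {A : ValuationSubring Qbar} {hA : A.LiesOverPrime 2}

/-- A `p`-torsion point of the Frey curve with rational `x`-coordinate lies on the identity
component at `2`. -/
theorem rational_x_notMem_nonunits (hC2 : C2Hyp P A hA) (q : ℚ) (y : Qbar)
    (h : ((P.freyCurve : Affine ℚ)⁄Qbar).Nonsingular (algebraMap ℚ Qbar q) y)
    (hT : P.p • (Point.some _ y h : ((P.freyCurve : Affine ℚ)⁄Qbar).Point) = 0) :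
    algebraMap ℚ Qbar q ∉ A.nonunits := by
  intro hm
  obtain ⟨hx0, hlt, j, hj⟩ := hC2 _ y h hT hm
  have hq0 : q ≠ 0 := by
    rintro rfl
    exact hx0 (map_zero _)
  obtain ⟨k, hk⟩ := qval_rat_int hA q hq0
  have hpos := (RankOne.qvalOfSubring_pos_iff A Nat.prime_two hA hx0).2 hm
  have ha4 : (RankOne.qvalOfSubring A Nat.prime_two hA).v ((P.freyCurve).baseChange Qbar).a₄ =
      ((padicValInt 2 (A4 P) : ℤ) : ℚ) := by
    rw [baseChange_a₄, RankOne.qvalOfSubring_intCast A Nat.prime_two hA (A4_ne_zero P)]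
    simp
  rw [hk, ha4] at hlt hj
  rw [hk] at hpos
  have hk0 : 0 < k := by exact_mod_cast hpos
  have hkn : k < (padicValInt 2 (A4 P) : ℤ) := by exact_mod_cast hlt
  have hj' : (P.p : ℤ) * k = 2 * (padicValInt 2 (A4 P) : ℤ) * j := by exact_mod_cast hj
  have hp2 : P.p ≠ 2 := by have := P.hp5; omega
  exact no_small_component P.pp hp2 hj' hk0 hkn (padicValInt_A4 P)

end NoFixed

section C2

variable (P : FreyPackage) (A : ValuationSubring Qbar) (hA : A.LiesOverPrime 2)

theorem qval_a₄ : (RankOne.qvalOfSubring A Nat.prime_two hA).v ((P.freyCurve).baseChange Qbar).a₄ =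
    ((padicValInt 2 (A4 P) : ℤ) : ℚ) := by
  rw [baseChange_a₄, RankOne.qvalOfSubring_intCast A Nat.prime_two hA (A4_ne_zero P)]
  simp

theorem odd_b₂ : ¬ (2 : ℤ) ∣ 1 + 4 * A2 P := by
  intro h
  omega

/-- The Frey curve satisfies the hypotheses of the component theory at `2`. -/
theorem nodeDataG_frey :
    ComponentsGen.NodeDataG (RankOne.qvalOfSubring A Nat.prime_two hA)
      ((P.freyCurve : Affine ℚ)⁄Qbar) where
  a₃ := baseChange_a₃ P
  a₆ := baseChange_a₆ P
  two_ne := two_ne_zero
  v_two := by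
    have h := RankOne.qvalOfSubring_q A Nat.prime_two hA
    have e : ((2 : ℕ) : Qbar) = 2 := by norm_num
    rw [e] at h
    rw [h]
    norm_num
  b₂_ne := by
    change ((P.freyCurve).baseChange Qbar).b₂ ≠ 0
    rw [baseChange_b₂]
    have : (1 + 4 * A2 P : ℤ) ≠ 0 := by
      intro h
      exact odd_b₂ P ⟨0, by omega⟩
    exact_mod_cast this
  v_b₂ := by
    change (RankOne.qvalOfSubring A Nat.prime_two hA).v ((P.freyCurve).baseChange Qbar).b₂ = 0
    have hne : (1 + 4 * A2 P : ℤ) ≠ 0 := by
      intro h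
      exact odd_b₂ P ⟨0, by omega⟩
    rw [baseChange_b₂, RankOne.qvalOfSubring_intCast A Nat.prime_two hA hne,
      padicValInt.eq_zero_of_not_dvd (by exact_mod_cast odd_b₂ P)]
    simp
  b_ne := (nodeModel_frey P A hA).a₄_ne
  v_b := by
    change 0 < (RankOne.qvalOfSubring A Nat.prime_two hA).v ((P.freyCurve).baseChange Qbar).a₄
    exact (RankOne.qvalOfSubring_pos_iff A Nat.prime_two hA (nodeModel_frey P A hA).a₄_ne).2
      (nodeModel_frey P A hA).a₄

/-- The component-theory input (C2) holds for the Frey curve at `2`. -/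
theorem c2Hyp_frey : C2Hyp P A hA := by
  intro x y h hT hxm
  have D := nodeDataG_frey P A hA
  set ν := RankOne.qvalOfSubring A Nat.prime_two hA with hν
  have hodd : Odd P.p := P.hp_odd
  have hne := D.compVal_ne_of_odd _ P.p hodd hT
  rw [compVal_some] at hne
  have hx0 : x ≠ 0 := by
    rintro rfl
    exact hne (cv_zero ν _)
  have hpos : 0 < ν.v x := (RankOne.qvalOfSubring_pos_iff A Nat.prime_two hA hx0).2 hxm
  have hlt : ν.v x < ν.v ((P.freyCurve : Affine ℚ)⁄Qbar).a₄ := by
    by_contra hge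
    push Not at hge
    apply hne
    rw [cv_of_ne ν _ hx0, min_eq_right hge, max_eq_right D.v_b.le]
  refine ⟨hx0, hlt, ?_⟩
  exact D.torsion_v_x h P.p hT hx0 hpos.le hlt.le

end C2

section Unipotent

variable (P : FreyPackage) (A : ValuationSubring Qbar)

theorem nsmul_coe_tors (x : Tors P.freyCurve P.p) :
    P.p • (x : ((P.freyCurve : Affine ℚ)⁄Qbar).Point) = 0 := by
  have h := x.2
  rw [Submodule.mem_torsionBy_iff] at h
  rw [← natCast_zsmul]
  exact h

variable (hA : A.LiesOverPrime 2)
include hA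

/-- **(L2a), on points.** The inertia group at `2` acts unipotently on the `p`-torsion points of
the Frey curve. -/
theorem frey_unipotent_point {σ : GalQ} (hσ : σ ∈ A.inertiaSubgroupIn ℚ)
    (T : ((P.freyCurve : Affine ℚ)⁄Qbar).Point) (hT : P.p • T = 0) :
    σ • (σ • T - T) = σ • T - T := by
  have H := nodeModel_frey (K := Qbar) P A hA
  refine inertia_unipotent_of (R := ℚ) (S := ℚ) (P.freyCurve : Affine ℚ) H hσ
    (p_notMem_nonunits P A hA) ?_ ?_ T hT
  · intro x y h hT hxm
    obtain ⟨hx0, hlt, -⟩ := c2Hyp_frey P A hA x y h hT hxm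
    refine ⟨hx0, ?_⟩
    have ha : ((P.freyCurve).baseChange Qbar).a₄ ≠ 0 := H.a₄_ne
    rw [← RankOne.qvalOfSubring_pos_iff A Nat.prime_two hA (div_ne_zero ha hx0),
      QVal.map_div _ ha hx0]
    linarith
  · intro x y h hxm hx0 hax
    have hb2 : ((P.freyCurve).baseChange Qbar).b₂ ∈ A := by
      rw [baseChange_b₂]
      exact intCast_mem_valuationSubring A _
    exact Branch.branch_step_inertia A Nat.prime_two hA (P.freyCurve : Affine ℚ) H.a₃ H.a₆ H.a₁
      H.a₂ hb2 H.b₂ hσ h hx0 hxm hax

/-- **(L2a).** The inertia group at `2` acts unipotently on the `p`-torsion of the Frey curve. -/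
theorem frey_unipotent_at_two (σ : GalQ) (hσ : σ ∈ A.inertiaSubgroupIn ℚ)
    (x : Tors P.freyCurve P.p) : σ • (σ • x - x) = σ • x - x := by
  apply Subtype.ext
  exact frey_unipotent_point P A hA hσ x (nsmul_coe_tors P x)

end Unipotent

end Fermat.Agent.S13.AtTwo
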