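import Mathlib

/-!
# T13 / DP5: counting `p`-torsion points from the division polynomial

Abstract input (output of DP1–DP4):
`hDP : ∀ x y h, p • (Point.some x y h) = 0 ↔ (W.preΨ' p).eval x = 0`.

Output: a nonzero `p`-torsion point exists (over an algebraically closed field), the `p`-torsion
is finite with at most `p ^ 2` elements, and if it has exactly `p ^ 2` elements then
`preΨ' p = C p * ∏ (X - C x)` over the (pairwise distinct) `x`-coordinates of the nonzero
`p`-torsion points.
-/

set_option autoImplicit false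
set_option linter.unusedSectionVars false

open Polynomial

namespace Fermat.Agent.S13.Counting

open WeierstrassCurve

variable {K : Type*} [Field K] [DecidableEq K] (W : Affine K) (p : ℕ)

/-- The quadratic polynomial in `y` whose roots are the `y` with `(x, y)` on `W`. -/
noncomputable def yPoly (x : K) : K[X] :=
  X ^ 2 + C (W.a₁ * x + W.a₃) * X - C (x ^ 3 + W.a₂ * x ^ 2 + W.a₄ * x + W.a₆)

theorem yPoly_natDegree (x : K) : (yPoly W x).natDegree = 2 := by
  unfold yPoly
  compute_degree!

theorem yPoly_ne_zero (x : K) : yPoly W x ≠ 0 := by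
  intro h
  have := yPoly_natDegree W x
  rw [h, natDegree_zero] at this
  exact absurd this (by norm_num)

theorem isRoot_yPoly_iff (x y : K) : (yPoly W x).IsRoot y ↔ W.Equation x y := by
  rw [Affine.equation_iff, IsRoot.def, yPoly]
  simp only [eval_sub, eval_add, eval_pow, eval_X, eval_mul, eval_C]
  constructor <;> intro h <;> linear_combination h

/-- The finite set of `y` with `(x, y)` on `W`. -/
noncomputable def ySet (x : K) : Finset K := (yPoly W x).roots.toFinset

theorem mem_ySet_iff (x y : K) : y ∈ ySet W x ↔ W.Equation x y := by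
  rw [ySet, Multiset.mem_toFinset, mem_roots (yPoly_ne_zero W x), isRoot_yPoly_iff]

theorem card_ySet_le (x : K) : (ySet W x).card ≤ 2 := by
  refine (Multiset.toFinset_card_le _).trans ?_
  exact (card_roots' _).trans (yPoly_natDegree W x).le

theorem exists_equation [IsAlgClosed K] (x : K) : ∃ y, W.Equation x y := by
  have hdeg : (yPoly W x).degree ≠ 0 := by
    rw [degree_eq_natDegree (yPoly_ne_zero W x), yPoly_natDegree]
    norm_num
  obtain ⟨y, hy⟩ := IsAlgClosed.exists_root (yPoly W x) hdeg
  exact ⟨y, (isRoot_yPoly_iff W x y).mp hy⟩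

/-- The finite set of roots of the `p`-th division polynomial. -/
noncomputable def xSet : Finset K := (W.preΨ' p).roots.toFinset

section Degree

variable {p} (hodd : Odd p) (hpK : (p : K) ≠ 0)
include hodd hpK

theorem natDegree_preΨ'_of_odd : (W.preΨ' p).natDegree = (p ^ 2 - 1) / 2 := by
  rw [W.natDegree_preΨ' hpK, if_neg (Nat.not_even_iff_odd.mpr hodd)]

theorem leadingCoeff_preΨ'_of_odd : (W.preΨ' p).leadingCoeff = (p : K) := by
  rw [W.leadingCoeff_preΨ' hpK, if_neg (Nat.not_even_iff_odd.mpr hodd)]

theorem preΨ'_ne_zero_of_odd : W.preΨ' p ≠ 0 := W.preΨ'_ne_zero hpK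

theorem mem_xSet_iff (x : K) : x ∈ xSet W p ↔ (W.preΨ' p).eval x = 0 := by
  rw [xSet, Multiset.mem_toFinset, mem_roots (preΨ'_ne_zero_of_odd W hodd hpK), IsRoot.def]

theorem card_xSet_le : (xSet W p).card ≤ (p ^ 2 - 1) / 2 := by
  refine (Multiset.toFinset_card_le _).trans ?_
  exact (card_roots' _).trans (natDegree_preΨ'_of_odd W hodd hpK).le

end Degree

/-- `2 * ((p ^ 2 - 1) / 2) + 1 = p ^ 2` for odd `p`. -/
theorem two_mul_half_add_one {p : ℕ} (hodd : Odd p) : 2 * ((p ^ 2 - 1) / 2) + 1 = p ^ 2 := by
  obtain ⟨k, rfl⟩ := hodd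
  have h1 : (2 * k + 1) ^ 2 - 1 = 2 * (2 * k * (k + 1)) := by
    have : (2 * k + 1) ^ 2 = 2 * (2 * k * (k + 1)) + 1 := by ring
    omega
  rw [h1, Nat.mul_div_cancel_left _ (by norm_num : 0 < 2)]
  ring

/-- The `p`-torsion points, as a subtype. -/
abbrev Tors : Type _ := {P : W.Point // p • P = 0}

/-- Coordinates of a point (`none` for the point at infinity). -/
def coords : W.Point → Option (K × K)
  | .zero => none
  | .some x y _ => some (x, y)

theorem coords_injective : Function.Injective (coords W) := by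
  intro P Q h
  cases P with
  | zero =>
    cases Q with
    | zero => rfl
    | some x y hxy => simp [coords] at h
  | some x y hxy =>
    cases Q with
    | zero => simp [coords] at h
    | some x' y' hxy' =>
      simp only [coords, Option.some.injEq, Prod.mk.injEq] at h
      obtain ⟨rfl, rfl⟩ := h
      rfl

/-- The finite set of all possible coordinates of `p`-torsion points. -/
noncomputable def coordSet : Finset (Option (K × K)) :=
  insert none (((xSet W p).sigma fun x => ySet W x).image fun s => some (s.1, s.2))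

theorem card_coordSet_le {p : ℕ} (hodd : Odd p) (hpK : (p : K) ≠ 0) :
    (coordSet W p).card ≤ p ^ 2 := by
  have h1 : ((xSet W p).sigma fun x => ySet W x).card ≤ 2 * (xSet W p).card := by
    rw [Finset.card_sigma, mul_comm]
    exact Finset.sum_le_card_nsmul _ _ 2 fun x _ => card_ySet_le W x
  calc (coordSet W p).card
      ≤ (((xSet W p).sigma fun x => ySet W x).image fun s => some (s.1, s.2)).card + 1 :=
        Finset.card_insert_le _ _
    _ ≤ ((xSet W p).sigma fun x => ySet W x).card + 1 :=
        Nat.add_le_add_right Finset.card_image_le 1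
    _ ≤ 2 * (xSet W p).card + 1 := Nat.add_le_add_right h1 1
    _ ≤ 2 * ((p ^ 2 - 1) / 2) + 1 :=
        Nat.add_le_add_right (Nat.mul_le_mul_left 2 (card_xSet_le W hodd hpK)) 1
    _ = p ^ 2 := two_mul_half_add_one hodd

section Main

variable {p} (hodd : Odd p) (hpK : (p : K) ≠ 0)
  (hDP : ∀ (x y : K) (h : W.Nonsingular x y),
    p • (Affine.Point.some x y h) = 0 ↔ (W.preΨ' p).eval x = 0)
include hodd hpK hDP

theorem coords_mem_coordSet (P : Tors W p) : coords W P.1 ∈ coordSet W p := by
  obtain ⟨P, hP⟩ := P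
  cases P with
  | zero => exact Finset.mem_insert_self _ _
  | some x y hxy =>
    refine Finset.mem_insert_of_mem (Finset.mem_image.mpr ⟨⟨x, y⟩, ?_, rfl⟩)
    rw [Finset.mem_sigma]
    exact ⟨(mem_xSet_iff W hodd hpK x).mpr ((hDP x y hxy).mp hP),
      (mem_ySet_iff W x y).mpr hxy.1⟩

/-- The `p`-torsion is finite. -/
theorem finite_tors : Finite (Tors W p) := by
  refine Finite.of_injective
    (fun P : Tors W p => (⟨coords W P.1, coords_mem_coordSet W hodd hpK hDP P⟩ : coordSet W p)) ?_
  intro P Q h
  exact Subtype.ext (coords_injective W (congrArg Subtype.val h))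

/-- The `p`-torsion has at most `p ^ 2` elements. -/
theorem card_tors_le : Nat.card (Tors W p) ≤ p ^ 2 := by
  have hinj : Function.Injective
      (fun P : Tors W p =>
        (⟨coords W P.1, coords_mem_coordSet W hodd hpK hDP P⟩ : coordSet W p)) := by
    intro P Q h
    exact Subtype.ext (coords_injective W (congrArg Subtype.val h))
  have h1 := Nat.card_le_card_of_injective _ hinj
  rw [Nat.card_eq_fintype_card (α := ↥(coordSet W p)), Fintype.card_coe] at h1
  exact h1.trans (card_coordSet_le W hodd hpK)

/-- Over an algebraically closed field there is a nonzero `p`-torsion point. -/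
theorem exists_ne_zero_torsion [IsAlgClosed K] (hΔ : W.Δ ≠ 0) (h2 : 2 < p) :
    ∃ P : W.Point, P ≠ 0 ∧ p • P = 0 := by
  have hdeg : (W.preΨ' p).degree ≠ 0 := by
    rw [degree_eq_natDegree (preΨ'_ne_zero_of_odd W hodd hpK)]
    have := W.natDegree_preΨ'_pos h2 hpK
    exact_mod_cast this.ne'
  obtain ⟨x, hx⟩ := IsAlgClosed.exists_root (W.preΨ' p) hdeg
  obtain ⟨y, hy⟩ := exists_equation W x
  have hns : W.Nonsingular x y := (Affine.equation_iff_nonsingular_of_Δ_ne_zero hΔ).mp hy
  exact ⟨Affine.Point.some x y hns, Affine.Point.some_ne_zero hns, (hDP x y hns).mpr hx⟩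

/-- A root of the division polynomial is the `x`-coordinate of a nonzero torsion point. -/
theorem mem_xSet_iff_exists [IsAlgClosed K] (hΔ : W.Δ ≠ 0) (x : K) :
    x ∈ xSet W p ↔ ∃ (y : K) (h : W.Nonsingular x y), p • (Affine.Point.some x y h) = 0 := by
  rw [mem_xSet_iff W hodd hpK]
  constructor
  · intro hx
    obtain ⟨y, hy⟩ := exists_equation W x
    have hns : W.Nonsingular x y := (Affine.equation_iff_nonsingular_of_Δ_ne_zero hΔ).mp hy
    exact ⟨y, hns, (hDP x y hns).mpr hx⟩
  · rintro ⟨y, h, hP⟩
    exact (hDP x y h).mp hP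

/-- If the `p`-torsion has exactly `p ^ 2` elements, the division polynomial has
`(p ^ 2 - 1) / 2` distinct roots. -/
theorem card_xSet_eq (hcard : Nat.card (Tors W p) = p ^ 2) :
    (xSet W p).card = (p ^ 2 - 1) / 2 := by
  refine le_antisymm (card_xSet_le W hodd hpK) ?_
  have hinj : Function.Injective
      (fun P : Tors W p =>
        (⟨coords W P.1, coords_mem_coordSet W hodd hpK hDP P⟩ : coordSet W p)) := by
    intro P Q h
    exact Subtype.ext (coords_injective W (congrArg Subtype.val h))
  have h1 := Nat.card_le_card_of_injective _ hinj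
  rw [Nat.card_eq_fintype_card (α := ↥(coordSet W p)), Fintype.card_coe, hcard] at h1
  have h2 : ((xSet W p).sigma fun x => ySet W x).card ≤ 2 * (xSet W p).card := by
    rw [Finset.card_sigma, mul_comm]
    exact Finset.sum_le_card_nsmul _ _ 2 fun x _ => card_ySet_le W x
  have h3 : (coordSet W p).card ≤ 2 * (xSet W p).card + 1 :=
    calc (coordSet W p).card
        ≤ (((xSet W p).sigma fun x => ySet W x).image fun s => some (s.1, s.2)).card + 1 :=
          Finset.card_insert_le _ _
      _ ≤ ((xSet W p).sigma fun x => ySet W x).card + 1 :=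
          Nat.add_le_add_right Finset.card_image_le 1
      _ ≤ 2 * (xSet W p).card + 1 := Nat.add_le_add_right h2 1
  have h4 := two_mul_half_add_one hodd (p := p)
  omega

/-- **Product formula**: if the `p`-torsion has exactly `p ^ 2` elements then
`preΨ' p = p * ∏ (X - x)` over the distinct roots. -/
theorem preΨ'_eq_prod (hcard : Nat.card (Tors W p) = p ^ 2) :
    W.preΨ' p = C (p : K) * ∏ x ∈ xSet W p, (X - C x) := by
  have hX := card_xSet_eq W hodd hpK hDP hcard
  have hdeg := natDegree_preΨ'_of_odd W hodd hpK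
  have hle1 : (xSet W p).card ≤ Multiset.card (W.preΨ' p).roots := Multiset.toFinset_card_le _
  have hle2 : Multiset.card (W.preΨ' p).roots ≤ (W.preΨ' p).natDegree := card_roots' _
  have hroots : Multiset.card (W.preΨ' p).roots = (W.preΨ' p).natDegree := by omega
  have hnodup : (W.preΨ' p).roots.Nodup := by
    rw [← Multiset.dedup_eq_self]
    refine Multiset.eq_of_le_of_card_le (Multiset.dedup_le _) ?_
    have : Multiset.card (W.preΨ' p).roots.dedup = (xSet W p).card := rfl
    omega
  have hval : (xSet W p).val = (W.preΨ' p).roots := by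
    show (W.preΨ' p).roots.dedup = _
    exact Multiset.dedup_eq_self.mpr hnodup
  have key := C_leadingCoeff_mul_prod_multiset_X_sub_C hroots
  rw [leadingCoeff_preΨ'_of_odd W hodd hpK] at key
  rw [← key, Finset.prod_eq_multiset_prod, hval]

/-- Evaluating the product formula at `0`: the product of the `x`-coordinates. -/
theorem eval_zero_preΨ' (hcard : Nat.card (Tors W p) = p ^ 2) :
    (W.preΨ' p).eval 0 = (p : K) * (-1) ^ ((p ^ 2 - 1) / 2) * ∏ x ∈ xSet W p, x := by
  rw [preΨ'_eq_prod W hodd hpK hDP hcard]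
  simp only [eval_mul, eval_C, eval_prod, eval_sub, eval_X, zero_sub]
  rw [Finset.prod_neg, card_xSet_eq W hodd hpK hDP hcard, mul_assoc]

end Main

section TorsionBy

variable {p}

/-- The `p`-torsion subtype is the carrier of `Submodule.torsionBy ℤ W.Point p`. -/
def torsEquiv : Tors W p ≃ Submodule.torsionBy ℤ W.Point (p : ℤ) where
  toFun P := ⟨P.1, by
    rw [Submodule.mem_torsionBy_iff, natCast_zsmul]
    exact P.2⟩
  invFun P := ⟨P.1, by
    have := (Submodule.mem_torsionBy_iff (p : ℤ) P.1).mp P.2
    rwa [natCast_zsmul] at this⟩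
  left_inv _ := rfl
  right_inv _ := rfl

variable (hodd : Odd p) (hpK : (p : K) ≠ 0)
  (hDP : ∀ (x y : K) (h : W.Nonsingular x y),
    p • (Affine.Point.some x y h) = 0 ↔ (W.preΨ' p).eval x = 0)
include hodd hpK hDP

theorem finite_torsionBy : Finite (Submodule.torsionBy ℤ W.Point (p : ℤ)) :=
  haveI := finite_tors W hodd hpK hDP
  Finite.of_equiv _ (torsEquiv W)

theorem card_torsionBy_le : Nat.card (Submodule.torsionBy ℤ W.Point (p : ℤ)) ≤ p ^ 2 := by
  rw [← Nat.card_congr (torsEquiv W)]
  exact card_tors_le W hodd hpK hDP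

theorem nontrivial_torsionBy [IsAlgClosed K] (hΔ : W.Δ ≠ 0) (h2 : 2 < p) :
    Nontrivial (Submodule.torsionBy ℤ W.Point (p : ℤ)) := by
  obtain ⟨P, hP0, hP⟩ := exists_ne_zero_torsion W hodd hpK hDP hΔ h2
  refine ⟨⟨torsEquiv W ⟨P, hP⟩, 0, fun h => hP0 ?_⟩⟩
  exact congrArg Subtype.val h

end TorsionBy

end Fermat.Agent.S13.Counting
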