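import Fermat.Agent.S13.DivKey
import Fermat.Agent.S13.DP.Ward
import Fermat.Agent.S13.DP.Main

/-!
# T13 / DP: discharge of `DP2Statement` from `DP/Ward.lean` and the unconditional KEY statement
`DPmain.Key W p` (char 0, `Δ ≠ 0`, `p` an odd prime).
-/

set_option autoImplicit false

namespace Fermat.Agent.S13.Div

open WeierstrassCurve Polynomial

universe u

section bridge

variable {F : Type u} [Field F] [DecidableEq F] (W : WeierstrassCurve F)

/-- The two normalisations of the values of the division polynomials agree on the curve. -/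
lemma sq_eq_sQ {x y : F} (h : W.toAffine.Nonsingular x y) (j : ℤ) :
    sq W x y j = DP.sQ (W := W.toAffine) (Affine.Point.some x y h) j := by
  have hη : (2 * y + W.a₁ * x + W.a₃) = y - W.toAffine.negY x y := by
    simp only [Affine.negY]; ring
  have h4 : (2 * y + W.a₁ * x + W.a₃) ^ 4 = (evalRingHom x) (W.Ψ₂Sq ^ 2) := by
    have he := h.1
    rw [Affine.equation_iff] at he
    simp only [coe_evalRingHom, eval_pow, Ψ₂Sq, b₂, b₄, b₆, eval_add, eval_mul, eval_C,
      eval_pow, eval_X]
    linear_combination (4 * (2 * y + W.a₁ * x + W.a₃) ^ 2 + 4 * (4 * x ^ 3 +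
      (W.a₁ ^ 2 + 4 * W.a₂) * x ^ 2 + 2 * (2 * W.a₄ + W.a₁ * W.a₃) * x
      + (W.a₃ ^ 2 + 4 * W.a₆))) * he
  unfold DP.sQ DP.sq
  simp only [DP.xc_some, DP.eta]
  rw [sq, normEDS, WeierstrassCurve.preΨ, ← coe_evalRingHom, map_preNormEDS, h4, hη]

end bridge

/-- **DP2** in the shape of `DP2Statement`, from `DP/Ward.lean`. -/
theorem dp2 : DP2Statement.{u} := by
  intro F _ _ W x y h N hN
  have hQ : Affine.Point.some x y h ≠ 0 := Affine.Point.some_ne_zero h
  -- integer-indexed version of the hypothesis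
  have hmulZ : ∀ j : ℤ, 0 < j → j < N → j • (Affine.Point.some x y h) ≠ 0 := by
    intro j hj0 hjN
    obtain ⟨j', rfl⟩ := Int.eq_ofNat_of_zero_le hj0.le
    rw [natCast_zsmul]
    exact hN j' (by exact_mod_cast hj0) (by exact_mod_cast hjN)
  constructor
  · -- (a)
    rcases Nat.lt_or_ge N 2 with hN2 | hN2
    · interval_cases N
      · simp
      · simp only [Nat.cast_one, sq_one, one_ne_zero, one_smul, false_iff]
        exact hQ
    · constructor
      · intro h0
        by_contra hNQ
        have hmul' : ∀ j : ℤ, 0 < j → j ≤ (N : ℕ) → j • (Affine.Point.some x y h) ≠ 0 := by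
          intro j hj0 hjN
          rcases lt_or_eq_of_le hjN with hlt | heq
          · exact hmulZ j hj0 hlt
          · rw [heq, natCast_zsmul]; exact hNQ
        have := DP.sQ_ne_zero (W := W.toAffine) hQ N hmul' N (by exact_mod_cast (by omega : 0 < N))
          le_rfl
        rw [← sq_eq_sQ] at this
        exact this h0
      · intro hNQ
        rw [sq_eq_sQ W h]
        exact DP.sQ_eq_zero_of_order (W := W.toAffine) hQ N hN2 hmulZ
          (by rw [natCast_zsmul]; exact hNQ)
  · -- (b)
    intro m n hn hnm hsum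
    obtain ⟨L, rfl⟩ : ∃ L : ℕ, N = L + 1 := ⟨N - 1, by omega⟩
    have hmul' : ∀ j : ℤ, 0 < j → j ≤ (L : ℕ) → j • (Affine.Point.some x y h) ≠ 0 := by
      intro j hj0 hjL
      exact hmulZ j hj0 (by push_cast; omega)
    have hW := (DP.ward (W := W.toAffine) hQ L hmul').2 (m : ℤ) (n : ℤ) (by exact_mod_cast hn)
      (by exact_mod_cast hnm) (by exact_mod_cast hsum)
    have hm3 := DP.xc_sub_Xm_mul (W := W.toAffine) hQ L hmul' (m : ℤ) (by omega)
      (by have : m ≤ L := by omega
          exact_mod_cast this)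
    have hn3 := DP.xc_sub_Xm_mul (W := W.toAffine) hQ L hmul' (n : ℤ) (by exact_mod_cast hn)
      (by have : n ≤ L := by omega
          exact_mod_cast this)
    unfold ERel
    simp only [sq_eq_sQ W h]
    linear_combination hW + (DP.sQ (Affine.Point.some x y h) (n : ℤ)) ^ 2 * hm3
      - (DP.sQ (Affine.Point.some x y h) (m : ℤ)) ^ 2 * hn3

/-- **KEY**, unconditional: for `K` of characteristic `0`, `Δ ≠ 0` and an odd prime `p`,
`p • (x, y) = 0 ↔ preΨ_p(x) = 0`. -/
theorem key_main {K : Type u} [Field K] [DecidableEq K] [CharZero K] (W : WeierstrassCurve K)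
    (hΔ : W.Δ ≠ 0) {p : ℕ} (hp : p.Prime) (hp2 : p ≠ 2) : DPmain.Key W p :=
  fun x y h => key W dp2 hΔ hp hp2 x y h

end Fermat.Agent.S13.Div
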