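/-
# S13 (T13): everything landed so far assembled; the three remaining module outputs
(L2b `frey_no_fixed_point`, LP `frey_at_p`, GL `eq_top_of_inertia_le`) are hypotheses.
-/
import Fermat.Statements.S13
import Fermat.Agent.S05
import Fermat.Agent.Common_helper32.FrobeniusExists
import Fermat.Agent.S13.Assembly
import Fermat.Agent.S13.DP.Main
import Fermat.Agent.S13.DivFinal
import Fermat.Agent.S13.AtTwoFrey

set_option autoImplicit false
open WeierstrassCurve WeierstrassCurve.Affine WeierstrassCurve.Affine.Point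
open CuspForm ModularFormClass UpperHalfPlane
open FreyPackage

namespace Fermat.Agent.S13.FinalOf

open Fermat.Agent.S13

open Assembly in
theorem result_of (P : FreyPackage)
    (hfix : ∀ x : VV P, (∀ σ : GQ, σ • x = x) → x = 0)
    (hp : Nat.card (VV P) = P.p ^ 2 →
      ∃ A : ValuationSubring Qb, A.LiesOverPrime P.p ∧
        ∀ N : Submodule (ZMod P.p) (VV P), IsGaloisStable ℚ N → N ≠ ⊥ → N ≠ ⊤ →
          (∀ σ ∈ A.inertiaSubgroupIn ℚ, ∀ x ∈ N, σ • x = x) ∨
          (∀ σ ∈ A.inertiaSubgroupIn ℚ, ∀ x : VV P, σ • x - x ∈ N))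
    (hglobal : ∀ H : Subgroup GQ, H.Normal → IsOpen (H : Set GQ) →
      (∀ l : ℕ, l.Prime → ∃ A : ValuationSubring Qb, A.LiesOverPrime l ∧
        A.inertiaSubgroupIn ℚ ≤ H) → H = ⊤)
    (hred : ¬ GaloisRepIsIrreducible (K := AlgebraicClosure ℚ) ℚ P.freyCurve P.p) :
    HasGaloisStableCofixedLine (K := AlgebraicClosure ℚ) ℚ P.freyCurve P.p := by
  have hkey : DPmain.Key (P.freyCurve⁄(AlgebraicClosure ℚ)) P.p :=
    Div.key_main _ (freyCurve_baseChange_Δ_ne_zero P) P.pp (by have := P.hp5; omega)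
  exact assembly_of P (frey_nontrivial_of_key P hkey) (frey_finite_of_key P hkey)
    (frey_card_le_of_key P hkey)
    (fun A hA σ hσ x => AtTwo.frey_unipotent_at_two P A hA σ hσ x)
    hfix hp hglobal
    (fun q hq h2 hp => Fermat.Agent.S05.result P hq h2 hp)
    Common_helper32.exists_liesOverPrime hred

end Fermat.Agent.S13.FinalOf
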