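import Mathlib
import Fermat.Prelude.Def_FLTPrelim_Ramification
import Fermat.Agent.Common_helper32.FrobeniusExists

set_option autoImplicit false

open scoped Pointwise
open Fermat.Agent.Common_helper32

namespace Fermat.Agent.S13.Global

attribute [local instance] topZb discreteTopology_Zb continuousSMul_Zb

section Inertia

variable (A : ValuationSubring Qb) (ℓ : ℕ) (hℓ : ℓ.Prime) (hA : (ℓ : Qb) ∈ A.nonunits)

include hℓ hA in
/-- An element of `G_ℚ` stabilising the centre of `A` and acting trivially on the residue ring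
`ℤ̄ / Q` lies in the inertia group of `A`. -/
theorem mem_inertiaSubgroupIn_of_stab (σ : GQ) (hσ : σ • centerIdeal A = centerIdeal A)
    (htriv : ∀ b : Zb, σ • b - b ∈ centerIdeal A) : σ ∈ A.inertiaSubgroupIn ℚ := by
  have hdec : σ ∈ A.decompositionSubgroup ℚ := mem_decompositionSubgroup_of_stab A ℓ hℓ hA σ hσ
  refine ⟨⟨σ, hdec⟩, ?_, rfl⟩
  show (⟨σ, hdec⟩ : A.decompositionSubgroup ℚ) ∈ A.inertiaSubgroup ℚ
  rw [ValuationSubring.inertiaSubgroup, MonoidHom.mem_ker]
  ext x
  obtain ⟨a, rfl⟩ := IsLocalRing.residue_surjective x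
  show (⟨σ, hdec⟩ : A.decompositionSubgroup ℚ) • IsLocalRing.residue A a = IsLocalRing.residue A a
  rw [← IsLocalRing.ResidueField.residue_smul, ← sub_eq_zero, ← map_sub,
    IsLocalRing.residue_eq_zero_iff, A.valuation_lt_one_iff]
  show A.valuation (σ • (a : Qb) - (a : Qb)) < 1
  obtain ⟨s, t, hs, ht, hsA, hst⟩ :=
    exists_integral_fraction A ℓ hℓ hA a a.2 (isAlgebraic_int _)
  have hs' : (σ • (⟨s, hs⟩ : Zb) : Zb) ∉ centerIdeal A := by
    rw [smul_mem_centerIdeal_iff A σ hσ, mem_centerIdeal]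
    exact hsA
  rw [mem_centerIdeal, A.mem_nonunits_iff, not_lt] at hs'
  have hs1 : A.valuation (σ • s) ≤ 1 :=
    (A.valuation_le_one_iff _).mpr (isIntegral_mem_valuationSubring A _ (σ • (⟨s, hs⟩ : Zb)).2)
  have hs2 : A.valuation (σ • s) = 1 := le_antisymm hs1 hs'
  have hq1 := htriv ⟨s, hs⟩
  have hq2 := htriv ⟨t, ht⟩
  rw [mem_centerIdeal, A.mem_nonunits_iff] at hq1 hq2
  have hq1' : A.valuation (σ • s - s) < 1 := hq1
  have hq2' : A.valuation (σ • t - t) < 1 := hq2
  have ha1 : A.valuation (a : Qb) ≤ 1 := (A.valuation_le_one_iff _).mpr a.2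
  have key : σ • s * (σ • (a : Qb) - (a : Qb)) = (σ • t - t) - (σ • s - s) * (a : Qb) := by
    have h1 : σ • t = σ • s * σ • (a : Qb) := by rw [← smul_mul', hst]
    rw [h1, ← hst]
    ring
  have hlt : A.valuation (σ • s * (σ • (a : Qb) - (a : Qb))) < 1 := by
    rw [key]
    apply lt_of_le_of_lt (Valuation.map_sub _ _ _)
    apply max_lt hq2'
    rw [map_mul]
    calc A.valuation (σ • s - s) * A.valuation (a : Qb)
        ≤ A.valuation (σ • s - s) * 1 := by gcongr
      _ < 1 := by simpa using hq1'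
  rwa [map_mul, hs2, one_mul] at hlt

end Inertia


section Lift

variable (H : Subgroup GQ)

/-- the ring of `H`-invariant algebraic integers -/
noncomputable abbrev fixZb : Subalgebra ℤ Zb := FixedPoints.subalgebra ℤ Zb H

instance smulCommClass_fixZb : SMulCommClass H (fixZb H) Zb := ⟨fun g a b => by
  show g • ((a : Zb) * b) = (a : Zb) * (g • b)
  rw [smul_mul']
  congr 1
  exact a.2 g⟩

instance isInvariant_fixZb : Algebra.IsInvariant (fixZb H) Zb H :=
  ⟨fun b hb => ⟨⟨b, hb⟩, rfl⟩⟩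

theorem exists_smul_eq_of_under_eq (hH : IsClosed (H : Set GQ)) (Q Q' : Ideal Zb) [Q.IsPrime]
    [Q'.IsPrime] (h : ∀ x : Zb, (∀ g ∈ H, g • x = x) → (x ∈ Q ↔ x ∈ Q')) :
    ∃ g ∈ H, Q' = g • Q := by
  have : CompactSpace H := isCompact_iff_compactSpace.mp hH.isCompact
  have hunder : Q.under (fixZb H) = Q'.under (fixZb H) := by
    ext x
    rw [Ideal.under_def, Ideal.under_def, Ideal.mem_comap, Ideal.mem_comap]
    exact h x.1 (fun g hg => x.2 ⟨g, hg⟩)
  obtain ⟨g, hg⟩ := Algebra.IsInvariant.exists_smul_of_under_eq_of_profinite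
    (A := fixZb H) (B := Zb) (G := H) Q Q' hunder
  exact ⟨g.1, g.2, hg⟩

/-- elements of `H` stabilising `Q` realise every automorphism of `ℤ̄ / Q` which is trivial on the
`H`-invariants. -/
theorem exists_mem_stab_of_trivial_on_fixed (hH : IsClosed (H : Set GQ)) (Q : Ideal Zb) [Q.IsPrime]
    (σ : GQ) (hσ : σ • Q = Q) (hfix : ∀ x : Zb, (∀ g ∈ H, g • x = x) → σ • x - x ∈ Q) :
    ∃ h ∈ H, h • Q = Q ∧ ∀ b : Zb, h • b - σ • b ∈ Q := by
  have : CompactSpace H := isCompact_iff_compactSpace.mp hH.isCompact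
  have hQ : Q = Q.map ((MulSemiringAction.toRingEquiv GQ Zb σ : Zb ≃+* Zb) : Zb →+* Zb) := by
    conv_lhs => rw [← hσ]
    rfl
  let φ : (Zb ⧸ Q) ≃ₐ[fixZb H ⧸ Q.under (fixZb H)] (Zb ⧸ Q) :=
    { Ideal.quotientEquiv Q Q (MulSemiringAction.toRingEquiv GQ Zb σ) hQ with
      commutes' := by
        intro r
        obtain ⟨a, rfl⟩ := Ideal.Quotient.mk_surjective r
        show Ideal.Quotient.mk Q (σ • (a : Zb)) = Ideal.Quotient.mk Q (a : Zb)
        rw [Ideal.Quotient.eq]
        exact hfix a.1 (fun g hg => a.2 ⟨g, hg⟩) }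
  obtain ⟨h, hh⟩ := Ideal.Quotient.stabilizerHom_surjective_of_profinite (G := H)
    (Q.under (fixZb H)) Q φ
  refine ⟨h.1.1, h.1.2, h.2, fun b => ?_⟩
  have h1 := DFunLike.congr_fun hh (Ideal.Quotient.mk Q b)
  rw [← Ideal.Quotient.eq]
  exact h1


/-- Core lifting statement: if `σ₀` acts trivially on the `H`-invariant integers modulo the centre
of `A`, then `σ₀ ∈ H · I_A`. -/
theorem exists_mul_mem_inertia (hn : H.Normal) (hH : IsClosed (H : Set GQ))
    (A : ValuationSubring Qb) (ℓ : ℕ) (hℓ : ℓ.Prime) (hA : (ℓ : Qb) ∈ A.nonunits) (σ₀ : GQ)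
    (hσ₀ : ∀ x : Zb, (∀ g ∈ H, g • x = x) → σ₀ • x - x ∈ centerIdeal A) :
    ∃ h ∈ H, h * σ₀ ∈ A.inertiaSubgroupIn ℚ := by
  have hfixed : ∀ (τ : GQ) (x : Zb), (∀ g ∈ H, g • x = x) → ∀ g ∈ H, g • (τ • x) = τ • x := by
    intro τ x hx g hg
    have hmem : τ⁻¹ * g * τ ∈ H := by
      have := hn.conj_mem g hg τ⁻¹
      simpa using this
    have h2 := hx _ hmem
    calc g • (τ • x) = τ • ((τ⁻¹ * g * τ) • x) := by simp [mul_smul]
      _ = τ • x := by rw [h2]
  -- step 1: move `σ₀ • Q` back to `Q` by an element of `H`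
  have hiff : ∀ x : Zb, (∀ g ∈ H, g • x = x) → (x ∈ centerIdeal A ↔ x ∈ σ₀ • centerIdeal A) := by
    intro x hx
    rw [Ideal.mem_pointwise_smul_iff_inv_smul_mem]
    have h1 := hσ₀ (σ₀⁻¹ • x) (hfixed σ₀⁻¹ x hx)
    rw [smul_inv_smul] at h1
    constructor
    · intro hxQ
      have := (centerIdeal A).sub_mem hxQ h1
      simpa using this
    · intro hxQ
      have := (centerIdeal A).add_mem h1 hxQ
      simpa using this
  obtain ⟨g, hgH, hg⟩ := exists_smul_eq_of_under_eq H hH (centerIdeal A) (σ₀ • centerIdeal A) hiff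
  have hσ₁ : (g⁻¹ * σ₀) • centerIdeal A = centerIdeal A := by
    rw [mul_smul, hg, inv_smul_smul]
  have hσ₁fix : ∀ x : Zb, (∀ g ∈ H, g • x = x) → (g⁻¹ * σ₀) • x - x ∈ centerIdeal A := by
    intro x hx
    rw [mul_smul, hfixed σ₀ x hx g⁻¹ (H.inv_mem hgH)]
    exact hσ₀ x hx
  -- step 2: correct the action on the residue ring by an element of `H ∩ Stab(Q)`
  obtain ⟨h, hhH, hhQ, hh⟩ := exists_mem_stab_of_trivial_on_fixed H hH (centerIdeal A)
    (g⁻¹ * σ₀) hσ₁ hσ₁fix
  refine ⟨h⁻¹ * g⁻¹, H.mul_mem (H.inv_mem hhH) (H.inv_mem hgH), ?_⟩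
  have hhQ' : h⁻¹ • centerIdeal A = centerIdeal A := by
    conv_lhs => rw [← hhQ]
    rw [inv_smul_smul]
  apply mem_inertiaSubgroupIn_of_stab A ℓ hℓ hA
  · rw [mul_assoc, mul_smul, hσ₁, hhQ']
  · intro b
    have h1 := hh b
    have h2 : h⁻¹ • (h • b - (g⁻¹ * σ₀) • b) ∈ h⁻¹ • centerIdeal A :=
      Ideal.smul_mem_pointwise_smul _ _ _ h1
    rw [hhQ', smul_sub, inv_smul_smul] at h2
    have h3 := (centerIdeal A).neg_mem h2
    rw [neg_sub] at h3
    rw [mul_assoc, mul_smul]
    exact h3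

end Lift


section Main

open scoped NumberField

variable (H : Subgroup GQ)

theorem fixingSubgroup_fixedField_of_isOpen (hopen : IsOpen (H : Set GQ)) :
    (IntermediateField.fixedField H).fixingSubgroup = H := by
  have hclosed : IsClosed (H : Set GQ) := Subgroup.isClosed_of_isOpen H hopen
  exact InfiniteGalois.fixingSubgroup_fixedField ⟨H, hclosed⟩

theorem algebra_rat_eq (L : IntermediateField ℚ Qb) :
    (DivisionRing.toRatAlgebra : Algebra ℚ L) = IntermediateField.algebra' L := rfl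

theorem finiteDimensional_fixedField (hopen : IsOpen (H : Set GQ)) :
    FiniteDimensional ℚ (IntermediateField.fixedField H) := by
  rw [← InfiniteGalois.isOpen_iff_finite]
  show IsOpen ((IntermediateField.fixedField H).fixingSubgroup : Set GQ)
  rw [fixingSubgroup_fixedField_of_isOpen H hopen]
  exact hopen

theorem isGalois_fixedField (hn : H.Normal) (hopen : IsOpen (H : Set GQ)) :
    IsGalois ℚ (IntermediateField.fixedField H) := by
  rw [algebra_rat_eq]
  rw [← InfiniteGalois.normal_iff_isGalois, fixingSubgroup_fixedField_of_isOpen H hopen]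
  exact hn

theorem eq_top_of_fixedField_eq_bot (hopen : IsOpen (H : Set GQ))
    (h : IntermediateField.fixedField H = ⊥) : H = ⊤ := by
  rw [← fixingSubgroup_fixedField_of_isOpen H hopen, h]
  exact IntermediateField.fixingSubgroup_bot

theorem isUnramifiedAt_of_inertia_eq_bot {K : Type*} [Field K] [NumberField K] [IsGalois ℚ K]
    (P : Ideal (𝓞 K)) [P.IsPrime] (h : P.inertia Gal(K/ℚ) = ⊥) :
    Algebra.IsUnramifiedAt ℤ P := by
  rw [← Ideal.ramificationIdx_eq_one_iff,
    ← Ideal.ramificationIdxIn_eq_ramificationIdx (P.under ℤ) P Gal(K/ℚ),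
    ← Ideal.card_inertia_eq_ramificationIdxIn (G := Gal(K/ℚ)) (P.under ℤ) P, h]
  simp

/-- the inclusion of the integers of a subfield of `ℚ̄` into `ℤ̄` -/
noncomputable def toZb (K : IntermediateField ℚ Qb) : 𝓞 K →+* Zb where
  toFun x := ⟨algebraMap K Qb (x : K), (x.isIntegral_coe).map (IsScalarTower.toAlgHom ℤ K Qb)⟩
  map_one' := by ext; simp
  map_mul' x y := by ext; simp
  map_zero' := by ext; simp
  map_add' x y := by ext; simp

theorem coe_toZb (K : IntermediateField ℚ Qb) (x : 𝓞 K) :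
    ((toZb K x : Zb) : Qb) = algebraMap K Qb (x : K) := rfl


/-- **Global lemma** (Minkowski): an open normal subgroup of `G_ℚ` containing an inertia group
above every prime is everything. -/
theorem eq_top_of_inertia_le (hn : H.Normal) (hopen : IsOpen (H : Set GQ))
    (hI : ∀ l : ℕ, l.Prime → ∃ A : ValuationSubring Qb, A.LiesOverPrime l ∧
      A.inertiaSubgroupIn ℚ ≤ H) : H = ⊤ := by
  have hclosed : IsClosed (H : Set GQ) := Subgroup.isClosed_of_isOpen H hopen
  have hfd : FiniteDimensional ℚ (IntermediateField.fixedField H) :=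
    finiteDimensional_fixedField H hopen
  have hgal : IsGalois ℚ (IntermediateField.fixedField H) := isGalois_fixedField H hn hopen
  have hnf : NumberField (IntermediateField.fixedField H) :=
    { to_charZero := inferInstance, to_finiteDimensional := hfd }
  apply eq_top_of_fixedField_eq_bot H hopen
  rw [← IntermediateField.finrank_eq_one_iff]
  by_contra hne
  have h1 : 1 < Module.finrank ℚ (IntermediateField.fixedField H) := by
    have := Module.finrank_pos (R := ℚ) (M := IntermediateField.fixedField H)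
    omega
  obtain ⟨p, hp, hram⟩ := NumberField.exists_not_isUnramifiedAt_int_of_isGalois
    (K := IntermediateField.fixedField H) (𝒪 := 𝓞 (IntermediateField.fixedField H)) h1
  obtain ⟨A, hA, hIA⟩ := hI p hp
  have hA' : (p : Qb) ∈ A.nonunits := hA
  let P : Ideal (𝓞 (IntermediateField.fixedField H)) :=
    (centerIdeal A).comap (toZb (IntermediateField.fixedField H))
  have hPprime : P.IsPrime := Ideal.comap_isPrime _ _
  have hpP : ((p : ℕ) : 𝓞 (IntermediateField.fixedField H)) ∈ P := by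
    rw [Ideal.mem_comap, mem_centerIdeal, map_natCast]
    simpa using hA'
  refine hram P hPprime hpP (isUnramifiedAt_of_inertia_eq_bot P ?_)
  rw [eq_bot_iff]
  intro τ hτ
  rw [Subgroup.mem_bot]
  obtain ⟨σ₀, rfl⟩ := AlgEquiv.restrictNormalHom_surjective Qb τ
  have key : ∀ x : Zb, (∀ g ∈ H, g • x = x) → σ₀ • x - x ∈ centerIdeal A := by
    intro x hx
    have hxK : (x : Qb) ∈ IntermediateField.fixedField H :=
      fun g => congrArg Subtype.val (hx g.1 g.2)
    have hint : IsIntegral ℤ (⟨(x : Qb), hxK⟩ : IntermediateField.fixedField H) := by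
      rw [← isIntegral_algebraMap_iff
        (algebraMap (IntermediateField.fixedField H) Qb).injective]
      exact x.2
    let y : 𝓞 (IntermediateField.fixedField H) := ⟨⟨(x : Qb), hxK⟩, hint⟩
    have hy : toZb (IntermediateField.fixedField H) y = x := Subtype.ext rfl
    have h2 : AlgEquiv.restrictNormalHom (IntermediateField.fixedField H) σ₀ • y - y ∈ P := hτ y
    have h3 : toZb (IntermediateField.fixedField H)
        (AlgEquiv.restrictNormalHom (IntermediateField.fixedField H) σ₀ • y) = σ₀ • x := by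
      apply Subtype.ext
      show algebraMap (IntermediateField.fixedField H) Qb
        ((AlgEquiv.restrictNormalHom (IntermediateField.fixedField H) σ₀) (y : _)) = σ₀ (x : Qb)
      exact AlgEquiv.restrictNormal_commutes σ₀ (IntermediateField.fixedField H) _
    rw [Ideal.mem_comap, map_sub, h3, hy] at h2
    exact h2
  obtain ⟨h, hh, hmem⟩ := exists_mul_mem_inertia H hn hclosed A p hp hA' σ₀ key
  have hσ₀H : σ₀ ∈ H := (Subgroup.mul_mem_cancel_left H hh).mp (hIA hmem)
  have := hn
  have hker := IntermediateField.restrictNormalHom_ker (K := ℚ) (L := Qb)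
    (IntermediateField.fixedField H)
  have h5 : σ₀ ∈ (IntermediateField.fixedField H).fixingSubgroup := by
    rw [fixingSubgroup_fixedField_of_isOpen H hopen]
    exact hσ₀H
  rw [← hker] at h5
  exact h5

/-- Element form of `eq_top_of_inertia_le`. -/
theorem mem_of_inertia_le (hn : H.Normal) (hopen : IsOpen (H : Set GQ))
    (hI : ∀ l : ℕ, l.Prime → ∃ A : ValuationSubring Qb, A.LiesOverPrime l ∧
      A.inertiaSubgroupIn ℚ ≤ H) (σ : GQ) : σ ∈ H := by
  rw [eq_top_of_inertia_le H hn hopen hI]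
  trivial

end Main

end Fermat.Agent.S13.Global
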