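import Mathlib
import Fermat.Prelude.Def_FLTPrelim_Ramification
import Fermat.Agent.Common_helper32.FrobeniusExists
import Fermat.Agent.S13.Global

/-!
# Lifting decomposition / inertia elements from a finite Galois subfield of `ℚ̄` to `G_ℚ`

Corollaries of `Fermat.Agent.S13.Global` in the shapes requested by T14 (RED-c).
-/

set_option autoImplicit false

open scoped Pointwise NumberField
open Fermat.Agent.Common_helper32 Fermat.Agent.S13.Global

namespace Fermat.Agent.S13.GlobalLift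

attribute [local instance] topZb discreteTopology_Zb continuousSMul_Zb

variable (L : IntermediateField ℚ Qb)

/-- an algebraic integer fixed by `Gal(ℚ̄/L)` comes from `𝓞 L`. -/
theorem exists_toZb_eq (x : Zb) (hx : ∀ g ∈ L.fixingSubgroup, g • x = x) :
    ∃ y : 𝓞 L, toZb L y = x := by
  have hxL : (x : Qb) ∈ L := by
    rw [← InfiniteGalois.fixedField_fixingSubgroup L]
    exact fun g => congrArg Subtype.val (hx g.1 g.2)
  have hint : IsIntegral ℤ (⟨(x : Qb), hxL⟩ : L) := by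
    rw [← isIntegral_algebraMap_iff (algebraMap L Qb).injective]
    exact x.2
  exact ⟨⟨⟨(x : Qb), hxL⟩, hint⟩, Subtype.ext rfl⟩

theorem toZb_smul_of_mem_fixingSubgroup (g : GQ) (hg : g ∈ L.fixingSubgroup) (y : 𝓞 L) :
    g • toZb L y = toZb L y := by
  apply Subtype.ext
  show g (algebraMap L Qb (y : L)) = algebraMap L Qb (y : L)
  exact (IntermediateField.mem_fixingSubgroup_iff L g).mp hg _ (y : L).2

variable [IsGalois ℚ L]

theorem normal_algebra' : @Normal ℚ L _ _ (IntermediateField.algebra' L) :=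
  (inferInstance : Normal ℚ L)

theorem toZb_restrictNormalHom_smul (σ : GQ) (y : 𝓞 L) :
    toZb L (AlgEquiv.restrictNormalHom L σ • y) = σ • toZb L y := by
  apply Subtype.ext
  show algebraMap L Qb ((AlgEquiv.restrictNormalHom L σ) (y : L)) = σ (algebraMap L Qb (y : L))
  exact AlgEquiv.restrictNormal_commutes σ L _

theorem restrictNormalHom_eq_of_mem_fixingSubgroup (g σ : GQ) (hg : g ∈ L.fixingSubgroup) :
    AlgEquiv.restrictNormalHom L (g * σ) = AlgEquiv.restrictNormalHom L σ := by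
  have := normal_algebra' L
  have hker := IntermediateField.restrictNormalHom_ker (K := ℚ) (L := Qb) L
  rw [← hker] at hg
  have h6 : AlgEquiv.restrictNormalHom L g = 1 := hg
  rw [map_mul, h6, one_mul]

theorem fixingSubgroup_normal : (L.fixingSubgroup).Normal := by
  have := normal_algebra' L
  have hker := IntermediateField.restrictNormalHom_ker (K := ℚ) (L := Qb) L
  rw [← hker]
  exact MonoidHom.normal_ker _

/-- **Inertia lifting** `I_A ↠ I(P | ℓ)`: an automorphism of a finite Galois subfield `L` of `ℚ̄`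
acting trivially on `𝓞 L / P`, where `P` is the prime of `𝓞 L` below the valuation subring `A`,
is the restriction of an element of the inertia group of `A`. -/
theorem exists_mem_inertia_of_inert (A : ValuationSubring Qb) (ℓ : ℕ) (hℓ : ℓ.Prime)
    (hA : A.LiesOverPrime ℓ) (P : Ideal (𝓞 L))
    (hAP : ∀ x : 𝓞 L, x ∈ P ↔ (((x : L) : Qb)) ∈ A.nonunits)
    (τ : L ≃ₐ[ℚ] L) (hτ : ∀ x : 𝓞 L, τ • x - x ∈ P) :
    ∃ σ ∈ A.inertiaSubgroupIn ℚ, AlgEquiv.restrictNormalHom L σ = τ := by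
  obtain ⟨σ₀, rfl⟩ := AlgEquiv.restrictNormalHom_surjective Qb τ
  have key : ∀ x : Zb, (∀ g ∈ L.fixingSubgroup, g • x = x) → σ₀ • x - x ∈ centerIdeal A := by
    intro x hx
    obtain ⟨y, rfl⟩ := exists_toZb_eq L x hx
    rw [← toZb_restrictNormalHom_smul, ← map_sub, mem_centerIdeal]
    exact (hAP _).mp (hτ y)
  obtain ⟨h, hh, hmem⟩ := exists_mul_mem_inertia L.fixingSubgroup (fixingSubgroup_normal L)
    (InfiniteGalois.fixingSubgroup_isClosed L) A ℓ hℓ hA σ₀ key
  exact ⟨h * σ₀, hmem, restrictNormalHom_eq_of_mem_fixingSubgroup L h σ₀ hh⟩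

/-- **Decomposition lifting** `D_A ↠ D(P | ℓ)`. -/
theorem exists_mem_decomposition_of_stabilizes [FiniteDimensional ℚ L] (A : ValuationSubring Qb)
    (ℓ : ℕ) (hℓ : ℓ.Prime) (hA : A.LiesOverPrime ℓ) (P : Ideal (𝓞 L))
    (hAP : ∀ x : 𝓞 L, x ∈ P ↔ (((x : L) : Qb)) ∈ A.nonunits)
    (τ : L ≃ₐ[ℚ] L) (hτ : ∀ x : 𝓞 L, x ∈ P → τ • x ∈ P) :
    ∃ σ ∈ A.decompositionSubgroup ℚ, AlgEquiv.restrictNormalHom L σ = τ := by
  have hpow : ∀ k : ℕ, ∀ x : 𝓞 L, x ∈ P → τ ^ k • x ∈ P := by
    intro k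
    induction k with
    | zero => intro x hx; simpa using hx
    | succ k ih =>
      intro x hx
      rw [pow_succ, mul_smul]
      exact ih _ (hτ x hx)
  have hinv : τ⁻¹ = τ ^ (orderOf τ - 1) := by
    have hpos : 0 < orderOf τ := orderOf_pos τ
    apply inv_eq_of_mul_eq_one_left
    rw [← pow_succ, Nat.sub_add_cancel hpos, pow_orderOf_eq_one]
  have hiffP : ∀ y : 𝓞 L, y ∈ P ↔ τ⁻¹ • y ∈ P := by
    intro y
    constructor
    · intro hy
      rw [hinv]
      exact hpow _ y hy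
    · intro hy
      have := hτ _ hy
      rwa [smul_inv_smul] at this
  obtain ⟨σ₀, rfl⟩ := AlgEquiv.restrictNormalHom_surjective Qb τ
  have hiff : ∀ x : Zb, (∀ g ∈ L.fixingSubgroup, g • x = x) →
      (x ∈ centerIdeal A ↔ x ∈ σ₀ • centerIdeal A) := by
    intro x hx
    obtain ⟨y, rfl⟩ := exists_toZb_eq L x hx
    rw [Ideal.mem_pointwise_smul_iff_inv_smul_mem, ← toZb_restrictNormalHom_smul, map_inv,
      mem_centerIdeal, mem_centerIdeal]
    exact ((hAP y).symm.trans (hiffP y)).trans (hAP _)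
  obtain ⟨g, hgH, hg⟩ := exists_smul_eq_of_under_eq L.fixingSubgroup
    (InfiniteGalois.fixingSubgroup_isClosed L) (centerIdeal A) (σ₀ • centerIdeal A) hiff
  have hσ₁ : (g⁻¹ * σ₀) • centerIdeal A = centerIdeal A := by
    rw [mul_smul, hg, inv_smul_smul]
  exact ⟨g⁻¹ * σ₀, mem_decompositionSubgroup_of_stab A ℓ hℓ hA _ hσ₁,
    restrictNormalHom_eq_of_mem_fixingSubgroup L g⁻¹ σ₀ (L.fixingSubgroup.inv_mem hgH)⟩

end Fermat.Agent.S13.GlobalLift
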