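import Mathlib.AlgebraicGeometry.EllipticCurve.Affine.Point
import Mathlib.RingTheory.Valuation.ValuationSubring

/-!
# The signed component map for `y² + a₁xy = x³ + a₂x² + a₄x`

Generalisation of `Fermat.Agent.S05.Node` to a general `a₁` (so that it also applies to the Frey
model `y² + xy = x³ + a₂x² + a₄x` at the prime `2`).

Setting: a field `K` with a valuation `v` (multiplicative notation, arbitrary value group), a
Weierstrass curve with `a₃ = a₆ = 0`, `v a₁ ≤ 1`, `v a₂ ≤ 1`, `a₄ ≠ 0`, `v a₄ < 1`, and a root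
`α` of `T² + a₁T - a₂` with `v (2α + a₁) = 1` (i.e. `b₂` is a unit; the other root is
`β = -a₁ - α`). With `t = y/x` one has `(t - α)(t - β) = x + a₄/x`.

We define the component map `comp : E(K) → Γ₀ˣ / ⟨v(a₄)²⟩` and prove that it is additive
(`comp_add`), that its kernel is `E₀ = {P : P = 0 ∨ 1 ≤ v x(P)}` (`comp_eq_one_iff`), and the
consequence for odd torsion (`torsion_val`).

No hypothesis on `v 2` is needed.
-/

set_option autoImplicit false
set_option linter.unusedSectionVars false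

namespace Fermat.Agent.S13.NodeGen

open WeierstrassCurve WeierstrassCurve.Affine

section Algebra

variable {K : Type*} [Field K]

theorem slope_chord (x₁ x₂ y₁ y₂ c a b : K) (hx₁ : x₁ ≠ 0) (hx₂ : x₂ ≠ 0) (hx : x₁ ≠ x₂)
    (hm : y₁ / x₁ + y₂ / x₂ + c ≠ 0)
    (e₁ : y₁ ^ 2 + c * x₁ * y₁ = x₁ ^ 3 + a * x₁ ^ 2 + b * x₁)
    (e₂ : y₂ ^ 2 + c * x₂ * y₂ = x₂ ^ 3 + a * x₂ ^ 2 + b * x₂) :
    (y₁ - y₂) / (x₁ - x₂) =
      y₁ / x₁ + x₂ * ((1 - b / (x₁ * x₂)) / (y₁ / x₁ + y₂ / x₂ + c)) := by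
  have hx' : x₁ - x₂ ≠ 0 := sub_ne_zero.mpr hx
  have hb : b = (y₁ ^ 2 + c * x₁ * y₁ - x₁ ^ 3 - a * x₁ ^ 2) / x₁ := by
    rw [eq_div_iff hx₁]; linear_combination -e₁
  have ha : a = (y₁ ^ 2 * x₂ - y₂ ^ 2 * x₁ + c * x₁ * x₂ * (y₁ - y₂) -
      x₁ * x₂ * (x₁ ^ 2 - x₂ ^ 2)) / (x₁ * x₂ * (x₁ - x₂)) := by
    rw [eq_div_iff (by simp [hx₁, hx₂, hx'])]; linear_combination -x₂ * e₁ + x₁ * e₂
  rw [← mul_div_assoc, ← sub_eq_iff_eq_add', eq_div_iff hm]
  rw [hb, ha]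
  field_simp
  ring

theorem slope_tangent (x y c a b : K) (hx : x ≠ 0) (hy : 2 * y + c * x ≠ 0)
    (e : y ^ 2 + c * x * y = x ^ 3 + a * x ^ 2 + b * x) :
    (3 * x ^ 2 + 2 * a * x + b - c * y) / (y - (-y - c * x)) =
      y / x + x * ((1 - b / (x * x)) / (y / x + y / x + c)) := by
  have hb : b = (y ^ 2 + c * x * y - x ^ 3 - a * x ^ 2) / x := by
    rw [eq_div_iff hx]; linear_combination -e
  have h1 : y - (-y - c * x) = 2 * y + c * x := by ring
  have h3 : y / x + y / x + c = (2 * y + c * x) / x := by field_simp; ring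
  rw [hb, h1, h3]
  obtain ⟨d, hd⟩ : ∃ d, d = 2 * y + c * x := ⟨_, rfl⟩
  rw [← hd] at hy ⊢
  field_simp
  rw [hd]
  ring

theorem addX_chord (x₁ x₂ y₁ y₂ c a b : K) (hx₁ : x₁ ≠ 0) (hx₂ : x₂ ≠ 0) (hx : x₁ ≠ x₂)
    (e₁ : y₁ ^ 2 + c * x₁ * y₁ = x₁ ^ 3 + a * x₁ ^ 2 + b * x₁)
    (e₂ : y₂ ^ 2 + c * x₂ * y₂ = x₂ ^ 3 + a * x₂ ^ 2 + b * x₂) :
    ((y₁ - y₂) / (x₁ - x₂)) ^ 2 + c * ((y₁ - y₂) / (x₁ - x₂)) - a - x₁ - x₂ =
      x₁ * ((y₁ - y₂) / (x₁ - x₂) - y₁ / x₁) ^ 2 / x₂ := by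
  have hx' : x₁ - x₂ ≠ 0 := sub_ne_zero.mpr hx
  have ha : a = (y₁ ^ 2 * x₂ - y₂ ^ 2 * x₁ + c * x₁ * x₂ * (y₁ - y₂) -
      x₁ * x₂ * (x₁ ^ 2 - x₂ ^ 2)) / (x₁ * x₂ * (x₁ - x₂)) := by
    rw [eq_div_iff (by simp [hx₁, hx₂, hx'])]; linear_combination -x₂ * e₁ + x₁ * e₂
  rw [ha]
  field_simp
  ring

theorem addX_tangent (x y c a b : K) (hx : x ≠ 0) (hy : 2 * y + c * x ≠ 0)
    (e : y ^ 2 + c * x * y = x ^ 3 + a * x ^ 2 + b * x) :
    ((3 * x ^ 2 + 2 * a * x + b - c * y) / (y - (-y - c * x))) ^ 2 +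
        c * ((3 * x ^ 2 + 2 * a * x + b - c * y) / (y - (-y - c * x))) - a - x - x =
      x * ((3 * x ^ 2 + 2 * a * x + b - c * y) / (y - (-y - c * x)) - y / x) ^ 2 / x := by
  have hb : b = (y ^ 2 + c * x * y - x ^ 3 - a * x ^ 2) / x := by
    rw [eq_div_iff hx]; linear_combination -e
  have h1 : y - (-y - c * x) = 2 * y + c * x := by ring
  rw [hb, h1]
  obtain ⟨d, hd⟩ : ∃ d, d = 2 * y + c * x := ⟨_, rfl⟩
  rw [← hd] at hy ⊢
  field_simp
  rw [hd]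
  ring

end Algebra

section Chord

variable {K : Type*} [Field K] {W : WeierstrassCurve K}

/-- The curve is of the shape `y² + a₁xy = x³ + a₂x² + a₄x`. -/
structure IsGShape (W : WeierstrassCurve K) : Prop where
  a₃ : W.a₃ = 0
  a₆ : W.a₆ = 0

theorem IsGShape.equation (hW : IsGShape W) {x y : K} (h : W.toAffine.Equation x y) :
    y ^ 2 + W.a₁ * x * y = x ^ 3 + W.a₂ * x ^ 2 + W.a₄ * x := by
  have := (Affine.equation_iff (W := W.toAffine) x y).mp h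
  simpa [hW.a₃, hW.a₆] using this

theorem IsGShape.negY (hW : IsGShape W) (x y : K) :
    W.toAffine.negY x y = -y - W.a₁ * x := by
  simp [Affine.negY, hW.a₃]

/-- `t² + a₁t = x + a₂ + a₄/x` for `t = y/x`. -/
theorem IsGShape.t_sq (hW : IsGShape W) {x y : K} (h : W.toAffine.Equation x y)
    (hx : x ≠ 0) : (y / x) ^ 2 + W.a₁ * (y / x) = x + W.a₂ + W.a₄ / x := by
  have := hW.equation h
  field_simp
  linear_combination this

variable [DecidableEq K]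

/-- The chord-and-tangent formula in the coordinates `(x, t = y/x)`: with
`κ = (1 - a₄/(x₁x₂)) / (t₁ + t₂ + a₁)` the sum has `x₃ = x₁ x₂ κ²` and
`y₃ = -(t₁ + x₂ κ + a₁) x₃ + x₁ x₂ κ`. Covers both the chord and the tangent case. -/
theorem IsGShape.add_formula (hW : IsGShape W) {x₁ y₁ x₂ y₂ : K}
    (h₁ : W.toAffine.Nonsingular x₁ y₁) (h₂ : W.toAffine.Nonsingular x₂ y₂)
    (hx₁ : x₁ ≠ 0) (hx₂ : x₂ ≠ 0) (hm : y₁ / x₁ + y₂ / x₂ + W.a₁ ≠ 0) :
    ∃ (x₃ y₃ : K) (h₃ : W.toAffine.Nonsingular x₃ y₃),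
      Point.some x₁ y₁ h₁ + Point.some x₂ y₂ h₂ = Point.some x₃ y₃ h₃ ∧
      x₃ = x₁ * x₂ * ((1 - W.a₄ / (x₁ * x₂)) / (y₁ / x₁ + y₂ / x₂ + W.a₁)) ^ 2 ∧
      y₃ = -(y₁ / x₁ + x₂ * ((1 - W.a₄ / (x₁ * x₂)) / (y₁ / x₁ + y₂ / x₂ + W.a₁)) + W.a₁) * x₃ +
        x₁ * x₂ * ((1 - W.a₄ / (x₁ * x₂)) / (y₁ / x₁ + y₂ / x₂ + W.a₁)) := by
  have e₁ := hW.equation h₁.1
  have e₂ := hW.equation h₂.1
  -- common final step
  have key : ∀ ℓ : K,
      ℓ = y₁ / x₁ + x₂ * ((1 - W.a₄ / (x₁ * x₂)) / (y₁ / x₁ + y₂ / x₂ + W.a₁)) →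
      ℓ ^ 2 + W.a₁ * ℓ - W.a₂ - x₁ - x₂ = x₁ * (ℓ - y₁ / x₁) ^ 2 / x₂ →
      W.toAffine.addX x₁ x₂ ℓ =
        x₁ * x₂ * ((1 - W.a₄ / (x₁ * x₂)) / (y₁ / x₁ + y₂ / x₂ + W.a₁)) ^ 2 ∧
      W.toAffine.addY x₁ x₂ y₁ ℓ =
        -(y₁ / x₁ + x₂ * ((1 - W.a₄ / (x₁ * x₂)) / (y₁ / x₁ + y₂ / x₂ + W.a₁)) + W.a₁) *
          W.toAffine.addX x₁ x₂ ℓ +
        x₁ * x₂ * ((1 - W.a₄ / (x₁ * x₂)) / (y₁ / x₁ + y₂ / x₂ + W.a₁)) := by
    intro ℓ hℓ hX
    have hXX : W.toAffine.addX x₁ x₂ ℓ =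
        x₁ * x₂ * ((1 - W.a₄ / (x₁ * x₂)) / (y₁ / x₁ + y₂ / x₂ + W.a₁)) ^ 2 := by
      simp only [Affine.addX]
      change ℓ ^ 2 + W.a₁ * ℓ - W.a₂ - x₁ - x₂ = _
      rw [hX, hℓ]
      generalize (1 - W.a₄ / (x₁ * x₂)) / (y₁ / x₁ + y₂ / x₂ + W.a₁) = κ
      field_simp
      ring
    refine ⟨hXX, ?_⟩
    simp only [Affine.addY, Affine.negAddY, Affine.negY, hW.a₃]
    rw [← hℓ]
    have : y₁ / x₁ * x₁ = y₁ := by field_simp
    have h3 : x₁ * x₂ * ((1 - W.a₄ / (x₁ * x₂)) / (y₁ / x₁ + y₂ / x₂ + W.a₁)) =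
        (ℓ - y₁ / x₁) * x₁ := by
      rw [hℓ]; ring
    rw [h3]
    linear_combination this
  by_cases hx : x₁ = x₂
  · subst hx
    have hy : y₁ = y₂ := by
      rcases Y_eq_of_X_eq h₁.1 h₂.1 rfl with h | h
      · exact h
      · exfalso; apply hm
        rw [h, hW.negY]; field_simp; ring
    subst hy
    have hd : 2 * y₁ + W.a₁ * x₁ ≠ 0 := by
      intro h; apply hm
      have : y₁ / x₁ + y₁ / x₁ + W.a₁ = (2 * y₁ + W.a₁ * x₁) / x₁ := by field_simp; ring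
      rw [this, h, zero_div]
    have hne : y₁ ≠ W.toAffine.negY x₁ y₁ := by
      rw [hW.negY]; intro h
      apply hd
      linear_combination h
    have hs : W.toAffine.slope x₁ x₁ y₁ y₁ =
        (3 * x₁ ^ 2 + 2 * W.a₂ * x₁ + W.a₄ - W.a₁ * y₁) / (y₁ - (-y₁ - W.a₁ * x₁)) := by
      rw [slope_of_Y_ne rfl hne, hW.negY]
    obtain ⟨k1, k2⟩ := key _ (hs.trans (slope_tangent x₁ y₁ W.a₁ W.a₂ W.a₄ hx₁ hd e₁))
      (by rw [hs]; exact addX_tangent x₁ y₁ W.a₁ W.a₂ W.a₄ hx₁ hd e₁)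
    exact ⟨_, _, _, Point.add_of_Y_ne hne, k1, k2⟩
  · have hs : W.toAffine.slope x₁ x₂ y₁ y₂ = (y₁ - y₂) / (x₁ - x₂) := slope_of_X_ne hx
    obtain ⟨k1, k2⟩ := key _
      (hs.trans (slope_chord x₁ x₂ y₁ y₂ W.a₁ W.a₂ W.a₄ hx₁ hx₂ hx hm e₁ e₂))
      (by rw [hs]; exact addX_chord x₁ x₂ y₁ y₂ W.a₁ W.a₂ W.a₄ hx₁ hx₂ hx e₁ e₂)
    exact ⟨_, _, _, Point.add_of_X_ne hx, k1, k2⟩

/-- Translation by the two-torsion point `T₁ = (0,0)`:
`(x, y) + (0,0) = (a₄/x, -(y/x + a₁) a₄/x)`. -/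
theorem IsGShape.add_T1 (hW : IsGShape W) {x y : K}
    (h : W.toAffine.Nonsingular x y) (h0 : W.toAffine.Nonsingular 0 0) (hx : x ≠ 0) :
    ∃ (h' : W.toAffine.Nonsingular (W.a₄ / x) (-(y / x + W.a₁) * (W.a₄ / x))),
      Point.some x y h + Point.some 0 0 h0 = Point.some _ _ h' := by
  have e := hW.t_sq h.1 hx
  have hs : W.toAffine.slope x 0 y 0 = y / x := by
    rw [slope_of_X_ne hx]; simp
  have hX : W.toAffine.addX x 0 (y / x) = W.a₄ / x := by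
    simp only [Affine.addX]
    change (y / x) ^ 2 + W.a₁ * (y / x) - W.a₂ - x - 0 = _
    rw [e]; ring
  have hY : W.toAffine.addY x 0 y (y / x) = -(y / x + W.a₁) * (W.a₄ / x) := by
    simp only [Affine.addY, Affine.negAddY, Affine.negY, hW.a₃, hX]
    field_simp
    ring
  have key := Point.add_of_X_ne (W := W.toAffine) (h₁ := h) (h₂ := h0) hx
  have hns := nonsingular_add h h0 (fun hxy => hx hxy.left)
  rw [hs, hX, hY] at hns
  refine ⟨hns, ?_⟩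
  rw [key]
  congr 1 <;> simp only [hs, hX, hY]

theorem IsGShape.T1_add_T1 (hW : IsGShape W) (h0 : W.toAffine.Nonsingular 0 0) :
    Point.some 0 0 h0 + Point.some 0 0 h0 = 0 :=
  Point.add_of_Y_eq rfl (by rw [hW.negY]; simp)

theorem IsGShape.y_eq_zero_of_x_eq_zero (hW : IsGShape W) {y : K}
    (h : W.toAffine.Equation 0 y) : y = 0 := by
  have := hW.equation h
  simpa using this

theorem IsGShape.nonsingular_zero (hW : IsGShape W) (hb : W.a₄ ≠ 0) :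
    W.toAffine.Nonsingular 0 0 := by
  rw [Affine.nonsingular_iff']
  refine ⟨?_, Or.inl ?_⟩
  · rw [Affine.equation_iff]; simp [hW.a₆]
  · simpa using hb

end Chord

section Val

variable {K : Type*} [Field K] {Γ₀ : Type*} [LinearOrderedCommGroupWithZero Γ₀]

/-- The hypotheses on the model: `y² + a₁xy = x³ + a₂x² + a₄x` with `a₁, a₂` integral, `a₄ ≠ 0`
in the maximal ideal, and `α` a root of `T² + a₁T - a₂` such that `2α + a₁` (the difference of
the two roots) is a unit. -/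
structure GModel (v : Valuation K Γ₀) (W : WeierstrassCurve K) (α : K) : Prop where
  shape : IsGShape W
  va₁ : v W.a₁ ≤ 1
  va₂ : v W.a₂ ≤ 1
  b_ne : W.a₄ ≠ 0
  vb : v W.a₄ < 1
  hα : α ^ 2 + W.a₁ * α - W.a₂ = 0
  vδ : v (2 * α + W.a₁) = 1

variable {v : Valuation K Γ₀} {W : WeierstrassCurve K} {α : K}

/-- If `v t > 1` and `v c ≤ 1` then `v (t² + c t) = (v t)²`. -/
theorem v_sq_add_mul {t c : K} (hc : v c ≤ 1) (ht : 1 < v t) :
    v (t ^ 2 + c * t) = v t ^ 2 := by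
  have h0 : 0 < v t := lt_trans zero_lt_one ht
  have : v (c * t) < v (t ^ 2) := by
    rw [map_mul, map_pow, sq]
    calc v c * v t ≤ 1 * v t := by gcongr
      _ < v t * v t := by
          rw [one_mul]
          calc v t = 1 * v t := (one_mul _).symm
            _ < v t * v t := mul_lt_mul_of_pos_right ht h0
  rw [Valuation.map_add_eq_of_lt_left v this, map_pow]

/-- If `v t ≤ 1` and `v c ≤ 1` then `v (t² + c t) ≤ 1`. -/
theorem v_sq_add_mul_le {t c : K} (hc : v c ≤ 1) (ht : v t ≤ 1) :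
    v (t ^ 2 + c * t) ≤ 1 := by
  apply Valuation.map_add_le v
  · rw [map_pow]; exact pow_le_one₀ zero_le ht
  · rw [map_mul]; exact mul_le_one₀ hc zero_le ht

namespace GModel

theorem vα (M : GModel v W α) : v α ≤ 1 := by
  by_contra hcon
  rw [not_le] at hcon
  have h1 : v (α ^ 2 + W.a₁ * α) = v α ^ 2 := v_sq_add_mul M.va₁ hcon
  have h2 : α ^ 2 + W.a₁ * α = W.a₂ := by linear_combination M.hα
  rw [h2] at h1
  have : 1 < v α ^ 2 := one_lt_pow₀ hcon (by norm_num)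
  rw [← h1] at this
  exact not_le.mpr this M.va₂

theorem vb_pos (M : GModel v W α) : 0 < v W.a₄ :=
  zero_lt_iff.mpr ((Valuation.ne_zero_iff v).mpr M.b_ne)

/-- `(t - α)(t + a₁ + α) = t² + a₁ t - a₂`. -/
theorem factor (M : GModel v W α) (t : K) :
    (t - α) * (t + W.a₁ + α) = t ^ 2 + W.a₁ * t - W.a₂ := by
  linear_combination -M.hα

end GModel

/-- The "near the node, on the branch `t ≡ α`" condition on an affine point `(x, y)`. -/
structure IsNp (v : Valuation K Γ₀) (W : WeierstrassCurve K) (α : K) (x y : K) : Prop where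
  x_lt : v x < 1
  b_lt : v W.a₄ < v x
  sign : v (y / x - α) < 1

namespace IsNp

variable {x y : K}

theorem x_ne (h : IsNp v W α x y) : x ≠ 0 := by
  rintro rfl
  have := h.b_lt
  rw [map_zero] at this
  exact not_lt_zero this

theorem vx_pos (h : IsNp v W α x y) : 0 < v x :=
  zero_lt_iff.mpr ((Valuation.ne_zero_iff v).mpr h.x_ne)

theorem vt_other (M : GModel v W α) (h : IsNp v W α x y) : v (y / x + W.a₁ + α) = 1 := by
  have : y / x + W.a₁ + α = (y / x - α) + (2 * α + W.a₁) := by ring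
  rw [this, Valuation.map_add_eq_of_lt_right]
  · exact M.vδ
  · rw [M.vδ]; exact h.sign

theorem vt_le (M : GModel v W α) (h : IsNp v W α x y) : v (y / x) ≤ 1 := by
  have : y / x = (y / x - α) + α := by ring
  rw [this]
  exact Valuation.map_add_le v h.sign.le M.vα

end IsNp

/-- `t₁ + t₂ + a₁` is a unit for two points on the `α`-branch. -/
theorem v_t_add_t (M : GModel v W α) {x₁ y₁ x₂ y₂ : K} (h₁ : IsNp v W α x₁ y₁)
    (h₂ : IsNp v W α x₂ y₂) : v (y₁ / x₁ + y₂ / x₂ + W.a₁) = 1 := by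
  have : y₁ / x₁ + y₂ / x₂ + W.a₁ = ((y₁ / x₁ - α) + (y₂ / x₂ - α)) + (2 * α + W.a₁) := by ring
  rw [this, Valuation.map_add_eq_of_lt_right]
  · exact M.vδ
  · rw [M.vδ]; exact Valuation.map_add_lt v h₁.sign h₂.sign

/-- For a point with `v x < 1` and `v a₄ < v x`, the slope `t = y/x` is congruent to `α` or to
`β = -a₁ - α`. -/
theorem sign_dichotomy (M : GModel v W α) {x y : K} (h : W.toAffine.Equation x y)
    (hx1 : v x < 1) (hbx : v W.a₄ < v x) :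
    v (y / x - α) < 1 ∨ v (y / x + W.a₁ + α) < 1 := by
  have hx : x ≠ 0 := by
    rintro rfl; rw [map_zero] at hbx; exact not_lt_zero hbx
  have hvx : 0 < v x := zero_lt_iff.mpr ((Valuation.ne_zero_iff v).mpr hx)
  have e := M.shape.t_sq h hx
  have hprod : (y / x - α) * (y / x + W.a₁ + α) = x + W.a₄ / x := by
    rw [M.factor, e]; ring
  have hlt : v ((y / x - α) * (y / x + W.a₁ + α)) < 1 := by
    rw [hprod]
    apply Valuation.map_add_lt v hx1
    rw [map_div₀, div_lt_one₀ hvx]; exact hbx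
  rw [map_mul] at hlt
  by_contra hcon
  rw [not_or, not_lt, not_lt] at hcon
  exact absurd (one_le_mul_of_one_le_of_one_le hcon.1 hcon.2) (not_le.mpr hlt)

/-- The two branches are disjoint. -/
theorem not_both (M : GModel v W α) {t : K} (h₁ : v (t - α) < 1) (h₂ : v (t + W.a₁ + α) < 1) :
    False := by
  have : v (2 * α + W.a₁) < 1 := by
    have e : 2 * α + W.a₁ = (t + W.a₁ + α) - (t - α) := by ring
    rw [e]; exact Valuation.map_sub_lt v h₂ h₁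
  rw [M.vδ] at this
  exact lt_irrefl _ this

theorem t3_eq {x₁ x₂ t₁ c κ x₃ y₃ : K} (hx₁ : x₁ ≠ 0) (hx₂ : x₂ ≠ 0) (hκ : κ ≠ 0)
    (hx₃ : x₃ = x₁ * x₂ * κ ^ 2) (hy₃ : y₃ = -(t₁ + x₂ * κ + c) * x₃ + x₁ * x₂ * κ) :
    y₃ / x₃ = -(t₁ + x₂ * κ + c) + 1 / κ := by
  rw [hy₃, hx₃]; field_simp

theorem t3_sub_eq {t₁ t₂ c x₂ u s α : K} (hu : u ≠ 0) (hs : s ≠ 0) (hsd : s = t₁ + t₂ + c) :
    -(t₁ + x₂ * (u / s) + c) + 1 / (u / s) - α =
      (t₂ - α) - x₂ * (u / s) + s * ((1 - u) / u) := by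
  subst hsd; field_simp; ring

theorem t3_add_eq {t₁ c x₂ κ α : K} :
    -(t₁ + x₂ * κ + c) + 1 / κ + c + α = -(t₁ - α) - x₂ * κ + 1 / κ := by
  ring

variable [DecidableEq K]

/-- `N₊ + N₊`. -/
theorem add_Np_Np (M : GModel v W α) {x₁ y₁ x₂ y₂ : K}
    (h₁ : W.toAffine.Nonsingular x₁ y₁) (h₂ : W.toAffine.Nonsingular x₂ y₂)
    (n₁ : IsNp v W α x₁ y₁) (n₂ : IsNp v W α x₂ y₂) :
    ∃ (x₃ y₃ : K) (h₃ : W.toAffine.Nonsingular x₃ y₃),
      Point.some x₁ y₁ h₁ + Point.some x₂ y₂ h₂ = Point.some x₃ y₃ h₃ ∧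
      ((v W.a₄ < v x₁ * v x₂ ∧ IsNp v W α x₃ y₃ ∧ v x₃ = v x₁ * v x₂) ∨
       (v x₁ * v x₂ < v W.a₄ ∧ v W.a₄ < v x₃ ∧ v x₃ < 1 ∧ v (y₃ / x₃ + W.a₁ + α) < 1 ∧
          v x₁ * v x₂ * v x₃ = v W.a₄ ^ 2) ∨
       (v x₁ * v x₂ = v W.a₄ ∧ v x₃ ≤ v W.a₄)) := by
  have hs : v (y₁ / x₁ + y₂ / x₂ + W.a₁) = 1 := v_t_add_t M n₁ n₂
  have hs0 : y₁ / x₁ + y₂ / x₂ + W.a₁ ≠ 0 := by
    intro h; rw [h, map_zero] at hs; exact zero_ne_one hs
  obtain ⟨x₃, y₃, h₃, hadd, hx₃, hy₃⟩ :=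
    M.shape.add_formula h₁ h₂ n₁.x_ne n₂.x_ne hs0
  refine ⟨x₃, y₃, h₃, hadd, ?_⟩
  have hx₁ := n₁.x_ne
  have hx₂ := n₂.x_ne
  have p₁ := n₁.vx_pos
  have p₂ := n₂.vx_pos
  have p₁₂ : 0 < v x₁ * v x₂ := mul_pos p₁ p₂
  set s := y₁ / x₁ + y₂ / x₂ + W.a₁ with hsd
  set u := 1 - W.a₄ / (x₁ * x₂) with hud
  have hvx₃ : v x₃ = v x₁ * v x₂ * v u ^ 2 := by
    rw [hx₃, map_mul, map_mul, map_pow, map_div₀, hs, div_one]
  have hvq : v (W.a₄ / (x₁ * x₂)) = v W.a₄ / (v x₁ * v x₂) := by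
    rw [map_div₀, map_mul]
  rcases lt_trichotomy (v W.a₄) (v x₁ * v x₂) with hlt | heq | hgt
  · -- shallow case
    left
    have hq : v (W.a₄ / (x₁ * x₂)) < 1 := by rw [hvq, div_lt_one₀ p₁₂]; exact hlt
    have hvu : v u = 1 := Valuation.map_one_sub_of_lt v hq
    have hu0 : u ≠ 0 := by
      intro h; rw [h, map_zero] at hvu; exact zero_ne_one hvu
    have hκ0 : u / s ≠ 0 := div_ne_zero hu0 hs0
    have hvx₃' : v x₃ = v x₁ * v x₂ := by rw [hvx₃, hvu]; simp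
    refine ⟨hlt, ⟨?_, ?_, ?_⟩, hvx₃'⟩
    · rw [hvx₃']; exact mul_lt_one' n₁.x_lt n₂.x_lt
    · rw [hvx₃']; exact hlt
    · rw [t3_eq hx₁ hx₂ hκ0 hx₃ hy₃, t3_sub_eq hu0 hs0 hsd]
      apply Valuation.map_add_lt v (Valuation.map_sub_lt v n₂.sign ?_) ?_
      · rw [map_mul, map_div₀, hvu, hs, div_one, mul_one]; exact n₂.x_lt
      · rw [map_mul, map_div₀, hs, hvu, one_mul, div_one]
        have : 1 - u = W.a₄ / (x₁ * x₂) := by rw [hud]; ring
        rw [this]; exact hq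
  · -- boundary case
    right; right
    refine ⟨heq.symm, ?_⟩
    have hq : v (W.a₄ / (x₁ * x₂)) = 1 := by rw [hvq, heq]; exact div_self p₁₂.ne'
    have hvu : v u ≤ 1 := by
      apply Valuation.map_sub_le v (by simp) hq.le
    rw [hvx₃, ← heq]
    exact mul_le_of_le_one_right zero_le (pow_le_one₀ zero_le hvu)
  · -- deep case
    right; left
    have hq : 1 < v (W.a₄ / (x₁ * x₂)) := by rw [hvq, one_lt_div₀ p₁₂]; exact hgt
    have hvu : v u = v W.a₄ / (v x₁ * v x₂) := by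
      rw [hud, Valuation.map_sub_eq_of_lt_right v (by rw [map_one]; exact hq), hvq]
    have hu0 : u ≠ 0 := by
      intro h; rw [h, map_zero] at hvu
      exact (div_pos M.vb_pos p₁₂).ne hvu
    have hκ0 : u / s ≠ 0 := div_ne_zero hu0 hs0
    have hvκ : v (u / s) = v W.a₄ / (v x₁ * v x₂) := by rw [map_div₀, hs, div_one, hvu]
    have hvx₃' : v x₃ = v W.a₄ ^ 2 / (v x₁ * v x₂) := by
      rw [hvx₃, hvu]; field_simp
    refine ⟨hgt, ?_, ?_, ?_, ?_⟩
    · rw [hvx₃', lt_div_iff₀ p₁₂, sq]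
      exact mul_lt_mul_of_pos_left hgt M.vb_pos
    · rw [hvx₃', div_lt_one₀ p₁₂, sq]
      exact mul_lt_mul'' n₁.b_lt n₂.b_lt zero_le zero_le
    · rw [t3_eq hx₁ hx₂ hκ0 hx₃ hy₃, t3_add_eq]
      apply Valuation.map_add_lt v (Valuation.map_sub_lt v ?_ ?_) ?_
      · rw [Valuation.map_neg]; exact n₁.sign
      · rw [map_mul, hvκ]
        have : v x₂ * (v W.a₄ / (v x₁ * v x₂)) = v W.a₄ / v x₁ := by field_simp
        rw [this, div_lt_one₀ p₁]; exact n₁.b_lt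
      · rw [map_div₀, map_one, hvκ, one_div, inv_div, div_lt_one₀ M.vb_pos]; exact hgt
    · rw [hvx₃']; field_simp

/-- Valuation of the slope of a point with `1 ≤ v x`. -/
theorem v_t_sq_le (M : GModel v W α) {x y : K} (h : W.toAffine.Equation x y)
    (hx : 1 ≤ v x) : v (y / x) ^ 2 ≤ v x := by
  have hx0 : x ≠ 0 := by
    rintro rfl; rw [map_zero] at hx; exact not_le.mpr zero_lt_one hx
  have hvx : 0 < v x := lt_of_lt_of_le zero_lt_one hx
  have hR : v (x + W.a₂ + W.a₄ / x) ≤ v x := by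
    apply Valuation.map_add_le v (Valuation.map_add_le v le_rfl (M.va₂.trans hx))
    rw [map_div₀, div_le_iff₀ hvx]
    calc v W.a₄ ≤ 1 := M.vb.le
      _ ≤ v x * v x := one_le_mul_of_one_le_of_one_le hx hx
  rcases le_or_gt (v (y / x)) 1 with ht | ht
  · exact (pow_le_one₀ zero_le ht).trans hx
  · rw [← v_sq_add_mul M.va₁ ht, M.shape.t_sq h hx0]; exact hR

theorem v_t_sq_eq (M : GModel v W α) {x y : K} (h : W.toAffine.Equation x y)
    (hx : 1 < v x) : v (y / x) ^ 2 = v x ∧ 1 < v (y / x) := by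
  have hx0 : x ≠ 0 := by
    rintro rfl; rw [map_zero] at hx; exact not_lt.mpr zero_le_one hx
  have hvx : 0 < v x := lt_trans zero_lt_one hx
  have hR : v (x + W.a₂ + W.a₄ / x) = v x := by
    rw [add_assoc]
    apply Valuation.map_add_eq_of_lt_left
    apply lt_of_le_of_lt _ hx
    apply Valuation.map_add_le v M.va₂
    rw [map_div₀, div_le_one₀ hvx]
    exact M.vb.le.trans hx.le
  have ht : 1 < v (y / x) := by
    by_contra hcon
    rw [not_lt] at hcon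
    have := v_sq_add_mul_le M.va₁ hcon
    rw [M.shape.t_sq h hx0, hR] at this
    exact not_le.mpr hx this
  refine ⟨?_, ht⟩
  rw [← v_sq_add_mul M.va₁ ht, M.shape.t_sq h hx0]; exact hR

/-- `(t₁ - t₂)(t₁ + t₂ + a₁) = (x₁ - x₂)(1 - a₄/(x₁x₂))`. -/
theorem IsGShape.t_diff_mul (hW : IsGShape W) {x₁ y₁ x₂ y₂ : K}
    (h₁ : W.toAffine.Equation x₁ y₁) (h₂ : W.toAffine.Equation x₂ y₂)
    (hx₁ : x₁ ≠ 0) (hx₂ : x₂ ≠ 0) :
    (y₁ / x₁ - y₂ / x₂) * (y₁ / x₁ + y₂ / x₂ + W.a₁) =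
      (x₁ - x₂) * (1 - W.a₄ / (x₁ * x₂)) := by
  have e₁ := hW.t_sq h₁ hx₁
  have e₂ := hW.t_sq h₂ hx₂
  have : (y₁ / x₁ - y₂ / x₂) * (y₁ / x₁ + y₂ / x₂ + W.a₁) =
      ((y₁ / x₁) ^ 2 + W.a₁ * (y₁ / x₁)) - ((y₂ / x₂) ^ 2 + W.a₁ * (y₂ / x₂)) := by ring
  rw [this, e₁, e₂]
  field_simp
  ring

/-- `E₀ + N₊ ⊆ N₊`, preserving `v x`. -/
theorem add_E0_Np (M : GModel v W α) {x₁ y₁ x₂ y₂ : K}
    (h₁ : W.toAffine.Nonsingular x₁ y₁) (h₂ : W.toAffine.Nonsingular x₂ y₂)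
    (e₁ : 1 ≤ v x₁) (n₂ : IsNp v W α x₂ y₂) :
    ∃ (x₃ y₃ : K) (h₃ : W.toAffine.Nonsingular x₃ y₃),
      Point.some x₁ y₁ h₁ + Point.some x₂ y₂ h₂ = Point.some x₃ y₃ h₃ ∧
      IsNp v W α x₃ y₃ ∧ v x₃ = v x₂ := by
  have hx₁ : x₁ ≠ 0 := by
    rintro rfl; rw [map_zero] at e₁; exact not_le.mpr zero_lt_one e₁
  have hx₂ := n₂.x_ne
  have p₁ : 0 < v x₁ := lt_of_lt_of_le zero_lt_one e₁
  have p₂ := n₂.vx_pos
  have p₁₂ : 0 < v x₁ * v x₂ := mul_pos p₁ p₂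
  set s := y₁ / x₁ + y₂ / x₂ + W.a₁ with hsd
  set u := 1 - W.a₄ / (x₁ * x₂) with hud
  have hvq : v (W.a₄ / (x₁ * x₂)) = v W.a₄ / (v x₁ * v x₂) := by
    rw [map_div₀, map_mul]
  have hq : v (W.a₄ / (x₁ * x₂)) < 1 := by
    rw [hvq, div_lt_one₀ p₁₂]
    calc v W.a₄ < v x₂ := n₂.b_lt
      _ ≤ v x₁ * v x₂ := le_mul_of_one_le_left zero_le e₁
  have hvu : v u = 1 := Valuation.map_one_sub_of_lt v hq
  have hu0 : u ≠ 0 := by
    intro h; rw [h, map_zero] at hvu; exact zero_ne_one hvu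
  have ht₂c : v (y₂ / x₂ + W.a₁) ≤ 1 := Valuation.map_add_le v (n₂.vt_le M) M.va₁
  -- the key valuation of `s`
  have hvs : v s ^ 2 = v x₁ ∧ 1 ≤ v s := by
    rcases e₁.lt_or_eq with hlt | heq
    · obtain ⟨hm1, hm1'⟩ := v_t_sq_eq M h₁.1 hlt
      have : v s = v (y₁ / x₁) := by
        rw [hsd, add_assoc]
        apply Valuation.map_add_eq_of_lt_left
        exact lt_of_le_of_lt ht₂c hm1'
      rw [this]
      exact ⟨hm1, hm1'.le⟩
    · have hm1 : v (y₁ / x₁) ≤ 1 := by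
        have := v_t_sq_le M h₁.1 e₁
        rw [← heq] at this
        by_contra hcon
        rw [not_le] at hcon
        exact not_le.mpr (one_lt_pow₀ hcon (by norm_num)) this
      have hs1 : v s ≤ 1 := by
        rw [hsd, add_assoc]
        exact Valuation.map_add_le v hm1 ht₂c
      have hd1 : v (y₁ / x₁ - y₂ / x₂) ≤ 1 := Valuation.map_sub_le v hm1 (n₂.vt_le M)
      have hprod := congrArg v (M.shape.t_diff_mul h₁.1 h₂.1 hx₁ hx₂)
      have hvd : v (x₁ - x₂) = v x₁ :=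
        Valuation.map_sub_eq_of_lt_left v (by rw [← heq]; exact n₂.x_lt)
      rw [map_mul, map_mul, ← hud, ← hsd, hvu, mul_one, hvd, ← heq] at hprod
      have hs1' : v s = 1 := by
        rcases hs1.lt_or_eq with h | h
        · exfalso
          have : v (y₁ / x₁ - y₂ / x₂) * v s < 1 :=
            calc v (y₁ / x₁ - y₂ / x₂) * v s ≤ 1 * v s := mul_le_mul_left hd1 _
              _ = v s := one_mul _
              _ < 1 := h
          rw [hprod] at this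
          exact lt_irrefl _ this
        · exact h
      rw [hs1', ← heq]; simp
  obtain ⟨hvs2, hvs1⟩ := hvs
  have ps : 0 < v s := lt_of_lt_of_le zero_lt_one hvs1
  have hs0 : s ≠ 0 := by
    intro h; rw [h, map_zero] at ps; exact lt_irrefl _ ps
  obtain ⟨x₃, y₃, h₃, hadd, hx₃, hy₃⟩ :=
    M.shape.add_formula h₁ h₂ hx₁ hx₂ hs0
  rw [← hud, ← hsd] at hx₃ hy₃
  refine ⟨x₃, y₃, h₃, hadd, ?_⟩
  have hκ0 : u / s ≠ 0 := div_ne_zero hu0 hs0
  have hvx₃ : v x₃ = v x₂ := by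
    rw [hx₃, map_mul, map_mul, map_pow, map_div₀, hvu, div_pow, hvs2]
    field_simp
  refine ⟨⟨?_, ?_, ?_⟩, hvx₃⟩
  · rw [hvx₃]; exact n₂.x_lt
  · rw [hvx₃]; exact n₂.b_lt
  · rw [t3_eq hx₁ hx₂ hκ0 hx₃ hy₃, t3_sub_eq hu0 hs0 hsd]
    apply Valuation.map_add_lt v (Valuation.map_sub_lt v n₂.sign ?_) ?_
    · rw [map_mul, map_div₀, hvu]
      calc v x₂ * (1 / v s) ≤ v x₂ * 1 := by
            gcongr
            rw [div_le_one₀ ps]; exact hvs1
        _ = v x₂ := mul_one _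
        _ < 1 := n₂.x_lt
    · rw [map_mul, map_div₀, hvu, div_one]
      have h1u : 1 - u = W.a₄ / (x₁ * x₂) := by rw [hud]; ring
      rw [h1u, hvq, ← hvs2]
      have : v s * (v W.a₄ / (v s ^ 2 * v x₂)) = (v W.a₄ / v x₂) / v s := by
        field_simp
      rw [this, div_lt_one₀ ps]
      calc v W.a₄ / v x₂ < 1 := by rw [div_lt_one₀ p₂]; exact n₂.b_lt
        _ ≤ v s := hvs1

/-- `E₀ + E₀ ⊆ E₀` on affine points. -/
theorem add_E0_E0 (M : GModel v W α) {x₁ y₁ x₂ y₂ : K}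
    (h₁ : W.toAffine.Nonsingular x₁ y₁) (h₂ : W.toAffine.Nonsingular x₂ y₂)
    (e₁ : 1 ≤ v x₁) (e₂ : 1 ≤ v x₂) :
    Point.some x₁ y₁ h₁ + Point.some x₂ y₂ h₂ = 0 ∨
    ∃ (x₃ y₃ : K) (h₃ : W.toAffine.Nonsingular x₃ y₃),
      Point.some x₁ y₁ h₁ + Point.some x₂ y₂ h₂ = Point.some x₃ y₃ h₃ ∧ 1 ≤ v x₃ := by
  have hx₁ : x₁ ≠ 0 := by
    rintro rfl; rw [map_zero] at e₁; exact not_le.mpr zero_lt_one e₁
  have hx₂ : x₂ ≠ 0 := by
    rintro rfl; rw [map_zero] at e₂; exact not_le.mpr zero_lt_one e₂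
  have p₁ : 0 < v x₁ := lt_of_lt_of_le zero_lt_one e₁
  have p₂ : 0 < v x₂ := lt_of_lt_of_le zero_lt_one e₂
  have p₁₂ : 0 < v x₁ * v x₂ := mul_pos p₁ p₂
  have e₁₂ : 1 ≤ v x₁ * v x₂ := one_le_mul_of_one_le_of_one_le e₁ e₂
  set s := y₁ / x₁ + y₂ / x₂ + W.a₁ with hsd
  set u := 1 - W.a₄ / (x₁ * x₂) with hud
  have hvq : v (W.a₄ / (x₁ * x₂)) = v W.a₄ / (v x₁ * v x₂) := by
    rw [map_div₀, map_mul]
  have hq : v (W.a₄ / (x₁ * x₂)) < 1 := by
    rw [hvq, div_lt_one₀ p₁₂]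
    exact lt_of_lt_of_le M.vb e₁₂
  have hvu : v u = 1 := Valuation.map_one_sub_of_lt v hq
  have hu0 : u ≠ 0 := by
    intro h; rw [h, map_zero] at hvu; exact zero_ne_one hvu
  by_cases hs0 : s = 0
  · left
    have hprod := M.shape.t_diff_mul h₁.1 h₂.1 hx₁ hx₂
    rw [← hsd, hs0, mul_zero, ← hud] at hprod
    have hxx : x₁ = x₂ := by
      rcases mul_eq_zero.mp hprod.symm with h | h
      · exact sub_eq_zero.mp h
      · exact absurd h hu0
    apply Point.add_of_Y_eq hxx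
    rw [M.shape.negY]
    subst hxx
    have : y₁ / x₁ + y₂ / x₁ + W.a₁ = 0 := hs0
    field_simp at this
    linear_combination this
  · right
    obtain ⟨x₃, y₃, h₃, hadd, hx₃, hy₃⟩ :=
      M.shape.add_formula h₁ h₂ hx₁ hx₂ hs0
    rw [← hud, ← hsd] at hx₃ hy₃
    refine ⟨x₃, y₃, h₃, hadd, ?_⟩
    have ps : 0 < v s := zero_lt_iff.mpr ((Valuation.ne_zero_iff v).mpr hs0)
    have hvx₃ : v x₃ = v x₁ * v x₂ / v s ^ 2 := by
      rw [hx₃, map_mul, map_mul, map_pow, map_div₀, hvu, div_pow]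
      field_simp
    rw [hvx₃, one_le_div₀ (pow_pos ps 2)]
    have hm₁ := v_t_sq_le M h₁.1 e₁
    have hm₂ := v_t_sq_le M h₂.1 e₂
    -- `v s ≤ max (v t₁) (v t₂) (v a₁)`
    have hsle : v s ≤ max (max (v (y₁ / x₁)) (v (y₂ / x₂))) (v W.a₁) := by
      rw [hsd]
      exact (Valuation.map_add v _ _).trans (max_le_max (Valuation.map_add v _ _) le_rfl)
    rcases le_total (max (v (y₁ / x₁)) (v (y₂ / x₂))) (v W.a₁) with hc | hc
    · have : v s ≤ 1 := (hsle.trans (max_le hc le_rfl)).trans M.va₁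
      exact (pow_le_one₀ zero_le this).trans e₁₂
    · have hs' : v s ≤ max (v (y₁ / x₁)) (v (y₂ / x₂)) := hsle.trans (max_le le_rfl hc)
      rcases le_total (v (y₁ / x₁)) (v (y₂ / x₂)) with hle | hle
      · have : v s ≤ v (y₂ / x₂) := hs'.trans (max_le hle le_rfl)
        calc v s ^ 2 ≤ v (y₂ / x₂) ^ 2 := by gcongr
          _ ≤ v x₂ := hm₂
          _ ≤ v x₁ * v x₂ := le_mul_of_one_le_left zero_le e₁
      · have : v s ≤ v (y₁ / x₁) := hs'.trans (max_le le_rfl hle)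
        calc v s ^ 2 ≤ v (y₁ / x₁) ^ 2 := by gcongr
          _ ≤ v x₁ := hm₁
          _ ≤ v x₁ * v x₂ := le_mul_of_one_le_right zero_le e₂

end Val

section Comp

variable {K : Type*} [Field K] {Γ₀ : Type*} [LinearOrderedCommGroupWithZero Γ₀]

/-- A nonzero element of `Γ₀` as a unit (junk value `1` at `0`). -/
noncomputable def uo (g : Γ₀) : Γ₀ˣ := if h : g = 0 then 1 else Units.mk0 g h

theorem uo_val {g : Γ₀} (hg : g ≠ 0) : ((uo g : Γ₀ˣ) : Γ₀) = g := by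
  simp [uo, hg]

theorem uo_mul {g h : Γ₀} (hg : g ≠ 0) (hh : h ≠ 0) : uo (g * h) = uo g * uo h := by
  apply Units.ext
  rw [Units.val_mul, uo_val hg, uo_val hh, uo_val (mul_ne_zero hg hh)]

variable (v : Valuation K Γ₀) (W : WeierstrassCurve K)

/-- The subgroup generated by `v(a₄)²`. -/
noncomputable def Hs : Subgroup Γ₀ˣ := Subgroup.zpowers (uo (v W.a₄) ^ 2)

/-- The target group `Γ₀ˣ / ⟨v(a₄)²⟩` of the component map. -/
abbrev CG := Γ₀ˣ ⧸ Hs v W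

/-- The class of `v t`. -/
noncomputable def cls (t : K) : CG v W := QuotientGroup.mk (uo (v t))

variable {v W}

theorem cls_mul {t t' : K} (ht : t ≠ 0) (ht' : t' ≠ 0) :
    cls v W (t * t') = cls v W t * cls v W t' := by
  unfold cls
  rw [map_mul, uo_mul ((Valuation.ne_zero_iff v).mpr ht) ((Valuation.ne_zero_iff v).mpr ht'),
    QuotientGroup.mk_mul]

theorem cls_congr {t t' : K} (h : v t = v t') : cls v W t = cls v W t' := by
  unfold cls; rw [h]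

theorem cls_b_mul_self : cls v W W.a₄ * cls v W W.a₄ = 1 := by
  unfold cls
  rw [← QuotientGroup.mk_mul, ← sq, QuotientGroup.eq_one_iff]
  exact Subgroup.mem_zpowers _

theorem cls_b_inv : (cls v W W.a₄)⁻¹ = cls v W W.a₄ :=
  inv_eq_of_mul_eq_one_left cls_b_mul_self

theorem cls_div {t t' : K} (ht : t ≠ 0) (ht' : t' ≠ 0) :
    cls v W (t / t') = cls v W t * (cls v W t')⁻¹ := by
  rw [eq_mul_inv_iff_mul_eq, ← cls_mul (div_ne_zero ht ht') ht', div_mul_cancel₀ _ ht']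

variable [DecidableEq K] (v W) (α : K)

/-- The component map. -/
noncomputable def comp : W.toAffine.Point → CG v W
  | .zero => 1
  | .some x y _ =>
    if 1 ≤ v x then 1 else if v x ≤ v W.a₄ then cls v W W.a₄
    else if v (y / x - α) < 1 then cls v W x else (cls v W x)⁻¹

variable {v W α}

theorem comp_zero : comp v W α 0 = 1 := rfl

theorem comp_of_E0 {x y : K} (h : W.toAffine.Nonsingular x y) (hx : 1 ≤ v x) :
    comp v W α (Point.some x y h) = 1 := by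
  simp [comp, hx]

theorem comp_of_deep (M : GModel v W α) {x y : K} (h : W.toAffine.Nonsingular x y)
    (hx : v x ≤ v W.a₄) : comp v W α (Point.some x y h) = cls v W W.a₄ := by
  have : ¬ 1 ≤ v x := not_le.mpr (lt_of_le_of_lt hx M.vb)
  simp [comp, this, hx]

theorem comp_of_Np (_M : GModel v W α) {x y : K} (h : W.toAffine.Nonsingular x y)
    (n : IsNp v W α x y) : comp v W α (Point.some x y h) = cls v W x := by
  have h1 : ¬ 1 ≤ v x := not_le.mpr n.x_lt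
  have h2 : ¬ v x ≤ v W.a₄ := not_le.mpr n.b_lt
  simp [comp, h1, h2, n.sign]

theorem comp_of_Nm (M : GModel v W α) {x y : K} (h : W.toAffine.Nonsingular x y)
    (hx1 : v x < 1) (hbx : v W.a₄ < v x) (hs : v (y / x + W.a₁ + α) < 1) :
    comp v W α (Point.some x y h) = (cls v W x)⁻¹ := by
  have h1 : ¬ 1 ≤ v x := not_le.mpr hx1
  have h2 : ¬ v x ≤ v W.a₄ := not_le.mpr hbx
  have h3 : ¬ v (y / x - α) < 1 := fun h3 => not_both M h3 hs
  simp [comp, h1, h2, h3]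

/-- The two-torsion point `T₁ = (0, 0)`. -/
noncomputable def T1 (M : GModel v W α) : W.toAffine.Point :=
  Point.some 0 0 (M.shape.nonsingular_zero M.b_ne)

theorem T1_add_T1 (M : GModel v W α) : T1 M + T1 M = 0 :=
  M.shape.T1_add_T1 _

theorem comp_T1 (M : GModel v W α) : comp v W α (T1 M) = cls v W W.a₄ := by
  unfold T1
  apply comp_of_deep M
  rw [map_zero]; exact zero_le

/-- `P + T₁` in coordinates. -/
theorem add_T1_coord (M : GModel v W α) {x y : K} (h : W.toAffine.Nonsingular x y)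
    (hx : x ≠ 0) :
    ∃ (x' y' : K) (h' : W.toAffine.Nonsingular x' y'),
      Point.some x y h + T1 M = Point.some x' y' h' ∧ x' ≠ 0 ∧ v x' = v W.a₄ / v x ∧
      y' / x' = -(y / x) - W.a₁ ∧ cls v W x' = cls v W W.a₄ * (cls v W x)⁻¹ := by
  obtain ⟨h', e⟩ := M.shape.add_T1 h (M.shape.nonsingular_zero M.b_ne) hx
  refine ⟨_, _, h', e, div_ne_zero M.b_ne hx, map_div₀ v _ _, ?_, cls_div M.b_ne hx⟩
  have := M.b_ne
  field_simp
  ring

/-- Translation by `T₁` multiplies the component by the class of `a₄`. -/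
theorem comp_add_T1 (M : GModel v W α) (P : W.toAffine.Point) :
    comp v W α (P + T1 M) = cls v W W.a₄ * comp v W α P := by
  rcases P with _ | ⟨x, y, h⟩
  · change comp v W α (0 + T1 M) = _ * comp v W α 0
    rw [zero_add, comp_T1, comp_zero, mul_one]
  by_cases hx : x = 0
  · subst hx
    have hy : y = 0 := M.shape.y_eq_zero_of_x_eq_zero h.1
    subst hy
    have e : Point.some 0 0 h = T1 M := rfl
    rw [e, T1_add_T1, comp_zero, comp_T1, cls_b_mul_self]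
  obtain ⟨x', y', h', e, hx', hvx', hm', hcls⟩ := add_T1_coord M h hx
  have pvx : 0 < v x := zero_lt_iff.mpr ((Valuation.ne_zero_iff v).mpr hx)
  rw [e]
  by_cases h1 : 1 ≤ v x
  · -- `P ∈ E₀`
    rw [comp_of_E0 h h1, mul_one]
    apply comp_of_deep M
    rw [hvx', div_le_iff₀ pvx]
    exact le_mul_of_one_le_right zero_le h1
  rw [not_le] at h1
  by_cases h2 : v x ≤ v W.a₄
  · -- `P` deep
    rw [comp_of_deep M h h2, cls_b_mul_self]
    apply comp_of_E0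
    rw [hvx', one_le_div₀ pvx]; exact h2
  rw [not_le] at h2
  have hx'1 : v x' < 1 := by rw [hvx', div_lt_one₀ pvx]; exact h2
  have hbx' : v W.a₄ < v x' := by
    rw [hvx', lt_div_iff₀ pvx]
    calc v W.a₄ * v x < v W.a₄ * 1 := mul_lt_mul_of_pos_left h1 M.vb_pos
      _ = v W.a₄ := mul_one _
  rcases sign_dichotomy M h.1 h1 h2 with hs | hs
  · -- `P ∈ N₊`, so `P + T₁ ∈ N₋`
    rw [comp_of_Np M h ⟨h1, h2, hs⟩]
    have : v (y' / x' + W.a₁ + α) < 1 := by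
      rw [hm']
      have e2 : -(y / x) - W.a₁ + W.a₁ + α = -(y / x - α) := by ring
      rw [e2, Valuation.map_neg]; exact hs
    rw [comp_of_Nm M h' hx'1 hbx' this, hcls, mul_inv, inv_inv, cls_b_inv]
  · -- `P ∈ N₋`, so `P + T₁ ∈ N₊`
    rw [comp_of_Nm M h h1 h2 hs]
    have : v (y' / x' - α) < 1 := by
      rw [hm']
      have e2 : -(y / x) - W.a₁ - α = -(y / x + W.a₁ + α) := by ring
      rw [e2, Valuation.map_neg]; exact hs
    rw [comp_of_Np M h' ⟨hx'1, hbx', this⟩, hcls]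

/-- Membership in `E₀ ∪ N₊`. -/
def InH (v : Valuation K Γ₀) (W : WeierstrassCurve K) (α : K) (P : W.toAffine.Point) : Prop :=
  P = 0 ∨ ∃ (x y : K) (h : W.toAffine.Nonsingular x y),
    P = Point.some x y h ∧ (1 ≤ v x ∨ IsNp v W α x y)

/-- Every point lies in `E₀ ∪ N₊` or in its translate by `T₁`. -/
theorem inH_or_inH_add_T1 (M : GModel v W α) (P : W.toAffine.Point) :
    InH v W α P ∨ InH v W α (P + T1 M) := by
  rcases P with _ | ⟨x, y, h⟩
  · exact Or.inl (Or.inl rfl)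
  by_cases hx : x = 0
  · subst hx
    have hy : y = 0 := M.shape.y_eq_zero_of_x_eq_zero h.1
    subst hy
    have e : Point.some 0 0 h = T1 M := rfl
    right; left
    rw [e, T1_add_T1]
  obtain ⟨x', y', h', e, hx', hvx', hm', -⟩ := add_T1_coord M h hx
  have pvx : 0 < v x := zero_lt_iff.mpr ((Valuation.ne_zero_iff v).mpr hx)
  by_cases h1 : 1 ≤ v x
  · exact Or.inl (Or.inr ⟨x, y, h, rfl, Or.inl h1⟩)
  rw [not_le] at h1
  by_cases h2 : v x ≤ v W.a₄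
  · right; right
    refine ⟨x', y', h', e, Or.inl ?_⟩
    rw [hvx', one_le_div₀ pvx]; exact h2
  rw [not_le] at h2
  rcases sign_dichotomy M h.1 h1 h2 with hs | hs
  · exact Or.inl (Or.inr ⟨x, y, h, rfl, Or.inr ⟨h1, h2, hs⟩⟩)
  · right; right
    refine ⟨x', y', h', e, Or.inr ⟨?_, ?_, ?_⟩⟩
    · rw [hvx', div_lt_one₀ pvx]; exact h2
    · rw [hvx', lt_div_iff₀ pvx]
      calc v W.a₄ * v x < v W.a₄ * 1 := mul_lt_mul_of_pos_left h1 M.vb_pos
        _ = v W.a₄ := mul_one _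
    · rw [hm']
      have e2 : -(y / x) - W.a₁ - α = -(y / x + W.a₁ + α) := by ring
      rw [e2, Valuation.map_neg]; exact hs

/-- Additivity of the component map on `E₀ ∪ N₊`. -/
theorem comp_add_of_inH (M : GModel v W α) {P Q : W.toAffine.Point}
    (hP : InH v W α P) (hQ : InH v W α Q) :
    comp v W α (P + Q) = comp v W α P * comp v W α Q := by
  rcases hP with rfl | ⟨x₁, y₁, h₁, rfl, c₁⟩
  · rw [zero_add, comp_zero, one_mul]
  rcases hQ with rfl | ⟨x₂, y₂, h₂, rfl, c₂⟩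
  · rw [add_zero, comp_zero, mul_one]
  rcases c₁ with e₁ | n₁ <;> rcases c₂ with e₂ | n₂
  · rw [comp_of_E0 h₁ e₁, comp_of_E0 h₂ e₂, mul_one]
    rcases add_E0_E0 M h₁ h₂ e₁ e₂ with h0 | ⟨x₃, y₃, h₃, e, e₃⟩
    · rw [h0, comp_zero]
    · rw [e, comp_of_E0 h₃ e₃]
  · obtain ⟨x₃, y₃, h₃, e, n₃, hv⟩ := add_E0_Np M h₁ h₂ e₁ n₂
    rw [e, comp_of_E0 h₁ e₁, comp_of_Np M h₂ n₂, comp_of_Np M h₃ n₃, one_mul, cls_congr hv]
  · obtain ⟨x₃, y₃, h₃, e, n₃, hv⟩ := add_E0_Np M h₂ h₁ e₂ n₁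
    rw [add_comm, e, comp_of_E0 h₂ e₂, comp_of_Np M h₁ n₁, comp_of_Np M h₃ n₃, mul_one,
      cls_congr hv]
  · obtain ⟨x₃, y₃, h₃, e, hc⟩ := add_Np_Np M h₁ h₂ n₁ n₂
    rw [e, comp_of_Np M h₁ n₁, comp_of_Np M h₂ n₂, ← cls_mul n₁.x_ne n₂.x_ne]
    rcases hc with ⟨-, n₃, hv⟩ | ⟨-, hb₃, hx₃, hs₃, hv⟩ | ⟨hv, hd⟩
    · rw [comp_of_Np M h₃ n₃]
      apply cls_congr; rw [hv, map_mul]
    · rw [comp_of_Nm M h₃ hx₃ hb₃ hs₃, inv_eq_iff_eq_inv, eq_inv_iff_mul_eq_one]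
      have hx₃0 : x₃ ≠ 0 := by
        rintro rfl; rw [map_zero] at hb₃; exact not_lt_zero hb₃
      rw [mul_comm, ← cls_mul (mul_ne_zero n₁.x_ne n₂.x_ne) hx₃0]
      have : v (x₁ * x₂ * x₃) = v (W.a₄ * W.a₄) := by
        rw [map_mul, map_mul, hv, map_mul, sq]
      rw [cls_congr this, cls_mul M.b_ne M.b_ne, cls_b_mul_self]
    · rw [comp_of_deep M h₃ hd]
      apply cls_congr; rw [map_mul, hv]

/-- **The component map is additive.** -/
theorem comp_add (M : GModel v W α) (P Q : W.toAffine.Point) :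
    comp v W α (P + Q) = comp v W α P * comp v W α Q := by
  have hb := cls_b_mul_self (v := v) (W := W)
  rcases inH_or_inH_add_T1 M P with hP | hP <;> rcases inH_or_inH_add_T1 M Q with hQ | hQ
  · exact comp_add_of_inH M hP hQ
  · have := comp_add_of_inH M hP hQ
    rw [← add_assoc, comp_add_T1, comp_add_T1] at this
    calc comp v W α (P + Q) = cls v W W.a₄ * (cls v W W.a₄ * comp v W α (P + Q)) := by
          rw [← mul_assoc, hb, one_mul]
      _ = cls v W W.a₄ * (comp v W α P * (cls v W W.a₄ * comp v W α Q)) := by rw [this]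
      _ = comp v W α P * comp v W α Q := by
          rw [mul_left_comm (comp v W α P), ← mul_assoc, hb, one_mul]
  · have := comp_add_of_inH M hP hQ
    rw [add_right_comm, comp_add_T1, comp_add_T1] at this
    calc comp v W α (P + Q) = cls v W W.a₄ * (cls v W W.a₄ * comp v W α (P + Q)) := by
          rw [← mul_assoc, hb, one_mul]
      _ = cls v W W.a₄ * (cls v W W.a₄ * comp v W α P * comp v W α Q) := by rw [this]
      _ = comp v W α P * comp v W α Q := by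
          rw [mul_assoc, ← mul_assoc, hb, one_mul]
  · have := comp_add_of_inH M hP hQ
    have e : P + T1 M + (Q + T1 M) = P + Q + (T1 M + T1 M) := by abel
    rw [e, T1_add_T1, add_zero, comp_add_T1, comp_add_T1] at this
    rw [this, mul_mul_mul_comm, hb, one_mul]

theorem comp_nsmul (M : GModel v W α) (n : ℕ) (P : W.toAffine.Point) :
    comp v W α (n • P) = comp v W α P ^ n := by
  induction n with
  | zero => rw [zero_smul, pow_zero, comp_zero]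
  | succ k ih => rw [succ_nsmul, comp_add M, ih, pow_succ]

theorem comp_neg (M : GModel v W α) (P : W.toAffine.Point) :
    comp v W α (-P) = (comp v W α P)⁻¹ := by
  rw [eq_inv_iff_mul_eq_one, ← comp_add M, neg_add_cancel, comp_zero]

theorem comp_sub (M : GModel v W α) (P Q : W.toAffine.Point) :
    comp v W α (P - Q) = comp v W α P * (comp v W α Q)⁻¹ := by
  rw [sub_eq_add_neg, comp_add M, comp_neg M]

theorem cls_b_ne_one (M : GModel v W α) : cls v W W.a₄ ≠ 1 := by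
  intro h
  unfold cls at h
  rw [QuotientGroup.eq_one_iff] at h
  obtain ⟨j, hj⟩ := Subgroup.mem_zpowers_iff.mp h
  have hb0 : v W.a₄ ≠ 0 := M.vb_pos.ne'
  set β := uo (v W.a₄) with hβ
  have h1 : β ^ (2 * j - 1) = 1 := by
    rw [zpow_sub, zpow_mul, zpow_one, mul_inv_eq_one]
    exact_mod_cast hj
  have h2 : β = 1 := (IsMulTorsionFree.zpow_eq_one_iff_left (by omega)).mp h1
  have h3 : v W.a₄ = 1 := by
    rw [← uo_val hb0, ← hβ, h2, Units.val_one]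
  exact absurd h3 M.vb.ne

theorem exists_of_cls_pow_eq_one (M : GModel v W α) {t : K} (ht : t ≠ 0) {n : ℕ}
    (h : cls v W t ^ n = 1) : ∃ j : ℤ, v t ^ n = v W.a₄ ^ (2 * j) := by
  have ht0 : v t ≠ 0 := (Valuation.ne_zero_iff v).mpr ht
  have hb0 : v W.a₄ ≠ 0 := M.vb_pos.ne'
  unfold cls at h
  rw [← QuotientGroup.mk_pow, QuotientGroup.eq_one_iff] at h
  obtain ⟨j, hj⟩ := Subgroup.mem_zpowers_iff.mp h
  refine ⟨j, ?_⟩
  have := congrArg (fun u : Γ₀ˣ => (u : Γ₀)) hj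
  simp only [Units.val_zpow_eq_zpow_val, Units.val_pow_eq_pow_val, uo_val ht0, uo_val hb0] at this
  rw [← this, zpow_mul]; norm_cast

/-- **Torsion points near the node.** If `n` is odd and `n • (x, y) = 0` with `v x < 1`, then
`v a₄ < v x` and `(v x)^n ∈ ⟨v(a₄)²⟩`. -/
theorem torsion_val (M : GModel v W α) {n : ℕ} (hn : Odd n) {x y : K}
    (h : W.toAffine.Nonsingular x y) (hP : n • Point.some x y h = 0) (hx1 : v x < 1) :
    v W.a₄ < v x ∧ ∃ j : ℤ, v x ^ n = v W.a₄ ^ (2 * j) := by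
  have hc : comp v W α (Point.some x y h) ^ n = 1 := by
    rw [← comp_nsmul M, hP, comp_zero]
  by_cases h2 : v x ≤ v W.a₄
  · exfalso
    rw [comp_of_deep M h h2] at hc
    obtain ⟨k, rfl⟩ := hn
    rw [pow_succ, pow_mul, sq, cls_b_mul_self, one_pow, one_mul] at hc
    exact cls_b_ne_one M hc
  rw [not_le] at h2
  refine ⟨h2, ?_⟩
  have hx0 : x ≠ 0 := by
    rintro rfl; rw [map_zero] at h2; exact not_lt_zero h2
  apply exists_of_cls_pow_eq_one M hx0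
  rcases sign_dichotomy M h.1 hx1 h2 with hs | hs
  · rwa [comp_of_Np M h ⟨hx1, h2, hs⟩] at hc
  · rwa [comp_of_Nm M h hx1 h2 hs, inv_pow, inv_eq_one] at hc

/-- For `v a₄ < v t < 1` the class of `t` is nontrivial. -/
theorem cls_ne_one_of_between (M : GModel v W α) {t : K} (h1 : v t < 1) (h2 : v W.a₄ < v t) :
    cls v W t ≠ 1 := by
  intro h
  have ht : t ≠ 0 := by
    rintro rfl; rw [map_zero] at h2; exact not_lt_zero h2
  obtain ⟨j, hj⟩ := exists_of_cls_pow_eq_one M ht (n := 1) (by rw [pow_one]; exact h)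
  rw [pow_one] at hj
  rcases le_or_gt j 0 with hj0 | hj0
  · have : (v W.a₄) ^ (0 : ℤ) ≤ v W.a₄ ^ (2 * j) :=
      zpow_le_zpow_right_of_le_one₀ M.vb_pos M.vb.le (by omega)
    rw [zpow_zero, ← hj] at this
    exact not_le.mpr h1 this
  · have : v W.a₄ ^ (2 * j) ≤ (v W.a₄) ^ (1 : ℤ) :=
      zpow_le_zpow_right_of_le_one₀ M.vb_pos M.vb.le (by omega)
    rw [zpow_one, ← hj] at this
    exact not_le.mpr h2 this

/-- The subgroup `E₀`: points whose reduction is not the node. -/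
def InE0 (v : Valuation K Γ₀) (W : WeierstrassCurve K) (P : W.toAffine.Point) : Prop :=
  P = 0 ∨ ∃ (x y : K) (h : W.toAffine.Nonsingular x y), P = Point.some x y h ∧ 1 ≤ v x

theorem inE0_zero : InE0 v W (0 : W.toAffine.Point) := Or.inl rfl

theorem inE0_some {x y : K} (h : W.toAffine.Nonsingular x y) :
    InE0 v W (Point.some x y h) ↔ 1 ≤ v x := by
  constructor
  · rintro (h0 | ⟨x', y', h', e, hx⟩)
    · exact absurd h0 (by simp [Point.zero_def])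
    · obtain ⟨rfl, rfl⟩ := Point.some.inj e
      exact hx
  · exact fun hx => Or.inr ⟨x, y, h, rfl, hx⟩

/-- **The kernel of the component map is `E₀`.** -/
theorem comp_eq_one_iff (M : GModel v W α) (P : W.toAffine.Point) :
    comp v W α P = 1 ↔ InE0 v W P := by
  constructor
  · intro hc
    rcases P with _ | ⟨x, y, h⟩
    · exact Or.inl rfl
    by_cases h1 : 1 ≤ v x
    · exact Or.inr ⟨x, y, h, rfl, h1⟩
    exfalso
    rw [not_le] at h1
    by_cases h2 : v x ≤ v W.a₄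
    · rw [comp_of_deep M h h2] at hc
      exact cls_b_ne_one M hc
    rw [not_le] at h2
    rcases sign_dichotomy M h.1 h1 h2 with hs | hs
    · rw [comp_of_Np M h ⟨h1, h2, hs⟩] at hc
      exact cls_ne_one_of_between M h1 h2 hc
    · rw [comp_of_Nm M h h1 h2 hs, inv_eq_one] at hc
      exact cls_ne_one_of_between M h1 h2 hc
  · rintro (rfl | ⟨x, y, h, rfl, hx⟩)
    · exact comp_zero
    · exact comp_of_E0 h hx

theorem inE0_add (M : GModel v W α) {P Q : W.toAffine.Point} (hP : InE0 v W P)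
    (hQ : InE0 v W Q) : InE0 v W (P + Q) := by
  rw [← comp_eq_one_iff M] at hP hQ ⊢
  rw [comp_add M, hP, hQ, one_mul]

theorem inE0_neg (M : GModel v W α) {P : W.toAffine.Point} (hP : InE0 v W P) :
    InE0 v W (-P) := by
  rw [← comp_eq_one_iff M] at hP ⊢
  rw [comp_neg M, hP, inv_one]

theorem inE0_sub (M : GModel v W α) {P Q : W.toAffine.Point} (hP : InE0 v W P)
    (hQ : InE0 v W Q) : InE0 v W (P - Q) := by
  rw [sub_eq_add_neg]; exact inE0_add M hP (inE0_neg M hQ)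

theorem inE0_nsmul (M : GModel v W α) {P : W.toAffine.Point} (hP : InE0 v W P) (n : ℕ) :
    InE0 v W (n • P) := by
  rw [← comp_eq_one_iff M] at hP ⊢
  rw [comp_nsmul M, hP, one_pow]

/-- Two points have the same component iff their difference lies in `E₀`. -/
theorem comp_eq_comp_iff (M : GModel v W α) (P Q : W.toAffine.Point) :
    comp v W α P = comp v W α Q ↔ InE0 v W (P - Q) := by
  rw [← comp_eq_one_iff M, comp_sub M, mul_inv_eq_one]

/-- **Same-branch lemma.** Two points near the node with the same `v x` and congruent slopes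
differ by an element of `E₀`. -/
theorem inE0_sub_of_same_branch (M : GModel v W α) {x₁ y₁ x₂ y₂ : K}
    (h₁ : W.toAffine.Nonsingular x₁ y₁) (h₂ : W.toAffine.Nonsingular x₂ y₂)
    (hx₁ : v x₁ < 1) (hb₁ : v W.a₄ < v x₁) (hv : v x₁ = v x₂)
    (ht : v (y₁ / x₁ - y₂ / x₂) < 1) :
    InE0 v W (Point.some x₁ y₁ h₁ - Point.some x₂ y₂ h₂) := by
  rw [← comp_eq_comp_iff M]
  have hx₂ : v x₂ < 1 := hv ▸ hx₁
  have hb₂ : v W.a₄ < v x₂ := hv ▸ hb₁
  rcases sign_dichotomy M h₁.1 hx₁ hb₁ with hs | hs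
  · have hs₂ : v (y₂ / x₂ - α) < 1 := by
      have e : y₂ / x₂ - α = (y₁ / x₁ - α) - (y₁ / x₁ - y₂ / x₂) := by ring
      rw [e]; exact Valuation.map_sub_lt v hs ht
    rw [comp_of_Np M h₁ ⟨hx₁, hb₁, hs⟩, comp_of_Np M h₂ ⟨hx₂, hb₂, hs₂⟩, cls_congr hv]
  · have hs₂ : v (y₂ / x₂ + W.a₁ + α) < 1 := by
      have e : y₂ / x₂ + W.a₁ + α = (y₁ / x₁ + W.a₁ + α) - (y₁ / x₁ - y₂ / x₂) := by ring
      rw [e]; exact Valuation.map_sub_lt v hs ht
    rw [comp_of_Nm M h₁ hx₁ hb₁ hs, comp_of_Nm M h₂ hx₂ hb₂ hs₂, cls_congr hv]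

/-- Consumer form of `torsion_val` for a "discrete" situation: if `v a₄ = π^N` and `v x = π^m`
for some `0 < π < 1` and integers `N, m`, and `n` is odd and coprime to `2N`, then an
`n`-torsion point `(x, y)` lies in `E₀`. -/
theorem one_le_vx_of_torsion (M : GModel v W α) {n : ℕ} (hn : Odd n) {x y : K}
    (h : W.toAffine.Nonsingular x y) (hP : n • Point.some x y h = 0)
    {π : Γ₀} (hπ0 : 0 < π) (hπ1 : π < 1) {N m : ℤ} (ha₄ : v W.a₄ = π ^ N) (hx : v x = π ^ m)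
    (hcop : IsCoprime (n : ℤ) (2 * N)) : 1 ≤ v x := by
  by_contra hcon
  rw [not_le] at hcon
  obtain ⟨hlt, j, hj⟩ := torsion_val M hn h hP hcon
  rw [hx, ha₄, ← zpow_natCast, ← zpow_mul, ← zpow_mul] at hj
  have hmn : m * (n : ℤ) = N * (2 * j) := (zpow_right_inj₀ hπ0 hπ1.ne).mp hj
  rw [hx, ha₄] at hlt
  have h1 : m < N := (zpow_lt_zpow_iff_right_of_lt_one₀ hπ0 hπ1).mp hlt
  have h2 : 0 < m := by
    rw [hx, ← zpow_zero π] at hcon
    exact (zpow_lt_zpow_iff_right_of_lt_one₀ hπ0 hπ1).mp hcon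
  have hdvd : (2 * N) ∣ m := by
    have : (2 * N) ∣ (n : ℤ) * m := ⟨j, by linarith⟩
    exact hcop.symm.dvd_of_dvd_mul_left this
  obtain ⟨k, hk⟩ := hdvd
  have hN : 0 < N := lt_trans h2 h1
  have hk0 : 0 < k := by
    by_contra hk0
    rw [not_lt] at hk0
    have : 2 * N * k ≤ 0 := mul_nonpos_of_nonneg_of_nonpos (by linarith) hk0
    linarith
  have : 2 * N * 1 ≤ 2 * N * k := by
    apply mul_le_mul_of_nonneg_left _ (by linarith)
    omega
  linarith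

end Comp

end Fermat.Agent.S13.NodeGen
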