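import Fermat.Agent.S13.BranchInertia
import Fermat.Agent.S13.NodeGen
import Fermat.Agent.S05.SameRed
import Fermat.Agent.S05.KernelRedX
import Fermat.Agent.S05.Inertia

set_option autoImplicit false
set_option linter.unusedSectionVars false

/-!
# S13: the inertia group acting on the odd torsion of a node model

`W : y² + a₁xy = x³ + a₂x² + a₄x` over a field `K` algebraic over `ℚ`, `A` a valuation subring of
`K` over a prime `q`, with `a₁, a₂ ∈ A`, `b₂ = a₁² + 4a₂` a unit, `a₄ ∈ 𝔪` nonzero.  No hypothesis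
on the residue characteristic.  For `σ` in the inertia group of `A`:

* `smul_sub_inE0`: if `n` is odd and `n • P = 0` then `σ • P - P ∈ E₀`;
* `smul_sub_inKerRed`: if `P ∈ E₀` then `σ • P - P ∈ E₁`;
* `unipotent`: if moreover `n` is a unit of `A`, then `σ • (σ • P - P) = σ • P - P`.
-/

namespace Fermat.Agent.S13.NodeInertia

open WeierstrassCurve WeierstrassCurve.Affine WeierstrassCurve.Affine.Point
open Fermat.Agent.S05 Fermat.Agent.S13.NodeGen Fermat.Agent.S13.Branch

section Hyp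

variable {K : Type*} [Field K] [DecidableEq K]

/-- The hypotheses on the node model, in the language of valuation subrings. -/
structure NodeHyp (A : ValuationSubring K) (W : WeierstrassCurve K) : Prop where
  a₃ : W.a₃ = 0
  a₆ : W.a₆ = 0
  a₁ : W.a₁ ∈ A
  a₂ : W.a₂ ∈ A
  b₂ : W.b₂ ∉ A.nonunits
  a₄ : W.a₄ ∈ A.nonunits
  a₄_ne : W.a₄ ≠ 0

namespace NodeHyp

variable {A : ValuationSubring K} {W : WeierstrassCurve K}

theorem a₄_mem (H : NodeHyp A W) : W.a₄ ∈ A := A.nonunits_subset H.a₄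

theorem integralCoeffs (H : NodeHyp A W) : IntegralCoeffs A W :=
  ⟨H.a₁, H.a₂, by rw [H.a₃]; exact A.zero_mem, H.a₄_mem, by rw [H.a₆]; exact A.zero_mem⟩

theorem integralB (H : NodeHyp A W) : KR.IntegralB A W.toAffine :=
  KR.integralB_of_a A W.toAffine H.a₁ H.a₂ (by rw [H.a₃]; exact A.zero_mem) H.a₄_mem
    (by rw [H.a₆]; exact A.zero_mem)

theorem b₂_mem (H : NodeHyp A W) : W.b₂ ∈ A := H.integralB.b₂

theorem val_b₂ (H : NodeHyp A W) : A.valuation W.b₂ = 1 := by
  apply le_antisymm ((ValuationSubring.valuation_le_one_iff A _).2 H.b₂_mem)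
  by_contra hlt
  push Not at hlt
  exact H.b₂ ((ValuationSubring.mem_nonunits_iff A).2 hlt)

/-- the `GModel` of `NodeGen` for `v := A.valuation` and a root `α` of `T² + a₁T - a₂`. -/
theorem gModel (H : NodeHyp A W) {α : K} (hα : α ^ 2 + W.a₁ * α - W.a₂ = 0) :
    GModel A.valuation W α where
  shape := ⟨H.a₃, H.a₆⟩
  va₁ := (ValuationSubring.valuation_le_one_iff A _).2 H.a₁
  va₂ := (ValuationSubring.valuation_le_one_iff A _).2 H.a₂
  b_ne := H.a₄_ne
  vb := (ValuationSubring.mem_nonunits_iff A).1 H.a₄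
  hα := hα
  vδ := by
    have e : (2 * α + W.a₁) ^ 2 = W.b₂ := by
      unfold WeierstrassCurve.b₂
      linear_combination 4 * hα
    have h1 : A.valuation (2 * α + W.a₁) ^ 2 = 1 ^ 2 := by
      rw [← Valuation.map_pow, e, H.val_b₂, one_pow]
    exact (pow_left_inj₀ zero_le zero_le two_ne_zero).1 h1

/-- An integral point whose `x`-coordinate is a unit has nonsingular reduction. -/
theorem nonsingularRed_of_x_unit (H : NodeHyp A W) {x y : K} (h : W.toAffine.Equation x y)
    (hx : x ∈ A) (hxu : x ∉ A.nonunits) : NonsingularRed A W x y := by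
  unfold NonsingularRed
  by_contra hcon
  push Not at hcon
  obtain ⟨hd1, hd2⟩ := hcon
  have E := (Affine.equation_iff (W := W.toAffine) x y).1 h
  rw [H.a₃, H.a₆] at E
  rw [H.a₃] at hd2
  set d1 := W.a₁ * y - (3 * x ^ 2 + 2 * W.a₂ * x + W.a₄) with hd1def
  set d2 := 2 * y + W.a₁ * x + 0 with hd2def
  have key : W.b₂ * x ^ 3 = 3 * x * (d2 * d2 - 4 * W.a₄ * x)
      - 2 * x ^ 2 * (W.a₁ * d2 - 2 * d1 - 2 * W.a₄) := by
    rw [hd1def, hd2def]
    unfold WeierstrassCurve.b₂
    linear_combination (-12 * x) * E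
  have h2 : (2 : K) ∈ A := ofNat_mem A 2
  have h3 : (3 : K) ∈ A := ofNat_mem A 3
  have h4 : (4 : K) ∈ A := ofNat_mem A 4
  have hd2A : d2 ∈ A := SameRed.nu_mem A hd2
  have hmem : W.b₂ * x ^ 3 ∈ A.nonunits := by
    rw [key]
    refine SameRed.nu_sub A ?_ ?_
    · refine SameRed.nu_mul_right A (A.mul_mem _ _ h3 hx) ?_
      refine SameRed.nu_sub A (SameRed.nu_mul_left A hd2 hd2A) ?_
      exact SameRed.nu_mul_left A (SameRed.nu_mul_right A h4 H.a₄) hx
    · refine SameRed.nu_mul_right A (A.mul_mem _ _ h2 (pow_mem hx 2)) ?_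
      refine SameRed.nu_sub A (SameRed.nu_sub A (SameRed.nu_mul_right A H.a₁ hd2) ?_) ?_
      · exact SameRed.nu_mul_right A h2 hd1
      · exact SameRed.nu_mul_right A h2 H.a₄
  rw [ValuationSubring.mem_nonunits_iff, map_mul, Valuation.map_pow, H.val_b₂, one_mul] at hmem
  have hx1 : A.valuation x = 1 := by
    apply le_antisymm ((ValuationSubring.valuation_le_one_iff A _).2 hx)
    by_contra hlt
    push Not at hlt
    exact hxu ((ValuationSubring.mem_nonunits_iff A).2 hlt)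
  rw [hx1, one_pow] at hmem
  exact lt_irrefl _ hmem

end NodeHyp

end Hyp

section Galois

variable {R : Type*} {K : Type*} [CommRing R] [Field K] [DecidableEq K]
  [Algebra R ℚ] [Algebra R K] [Algebra ℚ K] [IsScalarTower R ℚ K] [Algebra.IsAlgebraic ℚ K]

variable (A : ValuationSubring K) {q : ℕ} (hq : q.Prime) (hA : A.LiesOverPrime q)
  (W' : Affine R) (H : NodeHyp A (W'.baseChange K))
  {α : K} (hα : α ^ 2 + (W'.baseChange K).a₁ * α - (W'.baseChange K).a₂ = 0)

include hq hA in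
/-- `E₀` is stable under the inertia group (indeed under the decomposition group). -/
theorem inE0_smul {σ : K ≃ₐ[ℚ] K} (hσ : σ ∈ A.inertiaSubgroupIn ℚ) {P : (W'⁄K).Point}
    (hP : InE0 A.valuation (W'.baseChange K) P) :
    InE0 A.valuation (W'.baseChange K) (σ • P) := by
  rcases hP with rfl | ⟨x, y, h, rfl, hx⟩
  · rw [smul_zero]; exact inE0_zero
  · have h' : (W'⁄K).Nonsingular (σ x) (σ y) :=
      (W'.baseChange_nonsingular σ.toAlgHom.injective x y).mpr h
    have hsmul : σ • (Point.some x y h : (W'⁄K).Point) = Point.some (σ x) (σ y) h' := rfl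
    rw [hsmul]
    refine (inE0_some (v := A.valuation) (W := W'.baseChange K) h').2 ?_
    rw [valuation_apply_eq_of_mem_inertia A hq hA hσ x]
    exact hx

include hq hA H hα in
/-- **`(σ - 1)` maps odd torsion into `E₀`.** -/
theorem smul_sub_inE0 {n : ℕ} (hn : Odd n) {σ : K ≃ₐ[ℚ] K} (hσ : σ ∈ A.inertiaSubgroupIn ℚ)
    (P : (W'⁄K).Point) (hP : n • P = 0) :
    InE0 A.valuation (W'.baseChange K) (σ • P - P) := by
  have M := H.gModel hα
  rcases P with _ | ⟨x, y, h⟩
  · have e : (Point.zero : (W'⁄K).Point) = 0 := rfl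
    rw [e, smul_zero, sub_zero]; exact inE0_zero
  · by_cases hx : 1 ≤ A.valuation x
    · have hP0 : InE0 A.valuation (W'.baseChange K) (Point.some x y h : (W'⁄K).Point) :=
        (inE0_some (v := A.valuation) (W := W'.baseChange K) h).2 hx
      exact inE0_sub M (inE0_smul A hq hA W' hσ hP0) hP0
    · push Not at hx
      obtain ⟨hlt, -⟩ := torsion_val M hn h hP hx
      have hx0 : x ≠ 0 := by
        rintro rfl
        rw [_root_.map_zero] at hlt
        exact not_lt_zero hlt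
      have hxpos : 0 < A.valuation x := by rw [Valuation.pos_iff]; exact hx0
      have hbx : (W'.baseChange K).a₄ / x ∈ A.nonunits := by
        rw [ValuationSubring.mem_nonunits_iff, map_div₀]
        exact (div_lt_one₀ hxpos).2 hlt
      rcases branch_step_inertia A hq hA W' H.a₃ H.a₆ H.a₁ H.a₂ H.b₂_mem H.b₂ hσ h hx0
        ((ValuationSubring.mem_nonunits_iff A).2 hx) hbx with h0 | ⟨x₃, y₃, h₃, he, hx₃⟩
      · rw [h0]; exact inE0_zero
      · rw [he]
        refine (inE0_some (v := A.valuation) (W := W'.baseChange K) h₃).2 ?_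
        by_contra hlt3
        push Not at hlt3
        exact hx₃ ((ValuationSubring.mem_nonunits_iff A).2 hlt3)

omit [Algebra.IsAlgebraic ℚ K] in
include H in
/-- **`(σ - 1)` maps `E₀` into the kernel of reduction `E₁`.** -/
theorem smul_sub_inKerRed {σ : K ≃ₐ[ℚ] K} (hσ : σ ∈ A.inertiaSubgroupIn ℚ)
    (P : (W'⁄K).Point) (hP : InE0 A.valuation (W'.baseChange K) P) :
    InKerRed A (σ • P - P) := by
  rcases hP with rfl | ⟨x, y, h, rfl, hx⟩
  · rw [smul_zero, sub_zero]; exact inKerRed_zero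
  · by_cases hxA : x ∈ A
    · have hxu : x ∉ A.nonunits := fun hmem =>
        absurd ((ValuationSubring.mem_nonunits_iff A).1 hmem) (not_lt.2 hx)
      have hy : y ∈ A := KR.y_mem_of_x_mem (W := (W'.baseChange K).toAffine) H.a₁ H.a₂
        (by rw [H.a₃]; exact A.zero_mem) H.a₄_mem (by rw [H.a₆]; exact A.zero_mem) h.1 hxA
      exact inKerRed_smul_sub_of_mem_inertia W' H.integralCoeffs hσ h hxA hy
        (H.nonsingularRed_of_x_unit h.1 hxA hxu)
    · -- `P ∈ E₁`, hence `σ • P ∈ E₁` and the difference lies in `E₁`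
      have hdec : ∀ z : K, σ z ∈ A ↔ z ∈ A := fun z =>
        apply_mem_iff_of_mem_inertiaSubgroupIn hσ z
      have h1 : InKerRed A (Point.some x y h : (W'⁄K).Point) := hxA
      have h2 : InKerRed A (σ • (Point.some x y h : (W'⁄K).Point)) :=
        (inKerRed_smul_iff W' hdec _).2 h1
      have k1 := (KR.kerRed_iff A (W'⁄K) _).2 ((inKerRed_iff _).1 h1)
      have k2 := (KR.kerRed_iff A (W'⁄K) _).2 ((inKerRed_iff _).1 h2)
      exact (inKerRed_iff _).2 ((KR.kerRed_iff A (W'⁄K) _).1 (KR.kerRed_sub H.integralB k2 k1))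

omit [Algebra.IsAlgebraic ℚ K] in
include H in
/-- Inertia fixes the torsion of `E₀` of order prime to the residue characteristic. -/
theorem smul_eq_of_inE0 {n : ℕ} (hnA : (n : K) ∉ A.nonunits)
    {σ : K ≃ₐ[ℚ] K} (hσ : σ ∈ A.inertiaSubgroupIn ℚ) (P : (W'⁄K).Point) (hP : n • P = 0)
    (hP0 : InE0 A.valuation (W'.baseChange K) P) : σ • P = P := by
  have h1 := smul_sub_inKerRed A W' H hσ P hP0
  have h2 : n • (σ • P - P) = 0 := by
    rw [smul_sub, smul_comm n σ P, hP, smul_zero, sub_zero]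
  have := KR.eq_zero_of_nsmul_eq_zero_of_x_notMem (W := (W'⁄K)) H.integralB hnA _ h2
    ((inKerRed_iff _).1 h1)
  exact sub_eq_zero.1 this

include hq hA H hα in
/-- **Inertia acts unipotently on the odd torsion prime to the residue characteristic.** -/
theorem unipotent {n : ℕ} (hn : Odd n) (hnA : (n : K) ∉ A.nonunits)
    {σ : K ≃ₐ[ℚ] K} (hσ : σ ∈ A.inertiaSubgroupIn ℚ) (P : (W'⁄K).Point) (hP : n • P = 0) :
    σ • (σ • P - P) = σ • P - P := by
  have h2 : n • (σ • P - P) = 0 := by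
    rw [smul_sub, smul_comm n σ P, hP, smul_zero, sub_zero]
  exact smul_eq_of_inE0 A W' H hnA hσ _ h2
    (smul_sub_inE0 A hq hA W' H hα hn hσ P hP)

/-! ### Membership language, subgroups -/

omit [Algebra.IsAlgebraic ℚ K] [Algebra R ℚ] [Algebra ℚ K] [IsScalarTower R ℚ K] in
/-- `InE0` in the language of `A.nonunits`. -/
theorem inE0_iff (P : (W'⁄K).Point) :
    InE0 A.valuation (W'.baseChange K) P ↔
      P = 0 ∨ ∃ (x y : K) (h : (W'⁄K).Nonsingular x y), P = Point.some x y h ∧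
        x ∉ A.nonunits := by
  unfold InE0
  refine or_congr Iff.rfl ?_
  constructor
  · rintro ⟨x, y, h, e, hx⟩
    exact ⟨x, y, h, e, fun hmem =>
      absurd ((ValuationSubring.mem_nonunits_iff A).1 hmem) (not_lt.2 hx)⟩
  · rintro ⟨x, y, h, e, hx⟩
    refine ⟨x, y, h, e, ?_⟩
    by_contra hlt
    push Not at hlt
    exact hx ((ValuationSubring.mem_nonunits_iff A).2 hlt)

omit [Algebra.IsAlgebraic ℚ K] [Algebra R ℚ] [Algebra ℚ K] [IsScalarTower R ℚ K] in
/-- `E₁ ⊆ E₀`. -/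
theorem inE0_of_inKerRed {P : (W'⁄K).Point} (hP : InKerRed A P) :
    InE0 A.valuation (W'.baseChange K) P := by
  rw [inE0_iff]
  rcases (inKerRed_iff P).1 hP with h0 | ⟨x, y, h, e, hx⟩
  · exact Or.inl h0
  · exact Or.inr ⟨x, y, h, e, fun hmem => hx (A.nonunits_subset hmem)⟩

omit [Algebra.IsAlgebraic ℚ K] [Algebra R ℚ] [Algebra ℚ K] [IsScalarTower R ℚ K] in
include H hα in
/-- `E₀` as an additive subgroup. -/
def e0Subgroup : AddSubgroup (W'⁄K).Point where
  carrier := {P : (W'⁄K).Point | InE0 A.valuation (W'.baseChange K) P}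
  zero_mem' := inE0_zero
  add_mem' := fun hP hQ => inE0_add (H.gModel hα) hP hQ
  neg_mem' := fun hP => inE0_neg (H.gModel hα) hP

omit [Algebra.IsAlgebraic ℚ K] [Algebra R ℚ] [Algebra ℚ K] [IsScalarTower R ℚ K] in
theorem mem_e0Subgroup (P : (W'⁄K).Point) :
    P ∈ e0Subgroup A W' H hα ↔ InE0 A.valuation (W'.baseChange K) P := Iff.rfl

omit [Algebra.IsAlgebraic ℚ K] [Algebra R ℚ] [Algebra ℚ K] [IsScalarTower R ℚ K] in
include H in
theorem inKerRed_add {P Q : (W'⁄K).Point} (hP : InKerRed A P) (hQ : InKerRed A Q) :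
    InKerRed A (P + Q) := by
  have k1 := (KR.kerRed_iff A (W'⁄K) P).2 ((inKerRed_iff _).1 hP)
  have k2 := (KR.kerRed_iff A (W'⁄K) Q).2 ((inKerRed_iff _).1 hQ)
  exact (inKerRed_iff _).2 ((KR.kerRed_iff A (W'⁄K) _).1 (KR.kerRed_add H.integralB k1 k2))

omit [Algebra.IsAlgebraic ℚ K] [Algebra R ℚ] [Algebra ℚ K] [IsScalarTower R ℚ K] in
include H in
/-- `E₁` as an additive subgroup (in the `InKerRed` language of `S05.SameRed`). -/
def e1Subgroup : AddSubgroup (W'⁄K).Point where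
  carrier := {P : (W'⁄K).Point | InKerRed A P}
  zero_mem' := (trivial : InKerRed A (0 : (W'⁄K).Point))
  add_mem' := fun hP hQ => inKerRed_add A W' H hP hQ
  neg_mem' := fun {P} hP => (inKerRed_neg P).2 hP

omit [Algebra.IsAlgebraic ℚ K] [Algebra R ℚ] [Algebra ℚ K] [IsScalarTower R ℚ K] in
theorem mem_e1Subgroup (P : (W'⁄K).Point) :
    P ∈ e1Subgroup A W' H ↔ InKerRed A P := Iff.rfl

omit [Algebra.IsAlgebraic ℚ K] [Algebra R ℚ] [Algebra ℚ K] [IsScalarTower R ℚ K] in
include H in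
/-- `E₁` has no `n`-torsion for `n` a unit of `A`. -/
theorem eq_zero_of_inKerRed {n : ℕ} (hnA : (n : K) ∉ A.nonunits) (P : (W'⁄K).Point)
    (hP : n • P = 0) (h1 : InKerRed A P) : P = 0 :=
  KR.eq_zero_of_nsmul_eq_zero_of_x_notMem (W := (W'⁄K)) H.integralB hnA _ hP
    ((inKerRed_iff _).1 h1)

/-! ### Algebraically closed `K`: the root `α` exists -/

omit [Algebra.IsAlgebraic ℚ K] [Algebra R ℚ] [IsScalarTower R ℚ K] [DecidableEq K] in
theorem exists_root [IsAlgClosed K] (a₁ a₂ : K) : ∃ α : K, α ^ 2 + a₁ * α - a₂ = 0 := by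
  have : CharZero K := algebraRat.charZero K
  obtain ⟨δ, hδ⟩ := IsAlgClosed.exists_eq_mul_self (a₁ ^ 2 + 4 * a₂)
  refine ⟨(δ - a₁) / 2, ?_⟩
  field_simp
  linear_combination -hδ

variable [IsAlgClosed K]

include hq hA H in
theorem smul_sub_inE0' {n : ℕ} (hn : Odd n) {σ : K ≃ₐ[ℚ] K} (hσ : σ ∈ A.inertiaSubgroupIn ℚ)
    (P : (W'⁄K).Point) (hP : n • P = 0) :
    InE0 A.valuation (W'.baseChange K) (σ • P - P) := by
  obtain ⟨α, hα⟩ := exists_root (W'.baseChange K).a₁ (W'.baseChange K).a₂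
  exact smul_sub_inE0 A hq hA W' H hα hn hσ P hP

include hq hA H in
theorem unipotent' {n : ℕ} (hn : Odd n) (hnA : (n : K) ∉ A.nonunits)
    {σ : K ≃ₐ[ℚ] K} (hσ : σ ∈ A.inertiaSubgroupIn ℚ) (P : (W'⁄K).Point) (hP : n • P = 0) :
    σ • (σ • P - P) = σ • P - P := by
  obtain ⟨α, hα⟩ := exists_root (W'.baseChange K).a₁ (W'.baseChange K).a₂
  exact unipotent A hq hA W' H hα hn hnA hσ P hP

include hq hA H in
/-- **Unipotence on the torsion module** (the shape of `frey_unipotent_at_two`). -/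
theorem unipotent_torsionBy {n : ℕ} (hn : Odd n) (hnA : (n : K) ∉ A.nonunits)
    {σ : K ≃ₐ[ℚ] K} (hσ : σ ∈ A.inertiaSubgroupIn ℚ)
    (x : Submodule.torsionBy ℤ (W'⁄K).Point n) : σ • (σ • x - x) = σ • x - x := by
  have hx : n • (x : (W'⁄K).Point) = 0 := by
    have := (Submodule.mem_torsionBy_iff _ _).1 x.2
    rwa [natCast_zsmul] at this
  apply Subtype.ext
  exact unipotent' A hq hA W' H hn hnA hσ (x : (W'⁄K).Point) hx

include H in
/-- Inertia fixes the `n`-torsion of `E₀` (torsion-module form). -/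
theorem smul_eq_of_inE0_torsionBy {n : ℕ} (hnA : (n : K) ∉ A.nonunits)
    {σ : K ≃ₐ[ℚ] K} (hσ : σ ∈ A.inertiaSubgroupIn ℚ)
    (x : Submodule.torsionBy ℤ (W'⁄K).Point n)
    (hx0 : InE0 A.valuation (W'.baseChange K) (x : (W'⁄K).Point)) : σ • x = x := by
  have hx : n • (x : (W'⁄K).Point) = 0 := by
    have := (Submodule.mem_torsionBy_iff _ _).1 x.2
    rwa [natCast_zsmul] at this
  apply Subtype.ext
  exact smul_eq_of_inE0 A W' H hnA hσ (x : (W'⁄K).Point) hx hx0

end Galois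

end Fermat.Agent.S13.NodeInertia
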