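import Mathlib
import Fermat.Prelude.Def_FLTPrelim_Ramification
import Fermat.Agent.S13.Counting
import Fermat.Agent.S05.Inertia

/-!
# T13 / LP-ss: the "supersingular" case at `p` — no Galois-stable line

If every nonzero `p`-torsion point of `W` (a curve with integer coefficients, `#W[p] = p ^ 2`)
has a non-integral `x`-coordinate at a place `A` over `p`, then `W[p]` has no Galois-stable line.
-/

set_option autoImplicit false
set_option linter.unusedSectionVars false

namespace Fermat.Agent.S13.AtPSS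

open Polynomial Fermat.Agent.S05

/-! ### Rational numbers in the maximal ideal of a place over `q` -/

section Rat

variable {L : Type*} [Field L] [CharZero L]

/-- A rational number in the maximal ideal of a place over `q` is `q` times an integral element. -/
theorem ratCast_eq_prime_mul {A : ValuationSubring L} {q : ℕ} (hq : q.Prime)
    (hA : A.LiesOverPrime q) (r : ℚ) (hr : (r : L) ∈ A.nonunits) :
    ∃ u ∈ A, (r : L) = (q : L) * u := by
  have hden0 : ((r.den : ℕ) : L) ≠ 0 := by exact_mod_cast r.den_nz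
  have hr_eq : (r : L) = (r.num : L) / (r.den : L) := by
    conv_lhs => rw [← Rat.num_div_den r]
    push_cast; rfl
  have hnum : (r.num : L) = (r : L) * (r.den : L) := by
    rw [hr_eq]; field_simp
  by_cases hdvd : q ∣ r.den
  · -- impossible: then `q ∤ num`, `num` is a unit, and `den / num` is in the maximal ideal
    exfalso
    have hnd : ¬ (q : ℤ) ∣ r.num := by
      intro h
      have h1 : q ∣ r.num.natAbs := Int.natCast_dvd.1 h
      have h2 : q ∣ Nat.gcd r.num.natAbs r.den := Nat.dvd_gcd h1 hdvd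
      rw [r.reduced] at h2
      exact hq.one_lt.ne' (Nat.dvd_one.1 h2)
    have hden : ((r.den : ℕ) : L) ∈ A.nonunits := (natCast_mem_nonunits_iff hq hA r.den).2 hdvd
    have hnum' : (r.num : L) ∈ A.nonunits := by
      rw [hnum]; exact mul_mem_nonunits_of_mem hr (natCast_mem A r.den)
    exact hnd ((intCast_mem_nonunits_iff hq hA r.num).1 hnum')
  · have hinv : ((r.den : ℕ) : L)⁻¹ ∈ A := natCast_inv_mem_of_not_dvd hq hA hdvd
    have hnum' : (r.num : L) ∈ A.nonunits := by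
      rw [hnum]; exact mul_mem_nonunits_of_mem hr (natCast_mem A r.den)
    obtain ⟨m, hm⟩ := (intCast_mem_nonunits_iff hq hA r.num).1 hnum'
    refine ⟨(m : L) * ((r.den : ℕ) : L)⁻¹, A.mul_mem _ _ (intCast_mem A m) hinv, ?_⟩
    rw [hr_eq, hm]
    push_cast
    field_simp

end Rat

/-! ### The abstract product argument -/

section Core

variable {K : Type*} [Field K] [Algebra ℚ K] [IsGalois ℚ K]

theorem prod_inv_mem_nonunits {A : ValuationSubring K} (Y : Finset K) (hne : Y.Nonempty)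
    (hY : ∀ x ∈ Y, x ∉ A) : (∏ x ∈ Y, x)⁻¹ ∈ A.nonunits := by
  classical
  induction hne using Finset.Nonempty.cons_induction with
  | singleton a =>
    have ha : a ∉ A := hY a (Finset.mem_singleton_self a)
    have ha0 : a ≠ 0 := fun h => ha (h ▸ A.zero_mem)
    rw [Finset.prod_singleton, mem_nonunits_iff_inv_notMem (inv_ne_zero ha0), inv_inv]
    exact ha
  | cons a s has hs ih =>
    have ha : a ∉ A := hY a (Finset.mem_cons_self a s)
    have ha0 : a ≠ 0 := fun h => ha (h ▸ A.zero_mem)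
    have hainv : a⁻¹ ∈ A := (A.mem_or_inv_mem a).resolve_left ha
    have ih' := ih fun x hx => hY x (Finset.mem_cons_of_mem hx)
    rw [Finset.prod_cons, mul_inv, mul_comm]
    exact mul_mem_nonunits_of_mem ih' hainv

/-- The abstract core of LP-ss. -/
theorem core {A : ValuationSubring K} {p : ℕ} (hp : p.Prime) (hA : A.LiesOverPrime p)
    (X Y : Finset K) (hYX : Y ⊆ X) (hYne : Y.Nonempty) (hYX' : Y ≠ X)
    (hX : ∀ x ∈ X, x ∉ A) (hY : ∀ σ : K ≃ₐ[ℚ] K, ∀ x ∈ Y, σ x ∈ Y)
    (c0 : ℤ) (ε : K) (hε : ε = 1 ∨ ε = -1) (hc : (c0 : K) = (p : K) * ε * ∏ x ∈ X, x) :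
    False := by
  classical
  have : CharZero K := algebraRat.charZero K
  set d : K := ∏ x ∈ Y, x with hd
  set e : K := ∏ x ∈ X \ Y, x with he
  have hde : ∏ x ∈ X, x = e * d := by
    rw [he, hd, Finset.prod_sdiff hYX]
  -- `d` is Galois-fixed, hence rational
  have hfix : ∀ σ : K ≃ₐ[ℚ] K, σ d = d := by
    intro σ
    rw [hd, map_prod]
    have hinj : Set.InjOn (fun x => σ x) (Y : Set K) := fun a _ b _ hab => σ.injective hab
    have himg : Y.image (fun x => σ x) = Y := by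
      apply Finset.eq_of_subset_of_card_le
      · intro z hz
        obtain ⟨x, hx, rfl⟩ := Finset.mem_image.1 hz
        exact hY σ x hx
      · rw [Finset.card_image_of_injOn hinj]
    conv_rhs => rw [← himg]
    rw [Finset.prod_image hinj]
  obtain ⟨r, hr⟩ := (InfiniteGalois.mem_range_algebraMap_iff_fixed (k := ℚ) (K := K) d).2 hfix
  have hr' : (r : K) = d := by rw [← hr, eq_ratCast]
  have hdinv : d⁻¹ ∈ A.nonunits := prod_inv_mem_nonunits Y hYne fun x hx => hX x (hYX hx)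
  have hne' : (X \ Y).Nonempty := by
    rw [Finset.sdiff_nonempty]
    intro h
    exact hYX' (Finset.Subset.antisymm hYX h)
  have heinv : e⁻¹ ∈ A.nonunits :=
    prod_inv_mem_nonunits (X \ Y) hne' fun x hx => hX x (Finset.mem_sdiff.1 hx).1
  have hd0 : d ≠ 0 :=
    Finset.prod_ne_zero_iff.2 fun x hx h => hX x (hYX hx) (h ▸ A.zero_mem)
  have he0 : e ≠ 0 :=
    Finset.prod_ne_zero_iff.2 fun x hx h => hX x (Finset.mem_sdiff.1 hx).1 (h ▸ A.zero_mem)
  have hrinv : ((r⁻¹ : ℚ) : K) = d⁻¹ := by rw [Rat.cast_inv, hr']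
  obtain ⟨u, hu, hdu⟩ := ratCast_eq_prime_mul hp hA r⁻¹ (by rw [hrinv]; exact hdinv)
  rw [hrinv] at hdu
  -- `c0 * (e⁻¹ * u) = ε`
  have hkey : (e⁻¹ * u) * (c0 : K) = ε := by
    have h1 : d * ((p : K) * u) = 1 := by rw [← hdu]; exact mul_inv_cancel₀ hd0
    calc (e⁻¹ * u) * (c0 : K) = (e⁻¹ * e) * (d * ((p : K) * u)) * ε := by
          rw [hc, hde]; ring
      _ = ε := by rw [inv_mul_cancel₀ he0, h1, one_mul, one_mul]
  have hmem : ε ∈ A.nonunits := by
    rw [← hkey]
    exact mul_mem_nonunits_of_mem (mul_mem_nonunits_of_mem heinv hu) (intCast_mem A c0)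
  rw [ValuationSubring.mem_nonunits_iff] at hmem
  rcases hε with rfl | rfl
  · rw [map_one] at hmem; exact lt_irrefl _ hmem
  · rw [Valuation.map_neg, map_one] at hmem; exact lt_irrefl _ hmem

end Core

/-! ### The curve -/

section Curve

open WeierstrassCurve WeierstrassCurve.Affine WeierstrassCurve.Affine.Point

variable {K : Type*} [Field K] [DecidableEq K] [Algebra ℚ K]

variable (W' : Affine ℚ) {p : ℕ}

/-- Every nonzero element of the torsion module is an affine point. -/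
theorem exists_some_of_ne_zero (z : Submodule.torsionBy ℤ (W'⁄K).Point p) (hz : z ≠ 0) :
    ∃ (x y : K) (h : (W'⁄K).Nonsingular x y)
      (hm : Point.some x y h ∈ Submodule.torsionBy ℤ (W'⁄K).Point p),
      z = ⟨Point.some x y h, hm⟩ := by
  obtain ⟨P, hP⟩ := z
  rcases P with _ | ⟨x, y, h⟩
  · exact absurd (Subtype.ext rfl) hz
  · exact ⟨x, y, h, hP, rfl⟩

theorem nsmul_eq_zero_of_mem {P : (W'⁄K).Point}
    (hm : P ∈ Submodule.torsionBy ℤ (W'⁄K).Point p) : p • P = 0 := by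
  have := (Submodule.mem_torsionBy_iff (p : ℤ) P).1 hm
  rwa [natCast_zsmul] at this

/-- `x` is the `x`-coordinate of a nonzero point of `N`. -/
def InN (N : Submodule (ZMod p) (Submodule.torsionBy ℤ (W'⁄K).Point p)) (x : K) : Prop :=
  ∃ (y : K) (h : (W'⁄K).Nonsingular x y)
    (hm : Point.some x y h ∈ Submodule.torsionBy ℤ (W'⁄K).Point p),
    (⟨Point.some x y h, hm⟩ : Submodule.torsionBy ℤ (W'⁄K).Point p) ∈ N

theorem inN_apply {N : Submodule (ZMod p) (Submodule.torsionBy ℤ (W'⁄K).Point p)}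
    (hN : IsGaloisStable ℚ N) (σ : K ≃ₐ[ℚ] K) {x : K} (hx : InN W' N x) : InN W' N (σ x) := by
  obtain ⟨y, h, hm, hz⟩ := hx
  have h1 := hN σ _ hz
  have hns : (W'⁄K).Nonsingular (σ x) (σ y) :=
    (W'.baseChange_nonsingular (f := σ.toAlgHom) σ.toAlgHom.injective x y).2 h
  have h2 : (σ • (⟨Point.some x y h, hm⟩ : Submodule.torsionBy ℤ (W'⁄K).Point p)).1 =
      Point.some (σ x) (σ y) hns := rfl
  have hm' : Point.some (σ x) (σ y) hns ∈ Submodule.torsionBy ℤ (W'⁄K).Point p := by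
    rw [← h2]; exact Subtype.property _
  refine ⟨σ y, hns, hm', ?_⟩
  have h3 : (⟨Point.some (σ x) (σ y) hns, hm'⟩ : Submodule.torsionBy ℤ (W'⁄K).Point p) =
      σ • ⟨Point.some x y h, hm⟩ := Subtype.ext h2.symm
  rw [h3]; exact h1

/-- a point of the torsion module whose `x`-coordinate is the `x`-coordinate of a point of `N`
lies in `N`. -/
theorem mem_of_inN {N : Submodule (ZMod p) (Submodule.torsionBy ℤ (W'⁄K).Point p)}
    {x y : K} {h : (W'⁄K).Nonsingular x y}
    (hm : Point.some x y h ∈ Submodule.torsionBy ℤ (W'⁄K).Point p) (hx : InN W' N x) :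
    (⟨Point.some x y h, hm⟩ : Submodule.torsionBy ℤ (W'⁄K).Point p) ∈ N := by
  obtain ⟨y', h', hm', hz⟩ := hx
  rcases WeierstrassCurve.Affine.Y_eq_of_X_eq h.1 h'.1 rfl with hy | hy
  · subst hy; exact hz
  · have : (⟨Point.some x y h, hm⟩ : Submodule.torsionBy ℤ (W'⁄K).Point p) =
        -⟨Point.some x y' h', hm'⟩ := by
      apply Subtype.ext
      show Point.some x y h = -Point.some x y' h'
      rw [Point.neg_some]
      congr 1
    rw [this]
    exact N.neg_mem hz

/-- **LP-ss**: if every nonzero `p`-torsion point has a non-integral `x`-coordinate at a place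
over `p` (and `#W[p] = p ^ 2`, `W` defined over `ℤ`), then there is no Galois-stable line. -/
theorem no_stable_line [IsGalois ℚ K] [IsAlgClosed K] (hp : p.Prime) (hodd : Odd p)
    (W0 : WeierstrassCurve ℤ) (hW : W' = W0.map (Int.castRingHom ℚ)) (hΔ : W'.Δ ≠ 0)
    (hDP : ∀ (x y : K) (h : (W'⁄K).Nonsingular x y),
      p • (Point.some x y h) = 0 ↔ ((W'⁄K).preΨ' p).eval x = 0)
    (hcard : Nat.card (Submodule.torsionBy ℤ (W'⁄K).Point p) = p ^ 2)
    (A : ValuationSubring K) (hA : A.LiesOverPrime p)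
    (hss : ∀ (x y : K) (h : (W'⁄K).Nonsingular x y), p • (Point.some x y h) = 0 → x ∉ A)
    (N : Submodule (ZMod p) (Submodule.torsionBy ℤ (W'⁄K).Point p))
    (hN : IsGaloisStable ℚ N) (hbot : N ≠ ⊥) (htop : N ≠ ⊤) : False := by
  classical
  have : CharZero K := algebraRat.charZero K
  have hpK : (p : K) ≠ 0 := Nat.cast_ne_zero.2 hp.ne_zero
  have hΔK : (W'⁄K).Δ ≠ 0 := by
    show (W'.map (algebraMap ℚ K)).Δ ≠ 0
    rw [WeierstrassCurve.map_Δ]
    exact (_root_.map_ne_zero _).2 hΔ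
  have hcard' : Nat.card (Counting.Tors (W'⁄K) p) = p ^ 2 := by
    rw [Nat.card_congr (Counting.torsEquiv (W'⁄K))]; exact hcard
  have hXA : ∀ x ∈ Counting.xSet (W'⁄K) p, x ∉ A := by
    intro x hx
    obtain ⟨y, h, hP⟩ := (Counting.mem_xSet_iff_exists (W'⁄K) hodd hpK hDP hΔK x).1 hx
    exact hss x y h hP
  -- points of the torsion module have `x`-coordinates in `X`
  have hmemX : ∀ {x y : K} {h : (W'⁄K).Nonsingular x y}
      (_ : Point.some x y h ∈ Submodule.torsionBy ℤ (W'⁄K).Point p),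
      x ∈ Counting.xSet (W'⁄K) p := by
    intro x y h hm
    rw [Counting.mem_xSet_iff (W'⁄K) hodd hpK]
    exact (hDP x y h).1 (nsmul_eq_zero_of_mem W' hm)
  -- the Galois-stable subset
  have hYne : ((Counting.xSet (W'⁄K) p).filter (InN W' N)).Nonempty := by
    obtain ⟨z, hzN, hz0⟩ := (Submodule.ne_bot_iff N).1 hbot
    obtain ⟨x, y, h, hm, rfl⟩ := exists_some_of_ne_zero W' z hz0
    exact ⟨x, Finset.mem_filter.2 ⟨hmemX hm, y, h, hm, hzN⟩⟩
  have hYX : (Counting.xSet (W'⁄K) p).filter (InN W' N) ≠ Counting.xSet (W'⁄K) p := by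
    intro heq
    apply htop
    rw [eq_top_iff]
    intro z _
    by_cases hz0 : z = 0
    · rw [hz0]; exact N.zero_mem
    obtain ⟨x, y, h, hm, rfl⟩ := exists_some_of_ne_zero W' z hz0
    have hx : x ∈ (Counting.xSet (W'⁄K) p).filter (InN W' N) := by
      rw [heq]; exact hmemX hm
    exact mem_of_inN W' hm (Finset.mem_filter.1 hx).2
  have hYσ : ∀ σ : K ≃ₐ[ℚ] K, ∀ x ∈ (Counting.xSet (W'⁄K) p).filter (InN W' N),
      σ x ∈ (Counting.xSet (W'⁄K) p).filter (InN W' N) := by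
    intro σ x hx
    obtain ⟨_, hxN⟩ := Finset.mem_filter.1 hx
    have h1 := inN_apply W' hN σ hxN
    obtain ⟨y', h', hm', _⟩ := h1
    exact Finset.mem_filter.2 ⟨hmemX hm', inN_apply W' hN σ hxN⟩
  -- the constant term is an integer
  have hc0 : ((W'⁄K).preΨ' p).eval 0 = (((W0.preΨ' p).eval 0 : ℤ) : K) := by
    have h1 : (W'⁄K) = W0.map ((algebraMap ℚ K).comp (Int.castRingHom ℚ)) := by
      show WeierstrassCurve.map W' (algebraMap ℚ K) = _
      rw [hW]
      exact WeierstrassCurve.map_map W0 _ _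
    rw [h1, WeierstrassCurve.map_preΨ', Polynomial.eval_zero_map, eq_intCast]
  have hev := Counting.eval_zero_preΨ' (W'⁄K) hodd hpK hDP hcard'
  exact core hp hA (Counting.xSet (W'⁄K) p) ((Counting.xSet (W'⁄K) p).filter (InN W' N))
    (Finset.filter_subset _ _) hYne hYX hXA hYσ ((W0.preΨ' p).eval 0)
    ((-1) ^ ((p ^ 2 - 1) / 2)) (neg_one_pow_eq_or K _) (by rw [← hc0, hev])

end Curve

/-! ### The Frey curve -/

section Frey

open FreyPackage WeierstrassCurve WeierstrassCurve.Affine WeierstrassCurve.Affine.Point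

theorem four_dvd_aux (P : FreyPackage) : (4 : ℤ) ∣ P.b ^ P.p - 1 - P.a ^ P.p := by
  have hodd := P.hp_odd
  have h2 : (2 : ℤ) ∣ P.b := (ZMod.intCast_zmod_eq_zero_iff_dvd P.b 2).1 P.hb2
  have hp2 : 2 ≤ P.p := by have := P.hp5; omega
  have key : ((P.b ^ P.p - 1 - P.a ^ P.p : ℤ) : ZMod 4) = 0 := by
    push_cast
    have hb : ((P.b : ZMod 4)) ^ P.p = 0 := by
      obtain ⟨k, hk⟩ := h2
      obtain ⟨m, hm⟩ : ∃ m, P.p = 2 + m := ⟨P.p - 2, by omega⟩
      rw [hk, hm]
      push_cast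
      rw [pow_add, mul_pow]
      have : ((2 : ZMod 4)) ^ 2 = 0 := by decide
      rw [this]; ring
    have ha : ((P.a : ZMod 4)) ^ P.p = 3 := by
      rw [P.ha4]
      obtain ⟨k, hk⟩ := hodd
      rw [hk, pow_succ, pow_mul]
      have : ((3 : ZMod 4)) ^ 2 = 1 := by decide
      rw [this, one_pow, one_mul]
    rw [hb, ha]
    decide
  exact (ZMod.intCast_zmod_eq_zero_iff_dvd _ 4).1 key

theorem sixteen_dvd_aux (P : FreyPackage) : (16 : ℤ) ∣ -(P.a ^ P.p) * P.b ^ P.p := by
  have h2 : (2 : ℤ) ∣ P.b := (ZMod.intCast_zmod_eq_zero_iff_dvd P.b 2).1 P.hb2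
  obtain ⟨k, hk⟩ := h2
  obtain ⟨m, hm⟩ : ∃ m, P.p = 4 + m := ⟨P.p - 4, by have := P.hp5; omega⟩
  refine Dvd.dvd.mul_left ?_ _
  rw [hk, hm, mul_pow, pow_add]
  exact ⟨2 ^ m * k ^ (4 + m), by ring⟩

theorem freyCurve_eq_map (P : FreyPackage) :
    P.freyCurve = P.freyCurveInt.map (Int.castRingHom ℚ) := by
  have h4 := four_dvd_aux P
  have h16 := sixteen_dvd_aux P
  ext
  · simp [freyCurve, freyCurveInt]
  · simp only [freyCurve, freyCurveInt, WeierstrassCurve.map_a₂, eq_intCast]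
    rw [Int.cast_div h4 (by norm_num)]
    push_cast; ring
  · simp [freyCurve, freyCurveInt]
  · simp only [freyCurve, freyCurveInt, WeierstrassCurve.map_a₄, eq_intCast]
    rw [Int.cast_div h16 (by norm_num)]
    push_cast; ring
  · simp [freyCurve, freyCurveInt]

theorem freyCurve_Δ_ne_zero_aux (P : FreyPackage) : P.freyCurve.Δ ≠ 0 := by
  have h : P.freyCurve.Δ =
      ((P.a : ℚ) ^ P.p * (P.b : ℚ) ^ P.p * ((P.a : ℚ) ^ P.p + (P.b : ℚ) ^ P.p)) ^ 2 / 256 := by
    simp only [WeierstrassCurve.Δ, WeierstrassCurve.b₂, WeierstrassCurve.b₄, WeierstrassCurve.b₆,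
      WeierstrassCurve.b₈, FreyPackage.freyCurve]
    ring
  rw [h]
  have ha : (P.a : ℚ) ≠ 0 := Int.cast_ne_zero.mpr P.ha0
  have hb : (P.b : ℚ) ≠ 0 := Int.cast_ne_zero.mpr P.hb0
  have hc : (P.a : ℚ) ^ P.p + (P.b : ℚ) ^ P.p ≠ 0 := by
    have h' : (P.a : ℚ) ^ P.p + (P.b : ℚ) ^ P.p = (P.c : ℚ) ^ P.p := by exact_mod_cast P.hFLT
    rw [h']
    exact pow_ne_zero _ (Int.cast_ne_zero.mpr P.hc0)
  exact div_ne_zero (pow_ne_zero _ (mul_ne_zero (mul_ne_zero (pow_ne_zero _ ha)
    (pow_ne_zero _ hb)) hc)) (by norm_num)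

/-- **LP-ss for the Frey curve.** -/
theorem frey_no_stable_line {K : Type*} [Field K] [DecidableEq K] [Algebra ℚ K] [IsGalois ℚ K]
    [IsAlgClosed K] (P : FreyPackage)
    (hDP : ∀ (x y : K) (h : (P.freyCurve⁄K).Nonsingular x y),
      P.p • (Point.some x y h) = 0 ↔ ((P.freyCurve⁄K).preΨ' P.p).eval x = 0)
    (hcard : Nat.card (Submodule.torsionBy ℤ (P.freyCurve⁄K).Point P.p) = P.p ^ 2)
    (A : ValuationSubring K) (hA : A.LiesOverPrime P.p)
    (hss : ∀ (x y : K) (h : (P.freyCurve⁄K).Nonsingular x y),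
      P.p • (Point.some x y h) = 0 → x ∉ A)
    (N : Submodule (ZMod P.p) (Submodule.torsionBy ℤ (P.freyCurve⁄K).Point P.p))
    (hN : IsGaloisStable ℚ N) (hbot : N ≠ ⊥) (htop : N ≠ ⊤) : False :=
  no_stable_line P.freyCurve P.pp P.hp_odd P.freyCurveInt (freyCurve_eq_map P)
    (freyCurve_Δ_ne_zero_aux P) hDP hcard A hA hss N hN hbot htop

end Frey

end Fermat.Agent.S13.AtPSS
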