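/-
# S13 (T13), module LP, counting step.

`line_dichotomy`: pure linear algebra of a two-step inertia filtration `V1 ≤ V0 ≤ V` on a
two-dimensional `ZMod p`-module.
`frey_at_p_of_geo`: the Frey-curve instantiation, reducing `frey_at_p` to the geometric input
(the inclusions `(σ-1)V ⊆ V0`, `(σ-1)V0 ⊆ E1` at a valuation subring over `p`).
-/
import Fermat.Agent.S13.LineAlg
import Fermat.Agent.S13.Assembly
import Fermat.Agent.S13.AtPSS
import Fermat.Agent.S13.DivFinal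
import Fermat.Agent.S13.DP.Main
import Fermat.Agent.S05.SameRed
import Fermat.Agent.Common_helper32.FrobeniusExists

set_option autoImplicit false

namespace Fermat.Agent.S13.AtPCount

open WeierstrassCurve WeierstrassCurve.Affine WeierstrassCurve.Affine.Point

section Abstract

variable {p : ℕ} [Fact p.Prime] {V : Type*} [AddCommGroup V] [Module (ZMod p) V]
  {G : Type*} [Monoid G] [DistribMulAction G V]

/-- **Counting step (abstract).**  A two-step filtration `V1 ≤ V0 ≤ V` with `V1 ≠ ⊤`, a set `I` of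
operators acting trivially on the graded pieces, and an `I`-stable line `N`: then `I` fixes `N`
pointwise or acts trivially on `V ⧸ N`. -/
theorem line_dichotomy [Finite V] (hcard : Nat.card V ≤ p ^ 2)
    (V0 V1 : Submodule (ZMod p) V) (h10 : V1 ≤ V0) (hV1 : V1 ≠ ⊤)
    (N : Submodule (ZMod p) V) (hbot : N ≠ ⊥) (htop : N ≠ ⊤)
    (I : Set G) (hN : ∀ σ ∈ I, ∀ x ∈ N, σ • x ∈ N)
    (h0 : ∀ σ ∈ I, ∀ x : V, σ • x - x ∈ V0)
    (h1 : ∀ σ ∈ I, ∀ x ∈ V0, σ • x - x ∈ V1) :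
    (∀ σ ∈ I, ∀ x ∈ N, σ • x = x) ∨ (∀ σ ∈ I, ∀ x : V, σ • x - x ∈ N) := by
  by_cases hV1b : V1 = ⊥
  · -- unipotent case
    left
    intro σ hσ x hx
    have hu : ∀ y : V, (DistribMulAction.toAddMonoidHom V σ) ((DistribMulAction.toAddMonoidHom V σ) y - y)
        = (DistribMulAction.toAddMonoidHom V σ) y - y := by
      intro y
      simp only [DistribMulAction.toAddMonoidHom_apply]
      have := h1 σ hσ (σ • y - y) (h0 σ hσ y)
      rw [hV1b, Submodule.mem_bot] at this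
      exact sub_eq_zero.mp this
    have := (LineAlg.unipotent_trivial hcard N hbot htop (DistribMulAction.toAddMonoidHom V σ)
      (fun y hy => by simpa using hN σ hσ y hy) hu).1 x hx
    simpa using this
  · -- `V1` is a line and `(σ - 1) V ⊆ V1`
    have hall : ∀ σ ∈ I, ∀ x : V, σ • x - x ∈ V1 := by
      intro σ hσ x
      by_cases hV0 : V0 ≤ V1
      · exact hV0 (h0 σ hσ x)
      · obtain ⟨v0, hv0, hv01⟩ := Set.not_subset.mp hV0
        have hx0 : x ∈ V0 := by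
          obtain ⟨n, hn, a, rfl⟩ := LineAlg.exists_decomp hcard V1 hV1b hV1 hv01 x
          exact V0.add_mem (h10 hn) (V0.smul_mem a hv0)
        exact h1 σ hσ x hx0
    by_cases hNV : N = V1
    · right
      intro σ hσ x
      rw [hNV]
      exact hall σ hσ x
    · left
      intro σ hσ x hx
      have hinf := LineAlg.inf_eq_bot_of_ne hcard N V1 hbot htop hV1b hV1 hNV
      have hmem : σ • x - x ∈ N ⊓ V1 :=
        ⟨N.sub_mem (hN σ hσ x hx) hx, hall σ hσ x⟩
      rw [hinf, Submodule.mem_bot] at hmem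
      exact sub_eq_zero.mp hmem

end Abstract

section Frey

open Assembly

variable (P : FreyPackage)

/-- **Counting step for the Frey curve.**  Given the geometric input at a valuation subring `A`
over `p` (subgroups `E1 ≤ V0` of the points, `E1` the kernel of reduction, with
`(σ-1)E[p] ⊆ V0` and `(σ-1)V0 ⊆ E1` for `σ` in the inertia group), every Galois-stable line of
`E[p]` is pointwise inertia-fixed or inertia-cofixed. -/
theorem frey_at_p_of_geo (A : ValuationSubring Qb) (hA : A.LiesOverPrime P.p)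
    (V0 E1 : AddSubgroup (P.freyCurve⁄Qb).Point)
    (hE1 : ∀ T : (P.freyCurve⁄Qb).Point, T ∈ E1 ↔ Fermat.Agent.S05.InKerRed A T)
    (h10 : E1 ≤ V0)
    (h0 : ∀ σ ∈ A.inertiaSubgroupIn ℚ, ∀ T : (P.freyCurve⁄Qb).Point, P.p • T = 0 →
      σ • T - T ∈ V0)
    (h1 : ∀ σ ∈ A.inertiaSubgroupIn ℚ, ∀ T ∈ V0, σ • T - T ∈ E1)
    (hcard : Nat.card (VV P) = P.p ^ 2)
    (N : Submodule (ZMod P.p) (VV P)) (hN : IsGaloisStable ℚ N) (hbot : N ≠ ⊥) (htop : N ≠ ⊤) :
    (∀ σ ∈ A.inertiaSubgroupIn ℚ, ∀ x ∈ N, σ • x = x) ∨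
    (∀ σ ∈ A.inertiaSubgroupIn ℚ, ∀ x : VV P, σ • x - x ∈ N) := by
  haveI : Fact P.p.Prime := ⟨P.pp⟩
  have hkey : DPmain.Key (P.freyCurve⁄(AlgebraicClosure ℚ)) P.p :=
    Div.key_main _ (freyCurve_baseChange_Δ_ne_zero P) P.pp (by have := P.hp5; omega)
  haveI : Finite (VV P) := frey_finite_of_key P hkey
  -- the two submodules of `VV P`
  let sub : VV P →+ (P.freyCurve⁄Qb).Point :=
    (Submodule.subtype (Submodule.torsionBy ℤ (P.freyCurve⁄Qb).Point P.p)).toAddMonoidHom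
  let W0 : Submodule (ZMod P.p) (VV P) := AddSubgroup.toZModSubmodule P.p (V0.comap sub)
  let W1 : Submodule (ZMod P.p) (VV P) := AddSubgroup.toZModSubmodule P.p (E1.comap sub)
  have hW0 : ∀ x : VV P, x ∈ W0 ↔ (x : (P.freyCurve⁄Qb).Point) ∈ V0 := fun x => Iff.rfl
  have hW1 : ∀ x : VV P, x ∈ W1 ↔ (x : (P.freyCurve⁄Qb).Point) ∈ E1 := fun x => Iff.rfl
  have hp0 : ∀ x : VV P, P.p • (x : (P.freyCurve⁄Qb).Point) = 0 := by
    intro x
    have := x.2
    rw [Submodule.mem_torsionBy_iff] at this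
    rw [← Nat.cast_smul_eq_nsmul ℤ]
    exact this
  have hW1top : W1 ≠ ⊤ := by
    intro htop1
    haveI : IsGalois ℚ Qb := isGalois_Qb
    refine AtPSS.frey_no_stable_line P (fun x y h => DPmain.Key.hDP _ hkey x y h) hcard A hA ?_
      N hN hbot htop
    intro x y h hxy
    have hmem : (⟨Point.some x y h, by
        rw [Submodule.mem_torsionBy_iff, Nat.cast_smul_eq_nsmul ℤ]; exact hxy⟩ : VV P) ∈ W1 := by
      rw [htop1]; trivial
    rw [hW1] at hmem
    exact (hE1 _).mp hmem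
  refine line_dichotomy (G := GQ) hcard.le W0 W1 (fun x hx => h10 hx) hW1top N hbot htop
    (A.inertiaSubgroupIn ℚ : Set GQ) (fun σ _ x hx => hN σ x hx) ?_ ?_
  · intro σ hσ x
    rw [hW0]
    exact h0 σ hσ x (hp0 x)
  · intro σ hσ x hx
    rw [hW1]
    exact h1 σ hσ x ((hW0 x).mp hx)

/-- `frey_at_p` from the geometric input (shape of `Skeleton.frey_at_p`). -/
theorem frey_at_p_of
    (hgeo : ∀ A : ValuationSubring Qb, A.LiesOverPrime P.p →
      ∃ V0 E1 : AddSubgroup (P.freyCurve⁄Qb).Point,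
        (∀ T : (P.freyCurve⁄Qb).Point, T ∈ E1 ↔ Fermat.Agent.S05.InKerRed A T) ∧ E1 ≤ V0 ∧
        (∀ σ ∈ A.inertiaSubgroupIn ℚ, ∀ T : (P.freyCurve⁄Qb).Point, P.p • T = 0 →
          σ • T - T ∈ V0) ∧
        (∀ σ ∈ A.inertiaSubgroupIn ℚ, ∀ T ∈ V0, σ • T - T ∈ E1))
    (hcard : Nat.card (VV P) = P.p ^ 2) :
    ∃ A : ValuationSubring Qb, A.LiesOverPrime P.p ∧
      ∀ N : Submodule (ZMod P.p) (VV P), IsGaloisStable ℚ N → N ≠ ⊥ → N ≠ ⊤ →
        (∀ σ ∈ A.inertiaSubgroupIn ℚ, ∀ x ∈ N, σ • x = x) ∨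
        (∀ σ ∈ A.inertiaSubgroupIn ℚ, ∀ x : VV P, σ • x - x ∈ N) := by
  obtain ⟨A, hA⟩ := Common_helper32.exists_liesOverPrime P.p P.pp
  obtain ⟨V0, E1, hE1, h10, h0, h1⟩ := hgeo A hA
  exact ⟨A, hA, fun N hN hbot htop =>
    frey_at_p_of_geo P A hA V0 E1 hE1 h10 h0 h1 hcard N hN hbot htop⟩

end Frey

end Fermat.Agent.S13.AtPCount
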