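import Fermat.Prelude.Def_FLTPrelim_CofixedLine
import Fermat.Prelude.Def_FLTPrelim_Ramification
import Fermat.Agent.S54_helper86.Frobenius
import Mathlib

set_option autoImplicit false

/-!
# S13, module AS: assembly

From the local statements (at `2`, at `p`, away from `2p`), the global lemma (no everywhere
unramified extension of `ℚ`) and the absence of a rational point of order `p`, a reducible
mod `p` representation of the Frey curve has a Galois stable cofixed line.
-/

namespace Fermat.Agent.S13.AssemblyH39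

open Fermat.Agent.S54_helper86 (Qb GQ)

section LinAlg

variable {p : ℕ} [hp : Fact p.Prime] {V : Type*} [AddCommGroup V] [Module (ZMod p) V]

/-- A finite `ZMod p`-module with at most `p ^ 2` elements has dimension at most two. -/
theorem finrank_le_two_of_card [Finite V] (hcard : Nat.card V ≤ p ^ 2) :
    Module.finrank (ZMod p) V ≤ 2 := by
  classical
  have : Fintype V := Fintype.ofFinite V
  have h := Module.card_eq_pow_finrank (K := ZMod p) (V := V)
  rw [ZMod.card] at h
  rw [Nat.card_eq_fintype_card, h] at hcard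
  exact (Nat.pow_le_pow_iff_right hp.out.one_lt).mp hcard

variable [Finite V] (hcard : Nat.card V ≤ p ^ 2) (N : Submodule (ZMod p) V)

include hcard in
/-- A proper nonzero submodule together with any vector outside it spans everything. -/
theorem sup_span_eq_top (hbot : N ≠ ⊥) {x : V} (hx : x ∉ N) :
    N ⊔ Submodule.span (ZMod p) {x} = ⊤ := by
  have h2 := finrank_le_two_of_card hcard
  have h1 : 0 < Module.finrank (ZMod p) N := Submodule.one_le_finrank_iff.mpr hbot
  have hlt : N < N ⊔ Submodule.span (ZMod p) {x} := by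
    refine lt_of_le_of_ne le_sup_left fun h => hx ?_
    rw [h]
    exact Submodule.mem_sup_right (Submodule.mem_span_singleton_self x)
  have h3 := Submodule.finrank_lt_finrank_of_lt hlt
  apply Submodule.eq_top_of_finrank_eq
  have h4 := Submodule.finrank_le (N ⊔ Submodule.span (ZMod p) {x})
  omega

include hcard in
/-- A proper nonzero submodule is spanned by any of its nonzero vectors. -/
theorem eq_span_of_mem (htop : N ≠ ⊤) {e : V} (he : e ∈ N) (he0 : e ≠ 0) :
    N = Submodule.span (ZMod p) {e} := by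
  have h2 := finrank_le_two_of_card hcard
  have hle : Submodule.span (ZMod p) {e} ≤ N :=
    (Submodule.span_singleton_le_iff_mem e N).mpr he
  by_contra hne
  have hlt : Submodule.span (ZMod p) {e} < N := lt_of_le_of_ne hle (Ne.symm hne)
  have h1 : 0 < Module.finrank (ZMod p) (Submodule.span (ZMod p) {e}) :=
    Submodule.one_le_finrank_iff.mpr (by
      rw [Ne, Submodule.span_singleton_eq_bot]; exact he0)
  have h3 := Submodule.finrank_lt_finrank_of_lt hlt
  have h4 := Submodule.finrank_le N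
  exact htop (Submodule.eq_top_of_finrank_eq (by omega))

include hcard in
/-- A unipotent endomorphism stabilising a line acts trivially on the line and on the quotient. -/
theorem unipotent_line (hbot : N ≠ ⊥) (htop : N ≠ ⊤) (s : V →ₗ[ZMod p] V)
    (hs : ∀ x ∈ N, s x ∈ N) (hu : ∀ x, s (s x - x) - (s x - x) = 0) :
    (∀ x ∈ N, s x = x) ∧ ∀ x, s x - x ∈ N := by
  have ha : ∀ x ∈ N, s x = x := by
    intro e he
    by_cases he0 : e = 0
    · rw [he0, map_zero]
    have hN := eq_span_of_mem hcard N htop he he0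
    have hse : s e ∈ Submodule.span (ZMod p) {e} := hN ▸ hs e he
    obtain ⟨c, hc⟩ := Submodule.mem_span_singleton.mp hse
    have h1 := hu e
    rw [← hc] at h1
    have h2 : s (c • e - e) - (c • e - e) = ((c - 1) * (c - 1)) • e := by
      rw [map_sub, map_smul, ← hc]
      module
    rw [h2, smul_eq_zero] at h1
    rcases h1 with h1 | h1
    · have : c - 1 = 0 := by
        rcases mul_eq_zero.mp h1 with h | h <;> exact h
      rw [← hc, sub_eq_zero.mp this, one_smul]
    · exact absurd h1 he0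
  refine ⟨ha, fun x => ?_⟩
  by_cases hx : x ∈ N
  · rw [ha x hx, sub_self]; exact N.zero_mem
  have htop' := sup_span_eq_top hcard N hbot hx
  have hsx : s x ∈ N ⊔ Submodule.span (ZMod p) {x} := by rw [htop']; trivial
  obtain ⟨n, hn, y, hy, hny⟩ := Submodule.mem_sup.mp hsx
  obtain ⟨a, rfl⟩ := Submodule.mem_span_singleton.mp hy
  have h1 := hu x
  rw [← hny] at h1
  have hsn : s n = n := ha n hn
  have h2 : s (n + a • x - x) - (n + a • x - x) = (a - 1) • n + ((a - 1) * (a - 1)) • x := by
    rw [map_sub, map_add, map_smul, hsn, ← hny]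
    module
  rw [h2] at h1
  by_cases ha1 : (a - 1) * (a - 1) = 0
  · have : a - 1 = 0 := by
      rcases mul_eq_zero.mp ha1 with h | h <;> exact h
    rw [← hny, sub_eq_zero.mp this, one_smul, add_sub_cancel_right]
    exact hn
  · exfalso
    apply hx
    have h3 : ((a - 1) * (a - 1)) • x = -((a - 1) • n) := by
      rw [eq_neg_iff_add_eq_zero, add_comm]; exact h1
    have h4 : x = ((a - 1) * (a - 1))⁻¹ • (-((a - 1) • n)) := by
      rw [← h3, smul_smul, inv_mul_cancel₀ ha1, one_smul]
    rw [h4]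
    exact N.smul_mem _ (N.neg_mem (N.smul_mem _ hn))

end LinAlg

noncomputable section Galois

open WeierstrassCurve WeierstrassCurve.Affine WeierstrassCurve.Affine.Point

variable (P : FreyPackage)

/-- The `p`-torsion of the Frey curve over `Qb`. -/
abbrev Vp : Type := Submodule.torsionBy ℤ (P.freyCurve⁄Qb).Point P.p

theorem smul_val (σ : GQ) (x : Vp P) : ((σ • x : Vp P) : (P.freyCurve⁄Qb).Point) = σ • x.1 := rfl

/-- Stabilisers of torsion points are open. -/
theorem isOpen_stabilizer (x : Vp P) : IsOpen (MulAction.stabilizer GQ x : Set GQ) := by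
  obtain ⟨Q, hQ⟩ := x
  rcases Q with _ | ⟨a, b, h⟩
  · have : MulAction.stabilizer GQ (⟨Point.zero, hQ⟩ : Vp P) = ⊤ := by
      rw [eq_top_iff]
      intro σ _
      rw [MulAction.mem_stabilizer_iff]
      exact Subtype.ext rfl
    rw [this]
    exact isOpen_univ
  · have hle : MulAction.stabilizer GQ a ⊓ MulAction.stabilizer GQ b ≤
        MulAction.stabilizer GQ (⟨Point.some a b h, hQ⟩ : Vp P) := by
      intro σ hσ
      rw [Subgroup.mem_inf, MulAction.mem_stabilizer_iff, MulAction.mem_stabilizer_iff] at hσ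
      rw [MulAction.mem_stabilizer_iff]
      apply Subtype.ext
      rw [smul_val, algEquiv_smul_def, Point.map_some]
      have ha : σ.toAlgHom a = a := hσ.1
      have hb : σ.toAlgHom b = b := hσ.2
      simp only [ha, hb]
    refine Subgroup.isOpen_mono hle ?_
    rw [Subgroup.coe_inf]
    exact (stabilizer_isOpen_of_isIntegral a).inter (stabilizer_isOpen_of_isIntegral b)

/-- The pointwise stabiliser of all of `V`. -/
def kerV : Subgroup GQ := ⨅ x : Vp P, MulAction.stabilizer GQ x

theorem isOpen_kerV [Finite (Vp P)] : IsOpen (kerV P : Set GQ) := by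
  rw [kerV, Subgroup.coe_iInf]
  exact isOpen_iInter_of_finite fun x => isOpen_stabilizer P x

theorem mem_kerV {σ : GQ} : σ ∈ kerV P ↔ ∀ x : Vp P, σ • x = x := by
  simp [kerV, Subgroup.mem_iInf, MulAction.mem_stabilizer_iff]

variable {P}
variable (N : Submodule (ZMod P.p) (Vp P)) (hN : IsGaloisStable ℚ N)

/-- The kernel of the action on a submodule. -/
def fixer : Subgroup GQ where
  carrier := {σ | ∀ x ∈ N, σ • x = x}
  one_mem' := fun x _ => one_smul _ x
  mul_mem' := by
    intro σ τ hσ hτ x hx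
    rw [mul_smul, hτ x hx, hσ x hx]
  inv_mem' := by
    intro σ hσ x hx
    rw [inv_smul_eq_iff, hσ x hx]

theorem mem_fixer {σ : GQ} : σ ∈ fixer N ↔ ∀ x ∈ N, σ • x = x := Iff.rfl

/-- The kernel of the action on the quotient by a stable submodule. -/
def cofixer (hN : IsGaloisStable ℚ N) : Subgroup GQ where
  carrier := {σ | ∀ x : Vp P, σ • x - x ∈ N}
  one_mem' := fun x => by rw [one_smul, sub_self]; exact N.zero_mem
  mul_mem' := by
    intro σ τ hσ hτ x
    have : (σ * τ) • x - x = σ • (τ • x - x) + (σ • x - x) := by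
      rw [mul_smul, smul_sub]; abel
    rw [this]
    exact N.add_mem (hN σ _ (hτ x)) (hσ x)
  inv_mem' := by
    intro σ hσ x
    have : σ⁻¹ • x - x = -(σ⁻¹ • (σ • x - x)) := by
      rw [smul_sub, inv_smul_smul]; abel
    rw [this]
    exact N.neg_mem (hN σ⁻¹ _ (hσ x))

theorem mem_cofixer {σ : GQ} : σ ∈ cofixer N hN ↔ ∀ x : Vp P, σ • x - x ∈ N := Iff.rfl

include hN in
theorem fixer_normal : (fixer N).Normal := by
  refine ⟨fun σ hσ τ x hx => ?_⟩
  have h1 : τ⁻¹ • x ∈ N := hN τ⁻¹ x hx
  rw [mul_smul, mul_smul, hσ _ h1, smul_inv_smul]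

theorem cofixer_normal : (cofixer N hN).Normal := by
  refine ⟨fun σ hσ τ x => ?_⟩
  have : (τ * σ * τ⁻¹) • x - x = τ • (σ • (τ⁻¹ • x) - τ⁻¹ • x) := by
    rw [mul_smul, mul_smul, smul_sub, smul_inv_smul]
  rw [this]
  exact hN τ _ (hσ _)

theorem kerV_le_fixer : kerV P ≤ fixer N := fun _ hσ x _ => (mem_kerV P).mp hσ x

theorem kerV_le_cofixer : kerV P ≤ cofixer N hN := fun _ hσ x => by
  rw [(mem_kerV P).mp hσ x, sub_self]; exact N.zero_mem

theorem isOpen_fixer [Finite (Vp P)] : IsOpen (fixer N : Set GQ) :=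
  Subgroup.isOpen_mono (kerV_le_fixer N) (isOpen_kerV P)

theorem isOpen_cofixer [Finite (Vp P)] : IsOpen (cofixer N hN : Set GQ) :=
  Subgroup.isOpen_mono (kerV_le_cofixer N hN) (isOpen_kerV P)

/-- The Galois action as a `ZMod p`-linear map. -/
def toLin (σ : GQ) : Vp P →ₗ[ZMod P.p] Vp P :=
  (DistribSMul.toAddMonoidHom (Vp P) σ).toZModLinearMap P.p

@[simp] theorem toLin_apply (σ : GQ) (x : Vp P) : toLin σ x = σ • x := rfl

variable (P)

/-- **Assembly.** From the global lemma, the counting of `E[p]`, the local statements at `2`, at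
`p` and away from `2p`, and the absence of a nonzero Galois fixed point of order `p`, a reducible
mod `p` representation of the Frey curve has a Galois stable cofixed line. -/
theorem cofixedLine_of_reducible
    (hGL : ∀ H : Subgroup GQ, H.Normal → IsOpen (H : Set GQ) →
      (∀ l : ℕ, l.Prime → ∃ A : ValuationSubring Qb, A.LiesOverPrime l ∧
        A.inertiaSubgroupIn ℚ ≤ H) → H = ⊤)
    (hnt : Nontrivial (Vp P)) (hfin : Finite (Vp P)) (hcard : Nat.card (Vp P) ≤ P.p ^ 2)
    (hS05 : ∀ l : ℕ, l.Prime → l ≠ 2 → l ≠ P.p → P.GaloisRepUnramifiedAt l)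
    (h2 : ∃ A : ValuationSubring Qb, A.LiesOverPrime 2 ∧
      ∀ σ ∈ A.inertiaSubgroupIn ℚ, ∀ x : Vp P, σ • (σ • x - x) - (σ • x - x) = 0)
    (hP : ∀ N : Submodule (ZMod P.p) (Vp P), IsGaloisStable ℚ N → N ≠ ⊥ → N ≠ ⊤ →
      ∃ A : ValuationSubring Qb, A.LiesOverPrime P.p ∧
        ((∀ σ ∈ A.inertiaSubgroupIn ℚ, ∀ x ∈ N, σ • x = x) ∨
          (∀ σ ∈ A.inertiaSubgroupIn ℚ, ∀ x : Vp P, σ • x - x ∈ N)))
    (hO1 : ∀ x : Vp P, (∀ σ : GQ, σ • x = x) → x = 0)
    (hred : ¬ GaloisRepIsIrreducible (K := Qb) ℚ P.freyCurve P.p) :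
    HasGaloisStableCofixedLine (K := Qb) ℚ P.freyCurve P.p := by
  have : Fact P.p.Prime := ⟨P.pp⟩
  obtain ⟨N, hN, hbot, htop⟩ : ∃ N : Submodule (ZMod P.p) (Vp P),
      IsGaloisStable ℚ N ∧ N ≠ ⊥ ∧ N ≠ ⊤ := by
    by_contra hcon
    apply hred
    refine ⟨hnt, fun N hN => ?_⟩
    by_contra h
    push Not at h
    exact hcon ⟨N, hN, h.1, h.2⟩
  obtain ⟨A2, hA2, hu2⟩ := h2
  obtain ⟨Ap, hAp, hp'⟩ := hP N hN hbot htop
  have h2both : ∀ σ ∈ A2.inertiaSubgroupIn ℚ,
      (∀ x ∈ N, σ • x = x) ∧ ∀ x : Vp P, σ • x - x ∈ N := by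
    intro σ hσ
    exact unipotent_line hcard N hbot htop (toLin σ) (fun x hx => hN σ x hx)
      (fun x => hu2 σ hσ x)
  have hother : ∀ l : ℕ, l.Prime → l ≠ 2 → l ≠ P.p →
      ∃ A : ValuationSubring Qb, A.LiesOverPrime l ∧ A.inertiaSubgroupIn ℚ ≤ kerV P := by
    intro l hl hl2 hlp
    obtain ⟨A, -, hA⟩ := Fermat.Agent.S54_helper86.exists_valuationSubring_over hl
    refine ⟨A, hA, fun σ hσ => (mem_kerV P).mpr fun x => ?_⟩
    exact hS05 l hl hl2 hlp A hA σ hσ x
  rcases hp' with h1 | h1
  · exfalso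
    have htopH : fixer N = ⊤ := by
      refine hGL _ (fixer_normal N hN) (isOpen_fixer N) fun l hl => ?_
      by_cases hl2 : l = 2
      · subst hl2
        exact ⟨A2, hA2, fun σ hσ => (h2both σ hσ).1⟩
      by_cases hlp : l = P.p
      · subst hlp
        exact ⟨Ap, hAp, fun σ hσ => h1 σ hσ⟩
      obtain ⟨A, hA, hle⟩ := hother l hl hl2 hlp
      exact ⟨A, hA, hle.trans (kerV_le_fixer N)⟩
    obtain ⟨e, he, he0⟩ := Submodule.exists_mem_ne_zero_of_ne_bot hbot
    refine he0 (hO1 e fun σ => ?_)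
    have hσ : σ ∈ fixer N := htopH ▸ Subgroup.mem_top σ
    exact hσ e he
  · have htopH : cofixer N hN = ⊤ := by
      refine hGL _ (cofixer_normal N hN) (isOpen_cofixer N hN) fun l hl => ?_
      by_cases hl2 : l = 2
      · subst hl2
        exact ⟨A2, hA2, fun σ hσ => (h2both σ hσ).2⟩
      by_cases hlp : l = P.p
      · subst hlp
        exact ⟨Ap, hAp, fun σ hσ => h1 σ hσ⟩
      obtain ⟨A, hA, hle⟩ := hother l hl hl2 hlp
      exact ⟨A, hA, hle.trans (kerV_le_cofixer N hN)⟩
    refine ⟨N, hN, hbot, htop, fun σ x => ?_⟩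
    have hσ : σ ∈ cofixer N hN := htopH ▸ Subgroup.mem_top σ
    exact hσ x

end Galois

end Fermat.Agent.S13.AssemblyH39
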