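import Mathlib

/-!
# S13, local analysis at `p`: the abstract trichotomy

`V` is a finite abelian group of order `p ^ 2`, `N` a subgroup of order `p`, `V₁ ≠ ⊤` a subgroup
and `S` a set of additive endomorphisms of `V` preserving `N` and `V₁` and such that
`(f - 1)² V ⊆ V₁`.  Then either every `f ∈ S` fixes `N` pointwise, or every `f ∈ S` acts trivially
on `V / N`.
-/

set_option autoImplicit false

namespace Fermat.Agent.S13.AtPAbs

/-- An additive endomorphism `f` of a group of prime order with `(f - 1)² = 0` is the identity. -/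
theorem eq_self_of_unipotent {C : Type*} [AddCommGroup C] {p : ℕ} (hp : p.Prime)
    (hcard : Nat.card C = p) (f : C →+ C) (hf : ∀ x, f (f x - x) - (f x - x) = 0) (x : C) :
    f x = x := by
  have : Fact p.Prime := ⟨hp⟩
  by_cases hx : x = 0
  · subst hx; exact map_zero f
  have htop : AddSubgroup.zmultiples x = ⊤ := zmultiples_eq_top_of_prime_card hcard hx
  have hmem : f x ∈ AddSubgroup.zmultiples x := by rw [htop]; trivial
  obtain ⟨k, hk⟩ := AddSubgroup.mem_zmultiples_iff.1 hmem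
  have h1 : f x - x = (k - 1) • x := by rw [sub_smul, one_smul, hk]
  have h2 : ((k - 1) * (k - 1)) • x = 0 := by
    have := hf x
    rw [h1, map_zsmul, ← smul_sub, h1, ← mul_smul] at this
    exact this
  have hord : addOrderOf x = p := by
    have hdvd : addOrderOf x ∣ p := hcard ▸ addOrderOf_dvd_natCard x
    rcases (Nat.dvd_prime hp).1 hdvd with h | h
    · exact absurd (AddMonoid.addOrderOf_eq_one_iff.1 h) hx
    · exact h
  have h3 : (p : ℤ) ∣ (k - 1) * (k - 1) := by
    rw [← hord]; exact (addOrderOf_dvd_iff_zsmul_eq_zero).2 h2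
  have h4 : (p : ℤ) ∣ k - 1 := by
    rcases (Nat.prime_iff_prime_int.1 hp).dvd_or_dvd h3 with h | h <;> exact h
  have h5 : (k - 1) • x = 0 := by
    rw [← hord] at h4; exact (addOrderOf_dvd_iff_zsmul_eq_zero).1 h4
  rw [← sub_eq_zero, h1, h5]

/-- **Abstract trichotomy.** -/
theorem trichotomy {V : Type*} [AddCommGroup V] {p : ℕ} (hp : p.Prime)
    (hcardV : Nat.card V = p ^ 2) (N V₁ : AddSubgroup V) (hcardN : Nat.card N = p)
    (hV₁ : V₁ ≠ ⊤) (S : Set (V →+ V))
    (hSN : ∀ f ∈ S, ∀ x ∈ N, f x ∈ N) (hSV₁ : ∀ f ∈ S, ∀ x ∈ V₁, f x ∈ V₁)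
    (hS : ∀ f ∈ S, ∀ x, f (f x - x) - (f x - x) ∈ V₁) :
    (∀ f ∈ S, ∀ x ∈ N, f x = x) ∨ (∀ f ∈ S, ∀ x, f x - x ∈ N) := by
  have : Fact p.Prime := ⟨hp⟩
  have : Finite V := Nat.finite_of_card_ne_zero (by rw [hcardV]; exact pow_ne_zero 2 hp.ne_zero)
  by_cases hcase : ∀ x ∈ N, x ∈ V₁ → x = 0
  · -- `N ∩ V₁ = 0`
    left
    intro f hf x hx
    let fN : N →+ N := AddMonoidHom.mk' (fun y => ⟨f y, hSN f hf y y.2⟩) (fun a b => by
      apply Subtype.ext
      simp)
    have hfN : ∀ y : N, ((fN y : N) : V) = f y := fun y => rfl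
    have key : ∀ y : N, fN (fN y - y) - (fN y - y) = 0 := by
      intro y
      apply Subtype.ext
      have h1 : ((fN (fN y - y) - (fN y - y) : N) : V) = f (f y - y) - (f y - y) := by
        simp only [AddSubgroup.coe_sub, hfN]
      rw [h1]
      apply hcase _ _ (hS f hf y)
      rw [← h1]
      exact (fN (fN y - y) - (fN y - y)).2
    have := eq_self_of_unipotent hp hcardN fN key ⟨x, hx⟩
    have h2 := congrArg Subtype.val this
    rw [hfN] at h2
    exact h2
  · -- `N ≤ V₁`
    right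
    push Not at hcase
    obtain ⟨x₀, hx₀N, hx₀V, hx₀⟩ := hcase
    have hNle : N ≤ V₁ := by
      intro y hy
      have hx₀' : (⟨x₀, hx₀N⟩ : N) ≠ 0 := fun h => hx₀ (congrArg Subtype.val h)
      have htop : AddSubgroup.zmultiples (⟨x₀, hx₀N⟩ : N) = ⊤ :=
        zmultiples_eq_top_of_prime_card hcardN hx₀'
      have hmem : (⟨y, hy⟩ : N) ∈ AddSubgroup.zmultiples (⟨x₀, hx₀N⟩ : N) := by
        rw [htop]; trivial
      obtain ⟨k, hk⟩ := AddSubgroup.mem_zmultiples_iff.1 hmem
      have : k • x₀ = y := by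
        have := congrArg Subtype.val hk
        simpa using this
      rw [← this]
      exact V₁.zsmul_mem hx₀V k
    -- cardinality of `V₁`
    have hdvd : Nat.card V₁ ∣ p ^ 2 := hcardV ▸ AddSubgroup.card_addSubgroup_dvd_card V₁
    obtain ⟨k, hk2, hk⟩ := (Nat.dvd_prime_pow hp).1 hdvd
    have hpdvd : p ∣ Nat.card V₁ := hcardN ▸ AddSubgroup.card_dvd_of_le hNle
    have hne : Nat.card V₁ ≠ p ^ 2 := by
      intro h
      apply hV₁
      rw [← AddSubgroup.card_eq_iff_eq_top, h, hcardV]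
    have hk1 : k = 1 := by
      interval_cases k
      · rw [hk, pow_zero, Nat.dvd_one] at hpdvd
        exact absurd hpdvd hp.one_lt.ne'
      · rfl
      · exact absurd hk hne
    have hcardV₁ : Nat.card V₁ = p := by rw [hk, hk1, pow_one]
    have hNeq : N = V₁ := AddSubgroup.eq_of_le_of_card_ge hNle (by rw [hcardV₁, hcardN])
    -- the quotient has order `p`
    have hquot : Nat.card (V ⧸ V₁) = p := by
      have := AddSubgroup.card_eq_card_quotient_mul_card_addSubgroup V₁
      rw [hcardV, hcardV₁, pow_two] at this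
      exact (Nat.eq_of_mul_eq_mul_right hp.pos this).symm
    intro f hf x
    rw [hNeq]
    let fQ : V ⧸ V₁ →+ V ⧸ V₁ := QuotientAddGroup.map V₁ V₁ f (fun y hy => hSV₁ f hf y hy)
    have hfQ : ∀ y : V, fQ (y : V ⧸ V₁) = ((f y : V) : V ⧸ V₁) := fun y => rfl
    have key : ∀ y : V ⧸ V₁, fQ (fQ y - y) - (fQ y - y) = 0 := by
      intro y
      induction y using QuotientAddGroup.induction_on with
      | H y =>
        have : fQ (fQ (y : V ⧸ V₁) - (y : V ⧸ V₁)) - (fQ (y : V ⧸ V₁) - (y : V ⧸ V₁)) =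
            ((f (f y - y) - (f y - y) : V) : V ⧸ V₁) := by
          rw [hfQ, ← QuotientAddGroup.mk_sub, hfQ, ← QuotientAddGroup.mk_sub]
        rw [this, QuotientAddGroup.eq_zero_iff]
        exact hS f hf y
    have := eq_self_of_unipotent hp hquot fQ key (x : V ⧸ V₁)
    have h2 : ((f x - x : V) : V ⧸ V₁) = 0 := by
      rw [QuotientAddGroup.mk_sub, sub_eq_zero, ← hfQ]
      exact this
    exact (QuotientAddGroup.eq_zero_iff _).1 h2

end Fermat.Agent.S13.AtPAbs
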