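import Mathlib
import Fermat.Prelude.Def_FLTPrelim_Ramification
import Fermat.Agent.S05.Inertia
import Fermat.Agent.S05.KernelRedX
import Fermat.Agent.S05.SameRed
import Fermat.Agent.S51_helper12.GaloisLine

/-!
# S13, module L2: the prime `2`

The Frey curve `y² + xy = x³ + a₂x² + a₄x` has multiplicative reduction at `2`
(`a₂ ∈ ℤ`, `a₄ ∈ 2ℤ`, `b₂ = 1 + 4a₂` odd).  We prove, for a valuation subring `A` of `ℚ̄` over `2`:

* the inertia group of `A` acts unipotently on the `p`-torsion;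
* no nonzero `p`-torsion point is fixed by the whole Galois group.
-/

set_option autoImplicit false
set_option linter.unusedSectionVars false
set_option linter.unusedVariables false

open WeierstrassCurve WeierstrassCurve.Affine

namespace Fermat.Agent.S13.AtTwo

open Fermat.Agent.S05

/-! ### Arithmetic of the Frey curve at `2` -/

section Arith

theorem two_dvd_b (P : FreyPackage) : (2 : ℤ) ∣ P.b :=
  (ZMod.intCast_zmod_eq_zero_iff_dvd P.b 2).1 P.hb2

theorem odd_a (P : FreyPackage) : ¬ (2 : ℤ) ∣ P.a := by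
  intro h
  have h4 : (P.a : ZMod 4) = 3 := P.ha4
  obtain ⟨k, hk⟩ := h
  rw [hk] at h4
  push_cast at h4
  have : ∀ z : ZMod 4, (2 : ZMod 4) * z ≠ 3 := by decide
  exact this _ h4

theorem thirtytwo_dvd_b_pow (P : FreyPackage) : (32 : ℤ) ∣ P.b ^ P.p := by
  obtain ⟨k, hk⟩ := two_dvd_b P
  have h5 : 5 ≤ P.p := P.hp5
  obtain ⟨m, hm⟩ : ∃ m, P.p = 5 + m := ⟨P.p - 5, by omega⟩
  rw [hk, hm, mul_pow, pow_add]
  exact ⟨2 ^ m * k ^ (5 + m), by ring⟩

theorem four_dvd_a2_num (P : FreyPackage) : (4 : ℤ) ∣ P.b ^ P.p - 1 - P.a ^ P.p := by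
  have key : ((P.b ^ P.p - 1 - P.a ^ P.p : ℤ) : ZMod 4) = 0 := by
    push_cast
    have hb : ((P.b : ZMod 4)) ^ P.p = 0 := by
      have := thirtytwo_dvd_b_pow P
      have h4 : (4 : ℤ) ∣ P.b ^ P.p := dvd_trans ⟨8, by norm_num⟩ this
      have := (ZMod.intCast_zmod_eq_zero_iff_dvd (P.b ^ P.p) 4).2 (by exact_mod_cast h4)
      push_cast at this
      exact this
    rw [hb, P.ha4]
    obtain ⟨k, hk⟩ := P.hp_odd
    rw [hk, pow_succ, pow_mul]
    have h9 : (3 : ZMod 4) ^ 2 = 1 := by decide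
    rw [h9, one_pow]
    decide
  exact_mod_cast (ZMod.intCast_zmod_eq_zero_iff_dvd _ 4).1 key

/-- the integer `a₂` of the Frey curve -/
def A2 (P : FreyPackage) : ℤ := (P.b ^ P.p - 1 - P.a ^ P.p) / 4

/-- the integer `a₄` of the Frey curve -/
def A4 (P : FreyPackage) : ℤ := -(P.a ^ P.p) * (P.b ^ P.p) / 16

theorem four_mul_A2 (P : FreyPackage) : 4 * A2 P = P.b ^ P.p - 1 - P.a ^ P.p :=
  Int.mul_ediv_cancel' (four_dvd_a2_num P)

theorem sixteen_dvd_a4_num (P : FreyPackage) : (16 : ℤ) ∣ -(P.a ^ P.p) * (P.b ^ P.p) :=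
  Dvd.dvd.mul_left (dvd_trans ⟨2, by norm_num⟩ (thirtytwo_dvd_b_pow P)) _

theorem sixteen_mul_A4 (P : FreyPackage) : 16 * A4 P = -(P.a ^ P.p) * (P.b ^ P.p) :=
  Int.mul_ediv_cancel' (sixteen_dvd_a4_num P)

theorem A4_ne_zero (P : FreyPackage) : A4 P ≠ 0 := by
  intro h
  have := sixteen_mul_A4 P
  rw [h, mul_zero] at this
  have h1 : P.a ^ P.p ≠ 0 := pow_ne_zero _ P.ha0
  have h2 : P.b ^ P.p ≠ 0 := pow_ne_zero _ P.hb0
  exact mul_ne_zero (neg_ne_zero.mpr h1) h2 this.symm

theorem two_dvd_A4 (P : FreyPackage) : (2 : ℤ) ∣ A4 P := by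
  obtain ⟨k, hk⟩ := thirtytwo_dvd_b_pow P
  have := sixteen_mul_A4 P
  rw [hk] at this
  refine ⟨-(P.a ^ P.p) * k, ?_⟩
  have h16 : (16 : ℤ) ≠ 0 := by norm_num
  apply mul_left_cancel₀ h16
  rw [this]; ring

theorem freyCurve_a₂ (P : FreyPackage) : P.freyCurve.a₂ = (A2 P : ℚ) := by
  have := four_mul_A2 P
  have h : ((4 * A2 P : ℤ) : ℚ) = ((P.b ^ P.p - 1 - P.a ^ P.p : ℤ) : ℚ) := by rw [this]
  push_cast at h
  simp only [FreyPackage.freyCurve]
  linarith

theorem freyCurve_a₄ (P : FreyPackage) : P.freyCurve.a₄ = (A4 P : ℚ) := by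
  have := sixteen_mul_A4 P
  have h : ((16 * A4 P : ℤ) : ℚ) = ((-(P.a ^ P.p) * (P.b ^ P.p) : ℤ) : ℚ) := by rw [this]
  push_cast at h
  simp only [FreyPackage.freyCurve]
  linarith

theorem padicValInt_pow' {p : ℕ} [Fact p.Prime] {z : ℤ} (_hz : z ≠ 0) (n : ℕ) :
    padicValInt p (z ^ n) = n * padicValInt p z := by
  unfold padicValInt
  rw [Int.natAbs_pow, padicValNat.pow]

/-- `v₂(a₄) = p · v₂(b) - 4`. -/
theorem padicValInt_A4 (P : FreyPackage) :
    (padicValInt 2 (A4 P) : ℤ) + 4 = P.p * padicValInt 2 P.b := by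
  have : Fact (Nat.Prime 2) := ⟨Nat.prime_two⟩
  have h := sixteen_mul_A4 P
  have h1 : padicValInt 2 (16 * A4 P) = 4 + padicValInt 2 (A4 P) := by
    rw [padicValInt.mul (by norm_num) (A4_ne_zero P)]
    congr 1
    have : (16 : ℤ) = 2 ^ 4 := by norm_num
    rw [this, padicValInt_pow' (by norm_num) 4]
    have h22 : padicValInt 2 (2 : ℤ) = 1 := padicValInt.self (p := 2) (by norm_num)
    rw [h22]
  have ha : padicValInt 2 (P.a ^ P.p) = 0 := by
    rw [padicValInt_pow' P.ha0]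
    have : padicValInt 2 P.a = 0 := padicValInt.eq_zero_of_not_dvd (odd_a P)
    rw [this, mul_zero]
  have h2 : padicValInt 2 (-(P.a ^ P.p) * (P.b ^ P.p)) = P.p * padicValInt 2 P.b := by
    rw [padicValInt.mul (neg_ne_zero.mpr (pow_ne_zero _ P.ha0)) (pow_ne_zero _ P.hb0),
      padicValInt_pow' P.hb0]
    have : padicValInt 2 (-(P.a ^ P.p)) = 0 := by
      unfold padicValInt
      rw [Int.natAbs_neg]
      exact ha
    rw [this, zero_add]
  rw [h] at h1
  rw [h2] at h1
  have : ((P.p * padicValInt 2 P.b : ℕ) : ℤ) = ((4 + padicValInt 2 (A4 P) : ℕ) : ℤ) := by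
    rw [h1]
  push_cast at this
  linarith

end Arith

/-! ### The node model `y² + a₁xy = x³ + a₂x² + a₄x` with `b₂` a unit -/

section Model

variable {K : Type*} [Field K] [DecidableEq K]

/-- Hypotheses on the model `y² + a₁xy = x³ + a₂x² + a₄x` over a valuation subring. -/
structure NodeModel (A : ValuationSubring K) (W : WeierstrassCurve K) : Prop where
  a₁ : W.a₁ ∈ A
  a₂ : W.a₂ ∈ A
  a₃ : W.a₃ = 0
  a₄ : W.a₄ ∈ A.nonunits
  a₄_ne : W.a₄ ≠ 0
  a₆ : W.a₆ = 0
  b₂ : W.b₂ ∉ A.nonunits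

variable {A : ValuationSubring K} {W : WeierstrassCurve K}

theorem NodeModel.integralCoeffs (H : NodeModel A W) : IntegralCoeffs A W where
  a₁ := H.a₁
  a₂ := H.a₂
  a₃ := by rw [H.a₃]; exact A.zero_mem
  a₄ := A.nonunits_subset H.a₄
  a₆ := by rw [H.a₆]; exact A.zero_mem

theorem NodeModel.integralB (H : NodeModel A W) : KR.IntegralB A W.toAffine :=
  KR.integralB_of_a A W.toAffine H.integralCoeffs.a₁ H.integralCoeffs.a₂ H.integralCoeffs.a₃
    H.integralCoeffs.a₄ H.integralCoeffs.a₆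

/-- On the node model an integral point whose `x`-coordinate is a unit has nonsingular
reduction. -/
theorem NodeModel.nonsingularRed (H : NodeModel A W) {x y : K}
    (h : W.toAffine.Equation x y) (hx : x ∈ A) (hxu : x ∉ A.nonunits) :
    NonsingularRed A W x y := by
  by_contra hcon
  unfold NonsingularRed at hcon
  push Not at hcon
  obtain ⟨hFx, hFy⟩ := hcon
  rw [H.a₃, add_zero] at hFy
  have hy : y ∈ A := KR.y_mem_of_x_mem H.integralCoeffs.a₁ H.integralCoeffs.a₂
    H.integralCoeffs.a₃ H.integralCoeffs.a₄ H.integralCoeffs.a₆ h hx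
  have h2 : (2 : K) ∈ A := ofNat_mem A 2
  have h3 : (3 : K) ∈ A := ofNat_mem A 3
  have h4 : (4 : K) ∈ A := ofNat_mem A 4
  have h6 : (6 : K) ∈ A := ofNat_mem A 6
  have ha₄ : W.a₄ ∈ A := A.nonunits_subset H.a₄
  rw [Affine.equation_iff, H.a₃, H.a₆] at h
  -- `x² (4x + b₂) ∈ 𝔪`
  have e1 : x ^ 2 * (4 * x + W.b₂) = (2 * y + W.a₁ * x) * (2 * y + W.a₁ * x) - 4 * x * W.a₄ := by
    simp only [WeierstrassCurve.b₂]
    linear_combination (-4) * h
  have m1 : x ^ 2 * (4 * x + W.b₂) ∈ A.nonunits := by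
    rw [e1]
    refine SameRed.nu_sub A (SameRed.nu_mul_left A hFy ?_) (SameRed.nu_mul_right A ?_ H.a₄)
    · exact add_mem (mul_mem h2 hy) (mul_mem H.a₁ hx)
    · exact mul_mem h4 hx
  -- `x (6x + b₂) ∈ 𝔪`
  have e2 : x * (6 * x + W.b₂) = W.a₁ * (2 * y + W.a₁ * x)
      - 2 * (W.a₁ * y - (3 * x ^ 2 + 2 * W.a₂ * x + W.a₄)) - 2 * W.a₄ := by
    simp only [WeierstrassCurve.b₂]
    ring
  have m2 : x * (6 * x + W.b₂) ∈ A.nonunits := by
    rw [e2]
    refine SameRed.nu_sub A (SameRed.nu_sub A (SameRed.nu_mul_right A H.a₁ hFy)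
      (SameRed.nu_mul_right A h2 hFx)) (SameRed.nu_mul_right A h2 H.a₄)
  -- cancel the unit `x`
  have hxinv : x⁻¹ ∈ A := by
    by_contra hni
    have hx0 : x ≠ 0 := by
      rintro rfl
      exact hxu (SameRed.nu_zero A)
    exact hxu ((mem_nonunits_iff_inv_notMem hx0).2 hni)
  have hx0 : x ≠ 0 := by
    rintro rfl
    exact hxu (SameRed.nu_zero A)
  have m1' : 4 * x + W.b₂ ∈ A.nonunits := by
    have : 4 * x + W.b₂ = x ^ 2 * (4 * x + W.b₂) * (x⁻¹ * x⁻¹) := by
      field_simp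
    rw [this]
    exact SameRed.nu_mul_left A m1 (mul_mem hxinv hxinv)
  have m2' : 6 * x + W.b₂ ∈ A.nonunits := by
    have : 6 * x + W.b₂ = x * (6 * x + W.b₂) * x⁻¹ := by
      field_simp
    rw [this]
    exact SameRed.nu_mul_left A m2 hxinv
  have m3 : 2 * x ∈ A.nonunits := by
    have : 2 * x = (6 * x + W.b₂) - (4 * x + W.b₂) := by ring
    rw [this]
    exact SameRed.nu_sub A m2' m1'
  apply H.b₂
  have : W.b₂ = (4 * x + W.b₂) - 2 * (2 * x) := by ring
  rw [this]
  exact SameRed.nu_sub A m1' (SameRed.nu_mul_right A h2 m3)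

end Model


/-! ### Inertia acts unipotently on prime-to-residue-characteristic torsion of the node model -/

section Galois

open WeierstrassCurve.Affine.Point

variable {R : Type*} {S : Type*} {K : Type*} [CommRing R] [Field S] [Field K]
  [DecidableEq K] [Algebra R S] [Algebra R K] [Algebra S K] [IsScalarTower R S K]

theorem smul_nsmul_point (W' : Affine R) (σ : K ≃ₐ[S] K) (n : ℕ) (T : (W'⁄K).Point) :
    σ • (n • T) = n • (σ • T) :=
  map_nsmul (DistribSMul.toAddMonoidHom (W'⁄K).Point σ) n T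

theorem smul_sub_point (W' : Affine R) (σ : K ≃ₐ[S] K) (T T' : (W'⁄K).Point) :
    σ • (T - T') = σ • T - σ • T' :=
  map_sub (DistribSMul.toAddMonoidHom (W'⁄K).Point σ) T T'

/-- A torsion point (of order prime to the residue characteristic) of the node model which lies
on the identity component is fixed by inertia. -/
theorem smul_eq_self_of_x_notMem_nonunits {A : ValuationSubring K} (W' : Affine R)
    (H : NodeModel A (W'.baseChange K)) {σ : K ≃ₐ[S] K} (hσ : σ ∈ A.inertiaSubgroupIn S)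
    {n : ℕ} (hn : (n : K) ∉ A.nonunits) (T : (W'⁄K).Point) (hT : n • T = 0)
    (hx : T = 0 ∨ ∃ (x y : K) (h : (W'⁄K).Nonsingular x y), T = Point.some x y h ∧
      x ∉ A.nonunits) : σ • T = T := by
  rcases hx with rfl | ⟨x, y, h, rfl, hxu⟩
  · exact smul_zero σ
  · have hx : x ∈ A := KR.x_mem_of_nsmul_eq_zero H.integralB hn h hT
    have hy : y ∈ A := KR.y_mem_of_x_mem H.integralCoeffs.a₁ H.integralCoeffs.a₂
      H.integralCoeffs.a₃ H.integralCoeffs.a₄ H.integralCoeffs.a₆ h.1 hx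
    have hns := H.nonsingularRed h.1 hx hxu
    have hker := inKerRed_smul_sub_of_mem_inertia W' H.integralCoeffs hσ h hx hy hns
    have htors : n • (σ • (Point.some x y h : (W'⁄K).Point) - Point.some x y h) = 0 := by
      rw [nsmul_sub, ← smul_nsmul_point, hT, smul_zero, sub_zero]
    have := KR.eq_zero_of_nsmul_eq_zero_of_x_notMem H.integralB hn _ htors
      ((inKerRed_iff _).1 hker)
    exact sub_eq_zero.mp this

/-- **Unipotence of inertia** on the `n`-torsion of the node model (`n` odd and prime to the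
residue characteristic), given the two inputs from the component theory (`hC2`: odd torsion
avoids the far components) and the branch lemma (`hBR`). -/
theorem inertia_unipotent_of {A : ValuationSubring K} (W' : Affine R)
    (H : NodeModel A (W'.baseChange K)) {σ : K ≃ₐ[S] K} (hσ : σ ∈ A.inertiaSubgroupIn S)
    {n : ℕ} (hn : (n : K) ∉ A.nonunits)
    (hC2 : ∀ (x y : K) (h : (W'⁄K).Nonsingular x y), n • (Point.some x y h : (W'⁄K).Point) = 0 →
      x ∈ A.nonunits → x ≠ 0 ∧ (W'.baseChange K).a₄ / x ∈ A.nonunits)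
    (hBR : ∀ (x y : K) (h : (W'⁄K).Nonsingular x y), x ∈ A.nonunits → x ≠ 0 →
      (W'.baseChange K).a₄ / x ∈ A.nonunits →
      σ • (Point.some x y h : (W'⁄K).Point) - Point.some x y h = 0 ∨
        ∃ (x₃ y₃ : K) (h₃ : (W'⁄K).Nonsingular x₃ y₃),
          σ • (Point.some x y h : (W'⁄K).Point) - Point.some x y h = Point.some x₃ y₃ h₃ ∧
            x₃ ∉ A.nonunits)
    (T : (W'⁄K).Point) (hT : n • T = 0) : σ • (σ • T - T) = σ • T - T := by
  have htors : n • (σ • T - T) = 0 := by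
    rw [nsmul_sub, ← smul_nsmul_point, hT, smul_zero, sub_zero]
  rcases T with _ | ⟨x, y, h⟩
  · have h0 : σ • (0 : (W'⁄K).Point) = 0 := smul_zero σ
    change σ • (σ • (0 : (W'⁄K).Point) - 0) = σ • (0 : (W'⁄K).Point) - 0
    rw [h0, sub_zero, h0]
  · by_cases hxm : x ∈ A.nonunits
    · obtain ⟨hx0, hax⟩ := hC2 x y h hT hxm
      refine smul_eq_self_of_x_notMem_nonunits W' H hσ hn _ htors ?_
      rcases hBR x y h hxm hx0 hax with h0 | ⟨x₃, y₃, h₃, he, hx₃⟩
      · exact Or.inl h0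
      · exact Or.inr ⟨x₃, y₃, h₃, he, hx₃⟩
    · have := smul_eq_self_of_x_notMem_nonunits W' H hσ hn _ hT
        (Or.inr ⟨x, y, h, rfl, hxm⟩)
      rw [this, sub_self]
      exact smul_zero σ

end Galois


/-! ### The Frey curve is a node model at `2` -/

section FreyModel

variable {K : Type*} [Field K] [DecidableEq K] [Algebra ℚ K]

theorem baseChange_a₁ (P : FreyPackage) : ((P.freyCurve).baseChange K).a₁ = 1 := by
  simp [WeierstrassCurve.baseChange, FreyPackage.freyCurve]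

theorem baseChange_a₂ (P : FreyPackage) : ((P.freyCurve).baseChange K).a₂ = ((A2 P : ℤ) : K) := by
  have : ((P.freyCurve).baseChange K).a₂ = algebraMap ℚ K (P.freyCurve.a₂) := rfl
  rw [this, freyCurve_a₂]
  simp

theorem baseChange_a₃ (P : FreyPackage) : ((P.freyCurve).baseChange K).a₃ = 0 := by
  simp [WeierstrassCurve.baseChange, FreyPackage.freyCurve]

theorem baseChange_a₄ (P : FreyPackage) : ((P.freyCurve).baseChange K).a₄ = ((A4 P : ℤ) : K) := by
  have : ((P.freyCurve).baseChange K).a₄ = algebraMap ℚ K (P.freyCurve.a₄) := rfl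
  rw [this, freyCurve_a₄]
  simp

theorem baseChange_a₆ (P : FreyPackage) : ((P.freyCurve).baseChange K).a₆ = 0 := by
  simp [WeierstrassCurve.baseChange, FreyPackage.freyCurve]

theorem baseChange_b₂ (P : FreyPackage) :
    ((P.freyCurve).baseChange K).b₂ = ((1 + 4 * A2 P : ℤ) : K) := by
  simp only [WeierstrassCurve.b₂, baseChange_a₁, baseChange_a₂]
  push_cast
  ring

/-- The Frey curve is a node model at every valuation subring over `2`. -/
theorem nodeModel_frey (P : FreyPackage) (A : ValuationSubring K) (hA : A.LiesOverPrime 2) :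
    NodeModel A ((P.freyCurve).baseChange K) where
  a₁ := by rw [baseChange_a₁]; exact A.one_mem
  a₂ := by rw [baseChange_a₂]; exact intCast_mem_valuationSubring A _
  a₃ := baseChange_a₃ P
  a₄ := by
    rw [baseChange_a₄, intCast_mem_nonunits_iff Nat.prime_two hA]
    exact_mod_cast two_dvd_A4 P
  a₄_ne := by
    rw [baseChange_a₄]
    haveI : CharZero K := charZero_of_injective_algebraMap (algebraMap ℚ K).injective
    exact_mod_cast A4_ne_zero P
  a₆ := baseChange_a₆ P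
  b₂ := by
    rw [baseChange_b₂, intCast_mem_nonunits_iff Nat.prime_two hA]
    intro h
    have : ((2 : ℕ) : ℤ) ∣ 1 := by
      have h4 : ((2 : ℕ) : ℤ) ∣ 4 * A2 P := ⟨2 * A2 P, by push_cast; ring⟩
      exact (Int.dvd_add_left h4).mp h
    norm_num at this

end FreyModel

end Fermat.Agent.S13.AtTwo
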