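/-
# S13 (T13), module L2a (general form): inertia acts unipotently on prime-to-residue-characteristic
odd torsion of a node model `y² + a₁xy = x³ + a₂x² + a₄x`.

`K` an algebraic closure of `ℚ`, `A` a valuation subring over a prime `q`, `W'` a curve over `ℚ`
whose base change satisfies `NodeGenSubring.SubringModel A` (`a₃ = a₆ = 0`, `a₁, a₂ ∈ A`,
`b₂` a unit, `a₄ ∈ 𝔪`, `a₄ ≠ 0`).  For `p` odd and a unit of `A` and `σ` in the inertia group:
`(σ - 1)² = 0` on `E[p]`.
-/
import Fermat.Agent.S13.NodeGenSubring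
import Fermat.Agent.S13.BranchInertia
import Fermat.Agent.S05.SameRed
import Fermat.Agent.S05.KernelRedX

set_option autoImplicit false
set_option linter.unusedSectionVars false

namespace Fermat.Agent.S13.AtTwoUnip

open WeierstrassCurve WeierstrassCurve.Affine WeierstrassCurve.Affine.Point
open Fermat.Agent.S05 Fermat.Agent.S13.NodeGenSubring

section Model

variable {K : Type*} [Field K] {A : ValuationSubring K} {W : WeierstrassCurve K}

theorem integralCoeffs_of_model (S : SubringModel A W) : IntegralCoeffs A W where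
  a₁ := S.a₁_mem
  a₂ := S.a₂_mem
  a₃ := by rw [S.a₃]; exact A.zero_mem
  a₄ := A.nonunits_subset S.a₄_mem
  a₆ := by rw [S.a₆]; exact A.zero_mem

theorem integralB_of_model [DecidableEq K] (S : SubringModel A W) : KR.IntegralB A W.toAffine :=
  KR.integralB_of_a A W.toAffine S.a₁_mem S.a₂_mem (by rw [S.a₃]; exact A.zero_mem)
    (A.nonunits_subset S.a₄_mem) (by rw [S.a₆]; exact A.zero_mem)

open SameRed in
/-- On a node model, an integral point whose `x`-coordinate is a unit has nonsingular reduction. -/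
theorem nonsingularRed_of_x_unit (S : SubringModel A W) {x y : K}
    (h : W.toAffine.Equation x y) (hx : x ∈ A) (hxu : x ∉ A.nonunits) :
    NonsingularRed A W x y := by
  unfold NonsingularRed
  by_contra hcon
  rw [not_or, not_not, not_not] at hcon
  obtain ⟨h1, h2⟩ := hcon
  rw [S.a₃, add_zero] at h2
  rw [Affine.equation_iff, S.a₃, S.a₆] at h
  have ha₁ := S.a₁_mem
  have ha₂ := S.a₂_mem
  have ha₄ := S.a₄_mem
  have h2A : (2 : K) ∈ A := ofNat_mem A 2
  have h3A : (3 : K) ∈ A := ofNat_mem A 3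
  have h4A : (4 : K) ∈ A := ofNat_mem A 4
  have hx0 : x ≠ 0 := by
    rintro rfl
    exact hxu (nu_zero A)
  have hxinv : x⁻¹ ∈ A := by
    by_contra hni
    exact hxu ((Fermat.Agent.S05.mem_nonunits_iff_inv_notMem hx0).2 hni)
  -- (i) x * (6x + b₂) ∈ 𝔪
  have e1 : x * (6 * x + W.b₂) =
      -(2 * (W.a₁ * y - (3 * x ^ 2 + 2 * W.a₂ * x + W.a₄))) + W.a₁ * (2 * y + W.a₁ * x)
        - 2 * W.a₄ := by
    rw [WeierstrassCurve.b₂]; ring
  have m1 : x * (6 * x + W.b₂) ∈ A.nonunits := by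
    rw [e1]
    exact nu_sub A (nu_add A (nu_neg A (nu_mul_right A h2A h1)) (nu_mul_right A ha₁ h2))
      (nu_mul_right A h2A ha₄)
  have m1' : 6 * x + W.b₂ ∈ A.nonunits := by
    have := nu_mul_right A hxinv m1
    rwa [← mul_assoc, inv_mul_cancel₀ hx0, one_mul] at this
  -- (ii) x² (4x + b₂) ∈ 𝔪
  have e2 : x ^ 2 * (4 * x + W.b₂) = (2 * y + W.a₁ * x) ^ 2 - 4 * W.a₄ * x := by
    rw [WeierstrassCurve.b₂]; linear_combination (-4 : K) * h
  have m2 : x ^ 2 * (4 * x + W.b₂) ∈ A.nonunits := by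
    rw [e2, sq (2 * y + W.a₁ * x)]
    refine nu_sub A (nu_mul_left A h2 (nu_mem A h2)) ?_
    exact nu_mul_left A (nu_mul_right A h4A ha₄) hx
  have m2' : 4 * x + W.b₂ ∈ A.nonunits := by
    have := nu_mul_right A (pow_mem hxinv 2) m2
    rwa [← mul_assoc, ← mul_pow, inv_mul_cancel₀ hx0, one_pow, one_mul] at this
  -- difference: 2x ∈ 𝔪, so 2 ∈ 𝔪, so b₂ ∈ 𝔪
  have m3 : 2 * x ∈ A.nonunits := by
    have := nu_sub A m1' m2'
    have e : 6 * x + W.b₂ - (4 * x + W.b₂) = 2 * x := by ring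
    rwa [e] at this
  have m4 : (2 : K) ∈ A.nonunits := by
    have := nu_mul_left A m3 hxinv
    rwa [mul_assoc, mul_inv_cancel₀ hx0, mul_one] at this
  apply S.b₂_unit
  have e : W.b₂ = (4 * x + W.b₂) - 2 * (2 * x) := by ring
  rw [e]
  exact nu_sub A m2' (nu_mul_left A m4 (mul_mem h2A hx))

end Model

section Galois

variable {K : Type*} [Field K] [DecidableEq K] [Algebra ℚ K] [Algebra.IsAlgebraic ℚ K]
  [IsAlgClosed K]

variable (W' : WeierstrassCurve ℚ) {A : ValuationSubring K}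
  (S : SubringModel A (W'.baseChange K)) {p : ℕ} (hp : Odd p) (hpA : (p : K) ∉ A.nonunits)
  {σ : K ≃ₐ[ℚ] K} (hσ : σ ∈ A.inertiaSubgroupIn ℚ)

include S hpA hσ in
/-- Inertia fixes the `p`-torsion points of `E₀` (those with unit `x`-coordinate). -/
theorem smul_eq_of_E0 {P : (W'⁄K).Point} (hP : p • P = 0)
    (hE : E0 A (W'.baseChange K) P) : σ • P = P := by
  rcases P with _ | ⟨x, y, h⟩
  · rfl
  · have hB := integralB_of_model S
    have hW := integralCoeffs_of_model S
    have hxu : x ∉ A.nonunits := (E0_some h).1 hE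
    have hx : x ∈ A := KR.x_mem_of_nsmul_eq_zero hB hpA h hP
    have hy : y ∈ A := KR.y_mem_of_x_mem hW.a₁ hW.a₂ hW.a₃ hW.a₄ hW.a₆ h.1 hx
    have hns := nonsingularRed_of_x_unit S h.1 hx hxu
    have hker := inKerRed_smul_sub_of_mem_inertia (S := ℚ) W' hW hσ h hx hy hns
    have htors : p • (σ • (Point.some x y h : (W'⁄K).Point) - Point.some x y h) = 0 := by
      rw [smul_sub, hP, sub_zero, ← Nat.cast_smul_eq_nsmul ℤ, ← algEquiv_smul_zsmul,
        Nat.cast_smul_eq_nsmul ℤ, hP]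
      rfl
    have h0 := KR.eq_zero_of_nsmul_eq_zero_of_x_notMem hB hpA _ htors ((inKerRed_iff _).1 hker)
    exact sub_eq_zero.1 h0

include S hp hpA hσ in
/-- For every `p`-torsion point `P`, the point `σ • P - P` lies in `E₀`. -/
theorem E0_smul_sub {q : ℕ} (hq : q.Prime) (hA : A.LiesOverPrime q) {P : (W'⁄K).Point}
    (hP : p • P = 0) : E0 A (W'.baseChange K) (σ • P - P) := by
  rcases P with _ | ⟨x, y, h⟩
  · have : σ • (Point.zero : (W'⁄K).Point) - Point.zero = 0 := sub_self _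
    rw [this]
    exact E0_zero
  · by_cases hx : x ∈ A.nonunits
    · obtain ⟨hx0, hbx⟩ := torsion_mem S hp h hP hx
      rcases Branch.branch_step_inertia A hq hA W' S.a₃ S.a₆ S.a₁_mem S.a₂_mem S.b₂_mem
        S.b₂_unit hσ h hx0 hx hbx with h0 | ⟨x₃, y₃, h₃, he, hx₃⟩
      · rw [h0]; exact E0_zero
      · rw [he]; exact (E0_some h₃).2 hx₃
    · have := smul_eq_of_E0 W' S hpA hσ hP ((E0_some h).2 hx)
      rw [this, sub_self]
      exact E0_zero

include S hp hpA hσ in
/-- **Unipotence of inertia** on the `p`-torsion of a node model. -/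
theorem unipotent_of_node_model {q : ℕ} (hq : q.Prime) (hA : A.LiesOverPrime q)
    (x : Submodule.torsionBy ℤ (W'⁄K).Point p) : σ • (σ • x - x) = σ • x - x := by
  have hx : p • (x : (W'⁄K).Point) = 0 := by
    have := x.2
    rw [Submodule.mem_torsionBy_iff] at this
    rwa [Nat.cast_smul_eq_nsmul ℤ] at this
  have hE := E0_smul_sub W' S hp hpA hσ hq hA hx
  have hσx : p • (σ • (x : (W'⁄K).Point)) = 0 := by
    rw [← Nat.cast_smul_eq_nsmul ℤ, ← algEquiv_smul_zsmul, Nat.cast_smul_eq_nsmul ℤ, hx]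
    rfl
  have htors : p • (σ • (x : (W'⁄K).Point) - x) = 0 := by
    rw [smul_sub, hx, hσx, sub_zero]
  have := smul_eq_of_E0 W' S hpA hσ htors hE
  apply Subtype.ext
  exact this

end Galois

end Fermat.Agent.S13.AtTwoUnip
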