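import Mathlib.AlgebraicGeometry.EllipticCurve.Affine.Point
import Mathlib.RingTheory.Valuation.Basic

set_option autoImplicit false

/-!
# S13 / BR: the branch lemma for a nodal model `y² + a₁xy = x³ + a₂x² + a₄x`

`v` is any valuation (multiplicative notation: `v z ≤ 1` integral, `v z < 1` in the maximal ideal).
`s : K →+* K` is "inertia-like": `v (s z - z) < 1` for integral `z`, and `v (s z) = v z`.
For a point `P = (x, y)` reducing to the node (`v a₄ < v x < 1`), such that `sP = (s x, s y)` is
again on the curve, the difference `sP - P` is `0` or has an `x`-coordinate with `1 ≤ v x`.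
-/

namespace Fermat.Agent.S13.Branch

open WeierstrassCurve WeierstrassCurve.Affine

variable {K : Type*} [Field K] {Γ : Type*} [LinearOrderedCommGroupWithZero Γ]
  (v : Valuation K Γ)

section val

lemma val_pos {z : K} (hz : z ≠ 0) : 0 < v z := by
  rw [Valuation.pos_iff]; exact hz

lemma val_two_le : v (2 : K) ≤ 1 := by
  have : (2 : K) = 1 + 1 := by norm_num
  rw [this]
  exact (v.map_add _ _).trans (max_le (le_of_eq v.map_one) (le_of_eq v.map_one))

lemma val_four_le : v (4 : K) ≤ 1 := by
  have : (4 : K) = 2 * 2 := by norm_num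
  rw [this, v.map_mul]
  exact mul_le_one' (val_two_le v) (val_two_le v)

lemma val_mul_lt_one {a b : K} (ha : v a ≤ 1) (hb : v b < 1) : v (a * b) < 1 := by
  rw [v.map_mul]
  exact mul_lt_one_of_nonneg_of_lt_one_right ha zero_le hb

lemma val_le_one_of_sq_le {t : K} (h : v (t ^ 2) ≤ 1) : v t ≤ 1 := by
  rw [v.map_pow] at h
  exact (pow_le_one_iff_of_nonneg zero_le two_ne_zero).1 h

lemma val_eq_one_of_sq_eq {t : K} (h : v (t ^ 2) = 1) : v t = 1 := by
  rw [v.map_pow] at h
  exact (pow_eq_one_iff_of_nonneg zero_le two_ne_zero).1 h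

/-- integrality of a root of a monic quadratic with integral coefficients. -/
lemma val_le_one_of_quadratic {t a c : K} (ha : v a ≤ 1) (hc : v c ≤ 1)
    (h : t ^ 2 + a * t = c) : v t ≤ 1 := by
  by_contra hlt
  push Not at hlt
  have h1 : v (a * t) < v (t ^ 2) := by
    rw [v.map_mul, v.map_pow, pow_two]
    have ht0 : 0 < v t := lt_trans zero_lt_one hlt
    exact mul_lt_mul_of_pos_right (lt_of_le_of_lt ha hlt) ht0
  have h2 : v (t ^ 2 + a * t) = v (t ^ 2) := v.map_add_eq_of_lt_left h1
  rw [h] at h2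
  have h3 : 1 < v (t ^ 2) := by
    rw [v.map_pow]; exact one_lt_pow₀ hlt two_ne_zero
  rw [← h2] at h3
  exact absurd hc (not_le.2 h3)

end val

section main

variable [DecidableEq K] {W : Affine K}

/-- **Branch lemma.** -/
theorem branch_step (h3 : W.a₃ = 0) (h6 : W.a₆ = 0) (ha1 : v W.a₁ ≤ 1) (ha2 : v W.a₂ ≤ 1)
    (hb2 : v W.b₂ = 1) (s : K →+* K) (hs : ∀ z, v z ≤ 1 → v (s z - z) < 1)
    (hsv : ∀ z, v (s z) = v z)
    {x y : K} (h : W.Nonsingular x y) (h' : W.Nonsingular (s x) (s y))
    (hx0 : x ≠ 0) (hx : v x < 1) (hbx : v W.a₄ < v x) :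
    Point.some _ _ h' - Point.some _ _ h = 0 ∨
      ∃ (x₃ y₃ : K) (h₃ : W.Nonsingular x₃ y₃),
        Point.some _ _ h' - Point.some _ _ h = Point.some x₃ y₃ h₃ ∧ 1 ≤ v x₃ := by
  have e : y ^ 2 + W.a₁ * x * y = x ^ 3 + W.a₂ * x ^ 2 + W.a₄ * x := by
    have := (Affine.equation_iff _ _).1 h.1
    rw [h3, h6] at this
    linear_combination this
  have e' : (s y) ^ 2 + W.a₁ * (s x) * (s y) =
      (s x) ^ 3 + W.a₂ * (s x) ^ 2 + W.a₄ * (s x) := by
    have := (Affine.equation_iff _ _).1 h'.1
    rw [h3, h6] at this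
    linear_combination this
  have hsx0 : s x ≠ 0 := (map_ne_zero s).2 hx0
  have hvsx : v (s x) = v x := hsv x
  have hxpos : 0 < v x := val_pos v hx0
  -- the parameter `t = y / x`
  set t := y / x with ht
  have hyt : y = x * t := by rw [ht]; field_simp
  set m := x + W.a₄ / x with hm
  have hmlt : v m < 1 := by
    refine v.map_add_lt hx ?_
    rw [v.map_div]
    exact (div_lt_one₀ hxpos).2 hbx
  have htq : t ^ 2 + W.a₁ * t = W.a₂ + m := by
    rw [ht, hm]; field_simp; linear_combination e
  have htle : v t ≤ 1 :=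
    val_le_one_of_quadratic v ha1 (v.map_add_le ha2 hmlt.le) htq
  -- same for `s t = s y / s x`
  have hst : s t = s y / s x := by rw [ht, map_div₀]
  have hsyt : s y = s x * s t := by rw [hst]; field_simp
  set m' := s x + W.a₄ / s x with hm'
  have hm'lt : v m' < 1 := by
    refine v.map_add_lt (hvsx ▸ hx) ?_
    rw [v.map_div, hvsx]
    exact (div_lt_one₀ hxpos).2 hbx
  have hstq : (s t) ^ 2 + W.a₁ * (s t) = W.a₂ + m' := by
    rw [hst, hm']; field_simp; linear_combination e'
  set d := s t - t with hd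
  have hdlt : v d < 1 := hs t htle
  have hstle : v (s t) ≤ 1 := by rw [hsv]; exact htle
  -- the unit `w = s t + t + a₁`
  set w := s t + t + W.a₁ with hw
  have h2t : v (2 * t + W.a₁) ≤ 1 :=
    v.map_add_le (by rw [v.map_mul]; exact mul_le_one' (val_two_le v) htle) ha1
  have hw2 : w ^ 2 = W.b₂ + (4 * m + 2 * d * (2 * t + W.a₁) + d ^ 2) := by
    have hb : W.b₂ = W.a₁ ^ 2 + 4 * W.a₂ := rfl
    rw [hb, hw, hd]
    linear_combination 4 * htq
  have hsmall : v (4 * m + 2 * d * (2 * t + W.a₁) + d ^ 2) < 1 := by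
    refine v.map_add_lt (v.map_add_lt ?_ ?_) ?_
    · exact val_mul_lt_one v (val_four_le v) hmlt
    · rw [mul_assoc, mul_comm d, ← mul_assoc]
      exact val_mul_lt_one v
        (by rw [v.map_mul]; exact mul_le_one' (val_two_le v) h2t) hdlt
    · rw [pow_two]; exact val_mul_lt_one v hdlt.le hdlt
  have hvw : v w = 1 := by
    apply val_eq_one_of_sq_eq v
    rw [hw2, v.map_add_eq_of_lt_left (by rw [hb2]; exact hsmall), hb2]
  have hw0 : w ≠ 0 := by
    intro h0; rw [h0, v.map_zero] at hvw; exact zero_ne_one hvw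
  have hnegY : W.negY x y = -y - W.a₁ * x := by
    simp [Affine.negY, h3]
  rw [sub_eq_add_neg, Point.neg_some]
  by_cases hne : s x = x
  · -- then `s y = y`
    left
    have hcases := Y_eq_of_X_eq h'.1 h.1 hne
    have hsyy : s y = y := by
      rcases hcases with h0 | h0
      · exact h0
      · exfalso
        apply hw0
        rw [hnegY] at h0
        have h1 : s x * s t = -(x * t) - W.a₁ * x := by rw [← hsyt, ← hyt]; exact h0
        rw [hne] at h1
        have h2 : x * (s t + t + W.a₁) = 0 := by linear_combination h1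
        rcases mul_eq_zero.1 h2 with h2 | h2
        · exact absurd h2 hx0
        · exact h2
    exact Point.add_of_Y_eq hne (by rw [Affine.negY_negY]; exact hsyy)
  · right
    have hxy : ¬(s x = x ∧ s y = W.negY x (W.negY x y)) := fun hh => hne hh.1
    refine ⟨_, _, _, Point.add_some hxy, ?_⟩
    have hdx : s x - x ≠ 0 := sub_ne_zero.2 hne
    set r := x / (s x - x) with hr
    have hvdx : v (s x - x) ≤ v x := by
      refine (v.map_sub _ _).trans (max_le (le_of_eq hvsx) le_rfl)
    have hvr : 1 ≤ v r := by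
      rw [hr, v.map_div]
      exact (one_le_div₀ (val_pos v hdx)).2 hvdx
    have h1r : 1 + r = s x / (s x - x) := by
      rw [hr]; field_simp; ring
    have hv1r : v (1 + r) = v r := by
      rw [h1r, hr, v.map_div, v.map_div, hvsx]
    have hslope : W.slope (s x) x (s y) (W.negY x y) = s t + r * w := by
      rw [Affine.slope_of_X_ne hne, hnegY, hsyt, hyt, hr, hw]
      field_simp
      ring
    rw [Affine.addX, hslope]
    have hmain : (s t + r * w) ^ 2 + W.a₁ * (s t + r * w) - W.a₂ - s x - x =
        r * w ^ 2 * (1 + r) + (r * w * d + (m' - s x - x)) := by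
      rw [hd, hw]
      linear_combination hstq
    rw [hmain]
    have hvmain : v (r * w ^ 2 * (1 + r)) = v r * v r := by
      rw [v.map_mul, v.map_mul, v.map_pow, hvw, one_pow, mul_one, hv1r]
    have hrpos : 0 < v r := lt_of_lt_of_le zero_lt_one hvr
    have hrr : v r ≤ v r * v r := by
      calc v r = v r * 1 := (mul_one _).symm
        _ ≤ v r * v r := mul_le_mul_of_nonneg_left hvr hrpos.le
    have hrest : v (r * w * d + (m' - s x - x)) < v r * v r := by
      refine v.map_add_lt ?_ ?_
      · rw [v.map_mul, v.map_mul, hvw, mul_one]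
        calc v r * v d < v r * 1 := mul_lt_mul_of_pos_left hdlt hrpos
          _ = v r := mul_one _
          _ ≤ v r * v r := hrr
      · have h1 : v (m' - s x - x) < 1 := by
          refine lt_of_le_of_lt (v.map_sub _ _) (max_lt ?_ hx)
          exact lt_of_le_of_lt (v.map_sub _ _) (max_lt hm'lt (hvsx ▸ hx))
        exact lt_of_lt_of_le h1 (hvr.trans hrr)
    rw [v.map_add_eq_of_lt_left (by rw [hvmain]; exact hrest), hvmain]
    exact hvr.trans hrr

end main

end Fermat.Agent.S13.Branch
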