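import Fermat.Agent.S13.DivDefs

/-!
# T13 / DP4: periodicity of the zeros of an elliptic sequence (pure algebra)

If `s : ℤ → R` (`R` a domain) satisfies all relations `ERel s m n`, `s 0 = 0`, `s 1 = 1`, and
`L ≥ 3` is the first positive index with `s L = 0` (plus `s 4 ≠ 0` if `L = 3`), then
`s n = 0 ↔ L ∣ n`.  For `L = 2` the same holds for `normEDS b c d` provided `c = s 3 ≠ 0`.
-/

set_option autoImplicit false

namespace Fermat.Agent.S13.Div

variable {R : Type*} [CommRing R]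

lemma ERel.eq' {s : ℤ → R} {m n a b c d e f : ℤ} (h : ERel s m n) (ha : m + n = a)
    (hb : m - n = b) (hc : m + 1 = c) (hd : m - 1 = d) (he : n + 1 = e) (hf : n - 1 = f) :
    s a * s b = s c * s d * s n ^ 2 - s e * s f * s m ^ 2 := by
  subst ha hb hc hd he hf; exact h

variable [IsDomain R]

/-- Block structure of the zeros for `L ≥ 3`. -/
theorem period_block {s : ℤ → R} (hE : ∀ m n, ERel s m n) (s1 : s 1 = 1)
    (L : ℤ) (hL3 : 3 ≤ L) (hL : s L = 0) (hmin : ∀ j, 0 < j → j < L → s j ≠ 0)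
    (h3 : L = 3 → s 4 ≠ 0) (k : ℕ) :
    s (k * L) = 0 ∧ ∀ j, 0 < j → j < L → s (k * L + j) ≠ 0 := by
  induction k using Nat.strong_induction_on with
  | _ k ih =>
  rcases k with _ | k
  · -- k = 0: needs s 0 = 0, which follows from E(0,0)... we get it from E(1,1) instead
    have h00 : s 0 = 0 := by
      have e := (hE 1 0).eq' (a := 1) (b := 1) (c := 2) (d := 0) (e := 1) (f := -1)
        (by ring) (by ring) (by ring) (by ring) (by ring) (by ring)
      -- s 1 * s 1 = s 2 * s 0 * s 0 ^ 2 - s 1 * s (-1) * s 1 ^ 2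
      have e2 := (hE 0 0).eq' (a := 0) (b := 0) (c := 1) (d := -1) (e := 1) (f := -1)
        (by ring) (by ring) (by ring) (by ring) (by ring) (by ring)
      -- s 0 * s 0 = s 1 * s (-1) * s 0 ^ 2 - s 1 * s (-1) * s 0 ^ 2 = 0
      have : s 0 * s 0 = 0 := by rw [e2]; ring
      exact mul_self_eq_zero.mp this
    refine ⟨by simpa using h00, fun j hj0 hjL => ?_⟩
    simpa using hmin j hj0 hjL
  · have Pk := ih k (Nat.lt_succ_self k)
    have hs2 : s 2 ≠ 0 := hmin 2 (by norm_num) (by omega)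
    have hsL1 : s (L - 1) ≠ 0 := hmin (L - 1) (by omega) (by omega)
    -- (1) s ((k+1) L) = 0
    have hz : s (((k + 1 : ℕ) : ℤ) * L) = 0 := by
      rcases k with _ | k'
      · simpa using hL
      · have Pk' := ih k' (by omega)
        have e := (hE (((k' + 1 : ℕ) : ℤ) * L + 1) (L - 1)).eq'
          (a := ((k' + 1 + 1 : ℕ) : ℤ) * L) (b := (k' : ℤ) * L + 2)
          (c := ((k' + 1 : ℕ) : ℤ) * L + 2) (d := ((k' + 1 : ℕ) : ℤ) * L)
          (e := L) (f := L - 2)
          (by push_cast; ring) (by push_cast; ring) (by ring) (by ring) (by ring) (by ring)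
        rw [Pk.1, hL] at e
        have hne : s ((k' : ℤ) * L + 2) ≠ 0 := Pk'.2 2 (by norm_num) (by omega)
        have : s (((k' + 1 + 1 : ℕ) : ℤ) * L) * s ((k' : ℤ) * L + 2) = 0 := by rw [e]; ring
        rcases mul_eq_zero.mp this with h | h
        · exact h
        · exact absurd h hne
    -- the previous block at L - 1
    have hprev : s (((k + 1 : ℕ) : ℤ) * L - 1) ≠ 0 := by
      have := Pk.2 (L - 1) (by omega) (by omega)
      have e : ((k + 1 : ℕ) : ℤ) * L - 1 = (k : ℤ) * L + (L - 1) := by push_cast; ring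
      rwa [e]
    -- (2) s ((k+1) L + 1) ≠ 0
    have hone : s (((k + 1 : ℕ) : ℤ) * L + 1) ≠ 0 := by
      by_cases hL3' : L = 3
      · -- E((k+1)L - 2, 3)
        have hs4 : s 4 ≠ 0 := h3 hL3'
        have hprev2 : s (((k + 1 : ℕ) : ℤ) * L - 2) ≠ 0 := by
          have := Pk.2 1 (by norm_num) (by omega)
          have e : ((k + 1 : ℕ) : ℤ) * L - 2 = (k : ℤ) * L + 1 := by push_cast; rw [hL3']; ring
          rwa [e]
        have e := (hE (((k + 1 : ℕ) : ℤ) * L - 2) 3).eq'
          (a := ((k + 1 : ℕ) : ℤ) * L + 1) (b := ((k + 1 : ℕ) : ℤ) * L - 5)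
          (c := ((k + 1 : ℕ) : ℤ) * L - 1) (d := ((k + 1 : ℕ) : ℤ) * L - 3)
          (e := 4) (f := 2)
          (by ring) (by ring) (by ring) (by ring) (by ring) (by ring)
        have h33 : s 3 = 0 := by rw [← hL3']; exact hL
        rw [h33] at e
        intro h0
        rw [h0] at e
        have : s 4 * s 2 * s (((k + 1 : ℕ) : ℤ) * L - 2) ^ 2 = 0 := by
          have e' := e
          simp only [zero_mul, ne_eq, OfNat.ofNat_ne_zero, not_false_eq_true, zero_pow,
            mul_zero, zero_sub] at e'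
          exact neg_eq_zero.mp e'.symm
        exact (mul_ne_zero (mul_ne_zero hs4 hs2) (pow_ne_zero 2 hprev2)) this
      · -- L ≥ 4 : E((k+1)L - 1, 2)
        have hs3 : s 3 ≠ 0 := hmin 3 (by norm_num) (by omega)
        have e := (hE (((k + 1 : ℕ) : ℤ) * L - 1) 2).eq'
          (a := ((k + 1 : ℕ) : ℤ) * L + 1) (b := ((k + 1 : ℕ) : ℤ) * L - 3)
          (c := ((k + 1 : ℕ) : ℤ) * L) (d := ((k + 1 : ℕ) : ℤ) * L - 2)
          (e := 3) (f := 1)
          (by ring) (by ring) (by ring) (by ring) (by ring) (by ring)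
        rw [hz, s1] at e
        intro h0
        rw [h0] at e
        have : s 3 * s (((k + 1 : ℕ) : ℤ) * L - 1) ^ 2 = 0 := by
          have e' := e
          simp only [zero_mul, mul_one, zero_sub] at e'
          exact neg_eq_zero.mp e'.symm
        exact (mul_ne_zero hs3 (pow_ne_zero 2 hprev)) this
    refine ⟨hz, fun j hj0 hjL => ?_⟩
    -- (3) E((k+1)L, j)
    have hsj : s j ≠ 0 := hmin j hj0 hjL
    have e := (hE (((k + 1 : ℕ) : ℤ) * L) j).eq'
      (a := ((k + 1 : ℕ) : ℤ) * L + j) (b := ((k + 1 : ℕ) : ℤ) * L - j)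
      (c := ((k + 1 : ℕ) : ℤ) * L + 1) (d := ((k + 1 : ℕ) : ℤ) * L - 1)
      (e := j + 1) (f := j - 1)
      (by ring) (by ring) (by ring) (by ring) (by ring) (by ring)
    rw [hz] at e
    intro h0
    rw [h0] at e
    have : s (((k + 1 : ℕ) : ℤ) * L + 1) * s (((k + 1 : ℕ) : ℤ) * L - 1) * s j ^ 2 = 0 := by
      have e' := e
      simp only [zero_mul, ne_eq, OfNat.ofNat_ne_zero, not_false_eq_true, zero_pow,
        mul_zero, sub_zero] at e'
      exact e'.symm
    exact (mul_ne_zero (mul_ne_zero hone hprev) (pow_ne_zero 2 hsj)) this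

/-- Periodicity for `L ≥ 3`, natural indices. -/
theorem period_nat {s : ℤ → R} (hE : ∀ m n, ERel s m n) (s1 : s 1 = 1)
    (L : ℕ) (hL3 : 3 ≤ L) (hL : s L = 0) (hmin : ∀ j : ℕ, 0 < j → j < L → s j ≠ 0)
    (h3 : L = 3 → s 4 ≠ 0) (n : ℕ) : s n = 0 ↔ L ∣ n := by
  have hmin' : ∀ j : ℤ, 0 < j → j < (L : ℤ) → s j ≠ 0 := by
    intro j hj0 hjL
    obtain ⟨j', rfl⟩ := Int.eq_ofNat_of_zero_le hj0.le
    exact hmin j' (by exact_mod_cast hj0) (by exact_mod_cast hjL)
  have hb := period_block hE s1 (L : ℤ) (by exact_mod_cast hL3) hL hmin'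
    (fun h => h3 (by exact_mod_cast h))
  have hLpos : 0 < L := by omega
  constructor
  · intro h0
    by_contra hnd
    have hr : 0 < n % L := Nat.pos_of_ne_zero (fun h => hnd (Nat.dvd_of_mod_eq_zero h))
    have hr2 : n % L < L := Nat.mod_lt _ hLpos
    have := (hb (n / L)).2 ((n % L : ℕ) : ℤ) (by exact_mod_cast hr) (by exact_mod_cast hr2)
    apply this
    have e : ((n / L : ℕ) : ℤ) * (L : ℤ) + ((n % L : ℕ) : ℤ) = (n : ℤ) := by
      have := Nat.div_add_mod n L
      have h2 : ((L * (n / L) + n % L : ℕ) : ℤ) = (n : ℤ) := by rw [this]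
      push_cast at h2 ⊢
      linarith
    rw [e]; exact h0
  · rintro ⟨q, rfl⟩
    have := (hb q).1
    have e : ((L * q : ℕ) : ℤ) = (q : ℤ) * (L : ℤ) := by push_cast; ring
    rw [e]; exact this

/-- Periodicity for `L ≥ 3`, integer indices. -/
theorem period_int {s : ℤ → R} (hE : ∀ m n, ERel s m n) (s1 : s 1 = 1)
    (hodd : ∀ n, s (-n) = -s n)
    (L : ℕ) (hL3 : 3 ≤ L) (hL : s L = 0) (hmin : ∀ j : ℕ, 0 < j → j < L → s j ≠ 0)
    (h3 : L = 3 → s 4 ≠ 0) (n : ℤ) : s n = 0 ↔ (L : ℤ) ∣ n := by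
  have key := period_nat hE s1 L hL3 hL hmin h3
  rcases Int.natAbs_eq n with h | h
  · rw [h, key, Int.natCast_dvd_natCast]
  · rw [h, hodd, neg_eq_zero, key, dvd_neg, Int.natCast_dvd_natCast]

/-- The case `L = 2` for `normEDS`: if `b = 0` and `c ≠ 0` then `normEDS b c d n = 0 ↔ 2 ∣ n`. -/
theorem period_two (c d : R) (hc : c ≠ 0) (n : ℤ) :
    normEDS (0 : R) c d n = 0 ↔ (2 : ℤ) ∣ n := by
  have hodd : ∀ k : ℕ, normEDS (0 : R) c d (2 * (k : ℤ) + 1) ≠ 0 := by
    intro k
    induction k using Nat.strong_induction_on with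
    | _ k ih =>
    have heven : ∀ m : ℤ, Even m → normEDS (0 : R) c d m = 0 := by
      intro m hm
      rw [normEDS, if_pos hm, mul_zero]
    rw [normEDS_odd]
    rcases Nat.even_or_odd' k with ⟨i, rfl | rfl⟩
    · -- k = 2 i
      have h0 : normEDS (0 : R) c d ((2 * i : ℕ) : ℤ) = 0 :=
        heven _ (by push_cast; exact even_two_mul _)
      rw [h0]
      rcases i with _ | i
      · simp
      · have e1 : ((2 * (i + 1) : ℕ) : ℤ) - 1 = 2 * (i : ℤ) + 1 := by push_cast; ring
        have e2 : ((2 * (i + 1) : ℕ) : ℤ) + 1 = 2 * ((i + 1 : ℕ) : ℤ) + 1 := by push_cast; ring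
        rw [e1, e2]
        have a1 := ih i (by omega)
        have a2 := ih (i + 1) (by omega)
        simp only [ne_eq, OfNat.ofNat_ne_zero, not_false_eq_true, zero_pow, mul_zero, zero_sub,
          neg_eq_zero, mul_eq_zero, pow_eq_zero_iff, not_or]
        exact ⟨a1, a2⟩
    · -- k = 2 i + 1
      have h0 : normEDS (0 : R) c d (((2 * i + 1 : ℕ) : ℤ) + 1) = 0 :=
        heven _ (by push_cast; exact ⟨(i : ℤ) + 1, by ring⟩)
      rw [h0]
      rcases i with _ | i
      · simp [hc]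
      · have e1 : ((2 * (i + 1) + 1 : ℕ) : ℤ) + 2 = 2 * ((i + 1 + 1 : ℕ) : ℤ) + 1 := by
          push_cast; ring
        have e2 : ((2 * (i + 1) + 1 : ℕ) : ℤ) = 2 * ((i + 1 : ℕ) : ℤ) + 1 := by push_cast; ring
        have a1 := ih (i + 1 + 1) (by omega)
        have a2 := ih (i + 1) (by omega)
        rw [e1]
        rw [e2] at *
        simp only [ne_eq, OfNat.ofNat_ne_zero, not_false_eq_true, zero_pow, mul_zero, sub_zero,
          mul_eq_zero, pow_eq_zero_iff, not_or]
        exact ⟨a1, a2⟩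
  constructor
  · intro h0
    by_contra hnd
    have hoddn : Odd n := by
      rcases Int.even_or_odd n with h | h
      · exact absurd (even_iff_two_dvd.mp h) hnd
      · exact h
    obtain ⟨m, rfl⟩ := hoddn
    rcases Int.natAbs_eq (2 * m + 1) with h | h
    · have hm : 0 ≤ m := by omega
      obtain ⟨m', rfl⟩ := Int.eq_ofNat_of_zero_le hm
      exact hodd m' h0
    · have hm : 0 ≤ -m - 1 := by omega
      obtain ⟨m', hm'⟩ := Int.eq_ofNat_of_zero_le hm
      have e : 2 * m + 1 = -(2 * (m' : ℤ) + 1) := by omega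
      rw [e, normEDS_neg, neg_eq_zero] at h0
      exact hodd m' h0
  · intro h
    rw [normEDS, if_pos (even_iff_two_dvd.mpr h), mul_zero]

end Fermat.Agent.S13.Div
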