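import Fermat.Agent.S13.DivGeneric
import Fermat.Agent.S13.DivPeriod

/-!
# T13 / KEY: `p • P = 0 ↔ preΨ_p(x(P)) = 0` for an odd prime `p` (char 0, `Δ ≠ 0`),
from the pointwise theorem DP2 (hypothesis `DP2Statement`).
-/

set_option autoImplicit false

namespace Fermat.Agent.S13.Div

open WeierstrassCurve Polynomial

universe u

section extend

variable {R : Type*} [CommRing R]

/-- Extension of the `E`-relations from natural indices `0 < n < m` to all integers. -/
theorem ERel_int_of_nat {s : ℤ → R} (s0 : s 0 = 0) (s1 : s 1 = 1) (hodd : ∀ n, s (-n) = -s n)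
    (h : ∀ m n : ℕ, 0 < n → n < m → ERel s m n) (m n : ℤ) : ERel s m n := by
  -- symmetries
  have hsm1 : s (-1) = -1 := by rw [hodd, s1]
  have negn : ∀ m n : ℤ, ERel s m n → ERel s m (-n) := by
    intro m n e
    unfold ERel at e ⊢
    have e1 : m + -n = m - n := by ring
    have e2 : m - -n = m + n := by ring
    have e3 : -n + 1 = -(n - 1) := by ring
    have e4 : -n - 1 = -(n + 1) := by ring
    rw [e1, e2, e3, e4, hodd, hodd, hodd]
    linear_combination e
  have negm : ∀ m n : ℤ, ERel s m n → ERel s (-m) n := by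
    intro m n e
    unfold ERel at e ⊢
    have e1 : -m + n = -(m - n) := by ring
    have e2 : -m - n = -(m + n) := by ring
    have e3 : -m + 1 = -(m - 1) := by ring
    have e4 : -m - 1 = -(m + 1) := by ring
    rw [e1, e2, e3, e4, hodd, hodd, hodd, hodd, hodd]
    linear_combination e
  have swap : ∀ m n : ℤ, ERel s m n → ERel s n m := by
    intro m n e
    unfold ERel at e ⊢
    have e1 : n + m = m + n := by ring
    have e2 : n - m = -(m - n) := by ring
    rw [e1, e2, hodd]
    linear_combination -e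
  -- natural numbers, any order
  have nat : ∀ m n : ℕ, ERel s m n := by
    intro m n
    rcases Nat.lt_trichotomy n m with hlt | heq | hgt
    · rcases Nat.eq_zero_or_pos n with h0 | hpos
      · subst h0
        unfold ERel
        simp only [Nat.cast_zero, add_zero, sub_zero, zero_add, zero_sub, s0, s1, hsm1]
        ring
      · exact h m n hpos hlt
    · subst heq
      unfold ERel
      simp only [sub_self, s0]
      ring
    · apply swap
      rcases Nat.eq_zero_or_pos m with h0 | hpos
      · subst h0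
        unfold ERel
        simp only [Nat.cast_zero, add_zero, sub_zero, zero_add, zero_sub, s0, s1, hsm1]
        ring
      · exact h n m hpos hgt
  rcases Int.natAbs_eq m with hm | hm <;> rcases Int.natAbs_eq n with hn | hn
  · rw [hm, hn]; exact nat _ _
  · rw [hm, hn]; exact negn _ _ (nat _ _)
  · rw [hm, hn]; exact negm _ _ (nat _ _)
  · rw [hm, hn]; exact negm _ _ (negn _ _ (nat _ _))

end extend

variable {K : Type u} [Field K] (W : WeierstrassCurve K)

/-- `16 Ψ₃ = -16 W_X²` at a `2`-torsion point (`ψ₂ = 0`). -/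
lemma sixteen_Ψ₃_of_ψ₂_eq_zero {x y : K} (hxy : W.toAffine.Equation x y)
    (hη : 2 * y + W.a₁ * x + W.a₃ = 0) :
    16 * (W.Ψ₃).eval x = -16 * (W.a₁ * y - (3 * x ^ 2 + 2 * W.a₂ * x + W.a₄)) ^ 2 := by
  rw [Affine.equation_iff] at hxy
  simp only [Ψ₃, b₂, b₄, b₆, b₈, eval_add, eval_mul, eval_pow, eval_X, eval_C, eval_ofNat]
  linear_combination
    (2 * (2 * y + W.a₁ * x + W.a₃) * (24 * x + 2 * (W.a₁ ^ 2 + 4 * W.a₂))
      + 16 * W.a₁ * (W.a₁ * y - (3 * x ^ 2 + 2 * W.a₂ * x + W.a₄))
      - 4 * W.a₁ ^ 2 * (2 * y + W.a₁ * x + W.a₃)) * hη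
    - 8 * (24 * x + 2 * (W.a₁ ^ 2 + 4 * W.a₂)) * hxy

/-- `preΨ₄ = -ψ₂⁴` at a point with `Ψ₃ = 0`. -/
lemma preΨ₄_of_Ψ₃_eq_zero {x y : K} (hxy : W.toAffine.Equation x y)
    (h3 : (W.Ψ₃).eval x = 0) :
    (W.preΨ₄).eval x = -(2 * y + W.a₁ * x + W.a₃) ^ 4 := by
  rw [Affine.equation_iff] at hxy
  simp only [Ψ₃, preΨ₄, b₂, b₄, b₆, b₈, eval_add, eval_mul, eval_pow, eval_X, eval_C, eval_ofNat]
    at h3 ⊢
  linear_combination
    (6 * x ^ 2 + (W.a₁ ^ 2 + 4 * W.a₂) * x + (2 * W.a₄ + W.a₁ * W.a₃)) * h3
    + 4 * ((2 * y + W.a₁ * x + W.a₃) ^ 2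
      + (4 * x ^ 3 + (W.a₁ ^ 2 + 4 * W.a₂) * x ^ 2 + 2 * (2 * W.a₄ + W.a₁ * W.a₃) * x
        + (W.a₃ ^ 2 + 4 * W.a₆))) * hxy

section key

variable [CharZero K] [DecidableEq K]

/-- **KEY**: for an odd prime `p`, `p • (x, y) = 0 ↔ preΨ_p(x) = 0`. -/
theorem key (hDP2 : DP2Statement.{u}) (hΔ : W.Δ ≠ 0) {p : ℕ} (hp : p.Prime) (hp2 : p ≠ 2)
    (x y : K) (h : W.toAffine.Nonsingular x y) :
    p • (Affine.Point.some x y h) = 0 ↔ (W.preΨ (p : ℤ)).eval x = 0 := by
  have hP0 : Affine.Point.some x y h ≠ 0 := Affine.Point.some_ne_zero h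
  have hodd : Odd (p : ℤ) := by exact_mod_cast hp.odd_of_ne_two hp2
  rw [← sq_odd_eq W x y h.1 hodd]
  have hdp := hDP2 K W x y h
  constructor
  · intro hpP
    have hmin : ∀ j : ℕ, 0 < j → j < p → j • (Affine.Point.some x y h) ≠ 0 := by
      intro j hj0 hjp hjP
      have h1 : addOrderOf (Affine.Point.some x y h) ∣ p := addOrderOf_dvd_of_nsmul_eq_zero hpP
      have h2 : addOrderOf (Affine.Point.some x y h) ∣ j := addOrderOf_dvd_of_nsmul_eq_zero hjP
      rcases (Nat.dvd_prime hp).mp h1 with h3 | h3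
      · exact hP0 (AddMonoid.addOrderOf_eq_one_iff.mp h3)
      · rw [h3] at h2
        exact absurd (Nat.le_of_dvd hj0 h2) (by omega)
    exact ((hdp p hmin).1).mpr hpP
  · intro hsp
    by_contra hpP
    by_cases hex : ∃ j : ℕ, 0 < j ∧ j < p ∧ j • (Affine.Point.some x y h) = 0
    · classical
      have hL : 0 < Nat.find hex ∧ Nat.find hex < p ∧
          Nat.find hex • (Affine.Point.some x y h) = 0 := Nat.find_spec hex
      have hLmin : ∀ j : ℕ, 0 < j → j < Nat.find hex → j • (Affine.Point.some x y h) ≠ 0 := by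
        intro j hj0 hjL hjP
        exact Nat.find_min hex hjL ⟨hj0, by omega, hjP⟩
      generalize Nat.find hex = L at hL hLmin
      have hL2 : 2 ≤ L := by
        rcases Nat.lt_or_ge L 2 with h1 | h1
        · have h1' : L = 1 := by omega
          have := hL.2.2
          rw [h1', one_smul] at this
          exact absurd this hP0
        · exact h1
      have hsL : sq W x y L = 0 := ((hdp L hLmin).1).mpr hL.2.2
      have hsj : ∀ j : ℕ, 0 < j → j < L → sq W x y j ≠ 0 := by
        intro j hj0 hjL h0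
        have := ((hdp j (fun i hi0 hij => hLmin i hi0 (by omega))).1).mp h0
        exact hLmin j hj0 hjL this
      have hdvd : (L : ℤ) ∣ (p : ℤ) := by
        by_cases hL2' : L = 2
        · subst hL2'
          have hη : 2 * y + W.a₁ * x + W.a₃ = 0 := by
            have := hsL
            simpa using this
          have hc : (W.Ψ₃).eval x ≠ 0 := by
            intro hc0
            have h16 := sixteen_Ψ₃_of_ψ₂_eq_zero W h.1 hη
            rw [hc0, mul_zero] at h16
            have hwx : (W.a₁ * y - (3 * x ^ 2 + 2 * W.a₂ * x + W.a₄)) ^ 2 = 0 := by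
              have h16' : (16 : K) ≠ 0 := by norm_num
              have : (-16 : K) * (W.a₁ * y - (3 * x ^ 2 + 2 * W.a₂ * x + W.a₄)) ^ 2 = 0 :=
                h16.symm
              rcases mul_eq_zero.mp this with h' | h'
              · exact absurd (neg_eq_zero.mp h') h16'
              · exact h'
            have hwx' := pow_eq_zero_iff (two_ne_zero) |>.mp hwx
            have hns := (Affine.nonsingular_iff x y).mp h
            rcases hns.2 with h' | h'
            · exact h' (sub_eq_zero.mp hwx')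
            · exact h' (by linear_combination hη)
          have := (period_two ((W.Ψ₃).eval x) ((W.preΨ₄).eval x) hc (p : ℤ)).mp (by
            have := hsp
            rw [sq, hη] at this
            exact this)
          exact_mod_cast this
        · have hL3 : 3 ≤ L := by omega
          have hE : ∀ m n : ℤ, ERel (sq W x y) m n :=
            ERel_int_of_nat (sq_zero W x y) (sq_one W x y) (sq_neg W x y)
              (fun m n hn hnm => ERel_sq_nat W hDP2 hΔ h.1 m n hn hnm)
          refine (period_int hE (sq_one W x y) (sq_neg W x y) L hL3 hsL hsj ?_ (p : ℤ)).mp hsp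
          intro hL3'
          subst hL3'
          have hs2 : sq W x y 2 ≠ 0 := by
            have := hsj 2 (by norm_num) (by norm_num)
            simpa using this
          rw [sq_two] at hs2
          have hs3 : (W.Ψ₃).eval x = 0 := by
            have := hsL
            simpa using this
          rw [sq_four, preΨ₄_of_Ψ₃_eq_zero W h.1 hs3]
          exact mul_ne_zero (neg_ne_zero.mpr (pow_ne_zero 4 hs2)) hs2
      have hdvd' : L ∣ p := by exact_mod_cast hdvd
      rcases (Nat.dvd_prime hp).mp hdvd' with h1 | h1 <;> omega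
    · simp only [not_exists, not_and] at hex
      exact hpP (((hdp p (fun j hj0 hjp => hex j hj0 hjp)).1).mp hsp)

end key

end Fermat.Agent.S13.Div
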