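import Mathlib

/-!
# T13 / DP: values of division polynomials at a point, the `E`-relation and the abstract
statement of the pointwise theorem DP2.
-/

set_option autoImplicit false

namespace Fermat.Agent.S13.Div

open WeierstrassCurve Polynomial

/-- The value of the `n`-th division polynomial `ψₙ` at `(x, y)`. -/
noncomputable def sq {F : Type*} [CommRing F] (W : WeierstrassCurve F) (x y : F) (n : ℤ) : F :=
  normEDS (2 * y + W.a₁ * x + W.a₃) ((W.Ψ₃).eval x) ((W.preΨ₄).eval x) n

/-- The elliptic-sequence relation with third index `1`. -/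
def ERel {R : Type*} [CommRing R] (s : ℤ → R) (m n : ℤ) : Prop :=
  s (m + n) * s (m - n) = s (m + 1) * s (m - 1) * s n ^ 2 - s (n + 1) * s (n - 1) * s m ^ 2

/-- The pointwise theorem DP2 (for all fields in a fixed universe): below the order of the
point the values of the division polynomials are non-zero, satisfy the `E`-relations, and the
first vanishing happens exactly at the order. -/
def DP2Statement.{u} : Prop :=
  ∀ (F : Type u) [Field F] [DecidableEq F] (W : WeierstrassCurve F) (x y : F)
    (h : W.toAffine.Nonsingular x y) (N : ℕ),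
    (∀ j : ℕ, 0 < j → j < N → j • (Affine.Point.some x y h) ≠ 0) →
      ((sq W x y N = 0 ↔ N • (Affine.Point.some x y h) = 0) ∧
        ∀ m n : ℕ, 0 < n → n < m → m + n ≤ N → ERel (sq W x y) m n)

section basic

variable {F : Type*} [CommRing F] (W : WeierstrassCurve F) (x y : F)

@[simp] lemma sq_zero : sq W x y 0 = 0 := normEDS_zero ..
@[simp] lemma sq_one : sq W x y 1 = 1 := normEDS_one ..
@[simp] lemma sq_two : sq W x y 2 = 2 * y + W.a₁ * x + W.a₃ := normEDS_two ..
@[simp] lemma sq_three : sq W x y 3 = (W.Ψ₃).eval x := normEDS_three ..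
lemma sq_four : sq W x y 4 = (W.preΨ₄).eval x * (2 * y + W.a₁ * x + W.a₃) := normEDS_four ..
@[simp] lemma sq_neg (n : ℤ) : sq W x y (-n) = -sq W x y n := normEDS_neg ..

/-- `sq` is the value of Mathlib's bivariate division polynomial `ψₙ`. -/
lemma sq_eq_evalEval (n : ℤ) : sq W x y n = (W.ψ n).evalEval x y := by
  have := map_normEDS (evalEvalRingHom x y) W.ψ₂ (C W.Ψ₃) (C W.preΨ₄) n
  rw [WeierstrassCurve.ψ, ← coe_evalEvalRingHom, this, sq]
  congr 1
  · simp [ψ₂, Affine.polynomialY]; ring
  · simp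
  · simp

/-- On the curve, for odd `n`, `sq` is the value of the univariate `preΨₙ`. -/
lemma sq_odd_eq (h : W.toAffine.Equation x y) {n : ℤ} (hn : Odd n) :
    sq W x y n = (W.preΨ n).eval x := by
  have hn' : ¬ Even n := Int.not_even_iff_odd.mpr hn
  rw [sq, normEDS, if_neg hn', mul_one, WeierstrassCurve.preΨ,
    ← coe_evalRingHom, map_preNormEDS]
  congr 1
  rw [Affine.equation_iff] at h
  simp only [coe_evalRingHom, eval_pow, Ψ₂Sq, b₂, b₄, b₆]
  simp only [eval_add, eval_mul, eval_C, eval_pow, eval_X]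
  linear_combination (4 * (2 * y + W.a₁ * x + W.a₃) ^ 2 + 4 * (4 * x ^ 3 + (W.a₁ ^ 2 + 4 * W.a₂) * x ^ 2 + 2 * (2 * W.a₄ + W.a₁ * W.a₃) * x + (W.a₃ ^ 2 + 4 * W.a₆))) * h

end basic

end Fermat.Agent.S13.Div
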