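import Fermat.Agent.S13.DivDefs

/-!
# T13 / DP3: the `E`-relations hold at every point of the curve (generic point argument)

From the pointwise theorem DP2 (as a hypothesis `DP2Statement`) applied to the generic point
`(X, Y)` of the curve over its function field we obtain the relations `ERel` for the division
polynomials `ψₙ` in the coordinate ring, hence at every point of the curve.
-/

set_option autoImplicit false

namespace Fermat.Agent.S13.Div

open WeierstrassCurve Polynomial
open scoped Polynomial.Bivariate

universe u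

variable {K : Type u} [Field K] (W : WeierstrassCurve K)

/-- The ring hom `K[X][Y] → K(E)`. -/
noncomputable def genHom : K[X][Y] →+* W.toAffine.FunctionField :=
  (algebraMap W.toAffine.CoordinateRing W.toAffine.FunctionField).comp
    (Affine.CoordinateRing.mk W)

/-- The constants `K → K(E)`. -/
noncomputable def genConst : K →+* W.toAffine.FunctionField :=
  (genHom W).comp ((C : K[X] →+* K[X][Y]).comp (C : K →+* K[X]))

/-- The generic `x`-coordinate. -/
noncomputable def genX : W.toAffine.FunctionField := genHom W (C X)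

/-- The generic `y`-coordinate. -/
noncomputable def genY : W.toAffine.FunctionField := genHom W Y

/-- The curve over its function field. -/
noncomputable def genCurve : WeierstrassCurve W.toAffine.FunctionField := W.map (genConst W)

lemma genHom_eq :
    genHom W = (evalEvalRingHom (genX W) (genY W)).comp
      (mapRingHom (mapRingHom (genConst W))) := by
  refine Polynomial.ringHom_ext' (Polynomial.ringHom_ext' ?_ ?_) ?_
  · ext a
    simp [genConst]
  · simp [genX]
  · simp [genY]

lemma genHom_apply (p : K[X][Y]) :
    genHom W p = (p.map (mapRingHom (genConst W))).evalEval (genX W) (genY W) := by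
  conv_lhs => rw [genHom_eq]
  rfl

lemma genConst_injective : Function.Injective (genConst W) := (genConst W).injective

lemma genHom_polynomial : genHom W W.toAffine.polynomial = 0 := by
  rw [genHom, RingHom.comp_apply, AdjoinRoot.mk_self, map_zero]

lemma gen_equation : (genCurve W).toAffine.Equation (genX W) (genY W) := by
  rw [Affine.Equation, genCurve, Affine.map_polynomial, ← genHom_apply, genHom_polynomial]

lemma gen_nonsingular (hΔ : W.Δ ≠ 0) : (genCurve W).toAffine.Nonsingular (genX W) (genY W) := by
  have hΔ' : (genCurve W).Δ ≠ 0 := by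
    rw [genCurve, WeierstrassCurve.map_Δ]
    exact (map_ne_zero_iff _ (genConst_injective W)).mpr hΔ
  exact ((genCurve W).toAffine.equation_iff_nonsingular_of_Δ_ne_zero hΔ').mp (gen_equation W)

lemma sq_gen (n : ℤ) : sq (genCurve W) (genX W) (genY W) n = genHom W (W.ψ n) := by
  rw [sq_eq_evalEval, genCurve, WeierstrassCurve.map_ψ, ← genHom_apply]

section CharZero

variable [CharZero K]

lemma mk_C_ne_zero {p : K[X]} (hp : p ≠ 0) : Affine.CoordinateRing.mk W (C p) ≠ 0 := by
  intro h
  have h1 : p • (1 : W.toAffine.CoordinateRing) + (0 : K[X]) • Affine.CoordinateRing.mk W Y = 0 := by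
    rw [Affine.CoordinateRing.smul, mul_one, h, zero_smul, add_zero]
  exact hp (Affine.CoordinateRing.smul_basis_eq_zero h1).1

lemma mk_ψ₂_ne_zero : Affine.CoordinateRing.mk W W.ψ₂ ≠ 0 := by
  intro h
  have h1 : (C W.a₁ * X + C W.a₃ : K[X]) • (1 : W.toAffine.CoordinateRing)
      + (C 2 : K[X]) • Affine.CoordinateRing.mk W Y = 0 := by
    rw [← h, Affine.CoordinateRing.smul, Affine.CoordinateRing.smul, mul_one, ← map_mul,
      ← map_add, ψ₂, Affine.polynomialY]
    congr 1
    simp only [map_ofNat]
    ring
  have h2 := (Affine.CoordinateRing.smul_basis_eq_zero h1).2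
  have : (2 : K) = 0 := by
    have := congrArg (Polynomial.coeff · 0) h2
    simp at this
  exact two_ne_zero this

lemma mk_ψ_ne_zero {n : ℤ} (hn : n ≠ 0) : Affine.CoordinateRing.mk W (W.ψ n) ≠ 0 := by
  rw [Affine.CoordinateRing.mk_ψ, WeierstrassCurve.Ψ, map_mul]
  have hn' : ((n : ℤ) : K) ≠ 0 := Int.cast_ne_zero.mpr hn
  refine mul_ne_zero (mk_C_ne_zero W (W.preΨ_ne_zero hn')) ?_
  split_ifs
  · exact mk_ψ₂_ne_zero W
  · rw [map_one]; exact one_ne_zero

lemma genHom_ψ_ne_zero {n : ℤ} (hn : n ≠ 0) : genHom W (W.ψ n) ≠ 0 := by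
  rw [genHom, RingHom.comp_apply]
  exact (map_ne_zero_iff _ (IsFractionRing.injective W.toAffine.CoordinateRing
    W.toAffine.FunctionField)).mpr (mk_ψ_ne_zero W hn)

variable [DecidableEq K]

open Classical in
/-- The generic point has infinite order. -/
lemma gen_nsmul_ne_zero (hDP2 : DP2Statement.{u}) (hΔ : W.Δ ≠ 0) (N : ℕ) (hN : 0 < N) :
    N • (Affine.Point.some _ _ (gen_nonsingular W hΔ)) ≠ 0 := by
  induction N using Nat.strong_induction_on with
  | _ N ih =>
  have h := (hDP2 W.toAffine.FunctionField (genCurve W) (genX W) (genY W)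
    (gen_nonsingular W hΔ) N (fun j hj0 hjN => ih j hjN hj0)).1
  intro h0
  have h1 := h.mpr h0
  rw [sq_gen] at h1
  exact genHom_ψ_ne_zero W (by exact_mod_cast hN.ne') h1

open Classical in
/-- The `E`-relations in the coordinate ring. -/
theorem coordinateRing_ERel (hDP2 : DP2Statement.{u}) (hΔ : W.Δ ≠ 0) (m n : ℕ) (hn : 0 < n)
    (hnm : n < m) :
    ERel (fun k => Affine.CoordinateRing.mk W (W.ψ k)) m n := by
  have h := (hDP2 W.toAffine.FunctionField (genCurve W) (genX W) (genY W)
    (gen_nonsingular W hΔ) (m + n)
    (fun j hj0 _ => gen_nsmul_ne_zero W hDP2 hΔ j hj0)).2 m n hn hnm le_rfl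
  have hinj := IsFractionRing.injective W.toAffine.CoordinateRing W.toAffine.FunctionField
  simp only [ERel, sq_gen, genHom, RingHom.comp_apply] at h ⊢
  apply hinj
  simpa only [map_mul, map_sub, map_pow] using h

/-- **DP3**: the `E`-relations hold at every point of the curve (natural indices `0 < n < m`). -/
theorem ERel_sq_nat (hDP2 : DP2Statement.{u}) (hΔ : W.Δ ≠ 0) {x y : K}
    (hxy : W.toAffine.Equation x y) (m n : ℕ) (hn : 0 < n) (hnm : n < m) :
    ERel (sq W x y) m n := by
  have h := coordinateRing_ERel W hDP2 hΔ m n hn hnm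
  have hxy' : (W.toAffine.polynomial).evalEval x y = 0 := hxy
  have hev : ∀ p : K[X][Y], (AdjoinRoot.evalEval hxy') (Affine.CoordinateRing.mk W p) =
      p.evalEval x y := fun p => AdjoinRoot.evalEval_mk hxy' p
  have h' := congrArg (AdjoinRoot.evalEval hxy') h
  simp only [map_mul, map_sub, map_pow, hev] at h'
  simp only [ERel, sq_eq_evalEval]
  exact h'

end CharZero

end Fermat.Agent.S13.Div
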