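import Mathlib

/-!
Abstract elliptic-sequence algebra: for a sequence `s : ℤ → F` (`F` a field) satisfying Ward's
relation, with first zero at `m ≥ 2` and `s (m+1) ≠ 0`, one has `s n = 0 ↔ m ∣ n`.
-/

set_option autoImplicit false

namespace Fermat.Agent.S13.EDSRank

variable {F : Type*} [Field F]

/-- Ward's relation (with `s 1` not necessarily normalised). -/
def Ward (s : ℤ → F) : Prop :=
  ∀ a b : ℤ, s (a + b) * s (a - b) = s (a + 1) * s (a - 1) * s b ^ 2 - s (b + 1) * s (b - 1) * s a ^ 2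

section

variable {s : ℤ → F} (hW : Ward s) {m : ℕ} (hm0 : s m = 0)
  (hmin : ∀ k : ℕ, 0 < k → k < m → s k ≠ 0) (hm1 : s (m + 1) * s (m - 1) ≠ 0)

include hW hm0 in
lemma shift_mul (n : ℤ) : s (m + n) * s (m - n) = s (m + 1) * s (m - 1) * s n ^ 2 := by
  have := hW m n
  rw [hm0] at this
  rw [this]; ring

include hW hm0 hmin hm1 in
lemma block (k : ℕ) : s ((k * m : ℕ) : ℤ) = 0 ∧ ∀ r : ℕ, 0 < r → r < m → s ((k * m + r : ℕ) : ℤ) ≠ 0 := by
  induction k with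
  | zero =>
    refine ⟨?_, fun r hr hrm => ?_⟩
    · simp only [zero_mul, Nat.cast_zero]
      have h0 := hW 0 0
      simp only [add_zero, sub_self, zero_add, zero_sub] at h0
      exact mul_self_eq_zero.mp h0
    · simpa using hmin r hr hrm
  | succ k ih =>
    obtain ⟨ih0, ihr⟩ := ih
    have hk1 : s (((k + 1) * m : ℕ) : ℤ) = 0 := by
      have h := hW (((k + 1) * m : ℕ) : ℤ) (m : ℤ)
      have e1 : (((k + 1) * m : ℕ) : ℤ) - (m : ℤ) = ((k * m : ℕ) : ℤ) := by push_cast; ring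
      rw [e1, ih0, hm0] at h
      simp only [mul_zero, ne_eq, OfNat.ofNat_ne_zero, not_false_eq_true, zero_pow] at h
      have h2 : s ((m : ℤ) + 1) * s ((m : ℤ) - 1) * s (((k + 1) * m : ℕ) : ℤ) ^ 2 = 0 := by
        linear_combination h
      rcases mul_eq_zero.mp h2 with h3 | h3
      · exact absurd h3 hm1
      · exact pow_eq_zero_iff (two_ne_zero) |>.mp h3
    refine ⟨hk1, fun r hr hrm => ?_⟩
    have h := shift_mul hW hm0 (((k * m + r : ℕ)) : ℤ)
    have e1 : (m : ℤ) + ((k * m + r : ℕ) : ℤ) = (((k + 1) * m + r : ℕ) : ℤ) := by push_cast; ring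
    rw [e1] at h
    intro h0
    rw [h0, zero_mul] at h
    have := ihr r hr hrm
    exact (mul_ne_zero hm1 (pow_ne_zero 2 this)) h.symm

end

/-- **Rank of apparition**: the zeros of an odd Ward sequence are the multiples of the first one. -/
theorem zero_iff_dvd {s : ℤ → F} (hodd : ∀ n, s (-n) = -s n) (hW : Ward s) {m : ℕ} (hm : 0 < m)
    (hm0 : s m = 0) (hmin : ∀ k : ℕ, 0 < k → k < m → s k ≠ 0)
    (hm1 : s (m + 1) * s (m - 1) ≠ 0) (n : ℤ) : s n = 0 ↔ (m : ℤ) ∣ n := by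
  have key : ∀ n : ℕ, s (n : ℤ) = 0 ↔ m ∣ n := by
    intro n
    obtain ⟨hb0, hbr⟩ := block hW hm0 hmin hm1 (n / m)
    have hdm := Nat.div_add_mod' n m
    rcases Nat.eq_zero_or_pos (n % m) with h0 | hpos
    · have : n = n / m * m := by omega
      constructor
      · intro _; exact Nat.dvd_of_mod_eq_zero h0
      · intro _; rw [this]; exact hb0
    · have hlt : n % m < m := Nat.mod_lt _ hm
      have hne := hbr (n % m) hpos hlt
      rw [hdm] at hne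
      constructor
      · intro h; exact absurd h hne
      · intro h; have := Nat.mod_eq_zero_of_dvd h; omega
  rcases Int.natAbs_eq n with h | h
  · rw [h, key, Int.natCast_dvd_natCast]
  · rw [h, hodd, neg_eq_zero, key, dvd_neg, Int.natCast_dvd_natCast]



/-- For `m ≥ 4` the non-degeneracy `s (m+1) ≠ 0` is automatic. -/
theorem succ_ne_zero_of_four_le {s : ℤ → F} (hW : Ward s) {m : ℕ} (hm : 4 ≤ m)
    (hm0 : s m = 0) (hmin : ∀ k : ℕ, 0 < k → k < m → s k ≠ 0) : s ((m : ℤ) + 1) ≠ 0 := by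
  have h := hW ((m : ℤ) - 1) 2
  have e1 : (m : ℤ) - 1 + 2 = (m : ℤ) + 1 := by ring
  have e2 : (m : ℤ) - 1 - 2 = ((m - 3 : ℕ) : ℤ) := by omega
  have e3 : (m : ℤ) - 1 + 1 = (m : ℤ) := by ring
  have e4 : (m : ℤ) - 1 - 1 = ((m - 2 : ℕ) : ℤ) := by omega
  have e5 : (m : ℤ) - 1 = ((m - 1 : ℕ) : ℤ) := by omega
  have e6 : (2 : ℤ) + 1 = ((3 : ℕ) : ℤ) := by norm_num
  have e7 : (2 : ℤ) - 1 = ((1 : ℕ) : ℤ) := by norm_num
  rw [e1, e2, e3, e4, hm0, e6, e7, e5] at h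
  have h3 := hmin 3 (by omega) (by omega)
  have h1 := hmin 1 (by omega) (by omega)
  have hm1 := hmin (m - 1) (by omega) (by omega)
  intro h0
  rw [h0] at h
  have : s ((3 : ℕ) : ℤ) * s ((1 : ℕ) : ℤ) * s ((m - 1 : ℕ) : ℤ) ^ 2 = 0 := by
    linear_combination h
  exact (mul_ne_zero (mul_ne_zero h3 h1) (pow_ne_zero 2 hm1)) this

/-- Packaged form: first zero at `m ≥ 4`. -/
theorem zero_iff_dvd_of_four_le {s : ℤ → F} (hodd : ∀ n, s (-n) = -s n) (hW : Ward s) {m : ℕ}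
    (hm : 4 ≤ m) (hm0 : s m = 0) (hmin : ∀ k : ℕ, 0 < k → k < m → s k ≠ 0) (n : ℤ) :
    s n = 0 ↔ (m : ℤ) ∣ n := by
  refine zero_iff_dvd hodd hW (by omega) hm0 hmin ?_ n
  refine mul_ne_zero (succ_ne_zero_of_four_le hW hm hm0 hmin) ?_
  have e5 : (m : ℤ) - 1 = ((m - 1 : ℕ) : ℤ) := by omega
  rw [e5]
  exact hmin (m - 1) (by omega) (by omega)

/-- Packaged form: first zero at `m ≥ 2`, with `s (m+1) ≠ 0` given. -/
theorem zero_iff_dvd_of_two_le {s : ℤ → F} (hodd : ∀ n, s (-n) = -s n) (hW : Ward s) {m : ℕ}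
    (hm : 2 ≤ m) (hm0 : s m = 0) (hmin : ∀ k : ℕ, 0 < k → k < m → s k ≠ 0)
    (hm1 : s ((m : ℤ) + 1) ≠ 0) (n : ℤ) :
    s n = 0 ↔ (m : ℤ) ∣ n := by
  refine zero_iff_dvd hodd hW (by omega) hm0 hmin ?_ n
  refine mul_ne_zero hm1 ?_
  have e5 : (m : ℤ) - 1 = ((m - 1 : ℕ) : ℤ) := by omega
  rw [e5]
  exact hmin (m - 1) (by omega) (by omega)

end Fermat.Agent.S13.EDSRank
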