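import Fermat.Agent.S13.NodeGen
import Mathlib.FieldTheory.IsAlgClosed.Basic

/-!
# `NodeGen` in valuation-subring (membership) language

Adapter for the consumers (L2, LP) that speak `x ∈ A`, `x ∈ A.nonunits`:
for `A : ValuationSubring K` and a curve `y² + a₁xy = x³ + a₂x² + a₄x` with `a₁, a₂ ∈ A`,
`a₄ ∈ A.nonunits`, `a₄ ≠ 0`, `b₂` a unit of `A`:

* `E0 A W P := P = 0 ∨ x(P) ∉ A.nonunits` is closed under `+`, `-`, `n •`;
* an odd-order torsion point with `x ∈ A.nonunits` has `x ≠ 0` and `a₄ / x ∈ A.nonunits`;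
* two points with `x ∈ 𝔪`, `a₄/x ∈ 𝔪`, `x₁/x₂` a unit and `y₁/x₁ - y₂/x₂ ∈ 𝔪` differ by an
  element of `E0`.
-/

set_option autoImplicit false
set_option linter.unusedSectionVars false

namespace Fermat.Agent.S13.NodeGenSubring

open WeierstrassCurve WeierstrassCurve.Affine Fermat.Agent.S13.NodeGen

variable {K : Type*} [Field K]

/-- Hypotheses on the model in membership language. -/
structure SubringModel (A : ValuationSubring K) (W : WeierstrassCurve K) : Prop where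
  a₃ : W.a₃ = 0
  a₆ : W.a₆ = 0
  a₁_mem : W.a₁ ∈ A
  a₂_mem : W.a₂ ∈ A
  a₄_ne : W.a₄ ≠ 0
  a₄_mem : W.a₄ ∈ A.nonunits
  b₂_mem : W.b₂ ∈ A
  b₂_unit : W.b₂ ∉ A.nonunits

variable {A : ValuationSubring K} {W : WeierstrassCurve K}

theorem SubringModel.gmodel (S : SubringModel A W) {α : K}
    (hα : α ^ 2 + W.a₁ * α - W.a₂ = 0) : GModel A.valuation W α where
  shape := ⟨S.a₃, S.a₆⟩
  va₁ := (A.valuation_le_one_iff _).mpr S.a₁_mem
  va₂ := (A.valuation_le_one_iff _).mpr S.a₂_mem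
  b_ne := S.a₄_ne
  vb := A.mem_nonunits_iff.mp S.a₄_mem
  hα := hα
  vδ := by
    have hb : (2 * α + W.a₁) ^ 2 = W.b₂ := by
      rw [WeierstrassCurve.b₂]; linear_combination 4 * hα
    have h1 : A.valuation W.b₂ = 1 := by
      apply le_antisymm ((A.valuation_le_one_iff _).mpr S.b₂_mem)
      by_contra h
      rw [not_le] at h
      exact S.b₂_unit (A.mem_nonunits_iff.mpr h)
    have : A.valuation (2 * α + W.a₁) ^ 2 = 1 := by rw [← map_pow, hb, h1]
    exact sq_eq_one.mp this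

/-- A root of `T² + a₁T - a₂` exists over an algebraically closed field. -/
theorem exists_root [IsAlgClosed K] (W : WeierstrassCurve K) :
    ∃ α : K, α ^ 2 + W.a₁ * α - W.a₂ = 0 := by
  obtain ⟨α, hα⟩ := IsAlgClosed.exists_root
    (Polynomial.X ^ 2 + Polynomial.C W.a₁ * Polynomial.X - Polynomial.C W.a₂ : Polynomial K) (by
      have : (Polynomial.X ^ 2 + Polynomial.C W.a₁ * Polynomial.X - Polynomial.C W.a₂ :
          Polynomial K).degree = 2 := by
        compute_degree!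
      rw [this]; norm_num)
  refine ⟨α, ?_⟩
  simpa using hα

variable [DecidableEq K]

/-- `E₀` in membership language: `P = 0` or `x(P) ∉ 𝔪_A`. -/
def E0 (A : ValuationSubring K) (W : WeierstrassCurve K) (P : W.toAffine.Point) : Prop :=
  P = 0 ∨ ∃ (x y : K) (h : W.toAffine.Nonsingular x y), P = Point.some x y h ∧ x ∉ A.nonunits

theorem E0_iff_inE0 (P : W.toAffine.Point) : E0 A W P ↔ InE0 A.valuation W P := by
  unfold E0 InE0
  constructor
  · rintro (h | ⟨x, y, h, rfl, hx⟩)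
    · exact Or.inl h
    · refine Or.inr ⟨x, y, h, rfl, ?_⟩
      rw [A.mem_nonunits_iff, not_lt] at hx
      exact hx
  · rintro (h | ⟨x, y, h, rfl, hx⟩)
    · exact Or.inl h
    · refine Or.inr ⟨x, y, h, rfl, ?_⟩
      rw [A.mem_nonunits_iff, not_lt]
      exact hx

theorem E0_zero : E0 A W (0 : W.toAffine.Point) := Or.inl rfl

theorem E0_some {x y : K} (h : W.toAffine.Nonsingular x y) :
    E0 A W (Point.some x y h) ↔ x ∉ A.nonunits := by
  rw [E0_iff_inE0, inE0_some, ValuationSubring.mem_nonunits_iff, not_lt]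

section Root

variable (S : SubringModel A W) {α : K} (hα : α ^ 2 + W.a₁ * α - W.a₂ = 0)
include S hα

theorem E0_add_of_root {P Q : W.toAffine.Point} (hP : E0 A W P) (hQ : E0 A W Q) :
    E0 A W (P + Q) := by
  rw [E0_iff_inE0] at *
  exact inE0_add (S.gmodel hα) hP hQ

theorem E0_neg_of_root {P : W.toAffine.Point} (hP : E0 A W P) : E0 A W (-P) := by
  rw [E0_iff_inE0] at *
  exact inE0_neg (S.gmodel hα) hP

theorem E0_sub_of_root {P Q : W.toAffine.Point} (hP : E0 A W P) (hQ : E0 A W Q) :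
    E0 A W (P - Q) := by
  rw [E0_iff_inE0] at *
  exact inE0_sub (S.gmodel hα) hP hQ

theorem E0_nsmul_of_root {P : W.toAffine.Point} (hP : E0 A W P) (n : ℕ) : E0 A W (n • P) := by
  rw [E0_iff_inE0] at *
  exact inE0_nsmul (S.gmodel hα) hP n

theorem torsion_mem_of_root {n : ℕ} (hn : Odd n) {x y : K} (h : W.toAffine.Nonsingular x y)
    (hP : n • Point.some x y h = 0) (hx : x ∈ A.nonunits) :
    x ≠ 0 ∧ W.a₄ / x ∈ A.nonunits := by
  have hx' := A.mem_nonunits_iff.mp hx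
  obtain ⟨hlt, -⟩ := torsion_val (S.gmodel hα) hn h hP hx'
  have hx0 : x ≠ 0 := by
    rintro rfl; rw [map_zero] at hlt; exact not_lt_zero hlt
  refine ⟨hx0, ?_⟩
  rw [A.mem_nonunits_iff, map_div₀,
    div_lt_one₀ (zero_lt_iff.mpr ((Valuation.ne_zero_iff _).mpr hx0))]
  exact hlt

theorem same_branch_of_root {x₁ y₁ x₂ y₂ : K}
    (h₁ : W.toAffine.Nonsingular x₁ y₁) (h₂ : W.toAffine.Nonsingular x₂ y₂)
    (hx₁ : x₁ ∈ A.nonunits) (hx₁0 : x₁ ≠ 0) (hb₁ : W.a₄ / x₁ ∈ A.nonunits)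
    (hv : A.valuation x₁ = A.valuation x₂)
    (ht : y₁ / x₁ - y₂ / x₂ ∈ A.nonunits) :
    E0 A W (Point.some x₁ y₁ h₁ - Point.some x₂ y₂ h₂) := by
  rw [E0_iff_inE0]
  apply inE0_sub_of_same_branch (S.gmodel hα) h₁ h₂
    (A.mem_nonunits_iff.mp hx₁) _ hv (A.mem_nonunits_iff.mp ht)
  have := A.mem_nonunits_iff.mp hb₁
  rwa [map_div₀, div_lt_one₀ (zero_lt_iff.mpr ((Valuation.ne_zero_iff _).mpr hx₁0))] at this

end Root

section AlgClosed

variable [IsAlgClosed K] (S : SubringModel A W)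
include S

/-- `E₀` is closed under addition. -/
theorem E0_add {P Q : W.toAffine.Point} (hP : E0 A W P) (hQ : E0 A W Q) : E0 A W (P + Q) := by
  obtain ⟨α, hα⟩ := exists_root W
  exact E0_add_of_root S hα hP hQ

theorem E0_neg {P : W.toAffine.Point} (hP : E0 A W P) : E0 A W (-P) := by
  obtain ⟨α, hα⟩ := exists_root W
  exact E0_neg_of_root S hα hP

theorem E0_sub {P Q : W.toAffine.Point} (hP : E0 A W P) (hQ : E0 A W Q) : E0 A W (P - Q) := by
  obtain ⟨α, hα⟩ := exists_root W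
  exact E0_sub_of_root S hα hP hQ

theorem E0_nsmul {P : W.toAffine.Point} (hP : E0 A W P) (n : ℕ) : E0 A W (n • P) := by
  obtain ⟨α, hα⟩ := exists_root W
  exact E0_nsmul_of_root S hα hP n

/-- Odd torsion avoids the far components: `n` odd, `n • (x, y) = 0`, `x ∈ 𝔪` ⟹ `x ≠ 0` and
`a₄ / x ∈ 𝔪`. -/
theorem torsion_mem {n : ℕ} (hn : Odd n) {x y : K} (h : W.toAffine.Nonsingular x y)
    (hP : n • Point.some x y h = 0) (hx : x ∈ A.nonunits) :
    x ≠ 0 ∧ W.a₄ / x ∈ A.nonunits := by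
  obtain ⟨α, hα⟩ := exists_root W
  exact torsion_mem_of_root S hα hn h hP hx

/-- Same-branch lemma in membership language. -/
theorem same_branch {x₁ y₁ x₂ y₂ : K}
    (h₁ : W.toAffine.Nonsingular x₁ y₁) (h₂ : W.toAffine.Nonsingular x₂ y₂)
    (hx₁ : x₁ ∈ A.nonunits) (hx₁0 : x₁ ≠ 0) (hb₁ : W.a₄ / x₁ ∈ A.nonunits)
    (hv : A.valuation x₁ = A.valuation x₂)
    (ht : y₁ / x₁ - y₂ / x₂ ∈ A.nonunits) :
    E0 A W (Point.some x₁ y₁ h₁ - Point.some x₂ y₂ h₂) := by
  obtain ⟨α, hα⟩ := exists_root W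
  exact same_branch_of_root S hα h₁ h₂ hx₁ hx₁0 hb₁ hv ht

end AlgClosed

end Fermat.Agent.S13.NodeGenSubring
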