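import Fermat.Statements.S13

import Fermat.Agent.S13.DP.Basic

/-!
# T13 skeleton: EXACT interface statements (sorry bodies; NOT to be landed)
-/

set_option autoImplicit false
open WeierstrassCurve WeierstrassCurve.Affine WeierstrassCurve.Affine.Point
open FreyPackage Polynomial

namespace Fermat.Agent.S13

abbrev Qb : Type := AlgebraicClosure ℚ
abbrev GQ : Type := Qb ≃ₐ[ℚ] Qb
/-- the `p`-torsion module of the Frey curve. -/
abbrev VV (P : FreyPackage) : Type := Submodule.torsionBy ℤ (P.freyCurve⁄Qb).Point P.p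

/-! ## DP (division polynomials), general curve over an algebraically closed field of char 0 -/
namespace DPmain
variable {K : Type*} [Field K] [DecidableEq K] [CharZero K] [IsAlgClosed K]
  (W : WeierstrassCurve K) (hΔ : W.Δ ≠ 0) {p : ℕ} (hp : p.Prime) (hp2 : p ≠ 2)

theorem preΨ_eval_eq_zero {Q : W.toAffine.Point} (hQ : Q ≠ 0) (hpQ : p • Q = 0) :
    (W.preΨ p).eval (DP.xc Q) = 0 := sorry

theorem exists_ne_zero_nsmul_eq_zero : ∃ Q : W.toAffine.Point, Q ≠ 0 ∧ p • Q = 0 := sorry

theorem finite_torsion : Finite {Q : W.toAffine.Point // p • Q = 0} := sorry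

theorem card_torsion_le : Nat.card {Q : W.toAffine.Point // p • Q = 0} ≤ p ^ 2 := sorry

theorem preΨ_eq_prod (hcard : Nat.card {Q : W.toAffine.Point // p • Q = 0} = p ^ 2) :
    ∃ S : Finset K, (∀ x, x ∈ S ↔ ∃ Q : W.toAffine.Point, Q ≠ 0 ∧ p • Q = 0 ∧ DP.xc Q = x) ∧
      W.preΨ p = C (p : K) * ∏ x ∈ S, (X - C x) := sorry
end DPmain

/-! ## GL (global) -/
theorem Global.eq_top_of_inertia_le (H : Subgroup GQ) (hn : H.Normal) (hopen : IsOpen (H : Set GQ))
    (hI : ∀ l : ℕ, l.Prime → ∃ A : ValuationSubring Qb, A.LiesOverPrime l ∧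
      A.inertiaSubgroupIn ℚ ≤ H) : H = ⊤ := sorry

/-! ## Frey-level interfaces -/
variable (P : FreyPackage)

/-- DPF: consequences of DP for the Frey curve -/
theorem frey_nontrivial : Nontrivial (VV P) := sorry
theorem frey_finite : Finite (VV P) := sorry
theorem frey_card_le : Nat.card (VV P) ≤ P.p ^ 2 := sorry

/-- L2a: inertia at 2 acts unipotently -/
theorem frey_unipotent_at_two (A : ValuationSubring Qb) (hA : A.LiesOverPrime 2)
    (σ : GQ) (hσ : σ ∈ A.inertiaSubgroupIn ℚ) (x : VV P) :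
    σ • (σ • x - x) = σ • x - x := sorry

/-- L2b: no Galois-fixed point of order p -/
theorem frey_no_fixed_point (x : VV P) (hx : ∀ σ : GQ, σ • x = x) : x = 0 := sorry

/-- LP: at p, for some (in fact every) valuation subring over p, every stable line is either
pointwise inertia-fixed or inertia-cofixed. -/
theorem frey_at_p (hcard : Nat.card (VV P) = P.p ^ 2) :
    ∃ A : ValuationSubring Qb, A.LiesOverPrime P.p ∧
      ∀ N : Submodule (ZMod P.p) (VV P), IsGaloisStable ℚ N → N ≠ ⊥ → N ≠ ⊤ →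
        (∀ σ ∈ A.inertiaSubgroupIn ℚ, ∀ x ∈ N, σ • x = x) ∨
        (∀ σ ∈ A.inertiaSubgroupIn ℚ, ∀ x : VV P, σ • x - x ∈ N) := sorry

/-- AS: assembly -/
theorem assembly (hred : ¬ GaloisRepIsIrreducible (K := AlgebraicClosure ℚ) ℚ P.freyCurve P.p) :
    HasGaloisStableCofixedLine (K := AlgebraicClosure ℚ) ℚ P.freyCurve P.p := sorry

end Fermat.Agent.S13
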